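import Fermat.Agent.Corollaries.SiegelL.ClassGe

/-!
# Uchida's theorem

There are only finitely many imaginary abelian number fields, of any degree, with class number at
most `H` (K. Uchida 1971). Proof: `h ≥ ∏ f_χ^(1/2) |L(1, χ)| / (2 π)` over the odd characters, every
factor is at least `b f_χ^(1/4)` by Siegel's theorem, and the number of characters with conductor at
most `Q` is bounded by `Q!`. So both the number and the conductors of the odd characters are
bounded; they generate the group of all characters.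
-/

set_option autoImplicit false

namespace Fermat.Agent.Cor.SiegelL

open Complex NumberField NumberField.InfinitePlace NumberField.Units
open Fermat.Agent.Cor.Abel
open DirichletCharacter (changeLevel)

universe u

/-! ### Conductors -/

section conductors

variable {n : ℕ} [NeZero n]

lemma conductor_mul_le (χ ψ : DirichletCharacter ℂ n) :
    (χ * ψ).conductor ≤ χ.conductor * ψ.conductor := by
  have hm : Nat.lcm χ.conductor ψ.conductor ∣ n :=
    Nat.lcm_dvd χ.conductor_dvd_level ψ.conductor_dvd_level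
  have h1 : (χ * ψ).FactorsThrough (Nat.lcm χ.conductor ψ.conductor) := by
    refine ⟨hm, changeLevel (Nat.dvd_lcm_left _ _) χ.primitiveCharacter *
      changeLevel (Nat.dvd_lcm_right _ _) ψ.primitiveCharacter, ?_⟩
    rw [map_mul, ← DirichletCharacter.changeLevel_trans, ← DirichletCharacter.changeLevel_trans,
      χ.changeLevel_primitiveCharacter, ψ.changeLevel_primitiveCharacter]
  have h2 : (χ * ψ).conductor ≤ Nat.lcm χ.conductor ψ.conductor :=
    Nat.sInf_le ((DirichletCharacter.mem_conductorSet_iff _).mpr h1)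
  refine h2.trans (Nat.le_of_dvd ?_ (Nat.lcm_dvd_mul _ _))
  exact Nat.mul_pos (Nat.pos_of_ne_zero χ.conductor_ne_zero)
    (Nat.pos_of_ne_zero ψ.conductor_ne_zero)

/-- At most `Q!` characters of a given level have conductor at most `Q`. -/
lemma card_le_factorial (Q : ℕ) (S : Finset (DirichletCharacter ℂ n))
    (hS : ∀ χ ∈ S, χ.conductor ≤ Q) : S.card ≤ Q.factorial := by
  classical
  set g : ℕ := Nat.gcd n Q.factorial with hg
  have hg0 : g ≠ 0 := Nat.gcd_ne_zero_left (NeZero.ne n)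
  have : NeZero g := ⟨hg0⟩
  have hgn : g ∣ n := Nat.gcd_dvd_left _ _
  have : Fintype (DirichletCharacter ℂ g) := Fintype.ofFinite _
  have h1 : S ⊆ (Finset.univ : Finset (DirichletCharacter ℂ g)).image (changeLevel hgn) := by
    intro χ hχ
    have h2 : χ.conductor ∣ Q.factorial :=
      Nat.dvd_factorial (Nat.pos_of_ne_zero χ.conductor_ne_zero) (hS χ hχ)
    have h3 : χ.conductor ∣ g := Nat.dvd_gcd χ.conductor_dvd_level h2
    rw [Finset.mem_image]
    refine ⟨changeLevel h3 χ.primitiveCharacter, Finset.mem_univ _, ?_⟩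
    rw [← DirichletCharacter.changeLevel_trans, χ.changeLevel_primitiveCharacter]
  calc S.card ≤ ((Finset.univ : Finset (DirichletCharacter ℂ g)).image (changeLevel hgn)).card :=
        Finset.card_le_card h1
    _ ≤ (Finset.univ : Finset (DirichletCharacter ℂ g)).card := Finset.card_image_le
    _ = Nat.card (DirichletCharacter ℂ g) := by rw [Finset.card_univ, Nat.card_eq_fintype_card]
    _ = g.totient := DirichletCharacter.card_eq_totient_of_hasEnoughRootsOfUnity ℂ g
    _ ≤ g := Nat.totient_le g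
    _ ≤ Q.factorial := Nat.le_of_dvd (Nat.factorial_pos Q) (Nat.gcd_dvd_right _ _)

end conductors

/-- Bounded product, bounded number and conductors. -/
theorem exists_bound (H : ℕ) : ∃ B : ℕ, ∀ (n : ℕ) [NeZero n]
    (O : Finset (DirichletCharacter ℂ n)), (∀ χ ∈ O, χ ≠ 1) → ∏ χ ∈ O, fac χ ≤ H →
    O.card ≤ B ∧ ∀ χ ∈ O, χ.conductor ≤ B := by
  classical
  obtain ⟨c, hc, hlow⟩ := norm_lower (ε := 1 / 4) (by norm_num)
  have hπ : (0 : ℝ) < 2 * Real.pi := by
    have := Real.pi_pos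
    positivity
  set b : ℝ := min (c / (2 * Real.pi)) 1 with hb
  have hb0 : 0 < b := lt_min (by positivity) one_pos
  have hb1 : b ≤ 1 := min_le_right _ _
  -- every factor is at least `b f^(1/4)`
  have hfac : ∀ (n : ℕ) [NeZero n] (χ : DirichletCharacter ℂ n), χ ≠ 1 →
      b * (χ.conductor : ℝ) ^ (1 / 4 : ℝ) ≤ fac χ := by
    intro n _ χ hχ
    have hf : (1 : ℝ) ≤ χ.conductor := by
      exact_mod_cast Nat.one_le_iff_ne_zero.mpr χ.conductor_ne_zero
    have hf0 : (0 : ℝ) < χ.conductor := by linarith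
    have h1 := hlow _ _ χ.primitiveCharacter_isPrimitive (primitive_ne_one hχ)
    have e1 : (χ.conductor : ℝ) ^ (1 / 4 : ℝ) =
        (χ.conductor : ℝ) ^ (1 / 2 : ℝ) * (χ.conductor : ℝ) ^ (-(1 / 4) : ℝ) := by
      rw [← Real.rpow_add hf0]
      norm_num
    calc b * (χ.conductor : ℝ) ^ (1 / 4 : ℝ)
        ≤ c / (2 * Real.pi) * (χ.conductor : ℝ) ^ (1 / 4 : ℝ) :=
          mul_le_mul_of_nonneg_right (min_le_left _ _) (by positivity)
      _ = (χ.conductor : ℝ) ^ (1 / 2 : ℝ) * (c * (χ.conductor : ℝ) ^ (-(1 / 4) : ℝ)) /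
          (2 * Real.pi) := by rw [e1]; ring
      _ ≤ fac χ := by
          rw [fac]
          gcongr
  set Q : ℕ := ⌈(2 / b) ^ 4⌉₊ with hQ
  have hQ4 : ∀ k : ℕ, Q < k → 2 ≤ b * (k : ℝ) ^ (1 / 4 : ℝ) := by
    intro k hk
    have h1 : (2 / b) ^ 4 ≤ (k : ℝ) := by
      have h2 : (2 / b) ^ 4 ≤ (Q : ℝ) := Nat.le_ceil _
      have h3 : (Q : ℝ) ≤ k := by exact_mod_cast hk.le
      linarith
    have h2 : 2 / b ≤ (k : ℝ) ^ (1 / 4 : ℝ) := by
      have h3 : ((2 / b) ^ 4) ^ (1 / 4 : ℝ) ≤ (k : ℝ) ^ (1 / 4 : ℝ) :=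
        Real.rpow_le_rpow (by positivity) h1 (by norm_num)
      have h4 : ((2 / b) ^ 4) ^ (1 / 4 : ℝ) = 2 / b := by
        rw [← Real.rpow_natCast, ← Real.rpow_mul (by positivity)]
        norm_num
      rwa [h4] at h3
    rw [div_le_iff₀ hb0] at h2
    linarith
  set X : ℝ := H / b ^ Q.factorial with hX
  set B : ℕ := max (Q.factorial + ⌈X⌉₊) (max Q ⌈(X / b) ^ 4⌉₊) with hB
  refine ⟨B, fun n _ O hO hprod => ?_⟩
  set O₁ := O.filter fun χ => χ.conductor ≤ Q with hO₁
  set O₂ := O.filter fun χ => ¬ χ.conductor ≤ Q with hO₂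
  have hcard1 : O₁.card ≤ Q.factorial :=
    card_le_factorial Q O₁ fun χ hχ => (Finset.mem_filter.mp hχ).2
  have hge1 : ∀ χ ∈ O₁, b ≤ fac χ := by
    intro χ hχ
    have hf : (1 : ℝ) ≤ χ.conductor := by
      exact_mod_cast Nat.one_le_iff_ne_zero.mpr χ.conductor_ne_zero
    have h1 : (1 : ℝ) ≤ (χ.conductor : ℝ) ^ (1 / 4 : ℝ) := Real.one_le_rpow hf (by norm_num)
    calc b = b * 1 := (mul_one b).symm
      _ ≤ b * (χ.conductor : ℝ) ^ (1 / 4 : ℝ) := mul_le_mul_of_nonneg_left h1 hb0.le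
      _ ≤ fac χ := hfac n χ (hO χ (Finset.mem_filter.mp hχ).1)
  have hge2 : ∀ χ ∈ O₂, 2 ≤ fac χ := by
    intro χ hχ
    have h1 := Finset.mem_filter.mp hχ
    exact (hQ4 χ.conductor (not_le.mp h1.2)).trans (hfac n χ (hO χ h1.1))
  have hsplit : ∏ χ ∈ O, fac χ = (∏ χ ∈ O₁, fac χ) * ∏ χ ∈ O₂, fac χ :=
    (Finset.prod_filter_mul_prod_filter_not O _ _).symm
  have hp1 : b ^ Q.factorial ≤ ∏ χ ∈ O₁, fac χ := by
    calc b ^ Q.factorial ≤ b ^ O₁.card := pow_le_pow_of_le_one hb0.le hb1 hcard1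
      _ = ∏ _χ ∈ O₁, b := by rw [Finset.prod_const]
      _ ≤ ∏ χ ∈ O₁, fac χ := Finset.prod_le_prod (fun _ _ => hb0.le) hge1
  have hp2 : ∏ χ ∈ O₂, fac χ ≤ X := by
    have h2 : 0 ≤ ∏ χ ∈ O₂, fac χ :=
      Finset.prod_nonneg fun χ hχ => le_trans (by norm_num) (hge2 χ hχ)
    rw [hX, le_div_iff₀ (by positivity)]
    calc (∏ χ ∈ O₂, fac χ) * b ^ Q.factorial ≤ (∏ χ ∈ O₂, fac χ) * ∏ χ ∈ O₁, fac χ :=
          mul_le_mul_of_nonneg_left hp1 h2
      _ = ∏ χ ∈ O, fac χ := by rw [hsplit, mul_comm]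
      _ ≤ H := hprod
  have hcard2 : O₂.card ≤ ⌈X⌉₊ := by
    have h1 : (2 : ℝ) ^ O₂.card ≤ X := by
      calc (2 : ℝ) ^ O₂.card = ∏ _χ ∈ O₂, (2 : ℝ) := by rw [Finset.prod_const]
        _ ≤ ∏ χ ∈ O₂, fac χ := Finset.prod_le_prod (fun _ _ => by norm_num) hge2
        _ ≤ X := hp2
    have h2 : (O₂.card : ℝ) ≤ 2 ^ O₂.card := by exact_mod_cast Nat.lt_two_pow_self.le
    have h3 : (O₂.card : ℝ) ≤ ⌈X⌉₊ := h2.trans (h1.trans (Nat.le_ceil X))
    exact_mod_cast h3
  have hcond2 : ∀ χ ∈ O₂, χ.conductor ≤ ⌈(X / b) ^ 4⌉₊ := by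
    intro χ hχ
    have h1 : fac χ ≤ ∏ ψ ∈ O₂, fac ψ := by
      rw [← Finset.mul_prod_erase _ _ hχ]
      have h2 : (1 : ℝ) ≤ ∏ ψ ∈ O₂.erase χ, fac ψ := by
        calc (1 : ℝ) = ∏ _ψ ∈ O₂.erase χ, (1 : ℝ) := by rw [Finset.prod_const_one]
          _ ≤ _ := Finset.prod_le_prod (fun _ _ => zero_le_one)
            fun ψ hψ => le_trans (by norm_num) (hge2 ψ (Finset.mem_of_mem_erase hψ))
      have h3 : 0 ≤ fac χ := le_trans (by norm_num) (hge2 χ hχ)
      nlinarith
    have h2 : b * (χ.conductor : ℝ) ^ (1 / 4 : ℝ) ≤ X :=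
      (hfac n χ (hO χ (Finset.mem_filter.mp hχ).1)).trans (h1.trans hp2)
    have h3 : (χ.conductor : ℝ) ^ (1 / 4 : ℝ) ≤ X / b := by
      rw [le_div_iff₀ hb0]
      linarith
    have h4 : ((χ.conductor : ℝ) ^ (1 / 4 : ℝ)) ^ 4 ≤ (X / b) ^ 4 :=
      pow_le_pow_left₀ (by positivity) h3 4
    have h5 : ((χ.conductor : ℝ) ^ (1 / 4 : ℝ)) ^ 4 = χ.conductor := by
      rw [← Real.rpow_natCast, ← Real.rpow_mul (Nat.cast_nonneg _)]
      norm_num
    rw [h5] at h4
    have h6 : (χ.conductor : ℝ) ≤ ⌈(X / b) ^ 4⌉₊ := h4.trans (Nat.le_ceil _)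
    exact_mod_cast h6
  constructor
  · have h1 : O.card = O₁.card + O₂.card := (Finset.card_filter_add_card_filter_not _).symm
    have h2 : Q.factorial + ⌈X⌉₊ ≤ B := le_max_left _ _
    omega
  · intro χ hχ
    by_cases h : χ.conductor ≤ Q
    · exact h.trans ((le_max_left _ _).trans (le_max_right _ _))
    · exact (hcond2 χ (Finset.mem_filter.mpr ⟨hχ, h⟩)).trans
        ((le_max_right _ _).trans (le_max_right _ _))

/-- The discriminant and the degree of an imaginary abelian field are bounded in terms of its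
relative class number `h(K) / h(K⁺)`. -/
theorem uchida_discr_bound (H : ℕ) : ∃ B : ℕ, ∀ (K : Type u) [Field K] [NumberField K]
    [IsAbelianGalois ℚ K] [IsTotallyComplex K],
    classNumber K ≤ H * classNumber (maximalRealSubfield K) →
    (discr K).natAbs ≤ B ∧ Module.finrank ℚ K ≤ B := by
  classical
  obtain ⟨B, hB⟩ := exists_bound H
  refine ⟨max ((B * B) ^ (2 * B)) (2 * B), fun K _ _ _ _ hK => ?_⟩
  have hprod : ∏ χ ∈ oddChars K, fac χ ≤ H := by
    have h1 : (0 : ℝ) < classNumber (maximalRealSubfield K) := by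
      exact_mod_cast classNumber_pos (maximalRealSubfield K)
    have h2 : (classNumber K : ℝ) ≤ H * classNumber (maximalRealSubfield K) := by
      exact_mod_cast hK
    exact le_of_mul_le_mul_right ((prod_fac_mul_le_classNumber K).trans h2) h1
  obtain ⟨hcard, hcond⟩ := hB (level K) (oddChars K) (fun χ hχ => ne_one_of_mem_oddChars K hχ)
    hprod
  rw [card_oddChars] at hcard
  have hr : nrRealPlaces K = 0 := IsTotallyComplex.nrRealPlaces_eq_zero K
  have hrank := card_add_two_mul_card_eq_rank K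
  have hn : Module.finrank ℚ K ≤ 2 * B := by omega
  have hm : 0 < nrComplexPlaces K := by
    have h2 := card_eq_nrRealPlaces_add_nrComplexPlaces K
    have h3 : 0 < Fintype.card (InfinitePlace K) := Fintype.card_pos
    omega
  obtain ⟨χ₀, hχ₀⟩ : (oddChars K).Nonempty := by
    rw [← Finset.card_pos, card_oddChars]
    exact hm
  have hχ₀' := Finset.mem_filter.mp hχ₀
  have hB1 : 1 ≤ B := le_trans (Nat.one_le_iff_ne_zero.mpr χ₀.conductor_ne_zero) (hcond χ₀ hχ₀)
  -- all conductors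
  have hall : ∀ χ ∈ dirChars K, χ.conductor ≤ B * B := by
    intro χ hχ
    by_cases he : χ.Even
    · -- `χ = (χ χ₀) χ₀⁻¹`
      have hodd0 : ¬ (χ₀⁻¹).Even := by
        intro h
        apply hχ₀'.2
        rw [DirichletCharacter.Even] at h ⊢
        rw [MulChar.inv_apply_eq_inv', inv_eq_one] at h
        exact h
      have hodd1 : ¬ (χ * χ₀).Even := by
        intro h
        apply hχ₀'.2
        rw [DirichletCharacter.Even] at h he ⊢
        rwa [MulChar.mul_apply, he, one_mul] at h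
      have h0 : χ₀⁻¹ ∈ oddChars K :=
        Finset.mem_filter.mpr ⟨inv_mem_dirChars hχ₀'.1, hodd0⟩
      have h1 : χ * χ₀ ∈ oddChars K :=
        Finset.mem_filter.mpr ⟨mul_mem_dirChars hχ hχ₀'.1, hodd1⟩
      have h2 : χ = (χ * χ₀) * χ₀⁻¹ := by rw [mul_assoc, mul_inv_cancel, mul_one]
      calc χ.conductor = ((χ * χ₀) * χ₀⁻¹).conductor := by rw [← h2]
        _ ≤ (χ * χ₀).conductor * (χ₀⁻¹).conductor := conductor_mul_le _ _
        _ ≤ B * B := Nat.mul_le_mul (hcond _ h1) (hcond _ h0)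
    · have h1 : χ ∈ oddChars K := Finset.mem_filter.mpr ⟨hχ, he⟩
      exact (hcond χ h1).trans (Nat.le_mul_of_pos_left B hB1)
  refine ⟨?_, hn.trans (le_max_right _ _)⟩
  calc (discr K).natAbs = ∏ χ ∈ dirChars K, χ.conductor := natAbs_discr_eq_prod K
    _ ≤ ∏ _χ ∈ dirChars K, (B * B) := Finset.prod_le_prod' hall
    _ = (B * B) ^ Module.finrank ℚ K := by rw [Finset.prod_const, card_dirChars]
    _ ≤ (B * B) ^ (2 * B) := Nat.pow_le_pow_right (Nat.mul_pos hB1 hB1) hn
    _ ≤ _ := le_max_left _ _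

/-- The trivial bound `h(K) ≤ H h(K⁺)` if `h(K) ≤ H`. -/
lemma le_mul_classNumber {h H : ℕ} (F : Type u) [Field F] [NumberField F] (hh : h ≤ H) :
    h ≤ H * classNumber F :=
  hh.trans (Nat.le_mul_of_pos_right H (classNumber_pos F))

/-- **Uchida's theorem for the relative class number**: a field of characteristic zero contains
only finitely many imaginary abelian number fields `K`, of any degree, with
`h(K) ≤ H h(K⁺)`, where `K⁺` is the maximal real subfield of `K`. -/
theorem uchida_relative (A : Type u) [Field A] [CharZero A] (H : ℕ) :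
    {K : {F : IntermediateField ℚ A // FiniteDimensional ℚ F} |
      haveI : NumberField K := @NumberField.mk _ _ inferInstance K.prop
      IsAbelianGalois ℚ K ∧ IsTotallyComplex K ∧
        classNumber K ≤ H * classNumber (maximalRealSubfield K)}.Finite := by
  obtain ⟨B, hB⟩ := uchida_discr_bound.{u} H
  refine (finite_of_discr_bdd A B).subset ?_
  rintro K ⟨hK, hc, hH⟩
  have : NumberField K := @NumberField.mk _ _ inferInstance K.prop
  have h1 := (hB K hH).1
  change |discr K| ≤ (B : ℤ)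
  rw [Int.abs_eq_natAbs]
  exact_mod_cast h1

/-- **Uchida's theorem** (1971): a field of characteristic zero contains only finitely many
imaginary abelian number fields, of any degree, with class number at most `H`. -/
theorem uchida (A : Type u) [Field A] [CharZero A] (H : ℕ) :
    {K : {F : IntermediateField ℚ A // FiniteDimensional ℚ F} |
      haveI : NumberField K := @NumberField.mk _ _ inferInstance K.prop
      IsAbelianGalois ℚ K ∧ IsTotallyComplex K ∧ classNumber K ≤ H}.Finite := by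
  refine (uchida_relative A H).subset ?_
  rintro K ⟨hK, hc, hH⟩
  have : NumberField K := @NumberField.mk _ _ inferInstance K.prop
  exact ⟨hK, hc, le_mul_classNumber (maximalRealSubfield K) hH⟩

/-- Only finitely many cyclotomic fields `ℚ(ζ_n)` have class number at most `H`, even
relative class number at most `H`. -/
theorem finite_cyclotomic (H : ℕ) :
    {n : ℕ | 2 < n ∧ ∃ (K : Type u) (_ : Field K) (_ : NumberField K),
      IsCyclotomicExtension {n} ℚ K ∧
      classNumber K ≤ H * classNumber (maximalRealSubfield K)}.Finite := by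
  obtain ⟨B, hB⟩ := uchida_discr_bound.{u} H
  refine (Set.finite_Iic ((2 * B + 1) ^ 2)).subset ?_
  rintro n ⟨hn, K, _, _, hcyc, h⟩
  have hn0 : NeZero n := ⟨by omega⟩
  have : IsAbelianGalois ℚ K := IsCyclotomicExtension.isAbelianGalois {n} ℚ _
  have : IsTotallyComplex K := IsCyclotomicExtension.Rat.isTotallyComplex _ hn
  have h1 := (hB K h).2
  rw [IsCyclotomicExtension.finrank (n := n) K
    (Polynomial.cyclotomic.irreducible_rat (by omega))] at h1
  exact (le_totient_sq n).trans (Nat.pow_le_pow_left (by omega) 2)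

end Fermat.Agent.Cor.SiegelL
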