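import Fermat.Agent.Corollaries.SiegelL.PNT

/-!
# Primes in arithmetic progressions to large moduli

For all `B` and `η > 0` there is a `C` such that for all `q`, all `a` prime to `q` and all `x ≥ 2`
`|∑_{n ≤ x, n ≡ a mod q} Λ(n) - x/φ(q)| ≤ C q^η x (log x)^(-B)` (`psi_progression_le`); hence the
classical form of the Siegel-Walfisz theorem (`siegel_walfisz_progression`): for all `A`, `B` there
is a `C` such that for `x ≥ 2`, `q ≤ (log x)^A`, `(a, q) = 1`:
`|ψ(x; q, a) - x/φ(q)| ≤ C x (log x)^(-B)`.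
-/

set_option autoImplicit false

namespace Fermat.Agent.Cor.SiegelL

open Complex Set
open scoped Nat

section sums

variable {q : ℕ} [NeZero q]

/-- `ψ(x; q, a) = ∑_{n ≤ x, n ≡ a mod q} Λ(n)`. -/
noncomputable def psiProg (a : ZMod q) (x : ℝ) : ℝ :=
  ∑ n ∈ (Finset.Icc 1 ⌊x⌋₊).filter (fun n : ℕ => (n : ZMod q) = a),
    ArithmeticFunction.vonMangoldt n

/-- `ψ(x, χ) = ∑_{n ≤ x} χ(n) Λ(n)`. -/
noncomputable def psiChar (χ : DirichletCharacter ℂ q) (x : ℝ) : ℂ :=
  ∑ n ∈ Finset.Icc 1 ⌊x⌋₊, χ n * ((ArithmeticFunction.vonMangoldt n : ℝ) : ℂ)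

lemma totient_mul_psiProg {a : ZMod q} (ha : IsUnit a) (x : ℝ) :
    (q.totient : ℂ) * ((psiProg a x : ℝ) : ℂ) =
      ∑ χ : DirichletCharacter ℂ q, χ a⁻¹ * psiChar χ x := by
  have h1 : ∀ n : ℕ, ∑ χ : DirichletCharacter ℂ q, χ a⁻¹ *
      (χ n * ((ArithmeticFunction.vonMangoldt n : ℝ) : ℂ)) =
      if (n : ZMod q) = a then
        (q.totient : ℂ) * ((ArithmeticFunction.vonMangoldt n : ℝ) : ℂ) else 0 := by
    intro n
    have h2 := DirichletCharacter.sum_char_inv_mul_char_eq ℂ ha (n : ZMod q)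
    simp_rw [← mul_assoc]
    rw [← Finset.sum_mul, h2]
    by_cases h : (n : ZMod q) = a
    · rw [if_pos h.symm, if_pos h]
    · rw [if_neg (fun h' => h h'.symm), if_neg h, zero_mul]
  simp only [psiChar, Finset.mul_sum]
  rw [Finset.sum_comm]
  simp_rw [h1]
  rw [← Finset.sum_filter, psiProg]
  push_cast
  rw [Finset.mul_sum]

omit [NeZero q] in
lemma norm_char_inv_le (χ : DirichletCharacter ℂ q) (a : ZMod q) : ‖χ a⁻¹‖ ≤ 1 := χ.norm_le_one _

/-- The deviation of `φ(q) ψ(x; q, a)` from the sum for the trivial character. -/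
lemma norm_totient_mul_sub_le {a : ZMod q} (ha : IsUnit a) {x M : ℝ} (hM : 0 ≤ M)
    (h : ∀ χ : DirichletCharacter ℂ q, χ ≠ 1 → ‖psiChar χ x‖ ≤ M) :
    ‖(q.totient : ℂ) * ((psiProg a x : ℝ) : ℂ) - psiChar (1 : DirichletCharacter ℂ q) x‖ ≤
      q.totient * M := by
  have hinv : IsUnit a⁻¹ := by
    have := ha.unit⁻¹.isUnit
    rwa [← ZMod.inv_coe_unit, IsUnit.unit_spec] at this
  rw [totient_mul_psiProg ha, ← Finset.add_sum_erase _ _ (Finset.mem_univ 1),
    MulChar.one_apply hinv, one_mul, add_sub_cancel_left]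
  calc ‖∑ χ ∈ Finset.univ.erase (1 : DirichletCharacter ℂ q), χ a⁻¹ * psiChar χ x‖
      ≤ ∑ χ ∈ Finset.univ.erase (1 : DirichletCharacter ℂ q), M := by
        refine (norm_sum_le _ _).trans (Finset.sum_le_sum fun χ hχ => ?_)
        rw [norm_mul]
        calc ‖χ a⁻¹‖ * ‖psiChar χ x‖ ≤ 1 * M :=
              mul_le_mul (norm_char_inv_le χ a) (h χ (Finset.ne_of_mem_erase hχ)) (norm_nonneg _)
                zero_le_one
          _ = M := one_mul M
    _ ≤ q.totient * M := by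
        rw [Finset.sum_const, nsmul_eq_mul]
        refine mul_le_mul_of_nonneg_right ?_ hM
        have h1 := Finset.card_erase_le (s := (Finset.univ : Finset (DirichletCharacter ℂ q)))
          (a := 1)
        have h2 : (Finset.univ : Finset (DirichletCharacter ℂ q)).card = q.totient := by
          rw [Finset.card_univ, ← Nat.card_eq_fintype_card,
            DirichletCharacter.card_eq_totient_of_hasEnoughRootsOfUnity]
        rw [h2] at h1
        exact_mod_cast h1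

/-- The sum over the `n ≤ N` not prime to `q`. -/
lemma sum_not_coprime_le {N : ℕ} (hN : N ≠ 0) :
    ∑ n ∈ (Finset.Icc 1 N).filter (fun n : ℕ => ¬ n.Coprime q),
      ArithmeticFunction.vonMangoldt n ≤ 2 * Real.log N * Real.log q := by
  have hq0 : q ≠ 0 := NeZero.ne q
  have hq1 : (1 : ℝ) ≤ q := by exact_mod_cast Nat.one_le_iff_ne_zero.mpr hq0
  set K : ℕ := Nat.log 2 N with hK
  have h1 : ∑ n ∈ (Finset.Icc 1 N).filter (fun n : ℕ => ¬ n.Coprime q),
      ArithmeticFunction.vonMangoldt n ≤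
      ∑ n ∈ (q ^ K).divisors, ArithmeticFunction.vonMangoldt n := by
    rw [← Finset.sum_filter_ne_zero]
    refine Finset.sum_le_sum_of_subset_of_nonneg ?_
      fun n _ _ => ArithmeticFunction.vonMangoldt_nonneg
    intro n hn
    obtain ⟨hn1, hn2⟩ := Finset.mem_filter.mp hn
    obtain ⟨hn3, hn4⟩ := Finset.mem_filter.mp hn1
    have hpp : IsPrimePow n := ArithmeticFunction.vonMangoldt_ne_zero_iff.mp hn2
    obtain ⟨p, k, hp, hk, rfl⟩ := hpp
    have hp' : p.Prime := hp.nat_prime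
    have hpq : p ∣ q := by
      by_contra hcon
      exact hn4 (Nat.Coprime.pow_left k (hp'.coprime_iff_not_dvd.mpr hcon))
    have hkK : k ≤ K := by
      have h2 : 2 ^ k ≤ N :=
        (Nat.pow_le_pow_left hp'.two_le k).trans (Finset.mem_Icc.mp hn3).2
      exact Nat.le_log_of_pow_le (by norm_num) h2
    rw [Nat.mem_divisors]
    exact ⟨(pow_dvd_pow_of_dvd hpq k).trans (pow_dvd_pow q hkK), pow_ne_zero _ hq0⟩
  rw [ArithmeticFunction.vonMangoldt_sum] at h1
  refine h1.trans ?_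
  push_cast
  rw [Real.log_pow]
  have h2 : (K : ℝ) ≤ 2 * Real.log N := by
    have h3 : (2 : ℝ) ^ K ≤ N := by exact_mod_cast Nat.pow_log_le_self 2 hN
    have h4 := Real.log_le_log (by positivity) h3
    rw [Real.log_pow] at h4
    have h5 : (1 : ℝ) / 2 ≤ Real.log 2 := by
      have := Real.log_two_gt_d9
      linarith
    have h6 : (K : ℝ) * (1 / 2) ≤ K * Real.log 2 := mul_le_mul_of_nonneg_left h5 (Nat.cast_nonneg _)
    linarith
  exact mul_le_mul_of_nonneg_right h2 (Real.log_nonneg hq1)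

omit [NeZero q] in
lemma psiChar_one (x : ℝ) : psiChar (1 : DirichletCharacter ℂ q) x =
    (((∑ n ∈ Finset.Icc 1 ⌊x⌋₊, ArithmeticFunction.vonMangoldt n) -
      ∑ n ∈ (Finset.Icc 1 ⌊x⌋₊).filter (fun n : ℕ => ¬ n.Coprime q),
        ArithmeticFunction.vonMangoldt n : ℝ) : ℂ) := by
  have h1 : ∀ n : ℕ, (1 : DirichletCharacter ℂ q) n *
      ((ArithmeticFunction.vonMangoldt n : ℝ) : ℂ) =
      ((ArithmeticFunction.vonMangoldt n - (if ¬ n.Coprime q then
        ArithmeticFunction.vonMangoldt n else 0) : ℝ) : ℂ) := by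
    intro n
    by_cases h : n.Coprime q
    · rw [MulChar.one_apply ((ZMod.isUnit_iff_coprime n q).mpr h), one_mul,
        if_neg (not_not.mpr h), sub_zero]
    · rw [MulChar.map_nonunit _ (fun h' => h ((ZMod.isUnit_iff_coprime n q).mp h')), zero_mul,
        if_pos h, sub_self, Complex.ofReal_zero]
  rw [psiChar]
  simp_rw [h1]
  rw [← Complex.ofReal_sum, Finset.sum_sub_distrib, Finset.sum_filter]

end sums

/-- **Primes in arithmetic progressions, uniformly in the modulus**: for all `B` and all `η > 0`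
there is a `C` such that `|∑_{n ≤ x, n ≡ a mod q} Λ(n) - x/φ(q)| ≤ C q^η x (log x)^(-B)` for all
`q`, all `a` prime to `q` and all `x ≥ 2`. -/
theorem psi_progression_le (B : ℕ) {η : ℝ} (hη : 0 < η) : ∃ C : ℝ, 0 < C ∧
    ∀ (q : ℕ) [NeZero q] (a : ZMod q), IsUnit a → ∀ x : ℝ, 2 ≤ x →
      |(∑ n ∈ (Finset.Icc 1 ⌊x⌋₊).filter (fun n : ℕ => (n : ZMod q) = a),
        ArithmeticFunction.vonMangoldt n) - x / q.totient| ≤
        C * (q : ℝ) ^ η * x / Real.log x ^ B := by
  obtain ⟨C₁, hC₁, h₁⟩ := siegel_walfisz B hη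
  obtain ⟨C₂, hC₂, h₂⟩ := psi_sub_le B
  refine ⟨C₁ + C₂ + 2 / η * ((B + 1)! : ℝ), by positivity, fun q _ a ha x hx => ?_⟩
  have hq1 : (1 : ℝ) ≤ q := by exact_mod_cast Nat.one_le_iff_ne_zero.mpr (NeZero.ne q)
  have hqη : 1 ≤ (q : ℝ) ^ η := Real.one_le_rpow hq1 hη.le
  have hx0 : 0 < x := by linarith
  have hlx0 : 0 < Real.log x := Real.log_pos (by linarith)
  have hφ : (1 : ℝ) ≤ q.totient := by
    exact_mod_cast Nat.totient_pos.mpr (Nat.pos_of_ne_zero (NeZero.ne q))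
  have hφ0 : (0 : ℝ) < q.totient := by linarith
  set Y : ℝ := x / Real.log x ^ B with hY
  have hY0 : 0 < Y := by positivity
  have hN2 : 2 ≤ ⌊x⌋₊ := Nat.le_floor (by exact_mod_cast hx)
  -- the three parts
  have p1 := norm_totient_mul_sub_le (q := q) ha (x := x) (M := C₁ * (q : ℝ) ^ η * Y)
    (by positivity) (fun χ hχ => by
      have := h₁ q χ hχ x hx
      rw [psiChar]
      refine this.trans_eq ?_
      rw [hY]
      ring)
  have p2 := h₂ x hx
  have p3 := sum_not_coprime_le (q := q) (N := ⌊x⌋₊) (by omega)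
  have p3' : 2 * Real.log ⌊x⌋₊ * Real.log q ≤ 2 / η * ((B + 1)! : ℝ) * (q : ℝ) ^ η * Y := by
    have i1 : Real.log ⌊x⌋₊ ≤ Real.log x :=
      Real.log_le_log (by exact_mod_cast (by omega : 0 < ⌊x⌋₊)) (Nat.floor_le hx0.le)
    have i2 : Real.log q ≤ (q : ℝ) ^ η / η := Real.log_le_rpow_div (by linarith) hη
    have i3 : Real.log x ≤ ((B + 1)! : ℝ) * Y := by
      have i4 := one_le_div_log_pow (by linarith : 1 < x) (B + 1)
      have i5 : ((B + 1)! : ℝ) * x / Real.log x ^ (B + 1) * Real.log x = ((B + 1)! : ℝ) * Y := by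
        rw [hY]
        field_simp
        ring
      rw [← i5]
      exact le_mul_of_one_le_left hlx0.le i4
    have i6 : 0 ≤ Real.log q := Real.log_nonneg hq1
    calc 2 * Real.log ⌊x⌋₊ * Real.log q ≤ 2 * (((B + 1)! : ℝ) * Y) * ((q : ℝ) ^ η / η) := by
          have := i1.trans i3
          gcongr
      _ = _ := by ring
  have p3'' : 0 ≤ ∑ n ∈ (Finset.Icc 1 ⌊x⌋₊).filter (fun n : ℕ => ¬ n.Coprime q),
      ArithmeticFunction.vonMangoldt n :=
    Finset.sum_nonneg fun n _ => ArithmeticFunction.vonMangoldt_nonneg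
  rw [psiChar_one] at p1
  set S₀ : ℝ := ∑ n ∈ Finset.Icc 1 ⌊x⌋₊, ArithmeticFunction.vonMangoldt n with hS₀
  set S₁ : ℝ := ∑ n ∈ (Finset.Icc 1 ⌊x⌋₊).filter (fun n : ℕ => ¬ n.Coprime q),
      ArithmeticFunction.vonMangoldt n with hS₁
  have hcast : (q.totient : ℂ) * ((psiProg a x : ℝ) : ℂ) - ((S₀ - S₁ : ℝ) : ℂ) =
      ((q.totient * psiProg a x - (S₀ - S₁) : ℝ) : ℂ) := by
    push_cast
    ring
  rw [hcast, Complex.norm_real, Real.norm_eq_abs] at p1
  have hdef : ∑ n ∈ (Finset.Icc 1 ⌊x⌋₊).filter (fun n : ℕ => (n : ZMod q) = a),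
      ArithmeticFunction.vonMangoldt n = psiProg a x := rfl
  rw [hdef]
  have p2' : |S₀ - x| ≤ C₂ * (q : ℝ) ^ η * Y := by
    refine p2.trans ?_
    calc C₂ * x / Real.log x ^ B = C₂ * 1 * Y := by rw [hY]; ring
      _ ≤ _ := by gcongr
  have htot : |q.totient * psiProg a x - x| ≤
      q.totient * ((C₁ + C₂ + 2 / η * ((B + 1)! : ℝ)) * (q : ℝ) ^ η * Y) := by
    have e1 : (q.totient : ℝ) * psiProg a x - x =
        (q.totient * psiProg a x - (S₀ - S₁)) + ((S₀ - x) - S₁) := by ring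
    have e2 : |(S₀ - x) - S₁| ≤ C₂ * (q : ℝ) ^ η * Y +
        2 / η * ((B + 1)! : ℝ) * (q : ℝ) ^ η * Y := by
      refine (abs_sub _ _).trans (add_le_add p2' ?_)
      rw [abs_of_nonneg p3'']
      exact p3.trans p3'
    rw [e1]
    refine (abs_add_le _ _).trans ((add_le_add p1 e2).trans ?_)
    have e3 : 0 ≤ C₂ * (q : ℝ) ^ η * Y + 2 / η * ((B + 1)! : ℝ) * (q : ℝ) ^ η * Y := by positivity
    calc q.totient * (C₁ * (q : ℝ) ^ η * Y) +
          (C₂ * (q : ℝ) ^ η * Y + 2 / η * ((B + 1)! : ℝ) * (q : ℝ) ^ η * Y)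
        ≤ q.totient * (C₁ * (q : ℝ) ^ η * Y) + q.totient *
          (C₂ * (q : ℝ) ^ η * Y + 2 / η * ((B + 1)! : ℝ) * (q : ℝ) ^ η * Y) := by
          have := le_mul_of_one_le_left e3 hφ
          linarith
      _ = _ := by ring
  have e4 : psiProg a x - x / q.totient = (q.totient * psiProg a x - x) / q.totient := by
    field_simp
  rw [e4, abs_div, abs_of_pos hφ0, div_le_iff₀ hφ0]
  refine htot.trans_eq ?_
  rw [hY]
  ring

/-- **The Siegel-Walfisz theorem for arithmetic progressions**: for all `A`, `B` there is a `C`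
such that `|∑_{n ≤ x, n ≡ a mod q} Λ(n) - x/φ(q)| ≤ C x (log x)^(-B)` for all `x ≥ 2`, all
`q ≤ (log x)^A` and all `a` prime to `q`. -/
theorem siegel_walfisz_progression (A B : ℕ) : ∃ C : ℝ, 0 < C ∧ ∀ x : ℝ, 2 ≤ x →
    ∀ (q : ℕ) [NeZero q], (q : ℝ) ≤ Real.log x ^ A → ∀ a : ZMod q, IsUnit a →
      |(∑ n ∈ (Finset.Icc 1 ⌊x⌋₊).filter (fun n : ℕ => (n : ZMod q) = a),
        ArithmeticFunction.vonMangoldt n) - x / q.totient| ≤ C * x / Real.log x ^ B := by
  have hA : (0 : ℝ) < (A : ℝ) + 1 := by positivity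
  obtain ⟨C, hC, h⟩ := psi_progression_le (B + 1) (η := 1 / ((A : ℝ) + 1)) (by positivity)
  refine ⟨2 * C, by positivity, fun x hx q _ hq a ha => (h q a ha x hx).trans ?_⟩
  have hx0 : 0 < x := by linarith
  have hlx0 : 0 < Real.log x := Real.log_pos (by linarith)
  have hl2 : 1 ≤ 2 * Real.log x := by
    have h1 := Real.log_two_gt_d9
    have h2 : Real.log 2 ≤ Real.log x := Real.log_le_log (by norm_num) hx
    linarith
  have hq2 : (q : ℝ) ≤ (2 * Real.log x) ^ (A + 1) := by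
    calc (q : ℝ) ≤ Real.log x ^ A := hq
      _ ≤ (2 * Real.log x) ^ A := by
          gcongr
          linarith
      _ ≤ (2 * Real.log x) ^ (A + 1) := pow_le_pow_right₀ hl2 (Nat.le_succ A)
  have hqη : (q : ℝ) ^ (1 / ((A : ℝ) + 1)) ≤ 2 * Real.log x := by
    calc (q : ℝ) ^ (1 / ((A : ℝ) + 1)) ≤ ((2 * Real.log x) ^ (A + 1)) ^ (1 / ((A : ℝ) + 1)) :=
          Real.rpow_le_rpow (Nat.cast_nonneg q) hq2 (by positivity)
      _ = 2 * Real.log x := by
          rw [← Real.rpow_natCast, ← Real.rpow_mul (by positivity)]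
          push_cast
          rw [mul_one_div, div_self hA.ne', Real.rpow_one]
  rw [div_le_div_iff₀ (by positivity) (by positivity)]
  calc C * (q : ℝ) ^ (1 / ((A : ℝ) + 1)) * x * Real.log x ^ B
      ≤ C * (2 * Real.log x) * x * Real.log x ^ B := by gcongr
    _ = 2 * C * x * Real.log x ^ (B + 1) := by ring

end Fermat.Agent.Cor.SiegelL
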