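import Fermat.Agent.Corollaries.SiegelL.Perron

/-!
# The Siegel-Walfisz theorem

For all `B` and all `η > 0` there is a `C` such that for all `q`, all Dirichlet characters `χ ≠ 1`
modulo `q` and all `x ≥ 2`: `|∑_{n ≤ x} χ(n) Λ(n)| ≤ C q^η x (log x)^(-B)` (`siegel_walfisz`);
so `O(x (log x)^(-B))` uniformly for `q ≤ (log x)^A`. The constant is not effective (Siegel's
theorem).
-/

set_option autoImplicit false

namespace Fermat.Agent.Cor.SiegelL

open Complex Set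

/-! ### From the smoothed sum to the sum -/

lemma tsum_kk {a : ℕ → ℂ} (ha0 : a 0 = 0) {x : ℝ} (hx : 0 < x) :
    ∑' n : ℕ, a n * kk (n / x) = ∑ n ∈ Finset.Icc 1 ⌊x⌋₊, a n * (1 - n / x) := by
  rw [tsum_eq_sum (s := Finset.Icc 1 ⌊x⌋₊)]
  · refine Finset.sum_congr rfl fun n hn => ?_
    obtain ⟨h1, h2⟩ := Finset.mem_Icc.mp hn
    have hn0 : (0 : ℝ) < n := by exact_mod_cast h1
    have hnx : (n : ℝ) ≤ x := (Nat.le_floor_iff hx.le).mp h2
    have h3 : (n : ℝ) / x ≤ 1 := (div_le_one hx).mpr hnx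
    rw [kk_eq (div_pos hn0 hx), max_eq_left (by linarith)]
    push_cast
    rfl
  · intro n hn
    rcases Nat.eq_zero_or_pos n with rfl | hn1
    · rw [ha0, zero_mul]
    · have hn0 : (0 : ℝ) < n := by exact_mod_cast hn1
      have h2 : ⌊x⌋₊ < n := by
        by_contra hcon
        exact hn (Finset.mem_Icc.mpr ⟨hn1, by omega⟩)
      have h3 : x < n := Nat.lt_of_floor_lt h2
      have h4 : 1 ≤ (n : ℝ) / x := (one_le_div hx).mpr h3.le
      rw [kk_eq (div_pos hn0 hx), max_eq_right (by linarith)]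
      simp

lemma unsmooth {a : ℕ → ℂ} (N : ℕ) {h L M : ℝ} (hh : 0 < h) (hhN : h ≤ N) (hL : 0 ≤ L)
    (ha : ∀ n : ℕ, n ≤ 2 * N → ‖a n‖ ≤ L)
    (h1 : ‖∑ n ∈ Finset.Icc 1 N, a n * ((N : ℂ) - n)‖ ≤ M)
    (h2 : ‖∑ n ∈ Finset.Icc 1 ⌊(N : ℝ) + h⌋₊, a n * ((((N : ℝ) + h : ℝ) : ℂ) - n)‖ ≤ M) :
    ‖∑ n ∈ Finset.Icc 1 N, a n‖ ≤ 2 * M / h + h * L := by
  set K : ℕ := ⌊(N : ℝ) + h⌋₊ with hK
  have hNK : N ≤ K := Nat.le_floor (by linarith)
  have hKr : (K : ℝ) ≤ N + h := Nat.floor_le (by positivity)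
  have hK2 : K ≤ 2 * N := by
    have : (K : ℝ) ≤ 2 * N := by linarith
    exact_mod_cast this
  have hI : ∀ m : ℕ, Finset.Icc 1 m = Finset.Ioc 0 m := fun m => by
    ext n
    simp [Nat.one_le_iff_ne_zero, Nat.pos_iff_ne_zero]
  rw [hI] at h1 h2 ⊢
  rw [← Finset.sum_Ioc_consecutive _ (Nat.zero_le N) hNK] at h2
  set R : ℂ := ∑ n ∈ Finset.Ioc N K, a n * ((((N : ℝ) + h : ℝ) : ℂ) - n) with hR
  have e1 : ∑ n ∈ Finset.Ioc 0 N, a n * ((((N : ℝ) + h : ℝ) : ℂ) - n) =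
      (∑ n ∈ Finset.Ioc 0 N, a n * ((N : ℂ) - n)) + (h : ℂ) * ∑ n ∈ Finset.Ioc 0 N, a n := by
    rw [Finset.mul_sum, ← Finset.sum_add_distrib]
    refine Finset.sum_congr rfl fun n _ => ?_
    push_cast
    ring
  have hRb : ‖R‖ ≤ h * (L * h) := by
    calc ‖R‖ ≤ ∑ n ∈ Finset.Ioc N K, L * h := by
          refine (norm_sum_le _ _).trans (Finset.sum_le_sum fun n hn => ?_)
          obtain ⟨i1, i2⟩ := Finset.mem_Ioc.mp hn
          have i3 : (N : ℝ) ≤ n := by exact_mod_cast i1.le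
          have i4 : (n : ℝ) ≤ N + h := le_trans (by exact_mod_cast i2) hKr
          rw [norm_mul]
          have i5 : ‖(((N : ℝ) + h : ℝ) : ℂ) - n‖ ≤ h := by
            rw [← Complex.ofReal_natCast, ← Complex.ofReal_sub, Complex.norm_real,
              Real.norm_eq_abs, abs_of_nonneg (by linarith)]
            linarith
          exact mul_le_mul (ha n (by omega)) i5 (norm_nonneg _) hL
      _ = ((K - N : ℕ) : ℝ) * (L * h) := by
          rw [Finset.sum_const, Nat.card_Ioc, nsmul_eq_mul]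
      _ ≤ h * (L * h) := by
          refine mul_le_mul_of_nonneg_right ?_ (by positivity)
          rw [Nat.cast_sub hNK]
          linarith
  set S : ℂ := ∑ n ∈ Finset.Ioc 0 N, a n with hS
  have e2 : (h : ℂ) * S = ((∑ n ∈ Finset.Ioc 0 N, a n * ((((N : ℝ) + h : ℝ) : ℂ) - n)) + R) -
      (∑ n ∈ Finset.Ioc 0 N, a n * ((N : ℂ) - n)) - R := by
    rw [e1]
    ring
  have h3 : h * ‖S‖ ≤ M + M + h * (L * h) := by
    have h4 : ‖(h : ℂ) * S‖ = h * ‖S‖ := by
      rw [norm_mul, Complex.norm_real, Real.norm_eq_abs, abs_of_pos hh]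
    rw [← h4, e2]
    refine (norm_sub_le _ _).trans (add_le_add ((norm_sub_le _ _).trans (add_le_add h2 h1)) hRb)
  have h5 : ‖S‖ ≤ (M + M + h * (L * h)) / h := by
    rw [le_div_iff₀ hh, mul_comm]
    exact h3
  refine h5.trans_eq ?_
  field_simp
  ring

/-! ### The theorem -/

lemma walfisz_nat (B : ℕ) {η : ℝ} (hη0 : 0 < η) (hη : η ≤ 1 / 2) : ∃ C : ℝ, 0 < C ∧
    ∀ (q : ℕ) [NeZero q] (χ : DirichletCharacter ℂ q), χ ≠ 1 → ∀ N : ℕ, 3 ≤ N →
      ‖∑ n ∈ Finset.Icc 1 N, χ n * ((ArithmeticFunction.vonMangoldt n : ℝ) : ℂ)‖ ≤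
        C * (q : ℝ) ^ η * N / Real.log N ^ B := by
  obtain ⟨C, hC0, hC⟩ := norm_smooth_le (2 * B + 2) hη0 hη
  refine ⟨8 * C + 2, by positivity, fun q _ χ hχ N hN => ?_⟩
  set a : ℕ → ℂ := fun n => χ n * ((ArithmeticFunction.vonMangoldt n : ℝ) : ℂ) with ha
  have ha0 : a 0 = 0 := by simp [ha]
  have hN3 : (3 : ℝ) ≤ N := by exact_mod_cast hN
  have hN0 : (0 : ℝ) < N := by linarith
  have he : Real.exp 1 ≤ N := by
    have := Real.exp_one_lt_d9
    linarith
  set l : ℝ := Real.log N with hl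
  have hl1 : 1 ≤ l := (Real.le_log_iff_exp_le hN0).mpr he
  have hl0 : 0 < l := by linarith
  have hq1 : (1 : ℝ) ≤ q := by exact_mod_cast Nat.one_le_iff_ne_zero.mpr (NeZero.ne q)
  have hqη : 1 ≤ (q : ℝ) ^ η := Real.one_le_rpow hq1 hη0.le
  have hqη0 : 0 < (q : ℝ) ^ η := by linarith
  -- the smoothed sums
  have hV : ∀ x : ℝ, (N : ℝ) ≤ x → x ≤ 2 * N →
      ‖∑ n ∈ Finset.Icc 1 ⌊x⌋₊, a n * ((x : ℂ) - n)‖ ≤
        4 * C * (q : ℝ) ^ η * N ^ 2 / l ^ (2 * B + 2) := by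
    intro x hx1 hx2
    have hx0 : 0 < x := by linarith
    have hx0' : (x : ℂ) ≠ 0 := by exact_mod_cast hx0.ne'
    have h1 := hC q χ hχ x (he.trans hx1)
    have h2 := tsum_kk (a := (fun n : ℕ => χ n) *
      fun n : ℕ => ((ArithmeticFunction.vonMangoldt n : ℝ) : ℂ)) (by simp) hx0
    rw [h2] at h1
    have h3 : ∑ n ∈ Finset.Icc 1 ⌊x⌋₊, a n * ((x : ℂ) - n) = (x : ℂ) *
        ∑ n ∈ Finset.Icc 1 ⌊x⌋₊, ((fun n : ℕ => χ n) *
          fun n : ℕ => ((ArithmeticFunction.vonMangoldt n : ℝ) : ℂ)) n * (1 - n / x) := by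
      rw [Finset.mul_sum]
      refine Finset.sum_congr rfl fun n _ => ?_
      simp only [ha, Pi.mul_apply]
      field_simp
    have hlx : l ≤ Real.log x := Real.log_le_log hN0 hx1
    have hlx0 : 0 < Real.log x := by linarith
    rw [h3, norm_mul, Complex.norm_real, Real.norm_eq_abs, abs_of_pos hx0]
    calc x * _ ≤ x * (C * (q : ℝ) ^ η * x / Real.log x ^ (2 * B + 2)) :=
          mul_le_mul_of_nonneg_left h1 hx0.le
      _ ≤ (2 * N) * (C * (q : ℝ) ^ η * (2 * N) / l ^ (2 * B + 2)) := by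
          gcongr
      _ = _ := by ring
  set h : ℝ := N / l ^ (B + 1) with hh
  have hlB : 1 ≤ l ^ (B + 1) := one_le_pow₀ hl1
  have hh0 : 0 < h := by positivity
  have hhN : h ≤ N := div_le_self hN0.le hlB
  have hL : Real.log (2 * N) ≤ 2 * l := by
    rw [Real.log_mul (by norm_num) hN0.ne']
    have : Real.log 2 ≤ l := Real.log_le_log (by norm_num) (by linarith)
    linarith
  have hfin := unsmooth (a := a) N hh0 hhN (L := 2 * l)
    (M := 4 * C * (q : ℝ) ^ η * N ^ 2 / l ^ (2 * B + 2)) (by positivity) (fun n hn => by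
      simp only [ha]
      rw [norm_mul, Complex.norm_real, Real.norm_eq_abs,
        abs_of_nonneg ArithmeticFunction.vonMangoldt_nonneg]
      have i1 := χ.norm_le_one (n : ZMod q)
      have i2 : ArithmeticFunction.vonMangoldt n ≤ 2 * l := by
        refine ArithmeticFunction.vonMangoldt_le_log.trans ?_
        rcases Nat.eq_zero_or_pos n with rfl | hn1
        · simp
          positivity
        · refine le_trans (Real.log_le_log (by exact_mod_cast hn1) ?_) hL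
          exact_mod_cast hn
      calc ‖χ (n : ZMod q)‖ * ArithmeticFunction.vonMangoldt n
          ≤ 1 * (2 * l) := mul_le_mul i1 i2 ArithmeticFunction.vonMangoldt_nonneg zero_le_one
        _ = 2 * l := one_mul _)
    (by simpa using hV N le_rfl (by linarith)) (hV (N + h) (by linarith) (by linarith))
  refine hfin.trans ?_
  have e1 : 2 * (4 * C * (q : ℝ) ^ η * N ^ 2 / l ^ (2 * B + 2)) / h =
      8 * C * (q : ℝ) ^ η * N / l ^ B * (1 / l) := by
    rw [hh]
    field_simp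
    ring
  have e2 : h * (2 * l) = 2 * 1 * N / l ^ B := by
    rw [hh]
    field_simp
    ring
  rw [e1, e2]
  have e3 : 1 / l ≤ 1 := by
    rw [div_le_one hl0]
    exact hl1
  calc 8 * C * (q : ℝ) ^ η * N / l ^ B * (1 / l) + 2 * 1 * N / l ^ B
      ≤ 8 * C * (q : ℝ) ^ η * N / l ^ B * 1 + 2 * (q : ℝ) ^ η * N / l ^ B := by
        gcongr
    _ = _ := by ring

/-- **The Siegel-Walfisz theorem**: for all `B` and all `η > 0` there is a constant `C` such that
`|∑_{n ≤ x} χ(n) Λ(n)| ≤ C q^η x (log x)^(-B)` for all `q`, all Dirichlet characters `χ ≠ 1`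
modulo `q` and all real `x ≥ 2`. -/
theorem siegel_walfisz (B : ℕ) {η : ℝ} (hη : 0 < η) : ∃ C : ℝ, 0 < C ∧
    ∀ (q : ℕ) [NeZero q] (χ : DirichletCharacter ℂ q), χ ≠ 1 → ∀ x : ℝ, 2 ≤ x →
      ‖∑ n ∈ Finset.Icc 1 ⌊x⌋₊, χ n * ((ArithmeticFunction.vonMangoldt n : ℝ) : ℂ)‖ ≤
        C * (q : ℝ) ^ η * x / Real.log x ^ B := by
  obtain ⟨C, hC0, hC⟩ := walfisz_nat B (η := min η (1 / 2)) (lt_min hη (by norm_num))
    (min_le_right _ _)
  refine ⟨2 ^ B * (C + 1), by positivity, fun q _ χ hχ x hx => ?_⟩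
  have hq1 : (1 : ℝ) ≤ q := by exact_mod_cast Nat.one_le_iff_ne_zero.mpr (NeZero.ne q)
  have hqη : 1 ≤ (q : ℝ) ^ η := Real.one_le_rpow hq1 hη.le
  have hqm : (q : ℝ) ^ (min η (1 / 2)) ≤ (q : ℝ) ^ η :=
    Real.rpow_le_rpow_of_exponent_le hq1 (min_le_left _ _)
  have hx0 : 0 < x := by linarith
  have hlx0 : 0 < Real.log x := Real.log_pos (by linarith)
  set N : ℕ := ⌊x⌋₊ with hN
  have hN2 : 2 ≤ N := Nat.le_floor (by exact_mod_cast hx)
  have hN2' : (2 : ℝ) ≤ N := by exact_mod_cast hN2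
  have hNx : (N : ℝ) ≤ x := Nat.floor_le hx0.le
  have hxN : x ≤ N + 1 := (Nat.lt_floor_add_one x).le
  have hlog : Real.log x ≤ 2 * Real.log N := by
    have h1 : x ≤ (N : ℝ) ^ 2 := by nlinarith
    have h2 := Real.log_le_log hx0 h1
    rwa [Real.log_pow] at h2
  have hlN0 : 0 < Real.log N := Real.log_pos (by linarith)
  have hpow : Real.log x ^ B ≤ 2 ^ B * Real.log N ^ B := by
    rw [← mul_pow]
    gcongr
  rcases Nat.lt_or_ge N 3 with h3 | h3
  · -- `N = 2`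
    have hN' : N = 2 := by omega
    have h4 : ‖∑ n ∈ Finset.Icc 1 N, χ n * ((ArithmeticFunction.vonMangoldt n : ℝ) : ℂ)‖ ≤ 1 := by
      rw [hN', show Finset.Icc 1 2 = {1, 2} from rfl, Finset.sum_pair (by norm_num)]
      have i1 : ArithmeticFunction.vonMangoldt 2 ≤ 1 := by
        refine ArithmeticFunction.vonMangoldt_le_log.trans ?_
        have := Real.log_two_lt_d9
        push_cast
        linarith
      have i2 := χ.norm_le_one ((2 : ℕ) : ZMod q)
      simp only [ArithmeticFunction.vonMangoldt_apply_one, Complex.ofReal_zero, mul_zero, zero_add]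
      rw [norm_mul, Complex.norm_real, Real.norm_eq_abs,
        abs_of_nonneg ArithmeticFunction.vonMangoldt_nonneg]
      exact mul_le_one₀ i2 ArithmeticFunction.vonMangoldt_nonneg i1
    refine h4.trans ?_
    rw [le_div_iff₀ (by positivity), one_mul]
    have i3 : Real.log N ≤ 1 := by
      rw [hN']
      have := Real.log_two_lt_d9
      push_cast
      linarith
    have i4 : Real.log N ^ B ≤ 1 := pow_le_one₀ hlN0.le i3
    calc Real.log x ^ B ≤ 2 ^ B * Real.log N ^ B := hpow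
      _ ≤ 2 ^ B * 1 := by gcongr
      _ ≤ 2 ^ B * ((C + 1) * ((q : ℝ) ^ η * x)) := by
          gcongr
          have i5 : 1 ≤ (q : ℝ) ^ η * x := one_le_mul_of_one_le_of_one_le hqη (by linarith)
          exact one_le_mul_of_one_le_of_one_le (by linarith) i5
      _ = _ := by ring
  · refine (hC q χ hχ N h3).trans ?_
    rw [div_le_div_iff₀ (by positivity) (by positivity)]
    have hqm0 : 0 ≤ (q : ℝ) ^ (min η (1 / 2)) := Real.rpow_nonneg (by linarith) _
    calc C * (q : ℝ) ^ (min η (1 / 2)) * N * Real.log x ^ B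
        ≤ (C + 1) * (q : ℝ) ^ η * x * (2 ^ B * Real.log N ^ B) := by
          gcongr
          linarith
      _ = _ := by ring

end Fermat.Agent.Cor.SiegelL
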