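import Fermat.Agent.Corollaries.SiegelL.Zeta
import Fermat.Agent.Corollaries.SiegelL.Walfisz

/-!
# The prime number theorem with an error term

`∑_{n ≤ x} Λ(n) = x + O(x (log x)^(-B))` for every `B` (`psi_sub_le`), by the method of the
Siegel-Walfisz theorem for the Dirichlet series `∑ (Λ(n) - 1) n^(-s) = -ζ'/ζ(s) - ζ(s)`.
-/

set_option autoImplicit false

namespace Fermat.Agent.Cor.SiegelL

open Complex Set MeasureTheory
open scoped Real FourierTransform Nat

/-- The coefficients `Λ(n) - 1`. -/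
noncomputable def aZ (n : ℕ) : ℂ :=
  if n = 0 then 0 else ((ArithmeticFunction.vonMangoldt n : ℝ) : ℂ) - 1

lemma aZ_congr {n : ℕ} (hn : n ≠ 0) : aZ n =
    ((fun n : ℕ => ((ArithmeticFunction.vonMangoldt n : ℝ) : ℂ)) - (1 : ℕ → ℂ)) n := by
  rw [aZ, if_neg hn]
  rfl

lemma LSeriesSummable_aZ {s : ℂ} (hs : 1 < s.re) : LSeriesSummable aZ s := by
  rw [LSeriesSummable_congr s (fun {n} hn => aZ_congr hn)]
  exact (ArithmeticFunction.LSeriesSummable_vonMangoldt hs).sub (LSeriesSummable_one_iff.mpr hs)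

lemma LSeries_aZ {s : ℂ} (hs : 1 < s.re) : LSeries aZ s * (1 / (s * (s + 1))) = GZ s := by
  have hs1 : s ≠ 1 := by
    rintro rfl
    simp at hs
  rw [GZ_eq hs1 (riemannZeta_ne_zero_of_one_le_re hs.le)]
  congr 1
  rw [LSeries_congr (fun {n} hn => aZ_congr hn) s,
    LSeries_sub (ArithmeticFunction.LSeriesSummable_vonMangoldt hs)
      (LSeriesSummable_one_iff.mpr hs),
    ArithmeticFunction.LSeries_vonMangoldt_eq_deriv_riemannZeta_div hs,
    LSeries_one_eq_riemannZeta hs]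

/-- **The smoothed prime number theorem.** -/
theorem norm_smooth_zeta_le (k : ℕ) : ∃ C : ℝ, 0 < C ∧ ∀ x : ℝ, Real.exp 1 ≤ x →
    ‖∑' n : ℕ, aZ n * kk (n / x)‖ ≤ C * x / Real.log x ^ k := by
  set b : ℝ := (1 / 2) / (k + 2) with hb
  have hk2 : (0 : ℝ) < (k : ℝ) + 2 := by positivity
  have hb0 : 0 < b := by positivity
  have hkb : ((k : ℝ) + 2) * b = 1 / 2 := by
    rw [hb]
    field_simp
  have hb1 : b ≤ 1 := by
    rw [hb, div_le_one hk2]
    linarith [(Nat.cast_nonneg k : (0 : ℝ) ≤ k)]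
  obtain ⟨C, hC0, hC⟩ := norm_iteratedDeriv_GZ_le hb0 hb1
  set J : ℝ := ∫ y : ℝ, (1 + ‖y‖ ^ 2) ^ (-(3 / 2 : ℝ) / 2) with hJ
  have hJi : Integrable fun y : ℝ => ((1 : ℝ) + ‖y‖ ^ 2) ^ (-(3 / 2 : ℝ) / 2) :=
    integrable_rpow_neg_one_add_norm_sq (by
      rw [Module.finrank_self]
      norm_num)
  have hJ0 : 0 ≤ J := integral_nonneg fun y => Real.rpow_nonneg (by positivity) _
  refine ⟨4 * C k * J + 1, by have := hC0 k; positivity, fun x hx => ?_⟩
  have hx0 : 0 < x := (Real.exp_pos 1).trans_le hx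
  have hlog : 1 ≤ Real.log x := (Real.le_log_iff_exp_le hx0).mpr hx
  have hlog0 : 0 < Real.log x := by linarith
  set σ : ℝ := 1 + 1 / (4 * Real.log x) with hσ
  have hσ1 : 1 < σ := by
    have : 0 < 1 / (4 * Real.log x) := by positivity
    linarith
  have hσ2 : σ ≤ 5 / 4 := by
    have : 1 / (4 * Real.log x) ≤ 1 / 4 := one_div_le_one_div_of_le (by norm_num) (by linarith)
    linarith
  have hxσ : x ^ σ ≤ 2 * x := by
    rw [hσ, Real.rpow_add hx0, Real.rpow_one]
    have h1 : x ^ (1 / (4 * Real.log x)) = Real.exp (1 / 4) := by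
      rw [Real.rpow_def_of_pos hx0]
      congr 1
      field_simp
    have h2 : Real.exp (1 / 4) ≤ 2 := by
      have h3 : Real.exp (1 / 4) ≤ Real.exp (Real.log 2) :=
        Real.exp_le_exp.mpr (by linarith [Real.log_two_gt_d9])
      rwa [Real.exp_log (by norm_num)] at h3
    rw [h1]
    nlinarith
  -- the line
  set U : Set ℂ := {s : ℂ | 1 < s.re} with hU
  have hUo : IsOpen U := isOpen_lt continuous_const Complex.continuous_re
  have hg : DifferentiableOn ℂ GZ U := fun s hs =>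
    (analyticAt_GZ (le_of_lt hs)).differentiableAt.differentiableWithinAt
  have hre : ∀ y : ℝ, ((σ : ℂ) + y * I).re = σ := fun y => by simp
  have him : ∀ y : ℝ, ((σ : ℂ) + y * I).im = y := fun y => by simp
  have hline : ∀ y : ℝ, ((σ : ℂ) + y * I) ∈ U := fun y => by
    change 1 < ((σ : ℂ) + y * I).re
    rw [hre]
    exact hσ1
  set h : ℝ → ℂ := fun y => GZ (σ + y * I) with hh
  have hbd : ∀ j : ℕ, j ≤ k → ∀ y : ℝ, ‖iteratedDeriv j h y‖ ≤
      C j * 2 * (1 + ‖y‖ ^ 2) ^ (-(3 / 2 : ℝ) / 2) := by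
    intro j hj y
    rw [hh, iteratedDeriv_vertical hUo hg hline, norm_mul, norm_pow, Complex.norm_I, one_pow,
      mul_one]
    have h1 := hC j (σ + y * I) (by rw [hre]; exact hσ1) (by rw [hre]; exact hσ2)
    rw [him] at h1
    have hj' : (j : ℝ) ≤ k := by exact_mod_cast hj
    have h2 := QQ_rpow_div_le (q := 1) (y := y) (e := ((j : ℝ) + 2) * b) (η := 1 / 2) (by
      rw [← hkb]
      exact mul_le_mul_of_nonneg_right (by linarith) hb0.le) (by norm_num) le_rfl
    rw [Nat.cast_one, Real.one_rpow, mul_one] at h2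
    calc ‖iteratedDeriv j GZ (σ + y * I)‖
        ≤ C j * QQ 1 y ^ (((j : ℝ) + 2) * b) / (1 + y ^ 2) := h1
      _ = C j * (QQ 1 y ^ (((j : ℝ) + 2) * b) / (1 + y ^ 2)) := by ring
      _ ≤ C j * (2 * (1 + ‖y‖ ^ 2) ^ (-(3 / 2 : ℝ) / 2)) :=
          mul_le_mul_of_nonneg_left h2 (hC0 j).le
      _ = _ := by ring
  have hcd : ContDiff ℝ k h := contDiff_vertical hUo hg hline k
  have hint : ∀ j : ℕ, j ≤ k → Integrable (iteratedDeriv j h) := fun j hj =>
    (hJi.const_mul _).mono'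
      (hcd.continuous_iteratedDeriv j (by exact_mod_cast hj)).aestronglyMeasurable
      (Filter.Eventually.of_forall fun y => hbd j hj y)
  have hfour := norm_fourier_le hcd hint (-(Real.log x / (2 * π)))
  have hξ : 2 * π * |-(Real.log x / (2 * π))| = Real.log x := by
    rw [abs_neg, abs_of_pos (by positivity)]
    field_simp
  rw [hξ] at hfour
  have hI : ∫ y, ‖iteratedDeriv k h y‖ ≤ C k * 2 * J := by
    rw [hJ, ← integral_const_mul]
    exact integral_mono (hint k le_rfl).norm (hJi.const_mul _) fun y => hbd k le_rfl y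
  have hF : ‖𝓕 h (-(Real.log x / (2 * π)))‖ ≤ C k * 2 * J / Real.log x ^ k := by
    rw [le_div_iff₀ (by positivity), mul_comm]
    exact hfour.trans hI
  -- the sum
  rw [sum_kk_eq hσ1.le hx0 (LSeriesSummable_aZ (by simpa using hσ1)) (by simp [aZ])]
  have hInt : ∫ y : ℝ, LSeries aZ ((σ : ℂ) + y * I) *
      ((x : ℂ) ^ ((σ : ℂ) + y * I) * (1 / (((σ : ℂ) + y * I) * ((σ : ℂ) + y * I + 1)))) =
      ((x ^ σ : ℝ) : ℂ) * 𝓕 h (-(Real.log x / (2 * π))) := by
    rw [Real.fourier_real_eq_integral_exp_smul, ← integral_const_mul]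
    refine integral_congr_ae (Filter.Eventually.of_forall fun y => ?_)
    have e1 := LSeries_aZ (s := (σ : ℂ) + y * I) (by rw [hre]; exact hσ1)
    have e2 : (x : ℂ) ^ ((σ : ℂ) + y * I) = ((x ^ σ : ℝ) : ℂ) *
        Complex.exp (((-2 * π * y * (-(Real.log x / (2 * π))) : ℝ) : ℂ) * I) := by
      have hx0' : (x : ℂ) ≠ 0 := by exact_mod_cast hx0.ne'
      rw [Complex.cpow_add _ _ hx0', Complex.ofReal_cpow hx0.le]
      congr 1
      rw [Complex.cpow_def_of_ne_zero hx0', ← Complex.ofReal_log hx0.le]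
      congr 1
      have e3 : -2 * π * y * (-(Real.log x / (2 * π))) = Real.log x * y := by
        field_simp
      rw [e3]
      push_cast
      ring
    simp only [hh, smul_eq_mul]
    rw [e2, ← e1]
    ring
  rw [hInt, norm_smul, norm_mul, Complex.norm_real, Real.norm_eq_abs, Real.norm_eq_abs,
    abs_of_pos (by positivity : 0 < 1 / (2 * π)),
    abs_of_pos (Real.rpow_pos_of_pos hx0 σ)]
  have hpi : 1 / (2 * π) ≤ 1 := by
    rw [div_le_one (by positivity)]
    linarith [Real.pi_gt_three]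
  calc 1 / (2 * π) * (x ^ σ * ‖𝓕 h (-(Real.log x / (2 * π)))‖)
      ≤ 1 * (2 * x * (C k * 2 * J / Real.log x ^ k)) := by
        have := Real.rpow_nonneg hx0.le σ
        gcongr
    _ = 4 * C k * J * x / Real.log x ^ k := by ring
    _ ≤ _ := by
        gcongr
        linarith

/-- From the smoothed sums to the sums. -/
lemma nat_of_smooth {a : ℕ → ℂ} (ha0 : a 0 = 0) (B : ℕ) {K : ℝ} (hK : 0 < K) {N : ℕ} (hN : 3 ≤ N)
    (ha : ∀ n : ℕ, n ≤ 2 * N → ‖a n‖ ≤ 2 * Real.log N)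
    (hC : ∀ x : ℝ, Real.exp 1 ≤ x →
      ‖∑' n : ℕ, a n * kk (n / x)‖ ≤ K * x / Real.log x ^ (2 * B + 2)) :
    ‖∑ n ∈ Finset.Icc 1 N, a n‖ ≤ (8 * K + 2) * N / Real.log N ^ B := by
  have hN3 : (3 : ℝ) ≤ N := by exact_mod_cast hN
  have hN0 : (0 : ℝ) < N := by linarith
  have he : Real.exp 1 ≤ N := by
    have := Real.exp_one_lt_d9
    linarith
  set l : ℝ := Real.log N with hl
  have hl1 : 1 ≤ l := (Real.le_log_iff_exp_le hN0).mpr he
  have hl0 : 0 < l := by linarith
  have hV : ∀ x : ℝ, (N : ℝ) ≤ x → x ≤ 2 * N →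
      ‖∑ n ∈ Finset.Icc 1 ⌊x⌋₊, a n * ((x : ℂ) - n)‖ ≤ 4 * K * N ^ 2 / l ^ (2 * B + 2) := by
    intro x hx1 hx2
    have hx0 : 0 < x := by linarith
    have hx0' : (x : ℂ) ≠ 0 := by exact_mod_cast hx0.ne'
    have h1 := hC x (he.trans hx1)
    rw [tsum_kk ha0 hx0] at h1
    have h3 : ∑ n ∈ Finset.Icc 1 ⌊x⌋₊, a n * ((x : ℂ) - n) = (x : ℂ) *
        ∑ n ∈ Finset.Icc 1 ⌊x⌋₊, a n * (1 - n / x) := by
      rw [Finset.mul_sum]
      refine Finset.sum_congr rfl fun n _ => ?_
      field_simp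
    have hlx : l ≤ Real.log x := Real.log_le_log hN0 hx1
    have hlx0 : 0 < Real.log x := by linarith
    rw [h3, norm_mul, Complex.norm_real, Real.norm_eq_abs, abs_of_pos hx0]
    calc x * _ ≤ x * (K * x / Real.log x ^ (2 * B + 2)) :=
          mul_le_mul_of_nonneg_left h1 hx0.le
      _ ≤ (2 * N) * (K * (2 * N) / l ^ (2 * B + 2)) := by
          gcongr
      _ = _ := by ring
  set h : ℝ := N / l ^ (B + 1) with hh
  have hlB : 1 ≤ l ^ (B + 1) := one_le_pow₀ hl1
  have hh0 : 0 < h := by positivity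
  have hhN : h ≤ N := div_le_self hN0.le hlB
  have hfin := unsmooth (a := a) N hh0 hhN (L := 2 * l)
    (M := 4 * K * N ^ 2 / l ^ (2 * B + 2)) (by positivity) ha
    (by simpa using hV N le_rfl (by linarith)) (hV (N + h) (by linarith) (by linarith))
  refine hfin.trans ?_
  have e1 : 2 * (4 * K * N ^ 2 / l ^ (2 * B + 2)) / h = 8 * K * N / l ^ B * (1 / l) := by
    rw [hh]
    field_simp
    ring
  have e2 : h * (2 * l) = 2 * N / l ^ B := by
    rw [hh]
    field_simp
    ring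
  rw [e1, e2]
  have e3 : 1 / l ≤ 1 := by
    rw [div_le_one hl0]
    exact hl1
  calc 8 * K * N / l ^ B * (1 / l) + 2 * N / l ^ B
      ≤ 8 * K * N / l ^ B * 1 + 2 * N / l ^ B := by
        gcongr
    _ = _ := by ring

lemma norm_aZ_le {N n : ℕ} (hN : 3 ≤ N) (hn : n ≤ 2 * N) : ‖aZ n‖ ≤ 2 * Real.log N := by
  have hN3 : (3 : ℝ) ≤ N := by exact_mod_cast hN
  have hN0 : (0 : ℝ) < N := by linarith
  have hl1 : 1 ≤ Real.log N := (Real.le_log_iff_exp_le hN0).mpr (by
    have := Real.exp_one_lt_d9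
    linarith)
  rcases Nat.eq_zero_or_pos n with rfl | hn1
  · simp only [aZ, if_true, norm_zero]
    linarith
  · rw [aZ, if_neg hn1.ne']
    have h1 : ArithmeticFunction.vonMangoldt n ≤ 2 * Real.log N := by
      refine ArithmeticFunction.vonMangoldt_le_log.trans ?_
      have h2 : Real.log (2 * N) ≤ 2 * Real.log N := by
        rw [Real.log_mul (by norm_num) hN0.ne']
        have : Real.log 2 ≤ Real.log N := Real.log_le_log (by norm_num) (by linarith)
        linarith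
      refine le_trans (Real.log_le_log (by exact_mod_cast hn1) ?_) h2
      exact_mod_cast hn
    have h2 : (0 : ℝ) ≤ ArithmeticFunction.vonMangoldt n := ArithmeticFunction.vonMangoldt_nonneg
    rw [← Complex.ofReal_one, ← Complex.ofReal_sub, Complex.norm_real, Real.norm_eq_abs]
    exact abs_le.mpr ⟨by linarith, by linarith⟩

lemma sum_aZ (N : ℕ) : ∑ n ∈ Finset.Icc 1 N, aZ n =
    (((∑ n ∈ Finset.Icc 1 N, ArithmeticFunction.vonMangoldt n) - N : ℝ) : ℂ) := by
  have h1 : ∑ n ∈ Finset.Icc 1 N, aZ n =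
      ∑ n ∈ Finset.Icc 1 N, (((ArithmeticFunction.vonMangoldt n : ℝ) : ℂ) - 1) :=
    Finset.sum_congr rfl fun n hn => by
      rw [aZ, if_neg (by have := (Finset.mem_Icc.mp hn).1; omega)]
  rw [h1, Finset.sum_sub_distrib]
  push_cast
  simp

/-- `1 ≤ B! x (log x)^(-B)`. -/
lemma one_le_div_log_pow {x : ℝ} (hx : 1 < x) (B : ℕ) : 1 ≤ (B ! : ℝ) * x / Real.log x ^ B := by
  have h1 : 0 < Real.log x := Real.log_pos hx
  rw [one_le_div (by positivity)]
  have h2 := Real.pow_div_factorial_le_exp (Real.log x) h1.le B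
  rw [Real.exp_log (by linarith), div_le_iff₀ (by positivity)] at h2
  linarith

/-- **The prime number theorem with error term**: for every `B` there is a `C` such that
`|∑_{n ≤ x} Λ(n) - x| ≤ C x (log x)^(-B)` for all `x ≥ 2`. -/
theorem psi_sub_le (B : ℕ) : ∃ C : ℝ, 0 < C ∧ ∀ x : ℝ, 2 ≤ x →
    |(∑ n ∈ Finset.Icc 1 ⌊x⌋₊, ArithmeticFunction.vonMangoldt n) - x| ≤
      C * x / Real.log x ^ B := by
  obtain ⟨K, hK0, hK⟩ := norm_smooth_zeta_le (2 * B + 2)
  refine ⟨2 ^ B * (8 * K + 2) + 3 * (B ! : ℝ), by positivity, fun x hx => ?_⟩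
  have hx0 : 0 < x := by linarith
  have hlx0 : 0 < Real.log x := Real.log_pos (by linarith)
  have hone := one_le_div_log_pow (by linarith : 1 < x) B
  set N : ℕ := ⌊x⌋₊ with hN
  have hN2 : 2 ≤ N := Nat.le_floor (by exact_mod_cast hx)
  have hN2' : (2 : ℝ) ≤ N := by exact_mod_cast hN2
  have hNx : (N : ℝ) ≤ x := Nat.floor_le hx0.le
  have hxN : x ≤ N + 1 := (Nat.lt_floor_add_one x).le
  have hlog : Real.log x ≤ 2 * Real.log N := by
    have h1 : x ≤ (N : ℝ) ^ 2 := by nlinarith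
    have h2 := Real.log_le_log hx0 h1
    rwa [Real.log_pow] at h2
  have hlN0 : 0 < Real.log N := Real.log_pos (by linarith)
  have hpow : Real.log x ^ B ≤ 2 ^ B * Real.log N ^ B := by
    rw [← mul_pow]
    gcongr
  have hsplit : ∀ S : ℝ, S * x / Real.log x ^ B = S * (x / Real.log x ^ B) := fun S => by ring
  have hone' : 3 ≤ 3 * (B ! : ℝ) * x / Real.log x ^ B := by
    calc (3 : ℝ) = 3 * 1 := by ring
      _ ≤ 3 * ((B ! : ℝ) * x / Real.log x ^ B) := mul_le_mul_of_nonneg_left hone (by norm_num)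
      _ = _ := by ring
  have hpos : 0 ≤ 2 ^ B * (8 * K + 2) * x / Real.log x ^ B := by positivity
  have hgoal : (2 ^ B * (8 * K + 2) + 3 * (B ! : ℝ)) * x / Real.log x ^ B =
      2 ^ B * (8 * K + 2) * x / Real.log x ^ B + 3 * (B ! : ℝ) * x / Real.log x ^ B := by ring
  rw [hgoal]
  rcases Nat.lt_or_ge N 3 with h3 | h3
  · have hN' : N = 2 := by omega
    have h4 : ∑ n ∈ Finset.Icc 1 N, ArithmeticFunction.vonMangoldt n =
        ArithmeticFunction.vonMangoldt 2 := by
      rw [hN', show Finset.Icc 1 2 = {1, 2} from rfl, Finset.sum_pair (by norm_num),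
        ArithmeticFunction.vonMangoldt_apply_one, zero_add]
    have i1 : ArithmeticFunction.vonMangoldt 2 ≤ 1 := by
      refine ArithmeticFunction.vonMangoldt_le_log.trans ?_
      have := Real.log_two_lt_d9
      push_cast
      linarith
    have i2 : (0 : ℝ) ≤ ArithmeticFunction.vonMangoldt 2 := ArithmeticFunction.vonMangoldt_nonneg
    have i3 : x ≤ 3 := by
      rw [hN'] at hxN
      push_cast at hxN
      linarith
    rw [h4]
    have : |ArithmeticFunction.vonMangoldt 2 - x| ≤ 3 := abs_le.mpr ⟨by linarith, by linarith⟩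
    linarith
  · have h5 := nat_of_smooth (a := aZ) (by simp [aZ]) B hK0 h3 (fun n hn => norm_aZ_le h3 hn) hK
    rw [sum_aZ, Complex.norm_real, Real.norm_eq_abs] at h5
    have h6 : (8 * K + 2) * N / Real.log N ^ B ≤ 2 ^ B * (8 * K + 2) * x / Real.log x ^ B := by
      rw [div_le_div_iff₀ (by positivity) (by positivity)]
      calc (8 * K + 2) * N * Real.log x ^ B ≤ (8 * K + 2) * x * (2 ^ B * Real.log N ^ B) := by
            gcongr
        _ = _ := by ring
    have h7 : |(∑ n ∈ Finset.Icc 1 N, ArithmeticFunction.vonMangoldt n) - x| ≤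
        |(∑ n ∈ Finset.Icc 1 N, ArithmeticFunction.vonMangoldt n) - N| + |(N : ℝ) - x| :=
      abs_sub_le _ _ _
    have h8 : |(N : ℝ) - x| ≤ 1 := abs_le.mpr ⟨by linarith, by linarith⟩
    linarith

end Fermat.Agent.Cor.SiegelL
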