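import Mathlib

/-!
# The function `ζ(s) L(s, χ) L(s, ψ) L(s, χψ)` for real characters

For Dirichlet characters `χ`, `ψ` of level `N` with `χ² = ψ² = 1` the function
`FF χ ψ s = ζ(s) L(s, χ) L(s, ψ) L(s, χψ)` has at `s = 2` alternating derivatives, and
`FF χ ψ 2 ≥ 1`.
-/

set_option autoImplicit false

namespace Fermat.Agent.Cor.SiegelL

open Complex ArithmeticFunction Finset Filter Topology
open scoped ComplexOrder LSeries.notation
open DirichletCharacter (LFunction)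

variable {N : ℕ} [NeZero N]

/-- the four-fold product -/
noncomputable def FF (χ ψ : DirichletCharacter ℂ N) (s : ℂ) : ℂ :=
  riemannZeta s * LFunction χ s * LFunction ψ s * LFunction (χ * ψ) s

/-- The coefficients of `- FF'/FF`. -/
noncomputable def hcoef (χ ψ : DirichletCharacter ℂ N) (n : ℕ) : ℂ :=
  (1 + χ n) * (1 + ψ n) * (Λ n : ℂ)

omit [NeZero N] in
lemma one_add_nonneg {χ : DirichletCharacter ℂ N} (h : χ ^ 2 = 1) (a : ZMod N) : 0 ≤ 1 + χ a := by
  rcases MulChar.isQuadratic_iff_sq_eq_one.mpr h a with h | h | h <;> rw [h] <;> norm_num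

omit [NeZero N] in
lemma hcoef_nonneg {χ ψ : DirichletCharacter ℂ N} (h₁ : χ ^ 2 = 1) (h₂ : ψ ^ 2 = 1) :
    0 ≤ hcoef χ ψ := fun n => by
  refine mul_nonneg (mul_nonneg (one_add_nonneg h₁ n) (one_add_nonneg h₂ n)) ?_
  exact Complex.zero_le_real.mpr vonMangoldt_nonneg

omit [NeZero N] in
lemma hcoef_eq (χ ψ : DirichletCharacter ℂ N) :
    hcoef χ ψ = (↗Λ + ↗χ * ↗Λ) + (↗ψ * ↗Λ + ↗(χ * ψ : DirichletCharacter ℂ N) * ↗Λ) := by
  funext n
  simp only [hcoef, Pi.add_apply, Pi.mul_apply, MulChar.mul_apply]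
  ring

omit [NeZero N] in
lemma summable_hcoef (χ ψ : DirichletCharacter ℂ N) {s : ℂ} (hs : 1 < s.re) :
    LSeriesSummable (hcoef χ ψ) s := by
  rw [hcoef_eq]
  exact ((LSeriesSummable_vonMangoldt hs).add
    (DirichletCharacter.LSeriesSummable_twist_vonMangoldt χ hs)).add
    ((DirichletCharacter.LSeriesSummable_twist_vonMangoldt ψ hs).add
    (DirichletCharacter.LSeriesSummable_twist_vonMangoldt (χ * ψ) hs))

lemma LSeries_hcoef (χ ψ : DirichletCharacter ℂ N) {s : ℂ} (hs : 1 < s.re) :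
    LSeries (hcoef χ ψ) s = -(deriv riemannZeta s / riemannZeta s +
      deriv (LFunction χ) s / LFunction χ s + deriv (LFunction ψ) s / LFunction ψ s +
      deriv (LFunction (χ * ψ)) s / LFunction (χ * ψ) s) := by
  have a1 := LSeriesSummable_vonMangoldt hs
  have a2 := DirichletCharacter.LSeriesSummable_twist_vonMangoldt χ hs
  have a3 := DirichletCharacter.LSeriesSummable_twist_vonMangoldt ψ hs
  have a4 := DirichletCharacter.LSeriesSummable_twist_vonMangoldt (χ * ψ) hs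
  rw [hcoef_eq, LSeries_add (a1.add a2) (a3.add a4), LSeries_add a1 a2, LSeries_add a3 a4,
    LSeries_vonMangoldt_eq_deriv_riemannZeta_div hs,
    DirichletCharacter.LSeries_twist_vonMangoldt_eq χ hs,
    DirichletCharacter.LSeries_twist_vonMangoldt_eq ψ hs,
    DirichletCharacter.LSeries_twist_vonMangoldt_eq (χ * ψ) hs,
    DirichletCharacter.LFunction_eq_LSeries χ hs, DirichletCharacter.LFunction_eq_LSeries ψ hs,
    DirichletCharacter.LFunction_eq_LSeries (χ * ψ) hs,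
    DirichletCharacter.deriv_LFunction_eq_deriv_LSeries χ hs,
    DirichletCharacter.deriv_LFunction_eq_deriv_LSeries ψ hs,
    DirichletCharacter.deriv_LFunction_eq_deriv_LSeries (χ * ψ) hs]
  ring

lemma LFunction_ne_zero_of_one_lt (χ : DirichletCharacter ℂ N) {s : ℂ} (hs : 1 < s.re) :
    LFunction χ s ≠ 0 := by
  rw [DirichletCharacter.LFunction_eq_LSeries χ hs]
  exact DirichletCharacter.LSeries_ne_zero_of_one_lt_re χ hs

lemma differentiableAt_L (χ : DirichletCharacter ℂ N) {s : ℂ} (hs : s ≠ 1) :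
    DifferentiableAt ℂ (LFunction χ) s := DirichletCharacter.differentiableAt_LFunction χ s (.inl hs)

lemma differentiableAt_FF (χ ψ : DirichletCharacter ℂ N) {s : ℂ} (hs : s ≠ 1) :
    DifferentiableAt ℂ (FF χ ψ) s :=
  (((differentiableAt_riemannZeta hs).mul (differentiableAt_L χ hs)).mul
    (differentiableAt_L ψ hs)).mul (differentiableAt_L _ hs)

lemma deriv_FF (χ ψ : DirichletCharacter ℂ N) {s : ℂ} (hs : 1 < s.re) :
    deriv (FF χ ψ) s = -(LSeries (hcoef χ ψ) s * FF χ ψ s) := by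
  have hs1 : s ≠ 1 := by
    rintro rfl
    simp at hs
  have d0 := (differentiableAt_riemannZeta hs1).hasDerivAt
  have d1 := (differentiableAt_L χ hs1).hasDerivAt
  have d2 := (differentiableAt_L ψ hs1).hasDerivAt
  have d3 := (differentiableAt_L (χ * ψ) hs1).hasDerivAt
  have h := ((d0.mul d1).mul d2).mul d3
  have h' : deriv (FF χ ψ) s = _ := h.deriv
  rw [h', LSeries_hcoef χ ψ hs]
  have n0 := riemannZeta_ne_zero_of_one_lt_re hs
  have n1 := LFunction_ne_zero_of_one_lt χ hs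
  have n2 := LFunction_ne_zero_of_one_lt ψ hs
  have n3 := LFunction_ne_zero_of_one_lt (χ * ψ) hs
  simp only [FF, Pi.mul_apply]
  field_simp

lemma isOpen_U : IsOpen {s : ℂ | 1 < s.re} := isOpen_lt continuous_const continuous_re

lemma eventually_U : ∀ᶠ s : ℂ in 𝓝 2, 1 < s.re := isOpen_U.mem_nhds (by norm_num)

lemma contDiffAt_FF (χ ψ : DirichletCharacter ℂ N) (n : ℕ) : ContDiffAt ℂ n (FF χ ψ) 2 := by
  have h : AnalyticAt ℂ (FF χ ψ) 2 := by
    refine DifferentiableOn.analyticAt (s := {s : ℂ | s ≠ 1}) (fun s hs => ?_)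
      (isOpen_ne.mem_nhds (by norm_num))
    exact (differentiableAt_FF χ ψ hs).differentiableWithinAt
  exact h.contDiffAt

omit [NeZero N] in
lemma contDiffAt_h (χ ψ : DirichletCharacter ℂ N) (n : ℕ) :
    ContDiffAt ℂ n (LSeries (hcoef χ ψ)) 2 := by
  have h : AnalyticAt ℂ (LSeries (hcoef χ ψ)) 2 := by
    refine LSeries_analyticOnNhd (hcoef χ ψ) 2 ?_
    have h1 : LSeries.abscissaOfAbsConv (hcoef χ ψ) ≤ ((3 / 2 : ℝ) : EReal) := by
      have := (summable_hcoef χ ψ (s := ((3 / 2 : ℝ) : ℂ)) (by simp; norm_num)).abscissaOfAbsConv_le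
      simpa using this
    refine lt_of_le_of_lt h1 ?_
    norm_num
  exact h.contDiffAt

lemma iteratedDeriv_FF_succ (χ ψ : DirichletCharacter ℂ N) (m : ℕ) :
    iteratedDeriv (m + 1) (FF χ ψ) 2 = -∑ i ∈ range (m + 1), (m.choose i : ℂ) *
      iteratedDeriv i (LSeries (hcoef χ ψ)) 2 * iteratedDeriv (m - i) (FF χ ψ) 2 := by
  rw [iteratedDeriv_succ']
  have h1 : deriv (FF χ ψ) =ᶠ[𝓝 2] fun s => -(LSeries (hcoef χ ψ) s * FF χ ψ s) := by
    filter_upwards [eventually_U] with s hs using deriv_FF χ ψ hs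
  rw [(h1.iteratedDeriv m).eq_of_nhds]
  have h2 : iteratedDeriv m (fun s => -(LSeries (hcoef χ ψ) s * FF χ ψ s)) 2 =
      -iteratedDeriv m (fun s => LSeries (hcoef χ ψ) s * FF χ ψ s) 2 :=
    iteratedDeriv_fun_neg m _ 2
  rw [h2, iteratedDeriv_fun_mul (contDiffAt_h χ ψ m) (contDiffAt_FF χ ψ m)]

/-! ### Real values -/

omit [NeZero N] in
lemma eq_re {χ : DirichletCharacter ℂ N} (h : χ ^ 2 = 1) (a : ZMod N) : χ a = ((χ a).re : ℂ) := by
  rcases MulChar.isQuadratic_iff_sq_eq_one.mpr h a with h | h | h <;> rw [h] <;> simp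

omit [NeZero N] in
lemma log_term {χ : DirichletCharacter ℂ N} (h : χ ^ 2 = 1) {x : ℝ} (hx : 1 < x)
    (p : Nat.Primes) : -Complex.log (1 - χ p * (p : ℂ) ^ (-(x : ℂ))) =
      ((-Real.log (1 - (χ p).re * (p : ℝ) ^ (-x)) : ℝ) : ℂ) := by
  have hp : (0 : ℝ) ≤ (p : ℝ) := Nat.cast_nonneg _
  have h1 : (p : ℂ) ^ (-(x : ℂ)) = (((p : ℝ) ^ (-x) : ℝ) : ℂ) := by
    rw [Complex.ofReal_cpow hp]
    push_cast
    rfl
  have h2 : (p : ℝ) ^ (-x) ≤ 1 := by
    refine Real.rpow_le_one_of_one_le_of_nonpos ?_ (by linarith)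
    exact_mod_cast p.2.one_lt.le
  have h3 : 0 ≤ (p : ℝ) ^ (-x) := Real.rpow_nonneg hp _
  have h4 : |(χ p).re| ≤ 1 := (Complex.abs_re_le_norm _).trans (χ.norm_le_one _)
  have h5 : (0 : ℝ) ≤ 1 - (χ p).re * (p : ℝ) ^ (-x) := by
    have := abs_le.mp h4
    nlinarith
  have h6 : (1 - χ p * (p : ℂ) ^ (-(x : ℂ)) : ℂ) =
      ((1 - (χ p).re * (p : ℝ) ^ (-x) : ℝ) : ℂ) := by
    rw [h1, Complex.ofReal_sub, Complex.ofReal_mul, ← eq_re h (p : ZMod N), Complex.ofReal_one]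
  rw [h6, ← Complex.ofReal_log h5, ← Complex.ofReal_neg]

/-- `L(x, χ)` as the exponential of a real number. -/
lemma exists_log {χ : DirichletCharacter ℂ N} (h : χ ^ 2 = 1) {x : ℝ} (hx : 1 < x) :
    ∃ S : ℝ, HasSum (fun p : Nat.Primes => -Real.log (1 - (χ p).re * (p : ℝ) ^ (-x))) S ∧
      LFunction χ x = ((Real.exp S : ℝ) : ℂ) := by
  have hx' : 1 < (x : ℂ).re := by simpa using hx
  have h1 := χ.summable_neg_log_one_sub_mul_prime_cpow hx'
  simp_rw [log_term h hx] at h1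
  have h2 := Complex.hasSum_re h1.hasSum
  simp only [Complex.ofReal_re] at h2
  refine ⟨_, h2, ?_⟩
  rw [DirichletCharacter.LFunction_eq_LSeries χ hx',
    ← DirichletCharacter.LSeries_eulerProduct_exp_log χ hx']
  simp_rw [log_term h hx]
  rw [← Complex.ofReal_tsum, Complex.ofReal_exp, Complex.ofReal_re]

lemma LFunction_pos {χ : DirichletCharacter ℂ N} (h : χ ^ 2 = 1) {x : ℝ} (hx : 1 < x) :
    0 < LFunction χ x := by
  obtain ⟨S, -, hS⟩ := exists_log h hx
  rw [hS]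
  exact Complex.zero_lt_real.mpr (Real.exp_pos S)

omit [NeZero N] in
lemma mul_sq {χ ψ : DirichletCharacter ℂ N} (h₁ : χ ^ 2 = 1) (h₂ : ψ ^ 2 = 1) :
    (χ * ψ) ^ 2 = 1 := by rw [mul_pow, h₁, h₂, one_mul]

lemma FF_pos {χ ψ : DirichletCharacter ℂ N} (h₁ : χ ^ 2 = 1) (h₂ : ψ ^ 2 = 1) :
    0 < FF χ ψ 2 := by
  have e : ((2 : ℝ) : ℂ) = 2 := by norm_num
  have a0 := riemannZeta_pos_of_one_lt (x := 2) one_lt_two
  have a1 := LFunction_pos h₁ (x := 2) one_lt_two
  have a2 := LFunction_pos h₂ (x := 2) one_lt_two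
  have a3 := LFunction_pos (mul_sq h₁ h₂) (x := 2) one_lt_two
  rw [e] at a0 a1 a2 a3
  exact mul_pos (mul_pos (mul_pos a0 a1) a2) a3

/-- **The derivatives of `FF` at `2` alternate.** -/
theorem alternating {χ ψ : DirichletCharacter ℂ N} (h₁ : χ ^ 2 = 1) (h₂ : ψ ^ 2 = 1) (m : ℕ) :
    0 ≤ (-1 : ℂ) ^ m * iteratedDeriv m (FF χ ψ) 2 := by
  induction m using Nat.strong_induction_on with
  | _ m ih =>
    rcases m with _ | m
    · simpa using (FF_pos h₁ h₂).le
    · have hab : LSeries.abscissaOfAbsConv (hcoef χ ψ) < ((2 : ℝ) : EReal) := by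
        have h1 : LSeries.abscissaOfAbsConv (hcoef χ ψ) ≤ ((3 / 2 : ℝ) : EReal) := by
          have := (summable_hcoef χ ψ (s := ((3 / 2 : ℝ) : ℂ))
            (by simp; norm_num)).abscissaOfAbsConv_le
          simpa using this
        refine lt_of_le_of_lt h1 ?_
        norm_num
      have hH : ∀ i, 0 ≤ (-1 : ℂ) ^ i * iteratedDeriv i (LSeries (hcoef χ ψ)) 2 := fun i => by
        have := LSeries.iteratedDeriv_alternating (hcoef_nonneg h₁ h₂) hab i
        simpa using this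
      rw [iteratedDeriv_FF_succ, mul_neg, ← neg_mul, pow_succ, mul_neg_one, neg_neg, mul_sum]
      refine sum_nonneg fun i hi => ?_
      have hi' : i ≤ m := Nat.lt_succ_iff.mp (mem_range.mp hi)
      have h3 := ih (m - i) (by omega)
      have h4 : (-1 : ℂ) ^ m = (-1) ^ i * (-1) ^ (m - i) := by
        rw [← pow_add]
        congr 1
        omega
      have h5 : (-1 : ℂ) ^ m * ((m.choose i : ℂ) * iteratedDeriv i (LSeries (hcoef χ ψ)) 2 *
          iteratedDeriv (m - i) (FF χ ψ) 2) = (m.choose i : ℂ) *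
          (((-1) ^ i * iteratedDeriv i (LSeries (hcoef χ ψ)) 2) *
          ((-1) ^ (m - i) * iteratedDeriv (m - i) (FF χ ψ) 2)) := by
        rw [h4]
        ring
      rw [h5]
      exact mul_nonneg (Nat.cast_nonneg _) (mul_nonneg (hH i) h3)

lemma term_nonneg {a b y : ℝ} (ha : a = 0 ∨ a = 1 ∨ a = -1) (hb : b = 0 ∨ b = 1 ∨ b = -1)
    (hy0 : 0 < y) (hy1 : y < 1) :
    0 ≤ -Real.log (1 - y) + -Real.log (1 - a * y) + -Real.log (1 - b * y) +
      -Real.log (1 - a * b * y) := by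
  have h1 : (0 : ℝ) < 1 - y := by linarith
  have h2 : (0 : ℝ) < 1 - a * y := by rcases ha with rfl | rfl | rfl <;> linarith
  have h3 : (0 : ℝ) < 1 - b * y := by rcases hb with rfl | rfl | rfl <;> linarith
  have h4 : (0 : ℝ) < 1 - a * b * y := by
    rcases ha with rfl | rfl | rfl <;> rcases hb with rfl | rfl | rfl <;> linarith
  have h5 : -Real.log (1 - y) + -Real.log (1 - a * y) + -Real.log (1 - b * y) +
      -Real.log (1 - a * b * y) =
      -Real.log ((1 - y) * (1 - a * y) * (1 - b * y) * (1 - a * b * y)) := by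
    rw [Real.log_mul (by positivity) h4.ne', Real.log_mul (by positivity) h3.ne',
      Real.log_mul h1.ne' h2.ne']
    ring
  rw [h5]
  refine neg_nonneg.mpr (Real.log_nonpos (by positivity) ?_)
  have h6 : (1 - y) * (1 + y) ≤ 1 := by nlinarith
  have h7 : 0 ≤ (1 - y) * (1 + y) := mul_nonneg h1.le (by linarith)
  rcases ha with rfl | rfl | rfl <;> rcases hb with rfl | rfl | rfl
  · nlinarith
  · nlinarith
  · nlinarith
  · nlinarith
  · have h8 : (1 - y) * (1 - y) ≤ 1 := by nlinarith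
    have h9 : 0 ≤ (1 - y) * (1 - y) := mul_nonneg h1.le h1.le
    nlinarith
  · have h8 : ((1 - y) * (1 + y)) * ((1 - y) * (1 + y)) ≤ 1 := mul_le_one₀ h6 h7 h6
    linarith
  · nlinarith
  · have h8 : ((1 - y) * (1 + y)) * ((1 - y) * (1 + y)) ≤ 1 := mul_le_one₀ h6 h7 h6
    linarith
  · have h8 : ((1 - y) * (1 + y)) * ((1 - y) * (1 + y)) ≤ 1 := mul_le_one₀ h6 h7 h6
    linarith

omit [NeZero N] in
lemma re_cases {χ : DirichletCharacter ℂ N} (h : χ ^ 2 = 1) (a : ZMod N) :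
    (χ a).re = 0 ∨ (χ a).re = 1 ∨ (χ a).re = -1 := by
  rcases MulChar.isQuadratic_iff_sq_eq_one.mpr h a with h | h | h <;> rw [h] <;> simp

/-- **`FF χ ψ 2 ≥ 1`.** -/
theorem one_le_FF_two {χ ψ : DirichletCharacter ℂ N} (h₁ : χ ^ 2 = 1) (h₂ : ψ ^ 2 = 1) :
    1 ≤ (FF χ ψ 2).re := by
  obtain ⟨S₀, hS₀, e₀⟩ := exists_log (N := 1) (χ := 1) (one_pow 2) (x := 2) one_lt_two
  obtain ⟨S₁, hS₁, e₁⟩ := exists_log h₁ (x := 2) one_lt_two
  obtain ⟨S₂, hS₂, e₂⟩ := exists_log h₂ (x := 2) one_lt_two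
  obtain ⟨S₃, hS₃, e₃⟩ := exists_log (mul_sq h₁ h₂) (x := 2) one_lt_two
  have e : ((2 : ℝ) : ℂ) = 2 := by norm_num
  rw [DirichletCharacter.LFunction_modOne_eq] at e₀
  rw [e] at e₀ e₁ e₂ e₃
  have hS := ((hS₀.add hS₁).add hS₂).add hS₃
  have h0 : 0 ≤ S₀ + S₁ + S₂ + S₃ := by
    refine HasSum.nonneg ?_ hS
    intro p
    have hp : (1 : ℝ) < (p : ℝ) := by exact_mod_cast p.2.one_lt
    have hy0 : (0 : ℝ) < (p : ℝ) ^ (-(2 : ℝ)) := Real.rpow_pos_of_pos (by linarith) _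
    have hy1 : (p : ℝ) ^ (-(2 : ℝ)) < 1 := Real.rpow_lt_one_of_one_lt_of_neg hp (by norm_num)
    have h6 := term_nonneg (re_cases h₁ (p : ZMod N)) (re_cases h₂ (p : ZMod N)) hy0 hy1
    have h7 : (((χ * ψ : DirichletCharacter ℂ N) (p : ZMod N)).re : ℝ) =
        (χ (p : ZMod N)).re * (ψ (p : ZMod N)).re := by
      rw [MulChar.mul_apply, eq_re h₁ (p : ZMod N), eq_re h₂ (p : ZMod N)]
      simp
    have h8 : ((1 : DirichletCharacter ℂ 1) (p : ZMod 1)).re = 1 := by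
      have : ((p : ℕ) : ZMod 1) = 1 := Subsingleton.elim _ _
      rw [this]
      simp
    rw [h7, h8, one_mul]
    exact h6
  have h1 : FF χ ψ 2 = ((Real.exp (S₀ + S₁ + S₂ + S₃) : ℝ) : ℂ) := by
    rw [FF, e₀, e₁, e₂, e₃, Real.exp_add, Real.exp_add, Real.exp_add]
    push_cast
    ring
  rw [h1, ofReal_re]
  exact Real.one_le_exp h0

end Fermat.Agent.Cor.SiegelL
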