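import Mathlib

/-!
# Bounds for Dirichlet L-functions from the partial sums of the character

Piece (SG1) of the block SIEGEL (Dirichlet L-functions).  For a character `χ ≠ 1` modulo `q` the
partial sums `χ(1) + ... + χ(n)` have absolute value at most `min (n, q)`.  Partial summation and
analytic continuation give `L(s, χ) = s ∫_1^∞ (∑_{n ≤ t} χ(n)) t^(-s-1) dt` for `Re s > 0`, hence
`|L(s, χ)| ≤ |s| q / Re s` (`norm_LFunction_le`) and `|L(1, χ)| ≤ 1 + log q`
(`norm_LFunction_one_le`).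
-/

set_option autoImplicit false

noncomputable section

open Complex Filter Set MeasureTheory
open scoped Topology

namespace Fermat.Agent.Cor.SiegelL

variable {q : ℕ} {χ : DirichletCharacter ℂ q}

/-- The partial sum `χ(1) + ... + χ(n)`. -/
def psum (χ : DirichletCharacter ℂ q) (n : ℕ) : ℂ := ∑ k ∈ Finset.Icc 1 n, χ (k : ZMod q)

theorem sum_range_period [NeZero q] (hχ : χ ≠ 1) (N : ℕ) :
    ∑ i ∈ Finset.range q, χ ((N + i : ℕ) : ZMod q) = 0 := by
  have h1 : ∑ i ∈ Finset.range q, χ ((N + i : ℕ) : ZMod q) = ∑ a : ZMod q, χ ((N : ZMod q) + a) := by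
    refine Finset.sum_bij' (fun i _ => (i : ZMod q)) (fun a _ => a.val) (by simp)
      (fun a _ => Finset.mem_range.mpr (ZMod.val_lt a)) (fun i hi => ?_) (fun a _ => ?_)
      (fun i _ => ?_)
    · exact ZMod.val_cast_of_lt (Finset.mem_range.mp hi)
    · exact ZMod.natCast_zmod_val a
    · rw [Nat.cast_add]
  rw [h1]
  have h2 := Equiv.sum_comp (Equiv.addLeft (N : ZMod q)) fun a => χ a
  simp only [Equiv.coe_addLeft] at h2
  rw [h2]
  exact MulChar.sum_eq_zero_of_ne_one hχ

theorem periodic_sum [NeZero q] (hχ : χ ≠ 1) :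
    Function.Periodic (fun N : ℕ => ∑ k ∈ Finset.range N, χ (k : ZMod q)) q := by
  intro N
  simp only
  rw [Finset.sum_range_add, sum_range_period hχ N, add_zero]

theorem map_zero_eq (hχ : χ ≠ 1) : χ 0 = 0 := by
  refine MulChar.map_nonunit χ fun hu => hχ ?_
  have h01 : (0 : ZMod q) = 1 := by
    rw [isUnit_zero_iff] at hu
    exact hu
  ext a
  have h1 : ((a : (ZMod q)ˣ) : ZMod q) = 1 := by
    rw [← mul_one ((a : (ZMod q)ˣ) : ZMod q), ← h01, mul_zero]
  rw [h1, map_one, map_one]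

theorem psum_eq (hχ : χ ≠ 1) (n : ℕ) : psum χ n = ∑ k ∈ Finset.range (n + 1), χ (k : ZMod q) := by
  rw [psum, Finset.sum_range_succ', Nat.cast_zero, map_zero_eq hχ, add_zero,
    Finset.range_eq_Ico, Finset.sum_Ico_add' (fun k : ℕ => χ (k : ZMod q)) 0 n 1, zero_add]
  rfl

theorem norm_psum_le [NeZero q] (hχ : χ ≠ 1) (n : ℕ) : ‖psum χ n‖ ≤ q := by
  rw [psum_eq hχ]
  have h : (∑ k ∈ Finset.range ((n + 1) % q), χ (k : ZMod q)) =
      ∑ k ∈ Finset.range (n + 1), χ (k : ZMod q) := (periodic_sum hχ).map_mod_nat (n + 1)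
  rw [← h]
  calc ‖∑ k ∈ Finset.range ((n + 1) % q), χ (k : ZMod q)‖
      ≤ ∑ k ∈ Finset.range ((n + 1) % q), ‖χ (k : ZMod q)‖ := norm_sum_le _ _
    _ ≤ ∑ _k ∈ Finset.range ((n + 1) % q), (1 : ℝ) :=
        Finset.sum_le_sum fun k _ => χ.norm_le_one _
    _ = (((n + 1) % q : ℕ) : ℝ) := by simp
    _ ≤ q := by exact_mod_cast (Nat.mod_lt _ (Nat.pos_of_ne_zero (NeZero.ne q))).le

theorem norm_psum_le' (χ : DirichletCharacter ℂ q) (n : ℕ) : ‖psum χ n‖ ≤ n := by
  calc ‖psum χ n‖ ≤ ∑ k ∈ Finset.Icc 1 n, ‖χ (k : ZMod q)‖ := norm_sum_le _ _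
    _ ≤ ∑ _k ∈ Finset.Icc 1 n, (1 : ℝ) := Finset.sum_le_sum fun k _ => χ.norm_le_one _
    _ = n := by simp

theorem measurable_psum : Measurable fun t : ℝ => psum χ ⌊t⌋₊ :=
  (measurable_from_top (f := fun n : ℕ => psum χ n)).comp Nat.measurable_floor

/-- The step function of the partial sums, on `t > 1`. -/
def st (χ : DirichletCharacter ℂ q) (t : ℝ) : ℂ :=
  (Ioi (1 : ℝ)).indicator (fun t => psum χ ⌊t⌋₊) t

theorem measurable_st : Measurable (st χ) :=
  Measurable.indicator measurable_psum measurableSet_Ioi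

theorem norm_st_le [NeZero q] (hχ : χ ≠ 1) (t : ℝ) : ‖st χ t‖ ≤ q :=
  (norm_indicator_le_norm_self _ _).trans (norm_psum_le hχ _)

theorem differentiableAt_mellin_st [NeZero q] (hχ : χ ≠ 1) {s : ℂ} (hs : 0 < s.re) :
    DifferentiableAt ℂ (fun s => mellin (st χ) (-s)) s := by
  have hloc : LocallyIntegrable (st χ) := by
    refine (locallyIntegrable_const (q : ℝ)).mono measurable_st.aestronglyMeasurable ?_
    filter_upwards with t
    simpa using norm_st_le hχ t
  have h : DifferentiableAt ℂ (mellin (st χ)) (-s) := by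
    refine mellin_differentiableAt_of_isBigO_rpow (a := 0) (b := (-s).re - 1)
      (hloc.locallyIntegrableOn _) ?_ ?_ ?_ ?_
    · refine Asymptotics.IsBigO.of_bound q ?_
      filter_upwards with t
      simpa using norm_st_le hχ t
    · simpa using hs
    · refine Asymptotics.IsBigO.of_bound 1 ?_
      have h1 : ∀ᶠ t : ℝ in 𝓝[>] 0, t < 1 :=
        (eventually_lt_nhds (by norm_num : (0 : ℝ) < 1)).filter_mono nhdsWithin_le_nhds
      filter_upwards [h1] with t ht
      rw [st, indicator_of_notMem (by simpa using ht.le), norm_zero]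
      positivity
    · simp
  exact DifferentiableAt.comp (g := mellin (st χ)) (f := fun s : ℂ => -s) s h
    differentiableAt_id.neg

theorem mellin_st (χ : DirichletCharacter ℂ q) (s : ℂ) :
    mellin (st χ) (-s) = ∫ t in Ioi (1 : ℝ), psum χ ⌊t⌋₊ * (t : ℂ) ^ (-(s + 1)) := by
  have h1 : mellin (st χ) (-s) = ∫ t in Ioi (0 : ℝ), (Ioi (1 : ℝ)).indicator
      (fun t => psum χ ⌊t⌋₊ * (t : ℂ) ^ (-(s + 1))) t := by
    rw [mellin]
    refine setIntegral_congr_fun measurableSet_Ioi fun t _ => ?_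
    have e : -s - 1 = -(s + 1) := by ring
    simp only [st, indicator, smul_eq_mul, e]
    split_ifs
    · ring
    · simp
  rw [h1, setIntegral_indicator measurableSet_Ioi]
  congr 2
  ext x
  simp only [mem_inter_iff, mem_Ioi, and_iff_right_iff_imp]
  intro h
  linarith

/-- **Partial summation for `L(s, χ)`, `Re s > 0`.** -/
theorem LFunction_eq_integral [NeZero q] (hχ : χ ≠ 1) {s : ℂ} (hs : 0 < s.re) :
    χ.LFunction s = s * ∫ t in Ioi (1 : ℝ), psum χ ⌊t⌋₊ * (t : ℂ) ^ (-(s + 1)) := by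
  have hU : IsOpen {s : ℂ | 0 < s.re} := isOpen_lt continuous_const continuous_re
  have h1 : AnalyticOnNhd ℂ χ.LFunction {s : ℂ | 0 < s.re} :=
    (DirichletCharacter.differentiable_LFunction hχ).differentiableOn.analyticOnNhd hU
  have h2 : AnalyticOnNhd ℂ (fun s => s * mellin (st χ) (-s)) {s : ℂ | 0 < s.re} := by
    refine DifferentiableOn.analyticOnNhd (fun s hs => ?_) hU
    refine DifferentiableAt.differentiableWithinAt ?_
    exact differentiableAt_id.mul (differentiableAt_mellin_st hχ hs)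
  rw [← mellin_st χ s]
  refine h1.eqOn_of_preconnected_of_eventuallyEq h2 (convex_halfSpace_re_gt 0).isPreconnected
    (z₀ := 2) (by simp) ?_ hs
  filter_upwards [(isOpen_lt continuous_const continuous_re).mem_nhds
    (by norm_num : (1 : ℝ) < (2 : ℂ).re)] with z hz
  have hO : (fun n : ℕ => ∑ k ∈ Finset.Icc 1 n, (fun k : ℕ => χ (k : ZMod q)) k) =O[atTop]
      fun n : ℕ => (n : ℝ) ^ (0 : ℝ) := by
    refine Asymptotics.IsBigO.of_bound q ?_
    filter_upwards with n
    rw [Real.rpow_zero, norm_one, mul_one]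
    exact norm_psum_le hχ n
  have hz0 : (0 : ℝ) < z.re := lt_trans zero_lt_one hz
  rw [χ.LFunction_eq_LSeries hz, mellin_st]
  exact LSeries_eq_mul_integral _ le_rfl hz0 (χ.LSeriesSummable_of_one_lt_re hz) hO

theorem norm_cpow_term {t : ℝ} (ht : 0 < t) (s : ℂ) :
    ‖(t : ℂ) ^ (-(s + 1))‖ = t ^ (-(s.re + 1)) := by
  rw [norm_cpow_eq_rpow_re_of_pos ht]
  simp

theorem norm_LFunction_le [NeZero q] (hχ : χ ≠ 1) {s : ℂ} (hs : 0 < s.re) :
    ‖χ.LFunction s‖ ≤ ‖s‖ * q / s.re := by
  have hint : IntegrableOn (fun t : ℝ => (q : ℝ) * t ^ (-(s.re + 1))) (Ioi 1) :=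
    (integrableOn_Ioi_rpow_of_lt (by linarith) zero_lt_one).const_mul _
  have h1 : ∫ t in Ioi (1 : ℝ), (q : ℝ) * t ^ (-(s.re + 1)) = q / s.re := by
    rw [integral_const_mul, integral_Ioi_rpow_of_lt (by linarith) zero_lt_one, Real.one_rpow]
    have : -(s.re + 1) + 1 = -s.re := by ring
    rw [this]
    field_simp
  rw [LFunction_eq_integral hχ hs, norm_mul, mul_div_assoc]
  refine mul_le_mul_of_nonneg_left ?_ (norm_nonneg s)
  rw [← h1]
  refine norm_integral_le_of_norm_le hint ?_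
  filter_upwards [self_mem_ae_restrict measurableSet_Ioi] with t ht
  have ht0 : (0 : ℝ) < t := lt_trans zero_lt_one ht
  rw [norm_mul, norm_cpow_term ht0]
  exact mul_le_mul_of_nonneg_right (norm_psum_le hχ _) (Real.rpow_nonneg ht0.le _)

theorem norm_LFunction_one_le [NeZero q] (hχ : χ ≠ 1) : ‖χ.LFunction 1‖ ≤ 1 + Real.log q := by
  have hq1 : (1 : ℝ) ≤ q := by exact_mod_cast Nat.one_le_iff_ne_zero.mpr (NeZero.ne q)
  have hq0 : (0 : ℝ) < q := by linarith
  rw [LFunction_eq_integral hχ (by simp), one_mul]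
  -- the integrand
  have hbd : ∀ t : ℝ, 0 < t → ‖psum χ ⌊t⌋₊ * (t : ℂ) ^ (-((1 : ℂ) + 1))‖ ≤
      min t q * t ^ (-2 : ℝ) := by
    intro t ht
    rw [norm_mul, norm_cpow_term ht]
    have e : (-((1 : ℂ).re + 1)) = (-2 : ℝ) := by norm_num
    rw [e]
    refine mul_le_mul_of_nonneg_right (le_min ?_ (norm_psum_le hχ _)) (Real.rpow_nonneg ht.le _)
    exact (norm_psum_le' χ _).trans (Nat.floor_le ht.le)
  have hintq : IntegrableOn (fun t : ℝ => (q : ℝ) * t ^ (-2 : ℝ)) (Ioi 1) :=
    (integrableOn_Ioi_rpow_of_lt (by norm_num) zero_lt_one).const_mul _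
  have hint : IntegrableOn (fun t : ℝ => psum χ ⌊t⌋₊ * (t : ℂ) ^ (-((1 : ℂ) + 1))) (Ioi 1) := by
    refine Integrable.mono' hintq ?_ ?_
    · refine (measurable_psum.aestronglyMeasurable).mul ?_
      exact (integrableOn_Ioi_cpow_of_lt (by norm_num) zero_lt_one).aestronglyMeasurable
    · filter_upwards [self_mem_ae_restrict measurableSet_Ioi] with t ht
      have ht0 : (0 : ℝ) < t := lt_trans zero_lt_one ht
      exact (hbd t ht0).trans
        (mul_le_mul_of_nonneg_right (min_le_right _ _) (Real.rpow_nonneg ht0.le _))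
  have hsplit : Ioi (1 : ℝ) = Ioc 1 (q : ℝ) ∪ Ioi (q : ℝ) := (Ioc_union_Ioi_eq_Ioi hq1).symm
  rw [hsplit, setIntegral_union (Ioc_disjoint_Ioi le_rfl) measurableSet_Ioi
    (hint.mono_set (by rw [hsplit]; exact subset_union_left))
    (hint.mono_set (by rw [hsplit]; exact subset_union_right))]
  refine (norm_add_le _ _).trans ?_
  rw [add_comm]
  refine add_le_add ?_ ?_
  · have hI : ∫ t in Ioi (q : ℝ), (q : ℝ) * t ^ (-2 : ℝ) = 1 := by
      rw [integral_const_mul, integral_Ioi_rpow_of_lt (by norm_num) hq0]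
      have : (-2 : ℝ) + 1 = -1 := by norm_num
      rw [this, Real.rpow_neg_one]
      field_simp
    rw [← hI]
    refine norm_integral_le_of_norm_le (hintq.mono_set (Ioi_subset_Ioi hq1)) ?_
    filter_upwards [self_mem_ae_restrict measurableSet_Ioi] with t ht
    have ht0 : (0 : ℝ) < t := lt_trans hq0 ht
    exact (hbd t ht0).trans
      (mul_le_mul_of_nonneg_right (min_le_right _ _) (Real.rpow_nonneg ht0.le _))
  · have hI : ∫ t in Ioc (1 : ℝ) q, t⁻¹ = Real.log q := by
      rw [← intervalIntegral.integral_of_le hq1, integral_inv_of_pos zero_lt_one hq0, div_one]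
    have hII : IntegrableOn (fun t : ℝ => t⁻¹) (Ioc 1 (q : ℝ)) := by
      have := intervalIntegral.intervalIntegrable_inv (μ := volume) (f := fun t : ℝ => t)
        (a := 1) (b := q) (fun x hx => by
          rw [uIcc_of_le hq1] at hx
          have := hx.1
          intro h0
          have h0' : x = 0 := h0
          linarith) (continuousOn_id)
      exact (intervalIntegrable_iff_integrableOn_Ioc_of_le hq1).mp this
    rw [← hI]
    refine norm_integral_le_of_norm_le hII ?_
    filter_upwards [self_mem_ae_restrict measurableSet_Ioc] with t ht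
    have ht0 : (0 : ℝ) < t := lt_trans zero_lt_one ht.1
    refine (hbd t ht0).trans
      ((mul_le_mul_of_nonneg_right (min_le_left _ _) (Real.rpow_nonneg ht0.le _)).trans_eq ?_)
    have e : (-2 : ℝ) = -1 + -1 := by norm_num
    rw [e, Real.rpow_add ht0, Real.rpow_neg_one]
    field_simp

end Fermat.Agent.Cor.SiegelL

end
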