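import Mathlib

/-!
# The number of roots of unity of a number field

A number field of degree `n` contains at most `(2 n + 1)²` roots of unity.
-/

set_option autoImplicit false

namespace Fermat.Agent.Cor.SiegelL

open NumberField NumberField.Units

lemma card_divisors_le_two_sqrt (w : ℕ) : w.divisors.card ≤ 2 * Nat.sqrt w := by
  classical
  have h1 : w.divisors ⊆ (Finset.Icc 1 (Nat.sqrt w)) ∪
      (Finset.Icc 1 (Nat.sqrt w)).image (fun d => w / d) := by
    intro d hd
    have hdw := Nat.dvd_of_mem_divisors hd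
    have hw0 : w ≠ 0 := (Nat.mem_divisors.mp hd).2
    have hd0 : 0 < d := Nat.pos_of_mem_divisors hd
    obtain ⟨e, he⟩ := hdw
    have he0 : 0 < e := by
      rcases Nat.eq_zero_or_pos e with h | h
      · rw [h, mul_zero] at he
        exact absurd he hw0
      · exact h
    rw [Finset.mem_union, Finset.mem_image]
    rcases le_or_gt d (Nat.sqrt w) with h | h
    · exact Or.inl (Finset.mem_Icc.mpr ⟨hd0, h⟩)
    · refine Or.inr ⟨e, Finset.mem_Icc.mpr ⟨he0, ?_⟩, ?_⟩
      · by_contra hcon
        rw [not_le] at hcon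
        have h2 : (Nat.sqrt w + 1) * (Nat.sqrt w + 1) ≤ d * e := Nat.mul_le_mul h hcon
        have h3 := Nat.lt_succ_sqrt w
        rw [← he] at h2
        have h4 : w < (Nat.sqrt w + 1) * (Nat.sqrt w + 1) := h3
        omega
      · rw [he]
        exact Nat.mul_div_cancel _ he0
  refine (Finset.card_le_card h1).trans ((Finset.card_union_le _ _).trans ?_)
  have h2 : ((Finset.Icc 1 (Nat.sqrt w)).image (fun d => w / d)).card ≤
      (Finset.Icc 1 (Nat.sqrt w)).card := Finset.card_image_le
  rw [Nat.card_Icc] at h2 ⊢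
  omega

/-- `w ≤ (2 φ(w) + 1)²` -/
theorem le_totient_sq (w : ℕ) : w ≤ (2 * w.totient + 1) ^ 2 := by
  rcases Nat.eq_zero_or_pos w with rfl | hw
  · simp
  have h1 : w ≤ w.divisors.card * w.totient := by
    calc w = ∑ d ∈ w.divisors, d.totient := (Nat.sum_totient w).symm
      _ ≤ ∑ _d ∈ w.divisors, w.totient := Finset.sum_le_sum fun d hd =>
          Nat.le_of_dvd (Nat.totient_pos.mpr hw)
            (Nat.totient_dvd_of_dvd (Nat.dvd_of_mem_divisors hd))
      _ = w.divisors.card * w.totient := by rw [Finset.sum_const, smul_eq_mul]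
  have h2 := Nat.mul_le_mul_right w.totient (card_divisors_le_two_sqrt w)
  have h3 : Nat.sqrt w * Nat.sqrt w ≤ w := Nat.sqrt_le w
  have h4 : 0 < Nat.sqrt w := Nat.sqrt_pos.mpr hw
  have h5 : Nat.sqrt w * Nat.sqrt w ≤ Nat.sqrt w * (2 * w.totient) := by
    calc Nat.sqrt w * Nat.sqrt w ≤ w := h3
      _ ≤ w.divisors.card * w.totient := h1
      _ ≤ 2 * Nat.sqrt w * w.totient := h2
      _ = _ := by ring
  have h6 : Nat.sqrt w ≤ 2 * w.totient := Nat.le_of_mul_le_mul_left h5 h4
  have h7 : w < (Nat.sqrt w + 1) * (Nat.sqrt w + 1) := Nat.lt_succ_sqrt w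
  calc w ≤ (Nat.sqrt w + 1) * (Nat.sqrt w + 1) := h7.le
    _ ≤ (2 * w.totient + 1) * (2 * w.totient + 1) :=
        Nat.mul_le_mul (by omega) (by omega)
    _ = _ := (sq _).symm

variable (K : Type*) [Field K] [NumberField K]

theorem exists_isPrimitiveRoot_torsionOrder : ∃ ζ : K, IsPrimitiveRoot ζ (torsionOrder K) := by
  obtain ⟨g, hg⟩ := IsCyclic.exists_generator (α := torsion K)
  have h1 : orderOf g = torsionOrder K := by
    rw [torsionOrder]
    exact orderOf_eq_card_of_forall_mem_zpowers hg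
  have h2 : orderOf (((g : (𝓞 K)ˣ) : 𝓞 K) : K) = torsionOrder K := by
    rw [← h1, ← Subgroup.orderOf_coe g, ← orderOf_units]
    exact orderOf_injective (algebraMap (𝓞 K) K).toMonoidHom
      (FaithfulSMul.algebraMap_injective (𝓞 K) K) _
  exact ⟨_, h2 ▸ IsPrimitiveRoot.orderOf _⟩

theorem totient_torsionOrder_le : (torsionOrder K).totient ≤ Module.finrank ℚ K := by
  obtain ⟨ζ, hζ⟩ := exists_isPrimitiveRoot_torsionOrder K
  rw [← Polynomial.natDegree_cyclotomic (torsionOrder K) ℚ,
    Polynomial.cyclotomic_eq_minpoly_rat hζ (torsionOrder_pos K)]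
  exact minpoly.natDegree_le ζ

/-- **A number field of degree `n` contains at most `(2 n + 1)²` roots of unity.** -/
theorem torsionOrder_le : torsionOrder K ≤ (2 * Module.finrank ℚ K + 1) ^ 2 :=
  (le_totient_sq _).trans (Nat.pow_le_pow_left (by have := totient_torsionOrder_le K; omega) 2)

end Fermat.Agent.Cor.SiegelL
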