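import Fermat.Agent.Corollaries.SiegelL.Zero
import Fermat.Agent.Corollaries.SiegelL.Torsion
import Fermat.Agent.Corollaries.ZetaK.AbelField

/-!
# The Brauer-Siegel theorem for abelian number fields

`K` is an abelian number field of degree `n`, `d` its discriminant, `h` its class number, `R` its
regulator.

* `residue_bounds`: for every `ε > 0` there are `c, C > 0` with
  `c ^ n |d| ^ (-ε) ≤ Res_{s = 1} ζ_K ≤ C ^ n |d| ^ ε` for all abelian `K`;
* `class_regulator_bounds`: `c ^ n |d| ^ (1/2 - ε) ≤ h R ≤ C ^ n |d| ^ (1/2 + ε)`;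
* `brauer_siegel`: `log (h R) / log √|d| → 1` along every sequence of abelian fields with
  `|d| → ∞` and `n / log |d| → 0`; `brauer_siegel_of_degree`: for abelian fields of fixed degree.
-/

set_option autoImplicit false

namespace Fermat.Agent.Cor.SiegelL

open Complex Filter Topology NumberField NumberField.InfinitePlace NumberField.Units
open Fermat.Agent.Cor.Abel

universe u

section field

variable (K : Type u) [Field K] [NumberField K] [IsAbelianGalois ℚ K]

/-- The absolute value of the discriminant as a real number. -/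
noncomputable def absD (K : Type u) [Field K] [NumberField K] : ℝ := ((discr K).natAbs : ℝ)

omit [IsAbelianGalois ℚ K] in
lemma one_le_absD : 1 ≤ absD K := by
  have h : 0 < (discr K).natAbs := Int.natAbs_pos.mpr (discr_ne_zero K)
  rw [absD]
  exact_mod_cast h

omit [IsAbelianGalois ℚ K] in
lemma absD_eq : absD K = |(discr K : ℝ)| := by
  rw [absD, Nat.cast_natAbs, Int.cast_abs]

lemma absD_eq_prod : absD K = ∏ χ ∈ (dirChars K).erase 1, (χ.conductor : ℝ) := by
  rw [absD, natAbs_discr_eq_prod K, ← Finset.mul_prod_erase _ _ (one_mem_dirChars K),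
    DirichletCharacter.conductor_one, one_mul]
  push_cast
  rfl

lemma residue_eq_prod_norm : dedekindZeta_residue K =
    ∏ χ ∈ (dirChars K).erase 1, ‖χ.primitiveCharacter.LFunction 1‖ := by
  rw [← norm_prod, ← residue_eq_prod_dirChars K, Complex.norm_real, Real.norm_eq_abs,
    abs_of_pos (dedekindZeta_residue_pos K)]

lemma card_erase_le : ((dirChars K).erase 1).card ≤ Module.finrank ℚ K := by
  rw [← card_dirChars K]
  exact Finset.card_le_card (Finset.erase_subset _ _)

end field

/-- **The residue of the zeta function of an abelian number field.** -/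
theorem residue_bounds {ε : ℝ} (hε : 0 < ε) : ∃ c C : ℝ, 0 < c ∧ 0 < C ∧
    ∀ (K : Type u) [Field K] [NumberField K] [IsAbelianGalois ℚ K],
      c ^ Module.finrank ℚ K * absD K ^ (-ε) ≤ dedekindZeta_residue K ∧
      dedekindZeta_residue K ≤ C ^ Module.finrank ℚ K * absD K ^ ε := by
  obtain ⟨c, hc, h⟩ := norm_lower hε
  set c' : ℝ := min c 1 with hc'
  have hc'0 : 0 < c' := lt_min hc one_pos
  have hc'1 : c' ≤ 1 := min_le_right _ _
  set C : ℝ := 1 + 1 / ε with hC
  have hC1 : 1 ≤ C := by
    have : 0 < 1 / ε := by positivity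
    linarith
  refine ⟨c', C, hc'0, by linarith, fun K _ _ _ => ⟨?_, ?_⟩⟩
  · calc c' ^ Module.finrank ℚ K * absD K ^ (-ε)
        ≤ c' ^ ((dirChars K).erase 1).card * absD K ^ (-ε) :=
          mul_le_mul_of_nonneg_right (pow_le_pow_of_le_one hc'0.le hc'1 (card_erase_le K))
            (Real.rpow_nonneg (by linarith [one_le_absD K]) _)
      _ = ∏ χ ∈ (dirChars K).erase 1, (c' * (χ.conductor : ℝ) ^ (-ε)) := by
          rw [Finset.prod_mul_distrib, Finset.prod_const, absD_eq_prod,
            Real.finsetProd_rpow _ _ (fun χ _ => Nat.cast_nonneg _)]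
      _ ≤ ∏ χ ∈ (dirChars K).erase 1, ‖χ.primitiveCharacter.LFunction 1‖ := by
          refine Finset.prod_le_prod (fun χ _ => by positivity) fun χ hχ => ?_
          have h1 := h _ _ χ.primitiveCharacter_isPrimitive
            (primitive_ne_one (Finset.ne_of_mem_erase hχ))
          refine (mul_le_mul_of_nonneg_right (min_le_left c 1) ?_).trans h1
          positivity
      _ = dedekindZeta_residue K := (residue_eq_prod_norm K).symm
  · calc dedekindZeta_residue K
        = ∏ χ ∈ (dirChars K).erase 1, ‖χ.primitiveCharacter.LFunction 1‖ :=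
          residue_eq_prod_norm K
      _ ≤ ∏ χ ∈ (dirChars K).erase 1, (C * (χ.conductor : ℝ) ^ ε) :=
          Finset.prod_le_prod (fun χ _ => norm_nonneg _) fun χ hχ =>
            norm_upper hε (primitive_ne_one (Finset.ne_of_mem_erase hχ))
      _ = C ^ ((dirChars K).erase 1).card * absD K ^ ε := by
          rw [Finset.prod_mul_distrib, Finset.prod_const, absD_eq_prod,
            Real.finsetProd_rpow _ _ (fun χ _ => Nat.cast_nonneg _)]
      _ ≤ C ^ Module.finrank ℚ K * absD K ^ ε :=
          mul_le_mul_of_nonneg_right (pow_le_pow_right₀ hC1 (card_erase_le K))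
            (Real.rpow_nonneg (by linarith [one_le_absD K]) _)

section formula

variable (K : Type u) [Field K] [NumberField K]

/-- The class number formula, solved for `h R`. -/
lemma class_mul_regulator : (classNumber K : ℝ) * regulator K =
    dedekindZeta_residue K * (torsionOrder K * absD K ^ (1 / 2 : ℝ)) /
      (2 ^ nrRealPlaces K * (2 * Real.pi) ^ nrComplexPlaces K) := by
  have h1 : Real.sqrt |(discr K : ℝ)| = absD K ^ (1 / 2 : ℝ) := by
    rw [absD_eq, Real.sqrt_eq_rpow]
  have h2 : (0 : ℝ) < absD K ^ (1 / 2 : ℝ) :=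
    Real.rpow_pos_of_pos (by linarith [one_le_absD K]) _
  have h3 : (0 : ℝ) < torsionOrder K := Nat.cast_pos.mpr (torsionOrder_pos K)
  have h4 : (0 : ℝ) < 2 ^ nrRealPlaces K * (2 * Real.pi) ^ nrComplexPlaces K := by
    have := Real.pi_pos
    positivity
  rw [dedekindZeta_residue_def, h1]
  field_simp

lemma gamma_factor_le : (2 : ℝ) ^ nrRealPlaces K * (2 * Real.pi) ^ nrComplexPlaces K ≤
    (2 * Real.pi) ^ Module.finrank ℚ K := by
  have hπ : (2 : ℝ) ≤ 2 * Real.pi := by
    have := Real.pi_gt_three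
    linarith
  have h1 : nrRealPlaces K + nrComplexPlaces K ≤ Module.finrank ℚ K := by
    have := card_add_two_mul_card_eq_rank K
    omega
  calc (2 : ℝ) ^ nrRealPlaces K * (2 * Real.pi) ^ nrComplexPlaces K
      ≤ (2 * Real.pi) ^ nrRealPlaces K * (2 * Real.pi) ^ nrComplexPlaces K := by gcongr
    _ = (2 * Real.pi) ^ (nrRealPlaces K + nrComplexPlaces K) := (pow_add _ _ _).symm
    _ ≤ _ := pow_le_pow_right₀ (by linarith) h1

lemma one_le_gamma_factor :
    (1 : ℝ) ≤ 2 ^ nrRealPlaces K * (2 * Real.pi) ^ nrComplexPlaces K := by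
  have hπ : (1 : ℝ) ≤ 2 * Real.pi := by
    have := Real.pi_gt_three
    linarith
  exact one_le_mul_of_one_le_of_one_le (one_le_pow₀ one_le_two) (one_le_pow₀ hπ)

lemma torsionOrder_le_pow : (torsionOrder K : ℝ) ≤ 9 ^ Module.finrank ℚ K := by
  have h1 : ∀ n : ℕ, 2 * n + 1 ≤ 3 ^ n := by
    intro n
    induction n with
    | zero => simp
    | succ n ih =>
      rw [pow_succ]
      have : 1 ≤ 3 ^ n := Nat.one_le_pow _ _ (by norm_num)
      omega
  have h2 : torsionOrder K ≤ 9 ^ Module.finrank ℚ K := by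
    calc torsionOrder K ≤ (2 * Module.finrank ℚ K + 1) ^ 2 := torsionOrder_le K
      _ ≤ (3 ^ Module.finrank ℚ K) ^ 2 := Nat.pow_le_pow_left (h1 _) 2
      _ = 9 ^ Module.finrank ℚ K := by rw [← pow_mul, mul_comm, pow_mul]; norm_num
  exact_mod_cast h2

end formula

/-- **Class number times regulator of an abelian number field**: for every `ε > 0` there are
`c, C > 0` with `c ^ n |d| ^ (1/2 - ε) ≤ h R ≤ C ^ n |d| ^ (1/2 + ε)` for every abelian number
field of degree `n` and discriminant `d`. -/
theorem class_regulator_bounds {ε : ℝ} (hε : 0 < ε) : ∃ c C : ℝ, 0 < c ∧ 0 < C ∧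
    ∀ (K : Type u) [Field K] [NumberField K] [IsAbelianGalois ℚ K],
      c ^ Module.finrank ℚ K * |(discr K : ℝ)| ^ (1 / 2 - ε) ≤ classNumber K * regulator K ∧
      classNumber K * regulator K ≤ C ^ Module.finrank ℚ K * |(discr K : ℝ)| ^ (1 / 2 + ε) := by
  obtain ⟨c, C, hc, hC, h⟩ := residue_bounds.{u} hε
  have hπ : (0 : ℝ) < 2 * Real.pi := by
    have := Real.pi_pos
    positivity
  refine ⟨c / (2 * Real.pi), C * 9, by positivity, by positivity, fun K _ _ _ => ?_⟩
  obtain ⟨hl, hu⟩ := h K
  rw [← absD_eq]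
  have hD := one_le_absD K
  have hD0 : 0 < absD K := by linarith
  have hDh : (0 : ℝ) < absD K ^ (1 / 2 : ℝ) := Real.rpow_pos_of_pos hD0 _
  have hw : (1 : ℝ) ≤ torsionOrder K := by
    exact_mod_cast Nat.one_le_iff_ne_zero.mpr (torsionOrder_ne_zero K)
  have hg0 := one_le_gamma_factor K
  have hgp : (0 : ℝ) < 2 ^ nrRealPlaces K * (2 * Real.pi) ^ nrComplexPlaces K := by linarith
  rw [class_mul_regulator K]
  refine ⟨?_, ?_⟩
  · rw [le_div_iff₀ hgp]
    have e1 : absD K ^ (1 / 2 - ε) = absD K ^ (-ε) * absD K ^ (1 / 2 : ℝ) := by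
      rw [← Real.rpow_add hD0]
      congr 1
      ring
    calc (c / (2 * Real.pi)) ^ Module.finrank ℚ K * absD K ^ (1 / 2 - ε) *
          (2 ^ nrRealPlaces K * (2 * Real.pi) ^ nrComplexPlaces K)
        ≤ (c / (2 * Real.pi)) ^ Module.finrank ℚ K * absD K ^ (1 / 2 - ε) *
          (2 * Real.pi) ^ Module.finrank ℚ K :=
          mul_le_mul_of_nonneg_left (gamma_factor_le K) (by positivity)
      _ = (c ^ Module.finrank ℚ K * absD K ^ (-ε)) * (1 * absD K ^ (1 / 2 : ℝ)) := by
          rw [e1, div_pow]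
          field_simp
      _ ≤ dedekindZeta_residue K * (torsionOrder K * absD K ^ (1 / 2 : ℝ)) := by
          have h0 := (dedekindZeta_residue_pos K).le
          gcongr
  · rw [div_le_iff₀ hgp]
    have e1 : absD K ^ (1 / 2 + ε) = absD K ^ ε * absD K ^ (1 / 2 : ℝ) := by
      rw [← Real.rpow_add hD0]
      congr 1
      ring
    have hX : (0 : ℝ) ≤ (C * 9) ^ Module.finrank ℚ K * absD K ^ (1 / 2 + ε) := by positivity
    calc dedekindZeta_residue K * (torsionOrder K * absD K ^ (1 / 2 : ℝ))
        ≤ (C ^ Module.finrank ℚ K * absD K ^ ε) *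
          (9 ^ Module.finrank ℚ K * absD K ^ (1 / 2 : ℝ)) := by
          have h9 := torsionOrder_le_pow K
          gcongr
      _ = (C * 9) ^ Module.finrank ℚ K * absD K ^ (1 / 2 + ε) * 1 := by
          rw [e1, mul_pow]
          ring
      _ ≤ _ := mul_le_mul_of_nonneg_left hg0 hX

/-- **The Brauer-Siegel theorem for abelian number fields**: along every sequence (filter) of
abelian number fields `K i` of degree `n i` and discriminant `d i` with `|d i| → ∞` and
`n i / log |d i| → 0` one has `log (h R) / log √|d| → 1`. -/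
theorem brauer_siegel {ι : Type*} {l : Filter ι} (K : ι → Type u) [∀ i, Field (K i)]
    [∀ i, NumberField (K i)] [∀ i, IsAbelianGalois ℚ (K i)]
    (hd : Tendsto (fun i => |(discr (K i) : ℝ)|) l atTop)
    (hn : Tendsto (fun i => (Module.finrank ℚ (K i) : ℝ) / Real.log |(discr (K i) : ℝ)|) l
      (𝓝 0)) :
    Tendsto (fun i => Real.log (classNumber (K i) * regulator (K i)) /
      Real.log (Real.sqrt |(discr (K i) : ℝ)|)) l (𝓝 1) := by
  -- the two-sided estimate for every `ε`
  have key : ∀ ε : ℝ, 0 < ε → ∃ a b : ℝ, ∀ᶠ i in l,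
      1 - 2 * ε + 2 * a * ((Module.finrank ℚ (K i) : ℝ) / Real.log |(discr (K i) : ℝ)|) ≤
        Real.log (classNumber (K i) * regulator (K i)) /
          Real.log (Real.sqrt |(discr (K i) : ℝ)|) ∧
      Real.log (classNumber (K i) * regulator (K i)) /
          Real.log (Real.sqrt |(discr (K i) : ℝ)|) ≤
        1 + 2 * ε + 2 * b * ((Module.finrank ℚ (K i) : ℝ) / Real.log |(discr (K i) : ℝ)|) := by
    intro ε hε
    obtain ⟨c, C, hc, hC, h⟩ := class_regulator_bounds.{u} hε
    refine ⟨Real.log c, Real.log C, ?_⟩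
    filter_upwards [hd.eventually_gt_atTop 1] with i hi
    obtain ⟨hl, hu⟩ := h (K i)
    set D : ℝ := |(discr (K i) : ℝ)| with hD
    have hD0 : 0 < D := by linarith
    have hlog : 0 < Real.log D := Real.log_pos hi
    have hX : 0 < (classNumber (K i) : ℝ) * regulator (K i) :=
      mul_pos (Nat.cast_pos.mpr (classNumber_pos (K i))) (regulator_pos (K i))
    have hl' := Real.log_le_log (by positivity) hl
    have hu' := Real.log_le_log hX hu
    have elog : ∀ {x : ℝ} (_ : 0 < x) (n : ℕ) (t : ℝ),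
        Real.log (x ^ n * D ^ t) = n * Real.log x + t * Real.log D := fun {x} hx n t => by
      rw [Real.log_mul (pow_pos hx n).ne' (Real.rpow_pos_of_pos hD0 t).ne', Real.log_pow,
        Real.log_rpow hD0]
    rw [elog hc] at hl'
    rw [elog hC] at hu'
    rw [Real.log_sqrt hD0.le, le_div_iff₀ (by positivity), div_le_iff₀ (by positivity)]
    refine ⟨le_trans (le_of_eq ?_) hl', hu'.trans (le_of_eq ?_)⟩
    · field_simp
      ring
    · field_simp
      ring
  rw [tendsto_order]
  refine ⟨fun x hx => ?_, fun x hx => ?_⟩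
  · obtain ⟨a, b, h⟩ := key ((1 - x) / 4) (by linarith)
    have h1 : Tendsto (fun i => 1 - 2 * ((1 - x) / 4) + 2 * a *
        ((Module.finrank ℚ (K i) : ℝ) / Real.log |(discr (K i) : ℝ)|)) l
        (𝓝 (1 - 2 * ((1 - x) / 4) + 2 * a * 0)) :=
      tendsto_const_nhds.add (tendsto_const_nhds.mul hn)
    have h2 := h1.eventually_const_lt (show x < 1 - 2 * ((1 - x) / 4) + 2 * a * 0 by linarith)
    filter_upwards [h, h2] with i hi hi2 using hi2.trans_le hi.1
  · obtain ⟨a, b, h⟩ := key ((x - 1) / 4) (by linarith)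
    have h1 : Tendsto (fun i => 1 + 2 * ((x - 1) / 4) + 2 * b *
        ((Module.finrank ℚ (K i) : ℝ) / Real.log |(discr (K i) : ℝ)|)) l
        (𝓝 (1 + 2 * ((x - 1) / 4) + 2 * b * 0)) :=
      tendsto_const_nhds.add (tendsto_const_nhds.mul hn)
    have h2 := h1.eventually_lt_const (show 1 + 2 * ((x - 1) / 4) + 2 * b * 0 < x by linarith)
    filter_upwards [h, h2] with i hi hi2 using hi.2.trans_lt hi2

/-- **Brauer-Siegel for abelian fields of fixed degree.** -/
theorem brauer_siegel_of_degree {ι : Type*} {l : Filter ι} (n : ℕ) (K : ι → Type u)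
    [∀ i, Field (K i)] [∀ i, NumberField (K i)] [∀ i, IsAbelianGalois ℚ (K i)]
    (hK : ∀ i, Module.finrank ℚ (K i) = n)
    (hd : Tendsto (fun i => |(discr (K i) : ℝ)|) l atTop) :
    Tendsto (fun i => Real.log (classNumber (K i) * regulator (K i)) /
      Real.log (Real.sqrt |(discr (K i) : ℝ)|)) l (𝓝 1) := by
  refine brauer_siegel K hd ?_
  simp_rw [hK]
  exact Tendsto.const_div_atTop (Real.tendsto_log_atTop.comp hd) _

end Fermat.Agent.Cor.SiegelL
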