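import Fermat.Agent.Corollaries.ZetaK.AbelField

/-!
# The maximal real subfield of an imaginary abelian field

Let `K` be a totally complex abelian number field, `K⁺` its maximal real subfield and `dirChars K`
the set of its Dirichlet characters.  The characters of `K⁺` are the even characters of `K`; hence
the residue of `ζ_{K⁺}` is `∏ L(1, χ)` over the even `χ ≠ 1` and `|d_{K⁺}| = ∏ f_χ` over the even
`χ` in `dirChars K`.
-/

set_option autoImplicit false

noncomputable section

namespace Fermat.Agent.Cor.SiegelL

open NumberField NumberField.InfinitePlace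
open Fermat.Agent.Cor.Abel

universe u

section plus

variable (K : Type u) [Field K] [NumberField K] [IsAbelianGalois ℚ K]

/-- The embedding of `K⁺` into the cyclotomic field. -/
def embPlus : maximalRealSubfield K →ₐ[ℚ] CyclotomicField (level K) ℚ :=
  (emb K).comp (maximalRealSubfield K).subtype.toRatAlgHom

/-- The image of `K⁺` in the cyclotomic field. -/
def imgPlus : IntermediateField ℚ (CyclotomicField (level K) ℚ) := (embPlus K).fieldRange

/-- The isomorphism of `K⁺` with its image in the cyclotomic field. -/
def toImgPlus : maximalRealSubfield K ≃+* imgPlus K :=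
  (AlgEquiv.ofInjectiveField (embPlus K)).toRingEquiv

theorem imgPlus_le : imgPlus K ≤ img K := by
  rintro _ ⟨x, rfl⟩
  exact ⟨(x : K), rfl⟩

theorem chars_imgPlus_subset : chars (level K) (imgPlus K) ⊆ dirChars K := by
  intro χ hχ
  rw [dirChars, mem_chars]
  rw [mem_chars] at hχ
  intro σ hσ
  exact hχ σ (IntermediateField.fixingSubgroup_le (imgPlus_le K) hσ)

theorem even_of_mem_chars_imgPlus {χ : DirichletCharacter ℂ (level K)}
    (hχ : χ ∈ chars (level K) (imgPlus K)) : χ.Even := by
  classical
  have h1 := numEven_eq (n := level K) (imgPlus K)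
  have h2 := card_chars (n := level K) (imgPlus K)
  have h3 : nrComplexPlaces (imgPlus K) = 0 := by
    rw [← nrComplexPlaces_congr (toImgPlus K)]
    exact IsTotallyReal.nrComplexPlaces_eq_zero _
  have h4 := card_add_two_mul_card_eq_rank (imgPlus K)
  have h5 : ((chars (level K) (imgPlus K)).filter fun χ => χ.Even).card =
      (chars (level K) (imgPlus K)).card := by
    have h6 : numEven (n := level K) (imgPlus K) =
        ((chars (level K) (imgPlus K)).filter fun χ => χ.Even).card := by
      rw [numEven]
    rw [← h6, h1, h2]
    omega
  exact (Finset.card_filter_eq_iff.mp h5) χ hχ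

variable [IsTotallyComplex K]

open scoped Classical in
/-- **The characters of `K⁺` are the even characters of `K`.** -/
theorem chars_imgPlus_eq : chars (level K) (imgPlus K) = (dirChars K).filter fun χ => χ.Even := by
  have hsub : chars (level K) (imgPlus K) ⊆ (dirChars K).filter fun χ => χ.Even := fun χ hχ =>
    Finset.mem_filter.mpr ⟨chars_imgPlus_subset K hχ, even_of_mem_chars_imgPlus K hχ⟩
  refine Finset.eq_of_subset_of_card_le hsub ?_
  have h1 := card_even_dirChars K
  have h2 := card_chars (n := level K) (imgPlus K)
  have h3 : Module.finrank ℚ (imgPlus K) = Module.finrank ℚ (maximalRealSubfield K) :=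
    (LinearEquiv.finrank_eq (AlgEquiv.ofInjectiveField (embPlus K)).toLinearEquiv).symm
  have h4 : Module.finrank ℚ (maximalRealSubfield K) * Module.finrank (maximalRealSubfield K) K =
      Module.finrank ℚ K := Module.finrank_mul_finrank _ _ _
  have h5 : Module.finrank (maximalRealSubfield K) K = 2 :=
    Algebra.IsQuadraticExtension.finrank_eq_two _ _
  rw [h5] at h4
  have h6 := card_add_two_mul_card_eq_rank K
  have h7 : nrRealPlaces K = 0 := IsTotallyComplex.nrRealPlaces_eq_zero K
  rw [h1, h2, h3]
  omega

open scoped Classical in
theorem residue_plus : (dedekindZeta_residue (maximalRealSubfield K) : ℂ) =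
    ∏ χ ∈ ((dirChars K).filter fun χ => χ.Even).erase 1,
      χ.primitiveCharacter.LFunction 1 := by
  rw [residue_congr (toImgPlus K), residue_eq_prod (n := level K) (imgPlus K),
    chars_imgPlus_eq K]

open scoped Classical in
theorem natAbs_discr_plus : (discr (maximalRealSubfield K)).natAbs =
    ∏ χ ∈ (dirChars K).filter fun χ => χ.Even, χ.conductor := by
  rw [discr_eq_discr_of_ringEquiv _ (toImgPlus K), natAbs_discr_eq (n := level K) (imgPlus K),
    chars_imgPlus_eq K]

end plus

end Fermat.Agent.Cor.SiegelL

end
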