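import Fermat.Agent.Corollaries.SiegelL.BrauerSiegel
import Fermat.Agent.Corollaries.SiegelL.Plus

/-!
# A lower bound for the class number of an imaginary abelian field

For a totally complex abelian number field `K` with maximal real subfield `K⁺`:
`h(K) = Q w h(K⁺) ∏ (f_χ^(1/2) |L(1, χ)| / (2 π))`, the product over the odd characters of `K`
(`classNumber_eq`, the analytic formula for the relative class number), where `Q ≥ 1`, `w ≥ 1`.
-/

set_option autoImplicit false

namespace Fermat.Agent.Cor.SiegelL

open Complex NumberField NumberField.InfinitePlace NumberField.Units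
open Fermat.Agent.Cor.Abel

universe u

/-- The factor of an odd character in the formula for the relative class number. -/
noncomputable def fac {n : ℕ} [NeZero n] (χ : DirichletCharacter ℂ n) : ℝ :=
  (χ.conductor : ℝ) ^ (1 / 2 : ℝ) * ‖χ.primitiveCharacter.LFunction 1‖ / (2 * Real.pi)

lemma torsionOrder_of_totallyReal (F : Type u) [Field F] [NumberField F] [IsTotallyReal F] :
    torsionOrder F = 2 := by
  obtain ⟨ζ, hζ⟩ := exists_isPrimitiveRoot_torsionOrder F
  have h0 : torsionOrder F ≤ 2 := by
    by_contra h
    rw [not_le] at h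
    have h1 := IsPrimitiveRoot.nrRealPlaces_eq_zero_of_two_lt h hζ
    have h2 := card_add_two_mul_card_eq_rank F
    have h3 : nrComplexPlaces F = 0 := IsTotallyReal.nrComplexPlaces_eq_zero F
    have h4 : 0 < Module.finrank ℚ F := Module.finrank_pos
    omega
  obtain ⟨k, hk⟩ := even_torsionOrder F
  have h5 := torsionOrder_pos F
  omega

section field

variable (K : Type u) [Field K] [NumberField K] [IsAbelianGalois ℚ K] [IsTotallyComplex K]

open scoped Classical in
/-- The odd characters of `K`. -/
noncomputable def oddChars : Finset (DirichletCharacter ℂ (level K)) :=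
  (dirChars K).filter fun χ => ¬ χ.Even

omit [IsTotallyComplex K] in
lemma ne_one_of_mem_oddChars {χ : DirichletCharacter ℂ (level K)} (h : χ ∈ oddChars K) :
    χ ≠ 1 := by
  classical
  rintro rfl
  rw [oddChars, Finset.mem_filter] at h
  exact h.2 (by rw [DirichletCharacter.Even]; exact MulChar.one_apply (by simp))

omit [IsTotallyComplex K] in
lemma card_oddChars : (oddChars K).card = nrComplexPlaces K := by
  rw [oddChars, card_odd_dirChars]

lemma residue_eq_mul_odd : dedekindZeta_residue K =
    dedekindZeta_residue (maximalRealSubfield K) *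
      ∏ χ ∈ oddChars K, ‖χ.primitiveCharacter.LFunction 1‖ := by
  classical
  have h1 : dedekindZeta_residue (maximalRealSubfield K) =
      ∏ χ ∈ ((dirChars K).filter fun χ => χ.Even).erase 1,
        ‖χ.primitiveCharacter.LFunction 1‖ := by
    rw [← norm_prod, ← residue_plus K, Complex.norm_real, Real.norm_eq_abs,
      abs_of_pos (dedekindZeta_residue_pos _)]
  have h2 : (dirChars K).erase 1 =
      (((dirChars K).filter fun χ => χ.Even).erase 1) ∪ oddChars K := by
    ext χ
    rw [Finset.mem_union, Finset.mem_erase, Finset.mem_erase, Finset.mem_filter]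
    constructor
    · rintro ⟨h, h'⟩
      by_cases he : χ.Even
      · exact Or.inl ⟨h, h', he⟩
      · exact Or.inr (by rw [oddChars, Finset.mem_filter]; exact ⟨h', he⟩)
    · rintro (⟨h, h', he⟩ | h)
      · exact ⟨h, h'⟩
      · exact ⟨ne_one_of_mem_oddChars K h, (Finset.mem_filter.mp h).1⟩
  have h3 : Disjoint (((dirChars K).filter fun χ => χ.Even).erase 1) (oddChars K) := by
    rw [Finset.disjoint_left]
    intro χ h h'
    exact (Finset.mem_filter.mp h').2 (Finset.mem_filter.mp (Finset.mem_of_mem_erase h)).2
  rw [residue_eq_prod_norm, h1, h2, Finset.prod_union h3]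

lemma absD_eq_mul_odd : absD K =
    absD (maximalRealSubfield K) * ∏ χ ∈ oddChars K, (χ.conductor : ℝ) := by
  classical
  have h1 : (discr K).natAbs = (discr (maximalRealSubfield K)).natAbs *
      ∏ χ ∈ oddChars K, χ.conductor := by
    rw [natAbs_discr_eq_prod K, natAbs_discr_plus K, oddChars, Finset.prod_filter_mul_prod_filter_not]
  rw [absD, absD, h1]
  push_cast
  rfl

/-- **The relative class number formula of an imaginary abelian field**:
`h(K) = Q w h(K⁺) ∏ f_χ^(1/2) |L(1, χ)| / (2 π)`, the product over the odd characters of `K`, where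
`w` is the number of roots of unity and `Q` Hasse's unit index. -/
theorem classNumber_eq : (classNumber K : ℝ) = IsCMField.indexRealUnits K * torsionOrder K *
    (∏ χ ∈ oddChars K, fac χ) * classNumber (maximalRealSubfield K) := by
  have hπ : (0 : ℝ) < 2 * Real.pi := by
    have := Real.pi_pos
    positivity
  set m : ℕ := nrComplexPlaces K with hm
  set P : ℝ := ∏ χ ∈ oddChars K, ‖χ.primitiveCharacter.LFunction 1‖ with hP
  set q : ℝ := ∏ χ ∈ oddChars K, (χ.conductor : ℝ) with hq
  have hq0 : 0 ≤ q := Finset.prod_nonneg fun _ _ => Nat.cast_nonneg _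
  -- the product
  have e0 : ∏ χ ∈ oddChars K, fac χ = q ^ (1 / 2 : ℝ) * P / (2 * Real.pi) ^ m := by
    simp only [fac]
    rw [Finset.prod_div_distrib, Finset.prod_mul_distrib, Finset.prod_const, card_oddChars,
      Real.finsetProd_rpow _ _ (fun χ _ => Nat.cast_nonneg _)]
  -- the field K
  have hr : nrRealPlaces K = 0 := IsTotallyComplex.nrRealPlaces_eq_zero K
  have hR : 0 < regulator K := regulator_pos K
  have hR' : 0 < regulator (maximalRealSubfield K) := regulator_pos _
  have e1 : (classNumber K : ℝ) * regulator K * (2 * Real.pi) ^ m =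
      dedekindZeta_residue K * (torsionOrder K * absD K ^ (1 / 2 : ℝ)) := by
    rw [class_mul_regulator K, hr, pow_zero, one_mul, ← hm]
    field_simp
  -- the field K⁺
  have hc' : nrComplexPlaces (maximalRealSubfield K) = 0 :=
    IsTotallyReal.nrComplexPlaces_eq_zero _
  have hcard : nrRealPlaces (maximalRealSubfield K) = m := by
    have h1 := IsCMField.card_infinitePlace_eq_card_infinitePlace K
    have h2 := card_eq_nrRealPlaces_add_nrComplexPlaces K
    have h3 := card_eq_nrRealPlaces_add_nrComplexPlaces (maximalRealSubfield K)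
    omega
  have hm1 : rank K + 1 = m := by
    have h2 := card_eq_nrRealPlaces_add_nrComplexPlaces K
    have h3 : 0 < Fintype.card (InfinitePlace K) := Fintype.card_pos
    rw [rank]
    omega
  have hw' : (torsionOrder (maximalRealSubfield K) : ℝ) = 2 := by
    exact_mod_cast torsionOrder_of_totallyReal (maximalRealSubfield K)
  have hD' : 0 < absD (maximalRealSubfield K) ^ (1 / 2 : ℝ) :=
    Real.rpow_pos_of_pos (by linarith [one_le_absD (maximalRealSubfield K)]) _
  have e2 : 2 ^ m * regulator (maximalRealSubfield K) * classNumber (maximalRealSubfield K) =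
      2 * (dedekindZeta_residue (maximalRealSubfield K) *
        absD (maximalRealSubfield K) ^ (1 / 2 : ℝ)) := by
    have h1 := class_mul_regulator (maximalRealSubfield K)
    rw [hc', pow_zero, mul_one, hcard, eq_div_iff (by positivity), hw'] at h1
    linear_combination h1
  have hQ : (1 : ℝ) ≤ IsCMField.indexRealUnits K := by
    rcases IsCMField.indexRealUnits_eq_one_or_two K with h | h <;> rw [h] <;> norm_num
  have e3 : IsCMField.indexRealUnits K * regulator K * 2 =
      2 ^ m * regulator (maximalRealSubfield K) := by
    have h1 := IsCMField.regulator_div_regulator_eq_two_pow_mul_indexRealUnits_inv K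
    rw [div_eq_iff hR'.ne'] at h1
    rw [h1, ← hm1, pow_succ]
    field_simp
  have e4 : absD K ^ (1 / 2 : ℝ) =
      absD (maximalRealSubfield K) ^ (1 / 2 : ℝ) * q ^ (1 / 2 : ℝ) := by
    rw [absD_eq_mul_odd, Real.mul_rpow (by linarith [one_le_absD (maximalRealSubfield K)]) hq0]
  have e5 := residue_eq_mul_odd K
  rw [← hP] at e5
  -- conclusion
  rw [e0]
  have hX : 0 < regulator K * (2 * Real.pi) ^ m := by positivity
  refine mul_right_cancel₀ hX.ne' ?_
  have h6 : IsCMField.indexRealUnits K * regulator K * classNumber (maximalRealSubfield K) =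
      dedekindZeta_residue (maximalRealSubfield K) *
        absD (maximalRealSubfield K) ^ (1 / 2 : ℝ) := by
    have h7 : (IsCMField.indexRealUnits K * regulator K * 2) *
        (classNumber (maximalRealSubfield K) : ℝ) =
        (2 ^ m * regulator (maximalRealSubfield K)) * classNumber (maximalRealSubfield K) := by
      rw [e3]
    linarith
  calc (classNumber K : ℝ) * (regulator K * (2 * Real.pi) ^ m)
      = (classNumber K : ℝ) * regulator K * (2 * Real.pi) ^ m := by ring
    _ = dedekindZeta_residue K * (torsionOrder K * absD K ^ (1 / 2 : ℝ)) := e1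
    _ = (dedekindZeta_residue (maximalRealSubfield K) *
        absD (maximalRealSubfield K) ^ (1 / 2 : ℝ)) * (torsionOrder K * (q ^ (1 / 2 : ℝ) * P)) := by
        rw [e5, e4]
        ring
    _ = (IsCMField.indexRealUnits K * regulator K * classNumber (maximalRealSubfield K)) *
        (torsionOrder K * (q ^ (1 / 2 : ℝ) * P)) := by rw [h6]
    _ = _ := by field_simp

omit [IsAbelianGalois ℚ K] [IsTotallyComplex K] in
lemma fac_nonneg {n : ℕ} [NeZero n] (χ : DirichletCharacter ℂ n) : 0 ≤ fac χ := by
  have := Real.pi_pos
  rw [fac]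
  positivity

/-- **The relative class number of an imaginary abelian field**:
`h(K) / h(K⁺) ≥ ∏ f_χ^(1/2) |L(1, χ)| / (2 π)` over the odd characters of `K`. -/
theorem prod_fac_mul_le_classNumber :
    (∏ χ ∈ oddChars K, fac χ) * classNumber (maximalRealSubfield K) ≤ classNumber K := by
  have hQ : (1 : ℝ) ≤ IsCMField.indexRealUnits K := by
    rcases IsCMField.indexRealUnits_eq_one_or_two K with h | h <;> rw [h] <;> norm_num
  have hw : (1 : ℝ) ≤ torsionOrder K := by exact_mod_cast torsionOrder_pos K
  have h1 : (1 : ℝ) ≤ IsCMField.indexRealUnits K * torsionOrder K :=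
    one_le_mul_of_one_le_of_one_le hQ hw
  have h2 : 0 ≤ (∏ χ ∈ oddChars K, fac χ) * classNumber (maximalRealSubfield K) :=
    mul_nonneg (Finset.prod_nonneg fun χ _ => fac_nonneg χ) (Nat.cast_nonneg _)
  calc (∏ χ ∈ oddChars K, fac χ) * classNumber (maximalRealSubfield K)
      ≤ (IsCMField.indexRealUnits K * torsionOrder K) *
        ((∏ χ ∈ oddChars K, fac χ) * classNumber (maximalRealSubfield K)) :=
        le_mul_of_one_le_left h2 h1
    _ = classNumber K := by rw [classNumber_eq K]; ring

end field

end Fermat.Agent.Cor.SiegelL
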