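import Fermat.Agent.Corollaries.SiegelL.Key

/-!
# Siegel's theorem

For every `ε > 0` there is `c > 0` with `L(1, χ) ≥ c q^(-ε)` for every real primitive Dirichlet
character `χ` of conductor `q > 1`.
-/

set_option autoImplicit false

namespace Fermat.Agent.Cor.SiegelL

open Complex Set
open DirichletCharacter (LFunction changeLevel)

/-! ### Lifting to a common level -/

section lift

variable {q₁ q : ℕ} [NeZero q₁] [NeZero q]

/-- the lift of a character mod `q₁` to the level `q₁ q` -/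
noncomputable def liftL (q : ℕ) (χ : DirichletCharacter ℂ q₁) : DirichletCharacter ℂ (q₁ * q) :=
  changeLevel (Nat.dvd_mul_right q₁ q) χ

/-- the lift of a character mod `q` to the level `q₁ q` -/
noncomputable def liftR (q₁ : ℕ) (ψ : DirichletCharacter ℂ q) : DirichletCharacter ℂ (q₁ * q) :=
  changeLevel (Nat.dvd_mul_left q q₁) ψ

omit [NeZero q₁] [NeZero q] in
lemma liftL_sq {χ : DirichletCharacter ℂ q₁} (h : χ ^ 2 = 1) : liftL q χ ^ 2 = 1 := by
  rw [liftL, ← map_pow, h, map_one]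

omit [NeZero q₁] [NeZero q] in
lemma liftR_sq {ψ : DirichletCharacter ℂ q} (h : ψ ^ 2 = 1) : liftR q₁ ψ ^ 2 = 1 := by
  rw [liftR, ← map_pow, h, map_one]

lemma liftL_ne_one {χ : DirichletCharacter ℂ q₁} (h : χ ≠ 1) : liftL q χ ≠ 1 := fun h' =>
  h ((DirichletCharacter.changeLevel_eq_one_iff _).mp h')

lemma liftR_ne_one {ψ : DirichletCharacter ℂ q} (h : ψ ≠ 1) : liftR q₁ ψ ≠ 1 := fun h' =>
  h ((DirichletCharacter.changeLevel_eq_one_iff _).mp h')

lemma lift_mul_ne_one {χ : DirichletCharacter ℂ q₁} {ψ : DirichletCharacter ℂ q}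
    (h : χ ^ 2 = 1) (hψ : ψ.IsPrimitive) (hq : q₁ < q) : liftL q χ * liftR q₁ ψ ≠ 1 := by
  intro h1
  have h2 : liftR q₁ ψ = liftL q χ := by
    have h3 := liftL_sq (q := q) h
    rw [pow_two] at h3
    calc liftR q₁ ψ = (liftL q χ * liftL q χ) * liftR q₁ ψ := by rw [h3, one_mul]
      _ = liftL q χ * (liftL q χ * liftR q₁ ψ) := mul_assoc _ _ _
      _ = liftL q χ := by rw [h1, mul_one]
  have h4 : (liftR q₁ ψ).conductor = q := by
    rw [liftR, DirichletCharacter.conductor_changeLevel]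
    exact hψ
  have h5 : (liftL q χ).conductor ≤ q₁ := by
    rw [liftL, DirichletCharacter.conductor_changeLevel]
    exact Nat.le_of_dvd (Nat.pos_of_ne_zero (NeZero.ne q₁))
      (DirichletCharacter.conductor_dvd_level χ)
  rw [← h2, h4] at h5
  omega

/-- `|L(1, ψ')| ≤ 2^ω(q₁) |L(1, ψ)|` -/
lemma norm_liftR_le {ψ : DirichletCharacter ℂ q} (hψ : ψ ≠ 1) :
    ‖LFunction (liftR q₁ ψ) 1‖ ≤ ‖LFunction ψ 1‖ * 2 ^ q₁.primeFactors.card := by
  rw [liftR, DirichletCharacter.LFunction_changeLevel _ ψ (.inl hψ), norm_mul, norm_prod]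
  refine mul_le_mul_of_nonneg_left ?_ (norm_nonneg _)
  have hN : (q₁ * q).primeFactors = q₁.primeFactors ∪ q.primeFactors :=
    Nat.primeFactors_mul (NeZero.ne q₁) (NeZero.ne q)
  calc ∏ p ∈ (q₁ * q).primeFactors, ‖(1 : ℂ) - ψ p * (p : ℂ) ^ (-(1 : ℂ))‖
      ≤ ∏ p ∈ (q₁ * q).primeFactors, (if p ∈ q₁.primeFactors then (2 : ℝ) else 1) := by
        refine Finset.prod_le_prod (fun p _ => norm_nonneg _) fun p hp => ?_
        have hpp := Nat.prime_of_mem_primeFactors hp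
        by_cases h : p ∈ q₁.primeFactors
        · rw [if_pos h]
          have h1 : ‖ψ p * (p : ℂ) ^ (-(1 : ℂ))‖ ≤ 1 := by
            rw [norm_mul, Complex.cpow_neg_one, norm_inv, Complex.norm_natCast]
            have h2 : (1 : ℝ) ≤ p := by exact_mod_cast hpp.one_lt.le
            have h3 : ((p : ℝ))⁻¹ ≤ 1 := inv_le_one_of_one_le₀ h2
            exact mul_le_one₀ (ψ.norm_le_one _) (by positivity) h3
          calc ‖(1 : ℂ) - ψ p * (p : ℂ) ^ (-(1 : ℂ))‖
              ≤ ‖(1 : ℂ)‖ + ‖ψ p * (p : ℂ) ^ (-(1 : ℂ))‖ := norm_sub_le _ _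
            _ ≤ 2 := by rw [norm_one]; linarith
        · rw [if_neg h]
          have h1 : p ∈ q.primeFactors := by
            rw [hN, Finset.mem_union] at hp
            exact hp.resolve_left h
          have h2 : ψ (p : ZMod q) = 0 := by
            refine ψ.map_nonunit fun hu => ?_
            have h3 : Nat.Coprime p q := (ZMod.isUnit_iff_coprime p q).mp hu
            exact (Nat.Prime.coprime_iff_not_dvd hpp).mp h3 (Nat.dvd_of_mem_primeFactors h1)
          rw [h2, zero_mul, sub_zero, norm_one]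
    _ = 2 ^ ((q₁ * q).primeFactors ∩ q₁.primeFactors).card := by
        rw [Finset.prod_ite_mem, Finset.prod_const]
    _ ≤ 2 ^ q₁.primeFactors.card :=
        pow_le_pow_right₀ one_le_two (Finset.card_le_card Finset.inter_subset_right)

end lift

/-! ### The test point -/

/-- the non-principal character mod `4` -/
noncomputable def chiFour : DirichletCharacter ℂ 4 := ZMod.χ₄.ringHomComp (Int.castRingHom ℂ)

lemma chiFour_sq : chiFour ^ 2 = 1 := (ZMod.isQuadratic_χ₄.comp (Int.castRingHom ℂ)).sq_eq_one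

lemma chiFour_ne_one : chiFour ≠ 1 := by
  intro h
  have h1 : chiFour (3 : ZMod 4) = 1 := by
    rw [h]
    exact MulChar.one_apply (by decide)
  have h2 : chiFour (3 : ZMod 4) = -1 := by
    have h3 : ZMod.χ₄ (3 : ZMod 4) = -1 := by decide
    simp [chiFour, MulChar.ringHomComp_apply, h3]
  rw [h2] at h1
  norm_num at h1

theorem exists_test {δ : ℝ} (h0 : 0 < δ) (h1 : δ ≤ 1 / 8) :
    ∃ (q₁ : ℕ) (_ : NeZero q₁) (χ₁ : DirichletCharacter ℂ q₁) (σ : ℝ), χ₁ ≠ 1 ∧ χ₁ ^ 2 = 1 ∧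
      1 - δ ≤ σ ∧ σ < 1 ∧ ∀ (q : ℕ) [NeZero q] (ψ : DirichletCharacter ℂ q), q₁ < q →
        ψ.IsPrimitive → ψ ≠ 1 → ψ ^ 2 = 1 → (FF (liftL q χ₁) (liftR q₁ ψ) σ).re ≤ 0 := by
  by_cases H : ∃ (q₁ : ℕ) (_ : NeZero q₁) (χ₁ : DirichletCharacter ℂ q₁) (σ : ℝ), χ₁ ≠ 1 ∧
      χ₁ ^ 2 = 1 ∧ 1 - δ ≤ σ ∧ σ < 1 ∧ LFunction χ₁ σ = 0
  · obtain ⟨q₁, hq₁, χ₁, σ, n₁, s₁, hσ1, hσ2, hz⟩ := H
    refine ⟨q₁, hq₁, χ₁, σ, n₁, s₁, hσ1, hσ2, fun q _ ψ _ _ _ _ => ?_⟩
    have h2 : LFunction (liftL q χ₁) σ = 0 := by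
      rw [liftL, DirichletCharacter.LFunction_changeLevel _ χ₁ (.inl n₁), hz, zero_mul]
    rw [FF, h2]
    simp
  · refine ⟨4, inferInstance, chiFour, 1 - δ, chiFour_ne_one, chiFour_sq, le_rfl, by linarith,
      fun q _ ψ hq hψ nψ sψ => ?_⟩
    refine FF_nonpos (liftL_sq chiFour_sq) (liftR_sq sψ) (liftL_ne_one chiFour_ne_one)
      (liftR_ne_one nψ) (lift_mul_ne_one chiFour_sq hψ hq) (by linarith) (by linarith) ?_
    intro φ nφ sφ x hx1 hx2 hz
    exact H ⟨4 * q, inferInstance, φ, x, nφ, sφ, hx1, hx2, hz⟩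

/-! ### Finitely many moduli -/

theorem exists_lower_of_le (Q : ℕ) : ∃ c : ℝ, 0 < c ∧ ∀ (q : ℕ) [NeZero q]
    (χ : DirichletCharacter ℂ q), q ≤ Q → χ ≠ 1 → χ ^ 2 = 1 → c ≤ (LFunction χ 1).re := by
  classical
  induction Q with
  | zero =>
    refine ⟨1, one_pos, fun q hq χ h => ?_⟩
    exact absurd (Nat.le_zero.mp h) hq.out
  | succ Q ih =>
    obtain ⟨c, hc, h⟩ := ih
    set g : DirichletCharacter ℂ (Q + 1) → ℝ := fun χ =>
      if χ ≠ 1 ∧ χ ^ 2 = 1 then (LFunction χ 1).re else 1 with hg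
    have hgpos : ∀ χ, 0 < g χ := by
      intro χ
      simp only [hg]
      split_ifs with h1
      · exact LFunction_one_re_pos h1.1 h1.2
      · exact one_pos
    obtain ⟨χ₀, hχ₀⟩ := Finite.exists_min g
    refine ⟨min c (g χ₀), lt_min hc (hgpos χ₀), fun q hq χ hqQ n s => ?_⟩
    rcases Nat.lt_or_ge q (Q + 1) with h1 | h1
    · exact (min_le_left _ _).trans (h q χ (by omega) n s)
    · obtain rfl : q = Q + 1 := by omega
      have h2 := hχ₀ χ
      have h3 : g χ = (LFunction χ 1).re := by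
        simp only [hg]
        rw [if_pos ⟨n, s⟩]
      rw [← h3]
      exact (min_le_right _ _).trans h2

/-! ### The theorem -/

lemma one_add_log_le {a x : ℝ} (ha : 0 < a) (hx : 1 ≤ x) :
    1 + Real.log x ≤ (1 + 1 / a) * x ^ a := by
  have h1 := Real.log_le_rpow_div (by linarith : 0 ≤ x) ha
  have h2 : 1 ≤ x ^ a := Real.one_le_rpow hx ha.le
  calc 1 + Real.log x ≤ x ^ a + x ^ a / a := add_le_add h2 h1
    _ = (1 + 1 / a) * x ^ a := by ring

/-- **Siegel's theorem** (1935): for every `ε > 0` there is a constant `c > 0` such that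
`L(1, χ) ≥ c q^(-ε)` for every real primitive Dirichlet character `χ ≠ 1` of conductor `q`. -/
theorem siegel {ε : ℝ} (hε : 0 < ε) : ∃ c : ℝ, 0 < c ∧ ∀ (q : ℕ) [NeZero q]
    (χ : DirichletCharacter ℂ q), χ.IsPrimitive → χ ≠ 1 → χ ^ 2 = 1 →
    c * (q : ℝ) ^ (-ε) ≤ (LFunction χ 1).re := by
  obtain ⟨c₁, hc₁, hkey⟩ := key
  obtain ⟨q₁, hq₁, χ₁, σ, n₁, s₁, hσ1, hσ2, htest⟩ :=
    exists_test (δ := min (ε / 24) (1 / 8)) (by positivity) (min_le_right _ _)
  obtain ⟨c₂, hc₂, hfin⟩ := exists_lower_of_le q₁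
  have hσε : 12 * (1 - σ) ≤ ε / 2 := by
    have := min_le_left (ε / 24) (1 / 8 : ℝ)
    linarith
  have hσ7 : 7 / 8 ≤ σ := by
    have := min_le_right (ε / 24) (1 / 8 : ℝ)
    linarith
  have hσ3 : 0 < 1 - σ := by linarith
  have hq₁' : (1 : ℝ) ≤ q₁ := by exact_mod_cast Nat.one_le_iff_ne_zero.mpr (NeZero.ne q₁)
  set A : ℝ := (1 + 1 / (ε / 4)) ^ 2 with hA
  have hA0 : 0 < A := by positivity
  set c₃ : ℝ := c₁ * (1 - σ) * (q₁ : ℝ) ^ (-ε) / (A * 2 ^ q₁.primeFactors.card) with hc₃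
  have hc₃0 : 0 < c₃ := by positivity
  refine ⟨min c₂ c₃, lt_min hc₂ hc₃0, fun q _ ψ hψ nψ sψ => ?_⟩
  have hq' : (1 : ℝ) ≤ q := by exact_mod_cast Nat.one_le_iff_ne_zero.mpr (NeZero.ne q)
  have hqε : (0 : ℝ) < (q : ℝ) ^ (-ε) := Real.rpow_pos_of_pos (by linarith) _
  rcases Nat.lt_or_ge q₁ q with hq | hq
  · -- the generic case
    refine (mul_le_mul_of_nonneg_right (min_le_right c₂ c₃) hqε.le).trans ?_
    have k := hkey (q₁ * q) (liftL q χ₁) (liftR q₁ ψ) (liftL_sq s₁) (liftR_sq sψ)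
      (liftL_ne_one n₁) (liftR_ne_one nψ) (lift_mul_ne_one s₁ hψ hq) σ hσ7 hσ2
      (htest q ψ hq hψ nψ sψ)
    set N : ℝ := ((q₁ * q : ℕ) : ℝ) with hN
    have hNeq : N = (q₁ : ℝ) * q := by rw [hN]; push_cast; rfl
    have hN1 : 1 ≤ N := by rw [hNeq]; nlinarith
    have b₁ : (LFunction (liftL q χ₁) 1).re ≤ 1 + Real.log N :=
      (Complex.re_le_norm _).trans (norm_LFunction_one_le (liftL_ne_one n₁))
    have b₃ : (LFunction (liftL q χ₁ * liftR q₁ ψ) 1).re ≤ 1 + Real.log N :=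
      (Complex.re_le_norm _).trans (norm_LFunction_one_le (lift_mul_ne_one s₁ hψ hq))
    have p₁ := LFunction_one_re_pos (liftL_ne_one (q := q) n₁) (liftL_sq s₁)
    have p₂ := LFunction_one_re_pos (liftR_ne_one (q₁ := q₁) nψ) (liftR_sq sψ)
    have p₃ := LFunction_one_re_pos (lift_mul_ne_one s₁ hψ hq) (mul_sq (liftL_sq s₁) (liftR_sq sψ))
    have p₄ := LFunction_one_re_pos nψ sψ
    have b₂ : (LFunction (liftR q₁ ψ) 1).re ≤
        (LFunction ψ 1).re * 2 ^ q₁.primeFactors.card := by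
      have h1 := (Complex.re_le_norm _).trans (norm_liftR_le (q₁ := q₁) nψ)
      have h2 : ‖LFunction ψ 1‖ = (LFunction ψ 1).re := by
        rw [LFunction_one_ofReal nψ sψ, Complex.norm_real, ofReal_re, Real.norm_eq_abs,
          abs_of_pos p₄]
      rwa [h2] at h1
    have hlog0 : 0 ≤ 1 + Real.log N := by
      have := Real.log_nonneg hN1
      linarith
    have hlog : (1 + Real.log N) * (1 + Real.log N) ≤ A * N ^ (ε / 2) := by
      have h1 := one_add_log_le (a := ε / 4) (by linarith) hN1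
      have h2 : N ^ (ε / 4) * N ^ (ε / 4) = N ^ (ε / 2) := by
        rw [← Real.rpow_add (by linarith)]
        congr 1
        ring
      calc (1 + Real.log N) * (1 + Real.log N)
          ≤ ((1 + 1 / (ε / 4)) * N ^ (ε / 4)) * ((1 + 1 / (ε / 4)) * N ^ (ε / 4)) :=
            mul_le_mul h1 h1 hlog0 (hlog0.trans h1)
        _ = A * N ^ (ε / 2) := by rw [← h2, hA]; ring
    have hup : c₁ * (1 - σ) * N ^ (-(12 * (1 - σ))) ≤
        (A * N ^ (ε / 2)) * ((LFunction ψ 1).re * 2 ^ q₁.primeFactors.card) := by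
      calc c₁ * (1 - σ) * N ^ (-(12 * (1 - σ)))
          ≤ (LFunction (liftL q χ₁) 1).re * (LFunction (liftR q₁ ψ) 1).re *
            (LFunction (liftL q χ₁ * liftR q₁ ψ) 1).re := k
        _ ≤ (1 + Real.log N) * (LFunction (liftR q₁ ψ) 1).re * (1 + Real.log N) := by
            gcongr
        _ = ((1 + Real.log N) * (1 + Real.log N)) * (LFunction (liftR q₁ ψ) 1).re := by ring
        _ ≤ _ := mul_le_mul hlog b₂ p₂.le (by positivity)
    have hNε : N ^ (-ε) * N ^ (ε / 2) ≤ N ^ (-(12 * (1 - σ))) := by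
      rw [← Real.rpow_add (by linarith)]
      apply Real.rpow_le_rpow_of_exponent_le hN1
      linarith
    have hNε2 : N ^ (-ε) = (q₁ : ℝ) ^ (-ε) * (q : ℝ) ^ (-ε) := by
      rw [hNeq, Real.mul_rpow (by linarith) (by linarith)]
    have hNp : 0 < N ^ (ε / 2) := Real.rpow_pos_of_pos (by linarith) _
    have h5 : c₁ * (1 - σ) * N ^ (-ε) ≤
        A * ((LFunction ψ 1).re * 2 ^ q₁.primeFactors.card) := by
      have h6 : c₁ * (1 - σ) * (N ^ (-ε) * N ^ (ε / 2)) ≤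
          (A * N ^ (ε / 2)) * ((LFunction ψ 1).re * 2 ^ q₁.primeFactors.card) :=
        (mul_le_mul_of_nonneg_left hNε (by positivity)).trans hup
      have h7 : (c₁ * (1 - σ) * N ^ (-ε)) * N ^ (ε / 2) ≤
          (A * ((LFunction ψ 1).re * 2 ^ q₁.primeFactors.card)) * N ^ (ε / 2) := by
        calc (c₁ * (1 - σ) * N ^ (-ε)) * N ^ (ε / 2)
            = c₁ * (1 - σ) * (N ^ (-ε) * N ^ (ε / 2)) := by ring
          _ ≤ _ := h6
          _ = _ := by ring
      exact le_of_mul_le_mul_right h7 hNp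
    rw [hNε2] at h5
    rw [hc₃, div_mul_eq_mul_div, div_le_iff₀ (by positivity)]
    calc c₁ * (1 - σ) * (q₁ : ℝ) ^ (-ε) * (q : ℝ) ^ (-ε)
        = c₁ * (1 - σ) * ((q₁ : ℝ) ^ (-ε) * (q : ℝ) ^ (-ε)) := by ring
      _ ≤ _ := h5
      _ = _ := by ring
  · -- the finitely many small moduli
    have h1 : (q : ℝ) ^ (-ε) ≤ 1 := Real.rpow_le_one_of_one_le_of_nonpos hq' (by linarith)
    have h2 := hfin q ψ hq nψ sψ
    have h3 : 0 < min c₂ c₃ := lt_min hc₂ hc₃0
    calc min c₂ c₃ * (q : ℝ) ^ (-ε) ≤ min c₂ c₃ * 1 := mul_le_mul_of_nonneg_left h1 h3.le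
      _ ≤ c₂ := by rw [mul_one]; exact min_le_left _ _
      _ ≤ _ := h2

end Fermat.Agent.Cor.SiegelL
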