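import Fermat.Agent.Corollaries.SiegelL.Near
import Fermat.Agent.Corollaries.SiegelL.Main

/-!
# Lower bounds for `|L(1, χ)|` for all characters

For a character `χ` with `χ² ≠ 1` the inequality
`|ζ(1 + x)^3 L(1 + x, χ)^4 L(1 + x, χ²)| ≥ 1` gives an effective lower bound for `|L(1, χ)|`;
together with Siegel's theorem: `|L(1, χ)| ≥ c(ε) q^(-ε)` for every primitive `χ ≠ 1`.
-/

set_option autoImplicit false

namespace Fermat.Agent.Cor.SiegelL

open Complex Set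

section triv

variable {q : ℕ} [NeZero q]

omit [NeZero q] in
lemma norm_one_sub_cpow_le {p : ℕ} (hp : p.Prime) {x : ℝ} (hx : 0 < x) :
    ‖(1 : ℂ) - (p : ℂ) ^ (-(1 + x : ℂ))‖ ≤ 1 := by
  have hp0 : (0 : ℝ) ≤ (p : ℝ) := Nat.cast_nonneg _
  have hp1 : (1 : ℝ) ≤ (p : ℝ) := by exact_mod_cast hp.one_lt.le
  have h1 : (p : ℂ) ^ (-(1 + x : ℂ)) = (((p : ℝ) ^ (-(1 + x)) : ℝ) : ℂ) := by
    rw [Complex.ofReal_cpow hp0]
    push_cast
    rfl
  have h2 : (p : ℝ) ^ (-(1 + x)) ≤ 1 := Real.rpow_le_one_of_one_le_of_nonpos hp1 (by linarith)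
  have h3 : 0 ≤ (p : ℝ) ^ (-(1 + x)) := Real.rpow_nonneg hp0 _
  rw [h1, ← Complex.ofReal_one, ← Complex.ofReal_sub, Complex.norm_real, Real.norm_eq_abs,
    abs_of_nonneg (by linarith)]
  linarith

lemma norm_trivChar_le {x : ℝ} (hx : 0 < x) (hx1 : x ≤ 1) :
    ‖DirichletCharacter.LFunctionTrivChar q (1 + x)‖ ≤ 2 / x := by
  have hs : (1 + x : ℂ) ≠ 1 := by
    intro h
    have h1 : (x : ℂ) = 0 := by linear_combination h
    have h2 : x = 0 := by exact_mod_cast h1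
    linarith
  rw [DirichletCharacter.LFunctionTrivChar_eq_mul_riemannZeta hs, norm_mul, norm_prod]
  have h1 : ∏ p ∈ q.primeFactors, ‖(1 : ℂ) - (p : ℂ) ^ (-(1 + x : ℂ))‖ ≤ 1 :=
    Finset.prod_le_one (fun p _ => norm_nonneg _)
      fun p hp => norm_one_sub_cpow_le (Nat.prime_of_mem_primeFactors hp) hx
  have h2 : ‖riemannZeta (1 + x)‖ ≤ 2 / x := by
    have h3 : riemannZeta (1 + x) = (((riemannZeta ((1 + x : ℝ) : ℂ)).re : ℝ) : ℂ) := by
      have : riemannZeta ((1 + x : ℝ) : ℂ) = (((riemannZeta ((1 + x : ℝ) : ℂ)).re : ℝ) : ℂ) := by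
        apply Complex.ext <;> simp only [ofReal_re, ofReal_im, Siegel.riemannZeta_im]
      rw [← this]
      push_cast
      rfl
    have h4 : 0 ≤ (riemannZeta ((1 + x : ℝ) : ℂ)).re := by
      have := riemannZeta_pos_of_one_lt (x := 1 + x) (by linarith)
      exact (Complex.lt_def.mp this).1.le
    have h5 := Siegel.riemannZeta_re_le (σ := 1 + x) (by linarith) (by linarith)
    rw [h3, Complex.norm_real, Real.norm_eq_abs, abs_of_nonneg h4]
    refine h5.trans ?_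
    rw [add_sub_cancel_left]
    exact div_le_div_of_nonneg_right (by linarith) hx.le
  calc (∏ p ∈ q.primeFactors, ‖(1 : ℂ) - (p : ℂ) ^ (-(1 + x : ℂ))‖) * ‖riemannZeta (1 + x)‖
      ≤ 1 * (2 / x) := mul_le_mul h1 h2 (norm_nonneg _) zero_le_one
    _ = 2 / x := one_mul _

end triv

/-- The effective lower bound for complex characters. -/
theorem lower_of_sq_ne_one {a : ℝ} (ha0 : 0 < a) (ha : a ≤ 1) : ∃ c : ℝ, 0 < c ∧
    ∀ (q : ℕ) [NeZero q] (χ : DirichletCharacter ℂ q), χ ^ 2 ≠ 1 →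
      c * (q : ℝ) ^ (-(4 * a)) ≤ ‖χ.LFunction 1‖ := by
  set κ : ℝ := a / 16 * (a ^ 2 / 32) ^ 4 with hκ
  have hκ0 : 0 < κ := by positivity
  have hκ1 : κ ≤ a / 16 := by
    have h1 : a ^ 2 / 32 ≤ 1 := by nlinarith
    have h2 : (a ^ 2 / 32) ^ 4 ≤ 1 := pow_le_one₀ (by positivity) h1
    calc κ ≤ a / 16 * 1 := mul_le_mul_of_nonneg_left h2 (by positivity)
      _ = a / 16 := mul_one _
  set m : ℝ := 32 * κ / a ^ 2 with hm
  have hm0 : 0 < m := by positivity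
  have hm4 : m ^ 4 = a * κ ^ 3 / 16 := by
    have h1 : m ^ 4 = κ ^ 3 * (κ * (32 / a ^ 2) ^ 4) := by rw [hm]; ring
    have h2 : κ * (32 / a ^ 2) ^ 4 = a / 16 := by
      rw [hκ]
      field_simp
    rw [h1, h2]
    ring
  refine ⟨m / 2, by positivity, fun q _ χ hχ2 => ?_⟩
  have hχ : χ ≠ 1 := by
    rintro rfl
    exact hχ2 (one_pow 2)
  have hq1 : (1 : ℝ) ≤ q := by exact_mod_cast Nat.one_le_iff_ne_zero.mpr (NeZero.ne q)
  set Q : ℝ := (q : ℝ) ^ a with hQ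
  have hQ1 : 1 ≤ Q := Real.one_le_rpow hq1 ha0.le
  have hQ0 : 0 < Q := by linarith
  have hP : (q : ℝ) ^ (-(4 * a)) = (Q⁻¹) ^ 4 := by
    rw [Real.rpow_neg (by linarith), mul_comm 4 a, Real.rpow_mul (by linarith), ← hQ, inv_pow]
    norm_cast
  set P : ℝ := Q⁻¹ with hPdef
  have hP0 : 0 < P := inv_pos.mpr hQ0
  have hP1 : P ≤ 1 := inv_le_one_of_one_le₀ hQ1
  have hPQ : P * Q = 1 := inv_mul_cancel₀ hQ0.ne'
  set x : ℝ := κ * P ^ 5 with hx
  have hx0 : 0 < x := by positivity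
  have hxκ : x ≤ κ := by
    calc x ≤ κ * 1 := mul_le_mul_of_nonneg_left (pow_le_one₀ hP0.le hP1) hκ0.le
      _ = κ := mul_one _
  have hxa : x ≤ a / 4 := by linarith
  have hx1 : x ≤ 1 := by linarith
  -- the three bounds
  have b0 := norm_trivChar_le (q := q) hx0 hx1
  have b2 : ‖(χ ^ 2).LFunction (1 + x)‖ ≤ 2 * Q / a := by
    have hre : ((1 : ℂ) + x).re = 1 + x := by simp
    have h1 := norm_LFunction_le_rpow hχ2 ha0 ha (s := 1 + x) (by rw [hre]; linarith)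
    refine h1.trans ?_
    rw [hre]
    have h2 : ‖(1 : ℂ) + x‖ ≤ 2 := by
      have : (1 : ℂ) + x = ((1 + x : ℝ) : ℂ) := by push_cast; rfl
      rw [this, Complex.norm_real, Real.norm_eq_abs, abs_of_pos (by linarith)]
      linarith
    exact div_le_div₀ (by positivity) (mul_le_mul_of_nonneg_right h2 hQ0.le) ha0 (by linarith)
  have h341 := χ.norm_LFunction_product_ge_one hx0 0
  simp only [ofReal_zero, mul_zero, add_zero] at h341
  rw [norm_mul, norm_mul, norm_pow, norm_pow] at h341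
  set L1 : ℝ := ‖χ.LFunction (1 + x)‖ with hL1
  have hL10 : 0 ≤ L1 := norm_nonneg _
  have h5 : 1 ≤ (2 / x) ^ 3 * L1 ^ 4 * (2 * Q / a) := by
    refine h341.le.trans ?_
    gcongr
  have h6 : (m * P ^ 4) ^ 4 ≤ L1 ^ 4 := by
    have h7 : (m * P ^ 4) ^ 4 = (a * x ^ 3 / 16) * P := by
      rw [mul_pow, hm4, hx]
      ring
    have h8 : (a * x ^ 3 / 16) * P * 1 ≤
        (a * x ^ 3 / 16) * P * ((2 / x) ^ 3 * L1 ^ 4 * (2 * Q / a)) :=
      mul_le_mul_of_nonneg_left h5 (by positivity)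
    have h9 : (a * x ^ 3 / 16) * P * ((2 / x) ^ 3 * L1 ^ 4 * (2 * Q / a)) = L1 ^ 4 * (P * Q) := by
      field_simp
      ring
    rw [h7]
    rw [h9, hPQ, mul_one, mul_one] at h8
    exact h8
  have h7 : m * P ^ 4 ≤ L1 := le_of_pow_le_pow_left₀ (by norm_num) hL10 h6
  have h8 : ‖χ.LFunction (1 + x) - χ.LFunction 1‖ ≤ m / 2 * P ^ 4 := by
    have hz : dist (1 + x : ℂ) 1 ≤ a / 4 := by
      rw [dist_eq_norm, add_sub_cancel_left, Complex.norm_real, Real.norm_eq_abs, abs_of_pos hx0]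
      exact hxa
    refine (norm_sub_near hχ ha0 ha hz).trans_eq ?_
    rw [add_sub_cancel_left, Complex.norm_real, Real.norm_eq_abs, abs_of_pos hx0, ← hQ, hx, hm]
    calc 16 / a ^ 2 * Q * (κ * P ^ 5) = 16 / a ^ 2 * κ * P ^ 4 * (P * Q) := by ring
      _ = _ := by rw [hPQ]; ring
  have h9 : L1 ≤ ‖χ.LFunction (1 + x) - χ.LFunction 1‖ + ‖χ.LFunction 1‖ := by
    simpa using norm_add_le (χ.LFunction (1 + x) - χ.LFunction 1) (χ.LFunction 1)
  rw [hP]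
  linarith

/-- **`|L(1, χ)| ≥ c(ε) q^(-ε)` for every primitive character `χ ≠ 1`.** -/
theorem norm_lower {ε : ℝ} (hε : 0 < ε) : ∃ c : ℝ, 0 < c ∧ ∀ (q : ℕ) [NeZero q]
    (χ : DirichletCharacter ℂ q), χ.IsPrimitive → χ ≠ 1 →
    c * (q : ℝ) ^ (-ε) ≤ ‖χ.LFunction 1‖ := by
  obtain ⟨c₁, hc₁, h₁⟩ := siegel hε
  obtain ⟨c₂, hc₂, h₂⟩ := lower_of_sq_ne_one (a := min (ε / 4) 1) (by positivity)
    (min_le_right _ _)
  refine ⟨min c₁ c₂, lt_min hc₁ hc₂, fun q _ χ hprim hχ => ?_⟩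
  have hq1 : (1 : ℝ) ≤ q := by exact_mod_cast Nat.one_le_iff_ne_zero.mpr (NeZero.ne q)
  have hq0 : (0 : ℝ) < (q : ℝ) ^ (-ε) := Real.rpow_pos_of_pos (by linarith) _
  by_cases h : χ ^ 2 = 1
  · refine (mul_le_mul_of_nonneg_right (min_le_left _ _) hq0.le).trans ?_
    exact (h₁ q χ hprim hχ h).trans (Complex.re_le_norm _)
  · refine (mul_le_mul_of_nonneg_right (min_le_right _ _) hq0.le).trans ?_
    refine le_trans (mul_le_mul_of_nonneg_left ?_ hc₂.le) (h₂ q χ h)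
    apply Real.rpow_le_rpow_of_exponent_le hq1
    have := min_le_left (ε / 4) (1 : ℝ)
    linarith

/-- `|L(1, χ)| ≤ (1 + 1/ε) q^ε` -/
theorem norm_upper {ε : ℝ} (hε : 0 < ε) {q : ℕ} [NeZero q] {χ : DirichletCharacter ℂ q}
    (hχ : χ ≠ 1) : ‖χ.LFunction 1‖ ≤ (1 + 1 / ε) * (q : ℝ) ^ ε := by
  have hq1 : (1 : ℝ) ≤ q := by exact_mod_cast Nat.one_le_iff_ne_zero.mpr (NeZero.ne q)
  exact (norm_LFunction_one_le hχ).trans (one_add_log_le hε hq1)

end Fermat.Agent.Cor.SiegelL
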