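import Mathlib

/-!
# Estermann's lemma

`H` is entire, bounded by `B` on the disc `|s - 2| ≤ 3/2`, and `F(s) = H(s)/(s - 1)` has at `2` a
Taylor series in `2 - s` with non-negative coefficients and constant term at least `1`. Then for
`7/8 ≤ σ < 1` and `M ≥ 1`: `F(σ) ≥ 1 - 16 B (3/4)^M - H(1) (2 - σ)^M / (1 - σ)`.
-/

set_option autoImplicit false

namespace Fermat.Agent.Cor.SiegelL

open Complex Metric Finset
open scoped ComplexOrder

lemma iteratedDeriv_inv_sub_one (m : ℕ) :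
    iteratedDeriv m (fun s : ℂ => (s - 1)⁻¹) 2 = (-1) ^ m * (m.factorial : ℂ) := by
  have h := congrFun (iteratedDeriv_comp_sub_const m (fun s : ℂ => s⁻¹) 1) 2
  rw [h, iteratedDeriv_eq_iterate]
  have h2 := iter_deriv_inv m ((2 : ℂ) - 1)
  rw [h2]
  norm_num

variable {H F : ℂ → ℂ} {B : ℝ}

lemma norm_dslope_le (hB : ∀ s, dist s 2 ≤ 3 / 2 → ‖H s‖ ≤ B) {s : ℂ}
    (hs : s ∈ sphere (2 : ℂ) (3 / 2)) : ‖dslope H 1 s‖ ≤ 4 * B := by
  rw [mem_sphere] at hs
  have h1 : (1 : ℝ) / 2 ≤ ‖s - 1‖ := by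
    have h2 : ‖s - 2‖ = 3 / 2 := by rw [← dist_eq_norm]; exact hs
    have h3 : ‖s - 2‖ ≤ ‖s - 1‖ + ‖(1 : ℂ) - 2‖ := by
      have := norm_add_le (s - 1) (1 - 2)
      simpa using this
    have h4 : ‖(1 : ℂ) - 2‖ = 1 := by norm_num
    rw [h2, h4] at h3
    linarith
  have hs1 : s ≠ 1 := by
    rintro rfl
    norm_num at h1
  rw [dslope_of_ne _ hs1, slope_def_field, norm_div]
  have hB0 : 0 ≤ B := (norm_nonneg _).trans (hB s hs.le)
  have h5 : ‖H s - H 1‖ ≤ 2 * B := by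
    refine (norm_sub_le _ _).trans ?_
    have := hB s hs.le
    have h6 := hB 1 (by rw [dist_eq_norm]; norm_num)
    linarith
  rw [div_le_iff₀ (by linarith)]
  nlinarith

lemma differentiable_dslope (hH : Differentiable ℂ H) : Differentiable ℂ (dslope H 1) := by
  have h := (differentiableOn_dslope (f := H) (s := Set.univ) (c := 1) Filter.univ_mem).mpr
    hH.differentiableOn
  exact differentiableOn_univ.mp h

lemma eq_dslope_add (hF : ∀ s, s ≠ 1 → F s = H s / (s - 1)) {s : ℂ} (hs : s ≠ 1) :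
    F s = dslope H 1 s + H 1 * (s - 1)⁻¹ := by
  rw [hF s hs, dslope_of_ne _ hs, slope_def_field]
  have : s - 1 ≠ 0 := sub_ne_zero.mpr hs
  field_simp
  ring

lemma iteratedDeriv_dslope (hH : Differentiable ℂ H) (hF : ∀ s, s ≠ 1 → F s = H s / (s - 1))
    (m : ℕ) : iteratedDeriv m (dslope H 1) 2 =
      iteratedDeriv m F 2 - H 1 * ((-1) ^ m * (m.factorial : ℂ)) := by
  have h1 : F =ᶠ[nhds 2] fun s => dslope H 1 s + H 1 * (s - 1)⁻¹ := by
    have : ∀ᶠ s : ℂ in nhds 2, s ≠ 1 := isOpen_ne.mem_nhds (by norm_num)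
    filter_upwards [this] with s hs using eq_dslope_add hF hs
  have h2 := (h1.iteratedDeriv m).eq_of_nhds
  have hc1 : ContDiffAt ℂ m (dslope H 1) 2 := (differentiable_dslope hH).contDiff.contDiffAt
  have hc2 : ContDiffAt ℂ m (fun s : ℂ => (s - 1)⁻¹) 2 :=
    (contDiffAt_id.sub contDiffAt_const).inv (by norm_num)
  rw [h2, iteratedDeriv_fun_add hc1 (contDiffAt_const.mul hc2), iteratedDeriv_const_mul_field,
    iteratedDeriv_inv_sub_one]
  ring

theorem estermann (hH : Differentiable ℂ H) (hB : ∀ s, dist s 2 ≤ 3 / 2 → ‖H s‖ ≤ B)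
    (him : (H 1).im = 0) (hF : ∀ s, s ≠ 1 → F s = H s / (s - 1))
    (halt : ∀ m : ℕ, 0 ≤ (-1 : ℂ) ^ m * iteratedDeriv m F 2) (h0 : 1 ≤ (F 2).re)
    {σ : ℝ} (h1 : 7 / 8 ≤ σ) (h2 : σ < 1) {M : ℕ} (hM : 1 ≤ M) :
    1 - 16 * B * (3 / 4) ^ M - (H 1).re * (2 - σ) ^ M / (1 - σ) ≤ (F σ).re := by
  set g := dslope H 1 with hg
  set lam := (H 1).re with hlam
  have hH1 : H 1 = (lam : ℂ) := by
    apply Complex.ext <;> simp [hlam, him]
  have hB0 : 0 ≤ B := (norm_nonneg _).trans (hB 2 (by norm_num))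
  -- the coefficients
  set a : ℕ → ℝ := fun m => ((-1 : ℂ) ^ m * iteratedDeriv m F 2).re / m.factorial with ha
  have ha0 : ∀ m, 0 ≤ a m := fun m =>
    div_nonneg (Complex.nonneg_iff.mp (halt m)).1 (Nat.cast_nonneg _)
  have haF : ∀ m, iteratedDeriv m F 2 = (-1 : ℂ) ^ m * ((m.factorial : ℂ) * (a m : ℂ)) := fun m => by
    have h3 : (-1 : ℂ) ^ m * iteratedDeriv m F 2 = (m.factorial : ℂ) * (a m : ℂ) := by
      have hf : (m.factorial : ℝ) ≠ 0 := Nat.cast_ne_zero.mpr m.factorial_ne_zero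
      apply Complex.ext
      · simp only [ha]
        rw [← Complex.ofReal_natCast, ← Complex.ofReal_mul, Complex.ofReal_re]
        field_simp
      · rw [← (Complex.nonneg_iff.mp (halt m)).2, ← Complex.ofReal_natCast, ← Complex.ofReal_mul,
          Complex.ofReal_im]
    rw [← h3, ← mul_assoc, ← mul_pow]
    norm_num
  have hag : ∀ m, iteratedDeriv m g 2 = (-1 : ℂ) ^ m * ((m.factorial : ℂ) * ((a m - lam : ℝ) : ℂ)) :=
    fun m => by
    rw [hg, iteratedDeriv_dslope hH hF, haF, hH1]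
    push_cast
    ring
  -- Taylor series of g
  have hx : 0 < 2 - σ := by linarith
  have hser : HasSum (fun m : ℕ => (((a m - lam) * (2 - σ) ^ m : ℝ) : ℂ)) (g σ) := by
    have h3 := hasSum_taylorSeries_of_entire (differentiable_dslope hH) 2 (σ : ℂ)
    have h6 : (fun n : ℕ => ((n.factorial : ℂ))⁻¹ • ((σ : ℂ) - 2) ^ n •
        iteratedDeriv n (dslope H 1) 2) = fun m : ℕ => (((a m - lam) * (2 - σ) ^ m : ℝ) : ℂ) := by
      funext m
      rw [← hg, hag m]
      have hf : (m.factorial : ℂ) ≠ 0 := Nat.cast_ne_zero.mpr m.factorial_ne_zero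
      simp only [smul_eq_mul]
      have h4 : ((σ : ℂ) - 2) ^ m = (-1) ^ m * ((2 - σ : ℝ) : ℂ) ^ m := by
        rw [← mul_pow]
        push_cast
        ring_nf
      rw [h4]
      push_cast
      have h5 : ((-1 : ℂ) ^ m) * (-1) ^ m = 1 := by rw [← mul_pow]; norm_num
      field_simp
      linear_combination ((((a m : ℂ) - lam) * (2 - σ) ^ m)) * h5
    rw [h6] at h3
    exact h3
  have hre : HasSum (fun m : ℕ => (a m - lam) * (2 - σ) ^ m) (g σ).re := by
    have := Complex.hasSum_re hser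
    simpa only [Complex.ofReal_re] using this
  -- Cauchy
  have hcau : ∀ m, |a m - lam| ≤ 4 * B / (3 / 2) ^ m := fun m => by
    have h3 := norm_iteratedDeriv_le_of_forall_mem_sphere_norm_le (c := (2 : ℂ)) (R := 3 / 2)
      (C := 4 * B) (f := g) m (by norm_num) (differentiable_dslope hH).diffContOnCl
      (fun z hz => norm_dslope_le hB hz)
    rw [hag m] at h3
    simp only [norm_mul, norm_pow, norm_neg, norm_one, one_pow, one_mul, Complex.norm_natCast,
      Complex.norm_real, Real.norm_eq_abs] at h3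
    have hf : (0 : ℝ) < m.factorial := Nat.cast_pos.mpr m.factorial_pos
    rw [mul_div_assoc] at h3
    exact le_of_mul_le_mul_left h3 hf
  have hterm : ∀ m, |(a m - lam) * (2 - σ) ^ m| ≤ 4 * B * (3 / 4) ^ m := fun m => by
    rw [abs_mul, abs_of_nonneg (pow_nonneg hx.le m)]
    have h3 : (2 - σ) ^ m ≤ (9 / 8 : ℝ) ^ m := pow_le_pow_left₀ hx.le (by linarith) m
    calc |a m - lam| * (2 - σ) ^ m ≤ (4 * B / (3 / 2) ^ m) * (9 / 8) ^ m :=
          mul_le_mul (hcau m) h3 (pow_nonneg hx.le m) (by positivity)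
      _ = 4 * B * (3 / 4) ^ m := by
          rw [div_mul_eq_mul_div, mul_div_assoc, ← div_pow]
          norm_num
  -- split
  have hsum := hre.summable
  have hsplit := hsum.sum_add_tsum_nat_add M
  rw [hre.tsum_eq] at hsplit
  have hgeo : HasSum (fun m : ℕ => 4 * B * (3 / 4 : ℝ) ^ (m + M)) (16 * B * (3 / 4) ^ M) := by
    have h3 := (hasSum_geometric_of_lt_one (r := (3 / 4 : ℝ)) (by norm_num) (by norm_num)).mul_left
      (4 * B * (3 / 4) ^ M)
    have h4 : 4 * B * (3 / 4) ^ M * (1 - 3 / 4 : ℝ)⁻¹ = 16 * B * (3 / 4) ^ M := by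
      norm_num
      ring
    have h5 : (fun m : ℕ => 4 * B * (3 / 4 : ℝ) ^ M * (3 / 4) ^ m) =
        fun m : ℕ => 4 * B * (3 / 4 : ℝ) ^ (m + M) := by
      funext m
      rw [pow_add]
      ring
    rw [h4, h5] at h3
    exact h3
  have htail : -(16 * B * (3 / 4) ^ M) ≤ ∑' m, (a (m + M) - lam) * (2 - σ) ^ (m + M) := by
    have hs2 : Summable fun m => (a (m + M) - lam) * (2 - σ) ^ (m + M) :=
      (summable_nat_add_iff M).mpr hsum
    rw [← hgeo.tsum_eq, ← tsum_neg]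
    refine Summable.tsum_le_tsum (fun m => ?_) hgeo.summable.neg hs2
    exact (abs_le.mp (hterm (m + M))).1
  have hhead : 1 - lam * (((2 - σ) ^ M - 1) / (1 - σ)) ≤
      ∑ m ∈ range M, (a m - lam) * (2 - σ) ^ m := by
    have h3 : ∑ m ∈ range M, (a m - lam) * (2 - σ) ^ m =
        ∑ m ∈ range M, a m * (2 - σ) ^ m - lam * ∑ m ∈ range M, (2 - σ) ^ m := by
      rw [mul_sum, ← sum_sub_distrib]
      exact sum_congr rfl fun m _ => by ring
    rw [h3, geom_sum_eq (by linarith)]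
    have h4 : (2 - σ - 1) = 1 - σ := by ring
    rw [h4]
    have h5 : a 0 * (2 - σ) ^ 0 ≤ ∑ m ∈ range M, a m * (2 - σ) ^ m :=
      single_le_sum (f := fun m => a m * (2 - σ) ^ m)
        (fun m _ => mul_nonneg (ha0 m) (pow_nonneg hx.le m)) (mem_range.mpr (by omega))
    have h6 : 1 ≤ a 0 := by
      simp only [ha, pow_zero, one_mul, iteratedDeriv_zero, Nat.factorial_zero, Nat.cast_one,
        div_one]
      exact h0
    simp only [pow_zero, mul_one] at h5
    linarith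
  have hσ1 : (σ : ℂ) ≠ 1 := by
    intro h
    have : σ = 1 := by exact_mod_cast h
    linarith
  have hFre : (F σ).re = (g σ).re - lam / (1 - σ) := by
    rw [eq_dslope_add hF hσ1, hH1, ← hg, Complex.add_re]
    have h3 : (lam : ℂ) * ((σ : ℂ) - 1)⁻¹ = ((lam * (σ - 1)⁻¹ : ℝ) : ℂ) := by push_cast; ring
    rw [h3, Complex.ofReal_re]
    have h4 : σ - 1 ≠ 0 := by linarith
    have h5 : 1 - σ ≠ 0 := by linarith
    field_simp
    ring
  rw [hFre]
  have h5 : (0 : ℝ) < 1 - σ := by linarith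
  have h6 : lam * (2 - σ) ^ M / (1 - σ) =
      lam * (((2 - σ) ^ M - 1) / (1 - σ)) + lam / (1 - σ) := by
    field_simp
    ring
  rw [h6]
  linarith

end Fermat.Agent.Cor.SiegelL
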