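import Fermat.Agent.Corollaries.SiegelL.Bound
import Fermat.Agent.Corollaries.SiegelL.Alt
import Fermat.Agent.Corollaries.Siegel.ZetaNeg

/-!
# Real Dirichlet characters on the real axis

For a real character `χ ≠ 1` the value `L(σ, χ)`, `σ > 0`, is real, and positive if `L(x, χ)` has
no zero `x` in `[σ, 1)`.
-/

set_option autoImplicit false

namespace Fermat.Agent.Cor.SiegelL

open Complex Set MeasureTheory
open DirichletCharacter (LFunction)

variable {N : ℕ} [NeZero N]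

omit [NeZero N] in
lemma psum_eq_re {χ : DirichletCharacter ℂ N} (h : χ ^ 2 = 1) (n : ℕ) :
    psum χ n = ((psum χ n).re : ℂ) := by
  have h1 : psum χ n = ((∑ k ∈ Finset.Icc 1 n, (χ (k : ZMod N)).re : ℝ) : ℂ) := by
    rw [psum, Complex.ofReal_sum]
    exact Finset.sum_congr rfl fun k _ => eq_re h _
  rw [h1, ofReal_re]

/-- `L(σ, χ)` is real for `σ > 0`. -/
theorem LFunction_ofReal {χ : DirichletCharacter ℂ N} (hχ : χ ≠ 1) (h : χ ^ 2 = 1) {σ : ℝ}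
    (hσ : 0 < σ) : LFunction χ σ = ((LFunction χ σ).re : ℂ) := by
  have h1 : ∫ t in Ioi (1 : ℝ), psum χ ⌊t⌋₊ * (t : ℂ) ^ (-((σ : ℂ) + 1)) =
      ((∫ t in Ioi (1 : ℝ), (psum χ ⌊t⌋₊).re * t ^ (-(σ + 1)) : ℝ) : ℂ) := by
    rw [← integral_complex_ofReal]
    refine setIntegral_congr_fun measurableSet_Ioi fun t ht => ?_
    have ht0 : (0 : ℝ) ≤ t := (lt_trans zero_lt_one ht).le
    rw [psum_eq_re h ⌊t⌋₊, ofReal_re, ofReal_mul, ofReal_cpow ht0]
    push_cast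
    rfl
  have h2 : LFunction χ σ =
      ((σ * ∫ t in Ioi (1 : ℝ), (psum χ ⌊t⌋₊).re * t ^ (-(σ + 1)) : ℝ) : ℂ) := by
    rw [LFunction_eq_integral hχ (by simpa using hσ), h1, ← ofReal_mul]
  rw [h2, ofReal_re]

/-- No zero in `[σ, 1)` implies `L(σ, χ) > 0`. -/
theorem LFunction_re_pos {χ : DirichletCharacter ℂ N} (hχ : χ ≠ 1) (h : χ ^ 2 = 1) {σ : ℝ}
    (hσ : 0 < σ) (hn : ∀ x : ℝ, σ ≤ x → x < 1 → LFunction χ x ≠ 0) :
    0 < (LFunction χ σ).re := by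
  have hn' : ∀ x : ℝ, σ ≤ x → (LFunction χ x).re ≠ 0 := by
    intro x hx h0
    have hx0 : 0 < x := hσ.trans_le hx
    have h1 : LFunction χ x = 0 := by rw [LFunction_ofReal hχ h hx0, h0, ofReal_zero]
    rcases lt_trichotomy x 1 with h2 | h2 | h2
    · exact hn x hx h2 h1
    · subst h2
      rw [ofReal_one] at h1
      exact DirichletCharacter.LFunction_apply_one_ne_zero hχ h1
    · exact LFunction_ne_zero_of_one_lt χ (by simpa using h2) h1
  have hc : Continuous fun x : ℝ => (LFunction χ (x : ℂ)).re :=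
    continuous_re.comp
      ((DirichletCharacter.differentiable_LFunction hχ).continuous.comp continuous_ofReal)
  by_contra hneg
  rw [not_lt] at hneg
  set b : ℝ := max σ 2 with hb
  have hb1 : σ ≤ b := le_max_left _ _
  have hb2 : 1 < b := lt_of_lt_of_le one_lt_two (le_max_right _ _)
  have hpos : 0 < (LFunction χ b).re := by
    have := LFunction_pos h hb2
    exact (Complex.lt_def.mp this).1
  obtain ⟨x, hx, hx0⟩ := intermediate_value_Icc hb1 hc.continuousOn ⟨hneg, hpos.le⟩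
  exact hn' x hx.1 hx0

theorem LFunction_one_re_pos {χ : DirichletCharacter ℂ N} (hχ : χ ≠ 1) (h : χ ^ 2 = 1) :
    0 < (LFunction χ 1).re := by
  have := LFunction_re_pos hχ h (σ := 1) one_pos (fun x h1 h2 => absurd h1 (not_le.mpr h2))
  simpa using this

theorem LFunction_one_ofReal {χ : DirichletCharacter ℂ N} (hχ : χ ≠ 1) (h : χ ^ 2 = 1) :
    LFunction χ 1 = ((LFunction χ 1).re : ℂ) := by
  have := LFunction_ofReal hχ h (σ := 1) one_pos
  simpa using this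

/-- If `L(s, χ)`, `L(s, ψ)`, `L(s, χψ)` have no zero in `[σ, 1)`, `0 < σ < 1`, then
`FF χ ψ σ ≤ 0`. -/
theorem FF_nonpos {χ ψ : DirichletCharacter ℂ N} (h₁ : χ ^ 2 = 1) (h₂ : ψ ^ 2 = 1)
    (n₁ : χ ≠ 1) (n₂ : ψ ≠ 1) (n₃ : χ * ψ ≠ 1) {σ : ℝ} (hσ0 : 0 < σ) (hσ1 : σ < 1)
    (hn : ∀ φ : DirichletCharacter ℂ N, φ ≠ 1 → φ ^ 2 = 1 → ∀ x : ℝ, σ ≤ x → x < 1 →
      LFunction φ x ≠ 0) : (FF χ ψ σ).re ≤ 0 := by
  have a0 := Siegel.riemannZeta_re_neg hσ0 hσ1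
  have a1 := LFunction_re_pos n₁ h₁ hσ0 (hn χ n₁ h₁)
  have a2 := LFunction_re_pos n₂ h₂ hσ0 (hn ψ n₂ h₂)
  have a3 := LFunction_re_pos n₃ (mul_sq h₁ h₂) hσ0 (hn (χ * ψ) n₃ (mul_sq h₁ h₂))
  have e0 : riemannZeta σ = ((riemannZeta σ).re : ℂ) := by
    apply Complex.ext <;> simp [Siegel.riemannZeta_im]
  have e1 : FF χ ψ σ = (((riemannZeta σ).re * (LFunction χ σ).re * (LFunction ψ σ).re *
      (LFunction (χ * ψ) σ).re : ℝ) : ℂ) := by
    push_cast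
    rw [← e0, ← LFunction_ofReal n₁ h₁ hσ0, ← LFunction_ofReal n₂ h₂ hσ0,
      ← LFunction_ofReal n₃ (mul_sq h₁ h₂) hσ0, FF]
  rw [e1, ofReal_re]
  have h3 : (riemannZeta σ).re * (LFunction χ σ).re ≤ 0 :=
    mul_nonpos_of_nonpos_of_nonneg a0.le a1.le
  have h4 := mul_nonpos_of_nonpos_of_nonneg h3 a2.le
  exact mul_nonpos_of_nonpos_of_nonneg h4 a3.le

end Fermat.Agent.Cor.SiegelL
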