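import Fermat.Agent.Corollaries.SiegelL.Estermann
import Fermat.Agent.Corollaries.SiegelL.RealAxis

/-!
# The key inequality for Siegel's theorem

If `FF χ ψ σ ≤ 0` for some `7/8 ≤ σ < 1` then
`L(1, χ) L(1, ψ) L(1, χψ) ≥ c (1 - σ) N^(-12 (1 - σ))` with an absolute constant `c > 0`.
-/

set_option autoImplicit false

namespace Fermat.Agent.Cor.SiegelL

open Complex Set
open DirichletCharacter (LFunction)

variable {N : ℕ} [NeZero N]

/-- `(s - 1) FF χ ψ s` -/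
noncomputable def HH (χ ψ : DirichletCharacter ℂ N) (s : ℂ) : ℂ :=
  riemannZeta₁ s * LFunction χ s * LFunction ψ s * LFunction (χ * ψ) s

lemma FF_eq_div (χ ψ : DirichletCharacter ℂ N) {s : ℂ} (hs : s ≠ 1) :
    FF χ ψ s = HH χ ψ s / (s - 1) := by
  rw [FF, HH, riemannZeta_eq_inv_sub_mul hs]
  field_simp

lemma differentiable_HH {χ ψ : DirichletCharacter ℂ N} (n₁ : χ ≠ 1) (n₂ : ψ ≠ 1)
    (n₃ : χ * ψ ≠ 1) : Differentiable ℂ (HH χ ψ) :=
  ((differentiable_riemannZeta₁.mul (DirichletCharacter.differentiable_LFunction n₁)).mul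
    (DirichletCharacter.differentiable_LFunction n₂)).mul
    (DirichletCharacter.differentiable_LFunction n₃)

lemma HH_one (χ ψ : DirichletCharacter ℂ N) :
    HH χ ψ 1 = LFunction χ 1 * LFunction ψ 1 * LFunction (χ * ψ) 1 := by
  rw [HH, riemannZeta₁_one, one_mul]

lemma exists_zeta_bound : ∃ C : ℝ, 1 ≤ C ∧ ∀ s : ℂ, dist s 2 ≤ 3 / 2 → ‖riemannZeta₁ s‖ ≤ C := by
  obtain ⟨C, hC⟩ := (isCompact_closedBall (2 : ℂ) (3 / 2)).exists_bound_of_continuousOn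
    differentiable_riemannZeta₁.continuous.continuousOn
  exact ⟨max C 1, le_max_right _ _, fun s hs => (hC s (Metric.mem_closedBall.mpr hs)).trans
    (le_max_left _ _)⟩

lemma norm_L_le {χ : DirichletCharacter ℂ N} (hχ : χ ≠ 1) {s : ℂ} (hs : dist s 2 ≤ 3 / 2) :
    ‖LFunction χ s‖ ≤ 7 * N := by
  have h1 : ‖s - 2‖ ≤ 3 / 2 := by rwa [← dist_eq_norm]
  have h2 : 1 / 2 ≤ s.re := by
    have := (abs_le.mp ((Complex.abs_re_le_norm (s - 2)).trans h1)).1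
    simp at this
    linarith
  have h3 : ‖s‖ ≤ 7 / 2 := by
    have h4 : ‖s‖ ≤ ‖s - 2‖ + ‖(2 : ℂ)‖ := by simpa using norm_add_le (s - 2) 2
    have h5 : ‖(2 : ℂ)‖ = 2 := by norm_num
    linarith
  have hN : (0 : ℝ) ≤ N := Nat.cast_nonneg _
  refine (norm_LFunction_le hχ (by linarith)).trans ?_
  rw [div_le_iff₀ (by linarith)]
  nlinarith [mul_nonneg hN (sub_nonneg.mpr h2), mul_nonneg hN (sub_nonneg.mpr h3)]

lemma exists_HH_bound : ∃ C : ℝ, 1 ≤ C ∧ ∀ (N : ℕ) [NeZero N] (χ ψ : DirichletCharacter ℂ N),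
    χ ≠ 1 → ψ ≠ 1 → χ * ψ ≠ 1 → ∀ s : ℂ, dist s 2 ≤ 3 / 2 → ‖HH χ ψ s‖ ≤ C * (N : ℝ) ^ 3 := by
  obtain ⟨C, hC1, hC⟩ := exists_zeta_bound
  refine ⟨C * 343, by linarith, fun N _ χ ψ n₁ n₂ n₃ s hs => ?_⟩
  have hN : (0 : ℝ) ≤ N := Nat.cast_nonneg _
  have b0 := hC s hs
  have b1 := norm_L_le n₁ hs
  have b2 := norm_L_le n₂ hs
  have b3 := norm_L_le n₃ hs
  rw [HH, norm_mul, norm_mul, norm_mul]
  calc ‖riemannZeta₁ s‖ * ‖LFunction χ s‖ * ‖LFunction ψ s‖ * ‖LFunction (χ * ψ) s‖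
      ≤ C * (7 * N) * (7 * N) * (7 * N) := by gcongr
    _ = C * 343 * (N : ℝ) ^ 3 := by ring

lemma one_quarter_le_log : (1 : ℝ) / 4 ≤ Real.log (4 / 3) := by
  have h := Real.one_sub_inv_le_log_of_pos (show (0 : ℝ) < 4 / 3 by norm_num)
  norm_num at h ⊢
  linarith

/-- The inequality behind the choice of the cut `M`. -/
lemma le_of_cut {B lam η : ℝ} (hB : 1 ≤ B) (h0 : 0 < η) (h1 : η ≤ 1 / 8) (hl : 0 ≤ lam)
    (h : ∀ M : ℕ, 1 ≤ M → 1 - 16 * B * (3 / 4) ^ M - lam * (1 + η) ^ M / η ≤ 0) :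
    η / 4 * (32 * B) ^ (-(4 * η)) ≤ lam := by
  have hb : (1 : ℝ) < 32 * B := by linarith
  have hlog : 0 < Real.log (32 * B) := Real.log_pos hb
  set M : ℕ := ⌈4 * Real.log (32 * B)⌉₊ with hM
  have hM1 : 1 ≤ M := Nat.one_le_iff_ne_zero.mpr (by
    rw [hM]
    exact (Nat.ceil_pos.mpr (by linarith)).ne')
  have hM2 : 4 * Real.log (32 * B) ≤ M := Nat.le_ceil _
  have hM3 : (M : ℝ) < 4 * Real.log (32 * B) + 1 := Nat.ceil_lt_add_one (by linarith)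
  -- `16 B (3/4)^M ≤ 1/2`
  have h2 : 16 * B * (3 / 4 : ℝ) ^ M ≤ 1 / 2 := by
    have h3 : (32 * B) ≤ (4 / 3 : ℝ) ^ M := by
      rw [← Real.log_le_log_iff (by linarith) (by positivity), Real.log_pow]
      have h5 : (M : ℝ) * (1 / 4) ≤ M * Real.log (4 / 3) :=
        mul_le_mul_of_nonneg_left one_quarter_le_log (Nat.cast_nonneg _)
      linarith
    have h4 : (4 / 3 : ℝ) ^ M * (3 / 4 : ℝ) ^ M = 1 := by
      rw [← mul_pow]
      norm_num
    have h5 : (0 : ℝ) < (3 / 4 : ℝ) ^ M := by positivity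
    have h6 := mul_le_mul_of_nonneg_right h3 h5.le
    rw [h4] at h6
    linarith
  have h3 := h M hM1
  have h4 : η / 2 ≤ lam * (1 + η) ^ M := by
    have h5 : 1 / 2 ≤ lam * (1 + η) ^ M / η := by linarith
    rw [le_div_iff₀ h0] at h5
    linarith
  -- `(1 + η)^M ≤ 2 (32 B)^(4 η)`
  have h5 : (1 + η) ^ M ≤ 2 * (32 * B) ^ (4 * η) := by
    have h6 : (1 + η) ^ M ≤ Real.exp (η * M) := by
      have := Real.add_one_le_exp η
      calc (1 + η) ^ M ≤ (Real.exp η) ^ M := by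
            apply pow_le_pow_left₀ (by linarith)
            linarith
        _ = Real.exp (η * M) := by rw [← Real.exp_nat_mul, mul_comm]
    have h7 : Real.exp (η * M) ≤ Real.exp (Real.log (32 * B) * (4 * η) + 1 / 8) := by
      apply Real.exp_le_exp.mpr
      nlinarith
    have h8 : Real.exp (Real.log (32 * B) * (4 * η) + 1 / 8) =
        (32 * B) ^ (4 * η) * Real.exp (1 / 8) := by
      rw [Real.exp_add, Real.rpow_def_of_pos (by linarith)]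
    have h9 : Real.exp (1 / 8) ≤ 2 := by
      have := Real.exp_bound_div_one_sub_of_interval (x := 1 / 8) (by norm_num) (by norm_num)
      norm_num at this ⊢
      linarith
    have h10 : (0 : ℝ) < (32 * B) ^ (4 * η) := Real.rpow_pos_of_pos (by linarith) _
    calc (1 + η) ^ M ≤ (32 * B) ^ (4 * η) * Real.exp (1 / 8) := h6.trans (h7.trans_eq h8)
      _ ≤ (32 * B) ^ (4 * η) * 2 := mul_le_mul_of_nonneg_left h9 h10.le
      _ = _ := by ring
  have h6 : (0 : ℝ) < (32 * B) ^ (4 * η) := Real.rpow_pos_of_pos (by linarith) _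
  have h7 : η / 2 ≤ lam * (2 * (32 * B) ^ (4 * η)) :=
    h4.trans (mul_le_mul_of_nonneg_left h5 hl)
  rw [Real.rpow_neg (by linarith), ← div_eq_mul_inv, div_le_iff₀ h6]
  linarith

/-- **The key inequality.** -/
theorem key : ∃ c : ℝ, 0 < c ∧ ∀ (N : ℕ) [NeZero N] (χ ψ : DirichletCharacter ℂ N),
    χ ^ 2 = 1 → ψ ^ 2 = 1 → χ ≠ 1 → ψ ≠ 1 → χ * ψ ≠ 1 → ∀ σ : ℝ, 7 / 8 ≤ σ → σ < 1 →
    (FF χ ψ σ).re ≤ 0 →
    c * (1 - σ) * (N : ℝ) ^ (-(12 * (1 - σ))) ≤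
      (LFunction χ 1).re * (LFunction ψ 1).re * (LFunction (χ * ψ) 1).re := by
  obtain ⟨C, hC1, hC⟩ := exists_HH_bound
  refine ⟨(32 * C) ^ (-(1 / 2 : ℝ)) / 4, by positivity, ?_⟩
  intro N _ χ ψ h₁ h₂ n₁ n₂ n₃ σ hσ1 hσ2 hF
  have hN : (1 : ℝ) ≤ N := by exact_mod_cast Nat.one_le_iff_ne_zero.mpr (NeZero.ne N)
  have hN3 : (1 : ℝ) ≤ (N : ℝ) ^ 3 := one_le_pow₀ hN
  have r₁ := LFunction_one_re_pos n₁ h₁
  have r₂ := LFunction_one_re_pos n₂ h₂
  have r₃ := LFunction_one_re_pos n₃ (mul_sq h₁ h₂)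
  set lam : ℝ := (LFunction χ 1).re * (LFunction ψ 1).re * (LFunction (χ * ψ) 1).re with hlam
  have hlam0 : 0 ≤ lam := by positivity
  have e1 : HH χ ψ 1 = (lam : ℂ) := by
    rw [HH_one, hlam]
    push_cast
    rw [← LFunction_one_ofReal n₁ h₁, ← LFunction_one_ofReal n₂ h₂,
      ← LFunction_one_ofReal n₃ (mul_sq h₁ h₂)]
  have hB : (1 : ℝ) ≤ C * (N : ℝ) ^ 3 := by nlinarith
  have hη : 0 < 1 - σ := by linarith
  have h := le_of_cut (B := C * (N : ℝ) ^ 3) (lam := lam) (η := 1 - σ) hB hη (by linarith) hlam0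
    (fun M hM => by
      have := estermann (F := FF χ ψ) (differentiable_HH n₁ n₂ n₃) (hC N χ ψ n₁ n₂ n₃)
        (by rw [e1, ofReal_im]) (fun s hs => FF_eq_div χ ψ hs) (alternating h₁ h₂)
        (one_le_FF_two h₁ h₂) hσ1 hσ2 hM
      rw [e1, ofReal_re] at this
      have e2 : (1 : ℝ) + (1 - σ) = 2 - σ := by ring
      rw [e2]
      exact this.trans hF)
  refine le_trans ?_ h
  have hC0 : (0 : ℝ) < 32 * C := by linarith
  have e3 : (32 * (C * (N : ℝ) ^ 3)) ^ (-(4 * (1 - σ))) =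
      (32 * C) ^ (-(4 * (1 - σ))) * (N : ℝ) ^ (-(12 * (1 - σ))) := by
    rw [← mul_assoc, Real.mul_rpow hC0.le (by positivity), ← Real.rpow_natCast,
      ← Real.rpow_mul (by linarith)]
    congr 2
    push_cast
    ring
  have e4 : (32 * C) ^ (-(1 / 2 : ℝ)) ≤ (32 * C) ^ (-(4 * (1 - σ))) := by
    apply Real.rpow_le_rpow_of_exponent_le (by linarith)
    linarith
  rw [e3]
  have hNp : (0 : ℝ) < (N : ℝ) ^ (-(12 * (1 - σ))) := Real.rpow_pos_of_pos (by linarith) _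
  calc (32 * C) ^ (-(1 / 2 : ℝ)) / 4 * (1 - σ) * (N : ℝ) ^ (-(12 * (1 - σ)))
      ≤ (32 * C) ^ (-(4 * (1 - σ))) / 4 * (1 - σ) * (N : ℝ) ^ (-(12 * (1 - σ))) := by
        gcongr
    _ = (1 - σ) / 4 * ((32 * C) ^ (-(4 * (1 - σ))) * (N : ℝ) ^ (-(12 * (1 - σ)))) := by ring

end Fermat.Agent.Cor.SiegelL
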