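import Fermat.Agent.Corollaries.SiegelL.Uchida

/-!
# The growth of the relative class number of `ℚ(ζ_p)`

`kummer_log`: `log h⁻(ℚ(ζ_p)) ~ (p / 4) log p` for `p → ∞`, `p` prime, where `h⁻ = h(K) / h(K⁺)`:
Kummer's asymptotic formula in logarithmic form (Siegel 1964).
-/

set_option autoImplicit false

namespace Fermat.Agent.Cor.SiegelL

open Complex Filter Topology NumberField NumberField.InfinitePlace NumberField.Units
open Fermat.Agent.Cor.Abel

universe u

/-- Lower and upper bounds of the factors in the relative class number formula. -/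
theorem fac_bounds {ε : ℝ} (hε : 0 < ε) : ∃ b C : ℝ, 0 < b ∧ 0 < C ∧ ∀ (n : ℕ) [NeZero n]
    (χ : DirichletCharacter ℂ n), χ ≠ 1 →
    b * (χ.conductor : ℝ) ^ (1 / 2 - ε) ≤ fac χ ∧ fac χ ≤ C * (χ.conductor : ℝ) ^ (1 / 2 + ε) := by
  obtain ⟨c, hc, hlow⟩ := norm_lower hε
  have hπ : (0 : ℝ) < 2 * Real.pi := by
    have := Real.pi_pos
    positivity
  refine ⟨c / (2 * Real.pi), (1 + 1 / ε) / (2 * Real.pi), by positivity, by positivity,
    fun n _ χ hχ => ?_⟩
  have hf : (1 : ℝ) ≤ χ.conductor := by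
    exact_mod_cast Nat.one_le_iff_ne_zero.mpr χ.conductor_ne_zero
  have hf0 : (0 : ℝ) < χ.conductor := by linarith
  have h1 := hlow _ _ χ.primitiveCharacter_isPrimitive (primitive_ne_one hχ)
  have h2 := norm_upper hε (primitive_ne_one hχ)
  have e1 : (χ.conductor : ℝ) ^ (1 / 2 - ε) =
      (χ.conductor : ℝ) ^ (1 / 2 : ℝ) * (χ.conductor : ℝ) ^ (-ε) := by
    rw [← Real.rpow_add hf0]
    congr 1
  have e2 : (χ.conductor : ℝ) ^ (1 / 2 + ε) =
      (χ.conductor : ℝ) ^ (1 / 2 : ℝ) * (χ.conductor : ℝ) ^ ε := by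
    rw [← Real.rpow_add hf0]
  constructor
  · calc c / (2 * Real.pi) * (χ.conductor : ℝ) ^ (1 / 2 - ε)
        = (χ.conductor : ℝ) ^ (1 / 2 : ℝ) * (c * (χ.conductor : ℝ) ^ (-ε)) /
          (2 * Real.pi) := by rw [e1]; ring
      _ ≤ fac χ := by
          rw [fac]
          gcongr
  · calc fac χ ≤ (χ.conductor : ℝ) ^ (1 / 2 : ℝ) * ((1 + 1 / ε) * (χ.conductor : ℝ) ^ ε) /
          (2 * Real.pi) := by
          rw [fac]
          gcongr
      _ = _ := by rw [e2]; ring

section prime

variable {p : ℕ} (hp : p.Prime) (K : Type u) [Field K] [NumberField K]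
  [IsCyclotomicExtension {p} ℚ K] [IsAbelianGalois ℚ K]

include hp

omit [IsAbelianGalois ℚ K] in
lemma finrank_cyclotomic_prime : Module.finrank ℚ K = p - 1 := by
  have : NeZero p := ⟨hp.ne_zero⟩
  rw [IsCyclotomicExtension.finrank (n := p) K (Polynomial.cyclotomic.irreducible_rat hp.pos),
    Nat.totient_prime hp]

omit [IsAbelianGalois ℚ K] in
lemma natAbs_discr_cyclotomic_prime : (discr K).natAbs = p ^ (p - 2) := by
  have : Fact p.Prime := ⟨hp⟩
  rw [IsCyclotomicExtension.Rat.discr_prime p K]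
  simp [Int.natAbs_mul, Int.natAbs_pow]

/-- All characters `χ ≠ 1` of `ℚ(ζ_p)` have conductor `p`. -/
lemma conductor_eq_of_mem {χ : DirichletCharacter ℂ (level K)} (hχ : χ ∈ dirChars K)
    (hχ1 : χ ≠ 1) : χ.conductor = p := by
  classical
  -- all conductors are at least `p`
  have hge : ∀ ψ ∈ (dirChars K).erase 1, p ≤ ψ.conductor := by
    intro ψ hψ
    have h1 : ψ.conductor ≠ 1 := fun h =>
      Finset.ne_of_mem_erase hψ (DirichletCharacter.eq_one_iff_conductor_eq_one.mpr h)
    obtain ⟨ℓ, hℓ, hdvd⟩ := Nat.exists_prime_and_dvd h1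
    have h2 : (ℓ : ℤ) ∣ discr K :=
      (dvd_discr_iff K hℓ).mpr ⟨ψ, Finset.mem_of_mem_erase hψ, hdvd⟩
    rw [Int.natCast_dvd, natAbs_discr_cyclotomic_prime hp K] at h2
    have h3 : ℓ = p := (Nat.prime_dvd_prime_iff_eq hℓ hp).mp (hℓ.dvd_of_dvd_pow h2)
    rw [← h3]
    exact Nat.le_of_dvd (Nat.pos_of_ne_zero ψ.conductor_ne_zero) hdvd
  have hcard : ((dirChars K).erase 1).card = p - 2 := by
    rw [Finset.card_erase_of_mem (one_mem_dirChars K), card_dirChars,
      finrank_cyclotomic_prime hp K]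
    omega
  have hprod : ∏ ψ ∈ (dirChars K).erase 1, ψ.conductor = p ^ (p - 2) := by
    rw [← natAbs_discr_cyclotomic_prime hp K, natAbs_discr_eq_prod K,
      ← Finset.mul_prod_erase _ _ (one_mem_dirChars K), DirichletCharacter.conductor_one, one_mul]
  by_contra hne
  have hmem : χ ∈ (dirChars K).erase 1 := Finset.mem_erase.mpr ⟨hχ1, hχ⟩
  have hlt : ∏ _ψ ∈ (dirChars K).erase 1, p < ∏ ψ ∈ (dirChars K).erase 1, ψ.conductor :=
    Finset.prod_lt_prod (fun _ _ => hp.pos) hge
      ⟨χ, hmem, lt_of_le_of_ne (hge χ hmem) (Ne.symm hne)⟩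
  rw [Finset.prod_const, hcard, hprod] at hlt
  exact lt_irrefl _ hlt

end prime

/-- Two-sided bounds for the relative class number of `ℚ(ζ_p)`. -/
theorem relative_bounds {ε : ℝ} (hε : 0 < ε) : ∃ b C : ℝ, 0 < b ∧ 0 < C ∧ ∀ (p : ℕ) (_ : p.Prime)
    (_ : 2 < p) (K : Type u) [Field K] [NumberField K] [IsCyclotomicExtension {p} ℚ K],
    (p - 1) / 2 * (Real.log b + (1 / 2 - ε) * Real.log p) ≤
      Real.log (classNumber K / classNumber (maximalRealSubfield K)) ∧
    Real.log (classNumber K / classNumber (maximalRealSubfield K)) ≤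
      Real.log (4 * p) + (p - 1) / 2 * (Real.log C + (1 / 2 + ε) * Real.log p) := by
  classical
  obtain ⟨b, C, hb, hC, h⟩ := fac_bounds hε
  refine ⟨b, C, hb, hC, fun p hp hp2 K _ _ _ => ?_⟩
  have : NeZero p := ⟨hp.ne_zero⟩
  have : IsAbelianGalois ℚ K := IsCyclotomicExtension.isAbelianGalois {p} ℚ _
  have : IsTotallyComplex K := IsCyclotomicExtension.Rat.isTotallyComplex _ hp2
  have hp0 : (0 : ℝ) < p := by exact_mod_cast hp.pos
  have hlog : 0 ≤ Real.log p := Real.log_nonneg (by exact_mod_cast hp.one_lt.le)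
  have hm : ((oddChars K).card : ℝ) = (p - 1) / 2 := by
    have h1 : nrRealPlaces K = 0 := IsTotallyComplex.nrRealPlaces_eq_zero K
    have h2 := card_add_two_mul_card_eq_rank K
    rw [finrank_cyclotomic_prime hp K, h1] at h2
    rw [card_oddChars]
    have h3 : 2 * nrComplexPlaces K + 1 = p := by omega
    have h4 : (2 : ℝ) * nrComplexPlaces K + 1 = p := by exact_mod_cast h3
    linarith
  have hcond : ∀ χ ∈ oddChars K, χ.conductor = p := fun χ hχ =>
    conductor_eq_of_mem hp K (Finset.mem_filter.mp hχ).1 (ne_one_of_mem_oddChars K hχ)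
  have hlow : ∀ χ ∈ oddChars K, b * (p : ℝ) ^ (1 / 2 - ε) ≤ fac χ := fun χ hχ => by
    have := (h _ χ (ne_one_of_mem_oddChars K hχ)).1
    rwa [hcond χ hχ] at this
  have hup : ∀ χ ∈ oddChars K, fac χ ≤ C * (p : ℝ) ^ (1 / 2 + ε) := fun χ hχ => by
    have := (h _ χ (ne_one_of_mem_oddChars K hχ)).2
    rwa [hcond χ hχ] at this
  have hh' : (0 : ℝ) < classNumber (maximalRealSubfield K) := by
    exact_mod_cast classNumber_pos (maximalRealSubfield K)
  have hquot : (classNumber K : ℝ) / classNumber (maximalRealSubfield K) =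
      IsCMField.indexRealUnits K * torsionOrder K * ∏ χ ∈ oddChars K, fac χ := by
    rw [classNumber_eq K]
    field_simp
  have hb' : (0 : ℝ) < b * (p : ℝ) ^ (1 / 2 - ε) := by positivity
  have hC' : (0 : ℝ) < C * (p : ℝ) ^ (1 / 2 + ε) := by positivity
  have hprod_low : (b * (p : ℝ) ^ (1 / 2 - ε)) ^ (oddChars K).card ≤
      ∏ χ ∈ oddChars K, fac χ := by
    rw [← Finset.prod_const]
    exact Finset.prod_le_prod (fun _ _ => hb'.le) hlow
  have hprod_up : ∏ χ ∈ oddChars K, fac χ ≤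
      (C * (p : ℝ) ^ (1 / 2 + ε)) ^ (oddChars K).card := by
    rw [← Finset.prod_const]
    exact Finset.prod_le_prod (fun χ _ => fac_nonneg χ) hup
  have hprod0 : 0 < ∏ χ ∈ oddChars K, fac χ := lt_of_lt_of_le (by positivity) hprod_low
  have hQ : (1 : ℝ) ≤ IsCMField.indexRealUnits K ∧ (IsCMField.indexRealUnits K : ℝ) ≤ 2 := by
    rcases IsCMField.indexRealUnits_eq_one_or_two K with h | h <;> rw [h] <;> norm_num
  have hw : (1 : ℝ) ≤ torsionOrder K := by exact_mod_cast torsionOrder_pos K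
  have hw2 : (torsionOrder K : ℝ) ≤ 2 * p := by
    rw [IsCyclotomicExtension.Rat.torsionOrder_eq (n := p) (K := K)]
    split_ifs
    · linarith
    · push_cast
      exact le_rfl
  rw [hquot]
  constructor
  · have h1 : (b * (p : ℝ) ^ (1 / 2 - ε)) ^ (oddChars K).card ≤
        IsCMField.indexRealUnits K * torsionOrder K * ∏ χ ∈ oddChars K, fac χ :=
      hprod_low.trans (le_mul_of_one_le_left hprod0.le
        (one_le_mul_of_one_le_of_one_le hQ.1 hw))
    have h2 := Real.log_le_log (by positivity) h1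
    rwa [Real.log_pow, Real.log_mul hb.ne' (Real.rpow_pos_of_pos hp0 _).ne', Real.log_rpow hp0,
      hm] at h2
  · have h1 : IsCMField.indexRealUnits K * torsionOrder K * ∏ χ ∈ oddChars K, fac χ ≤
        (4 * p) * (C * (p : ℝ) ^ (1 / 2 + ε)) ^ (oddChars K).card := by
      have h3 : (IsCMField.indexRealUnits K : ℝ) * torsionOrder K ≤ 4 * p := by
        calc (IsCMField.indexRealUnits K : ℝ) * torsionOrder K ≤ 2 * (2 * p) :=
              mul_le_mul hQ.2 hw2 (by positivity) (by norm_num)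
          _ = 4 * p := by ring
      exact mul_le_mul h3 hprod_up hprod0.le (by positivity)
    have h4 : (0 : ℝ) < IsCMField.indexRealUnits K * torsionOrder K * ∏ χ ∈ oddChars K, fac χ := by
      have := hQ.1
      positivity
    have h2 := Real.log_le_log h4 h1
    have h5 : Real.log (4 * p * (C * (p : ℝ) ^ (1 / 2 + ε)) ^ (oddChars K).card) =
        Real.log (4 * p) + (p - 1) / 2 * (Real.log C + (1 / 2 + ε) * Real.log p) := by
      rw [Real.log_mul (by positivity) (by positivity), Real.log_pow,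
        Real.log_mul hC.ne' (Real.rpow_pos_of_pos hp0 _).ne', Real.log_rpow hp0, hm]
    rwa [h5] at h2

/-- **Kummer's asymptotic formula in logarithmic form** (Siegel 1964):
`log (h(K) / h(K⁺)) ~ (p / 4) log p` for `K = ℚ(ζ_p)`, `p → ∞`. -/
theorem kummer_log {ι : Type*} {l : Filter ι} (p : ι → ℕ) (hp : ∀ i, (p i).Prime)
    (hlim : Tendsto p l atTop) (K : ι → Type u) [∀ i, Field (K i)] [∀ i, NumberField (K i)]
    [∀ i, IsCyclotomicExtension {p i} ℚ (K i)] :
    Tendsto (fun i => Real.log (classNumber (K i) / classNumber (maximalRealSubfield (K i))) /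
      ((p i : ℝ) / 4 * Real.log (p i))) l (𝓝 1) := by
  have hx : Tendsto (fun i => (p i : ℝ)) l atTop := tendsto_natCast_atTop_atTop.comp hlim
  have hL : Tendsto (fun i => Real.log (p i)) l atTop := Real.tendsto_log_atTop.comp hx
  have hev : ∀ᶠ i in l, 2 < p i := hlim.eventually_gt_atTop 2
  have hone : Tendsto (fun i => 1 - 1 / (p i : ℝ)) l (𝓝 1) := by
    have := (tendsto_const_nhds (x := (1 : ℝ))).sub (Tendsto.const_div_atTop hx 1)
    simpa using this
  rw [tendsto_order]
  refine ⟨fun x hx1 => ?_, fun x hx1 => ?_⟩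
  · obtain ⟨b, C, hb, hC, h⟩ := relative_bounds.{u} (ε := (1 - x) / 4) (by linarith)
    have h1 : Tendsto (fun i => (1 - 1 / (p i : ℝ)) *
        (2 * (Real.log b / Real.log (p i)) + (1 - 2 * ((1 - x) / 4)))) l
        (𝓝 (1 * (2 * 0 + (1 - 2 * ((1 - x) / 4))))) :=
      hone.mul (((Tendsto.const_div_atTop hL _).const_mul 2).add tendsto_const_nhds)
    have h2 := h1.eventually_const_lt
      (show x < 1 * (2 * 0 + (1 - 2 * ((1 - x) / 4))) by linarith)
    filter_upwards [hev, h2] with i hi hi2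
    refine hi2.trans_le ?_
    have hp0 : (0 : ℝ) < p i := by exact_mod_cast (hp i).pos
    have hlog : 0 < Real.log (p i) := Real.log_pos (by exact_mod_cast (hp i).one_lt)
    rw [le_div_iff₀ (by positivity)]
    refine le_trans (le_of_eq ?_) (h (p i) (hp i) hi (K i)).1
    field_simp
    ring
  · obtain ⟨b, C, hb, hC, h⟩ := relative_bounds.{u} (ε := (x - 1) / 4) (by linarith)
    have h1 : Tendsto (fun i => 4 / (p i : ℝ) * (Real.log 4 / Real.log (p i) + 1) +
        (1 - 1 / (p i : ℝ)) *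
        (2 * (Real.log C / Real.log (p i)) + (1 + 2 * ((x - 1) / 4)))) l
        (𝓝 (0 * (0 + 1) + 1 * (2 * 0 + (1 + 2 * ((x - 1) / 4))))) :=
      ((Tendsto.const_div_atTop hx 4).mul
        ((Tendsto.const_div_atTop hL _).add tendsto_const_nhds)).add
      (hone.mul (((Tendsto.const_div_atTop hL _).const_mul 2).add tendsto_const_nhds))
    have h2 := h1.eventually_lt_const
      (show 0 * (0 + 1) + 1 * (2 * 0 + (1 + 2 * ((x - 1) / 4))) < x by linarith)
    filter_upwards [hev, h2] with i hi hi2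
    refine lt_of_le_of_lt ?_ hi2
    have hp0 : (0 : ℝ) < p i := by exact_mod_cast (hp i).pos
    have hlog : 0 < Real.log (p i) := Real.log_pos (by exact_mod_cast (hp i).one_lt)
    rw [div_le_iff₀ (by positivity)]
    refine (h (p i) (hp i) hi (K i)).2.trans (le_of_eq ?_)
    rw [Real.log_mul (by norm_num) hp0.ne']
    field_simp
    ring

end Fermat.Agent.Cor.SiegelL
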