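import Fermat.Agent.Corollaries.SiegelL.PrimePi

/-!
# Two applications of the Siegel-Walfisz theorem

* `exists_prime_le_exp`: for every `ε > 0` there is a `C` such that every residue class prime to
  `q` contains a prime `p ≤ exp (C q^ε)`.
* `exists_prime_add_squarefree`: every sufficiently large integer is the sum of a prime and a squarefree number
  (Estermann 1931).
-/

set_option autoImplicit false

namespace Fermat.Agent.Cor.SiegelL

open Set MeasureTheory
open scoped Nat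

lemma li_ge {x : ℝ} (hx : 2 ≤ x) :
    (x - 2) / Real.log x ≤ ∫ t in (2 : ℝ)..x, 1 / Real.log t := by
  have h1 : ∫ _t in (2 : ℝ)..x, 1 / Real.log x = (x - 2) / Real.log x := by
    rw [intervalIntegral.integral_const, smul_eq_mul, mul_one_div]
  rw [← h1]
  refine intervalIntegral.integral_mono_on hx intervalIntegrable_const
    (by simpa using intervalIntegrable_inv_log_pow 1 hx) fun t ht => ?_
  exact one_div_le_one_div_of_le (Real.log_pos (by linarith [ht.1]))
    (Real.log_le_log (by linarith [ht.1]) ht.2)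

/-- **The least prime in a residue class**: for every `ε > 0` there is a `C` such that for all `q`
and all `a` prime to `q` there is a prime `p ≡ a mod q` with `p ≤ exp (C q^ε)`. -/
theorem exists_prime_le_exp {ε : ℝ} (hε : 0 < ε) : ∃ C : ℝ, 0 < C ∧ ∀ (q : ℕ) [NeZero q]
    (a : ZMod q), IsUnit a → ∃ p : ℕ, p.Prime ∧ (p : ZMod q) = a ∧
      (p : ℝ) ≤ Real.exp (C * (q : ℝ) ^ ε) := by
  set m : ℕ := ⌈2 / ε⌉₊ + 1 with hm
  have hmε : 2 ≤ ε * m := by
    have h1 : 2 / ε ≤ (⌈2 / ε⌉₊ : ℝ) := Nat.le_ceil _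
    rw [div_le_iff₀ hε] at h1
    rw [hm]
    push_cast
    nlinarith
  obtain ⟨C₀, hC₀, h⟩ := primes_progression_le (m + 1) one_pos
  refine ⟨2 * C₀ + 2, by positivity, fun q _ a ha => ?_⟩
  have hq1 : (1 : ℝ) ≤ q := by exact_mod_cast Nat.one_le_iff_ne_zero.mpr (NeZero.ne q)
  have hqε : 1 ≤ (q : ℝ) ^ ε := Real.one_le_rpow hq1 hε.le
  set C : ℝ := 2 * C₀ + 2 with hC
  have hC2 : 2 ≤ C := by linarith
  set l : ℝ := C * (q : ℝ) ^ ε with hl
  have hl2 : 2 ≤ l := by nlinarith
  set x : ℝ := Real.exp l with hx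
  have hx4 : 4 ≤ x := by
    have h1 : Real.exp 2 ≤ x := Real.exp_le_exp.mpr hl2
    have h2 : (2 : ℝ) ≤ Real.exp 1 := by
      have := Real.exp_one_gt_d9
      linarith
    have h3 : Real.exp 2 = Real.exp 1 * Real.exp 1 := by
      rw [← Real.exp_add]
      norm_num
    nlinarith
  have hx0 : 0 < x := Real.exp_pos l
  have hlog : Real.log x = l := Real.log_exp l
  have h1 := h q a ha x (by linarith)
  rw [Real.rpow_one, hlog] at h1
  have hφ0 : (0 : ℝ) < q.totient := by
    exact_mod_cast Nat.totient_pos.mpr (Nat.pos_of_ne_zero (NeZero.ne q))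
  have hφq : (q.totient : ℝ) ≤ q := by exact_mod_cast Nat.totient_le q
  have h2 : x / 2 / l / q ≤ (∫ t in (2 : ℝ)..x, 1 / Real.log t) / q.totient := by
    have i1 := li_ge (by linarith : 2 ≤ x)
    rw [hlog] at i1
    have i2 : x / 2 / l ≤ (x - 2) / l := by
      gcongr
      linarith
    exact div_le_div₀ ((by positivity : 0 ≤ x / 2 / l).trans (i2.trans i1)) (i2.trans i1) hφ0 hφq
  have h3 : C₀ * q * x / l ^ (m + 1) < x / 2 / l / q := by
    have i1 : C * (q : ℝ) ^ 2 ≤ l ^ m := by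
      rw [hl, mul_pow]
      have i2 : C ≤ C ^ m := le_self_pow₀ (by linarith) (by rw [hm]; omega)
      have i3 : (q : ℝ) ^ 2 ≤ ((q : ℝ) ^ ε) ^ m := by
        rw [← Real.rpow_natCast ((q : ℝ) ^ ε) m, ← Real.rpow_mul (by linarith),
          ← Real.rpow_natCast (q : ℝ) 2]
        exact Real.rpow_le_rpow_of_exponent_le hq1 (by push_cast; linarith)
      exact mul_le_mul i2 i3 (by positivity) (by positivity)
    rw [div_div, div_div, div_lt_div_iff₀ (by positivity) (by positivity)]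
    have i4 : 2 * C₀ * (q : ℝ) ^ 2 < l ^ m := by
      have : 0 < (q : ℝ) ^ 2 := by positivity
      nlinarith
    calc C₀ * q * x * (2 * (l * q)) = (2 * C₀ * (q : ℝ) ^ 2) * (x * l) := by ring
      _ < l ^ m * (x * l) := mul_lt_mul_of_pos_right i4 (by positivity)
      _ = x * l ^ (m + 1) := by ring
  have h4 : 0 < (((Finset.Icc 1 ⌊x⌋₊).filter
      (fun p : ℕ => p.Prime ∧ (p : ZMod q) = a)).card : ℝ) := by
    have := (abs_le.mp h1).1
    linarith
  obtain ⟨p, hp⟩ := Finset.card_pos.mp (by exact_mod_cast h4)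
  obtain ⟨hp1, hp2, hp3⟩ := Finset.mem_filter.mp hp
  refine ⟨p, hp2, hp3, ?_⟩
  exact (Nat.le_floor_iff hx0.le).mp (Finset.mem_Icc.mp hp1).2

/-! ### Estermann's theorem -/

lemma card_filter_prime (n : ℕ) :
    ((Finset.Icc 1 n).filter Nat.Prime).card = Nat.primeCounting n := by
  rw [Nat.primeCounting, Nat.primeCounting', Nat.count_eq_card_filter_range]
  congr 1
  ext p
  simp only [Finset.mem_filter, Finset.mem_Icc, Finset.mem_range]
  constructor
  · rintro ⟨⟨i1, i2⟩, i3⟩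
    exact ⟨by omega, i3⟩
  · rintro ⟨i1, i2⟩
    exact ⟨⟨i2.one_le, by omega⟩, i2⟩

lemma sum_Icc_inv_mul_pred {K : ℕ} (hK : 10 ≤ K) :
    ∑ l ∈ Finset.Icc 11 K, (1 : ℝ) / (l * (l - 1)) = 1 / 10 - 1 / K := by
  induction K, hK using Nat.le_induction with
  | base => norm_num
  | succ K hK ih =>
    rw [Finset.sum_Icc_succ_top (by omega), ih]
    have hK0 : (0 : ℝ) < K := by exact_mod_cast (by omega : 0 < K)
    push_cast
    rw [add_sub_cancel_right]
    field_simp
    ring

/-- `∑ 1/(l (l - 1)) ≤ 17/20` over the primes. -/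
lemma sum_prime_inv_mul_pred_le (M : ℕ) :
    ∑ l ∈ (Finset.Icc 1 M).filter Nat.Prime, (1 : ℝ) / (l * (l - 1)) ≤ 17 / 20 := by
  have hnn : ∀ l : ℕ, 0 ≤ (1 : ℝ) / (l * (l - 1)) := by
    intro l
    rcases Nat.eq_zero_or_pos l with rfl | hl
    · simp
    · have : (1 : ℝ) ≤ l := by exact_mod_cast hl
      have : (0 : ℝ) ≤ l - 1 := by linarith
      positivity
  have hsub : (Finset.Icc 1 M).filter Nat.Prime ⊆
      ({2, 3, 5, 7} : Finset ℕ) ∪ Finset.Icc 11 (max M 11) := by
    intro l hl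
    obtain ⟨h1, h2⟩ := Finset.mem_filter.mp hl
    rw [Finset.mem_union]
    by_cases h3 : 11 ≤ l
    · right
      exact Finset.mem_Icc.mpr ⟨h3, (Finset.mem_Icc.mp h1).2.trans (le_max_left _ _)⟩
    · left
      have h4 : l < 11 := by omega
      interval_cases l <;> first | decide | (exfalso; revert h2; decide)
  calc ∑ l ∈ (Finset.Icc 1 M).filter Nat.Prime, (1 : ℝ) / (l * (l - 1))
      ≤ ∑ l ∈ ({2, 3, 5, 7} : Finset ℕ) ∪ Finset.Icc 11 (max M 11), (1 : ℝ) / (l * (l - 1)) :=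
        Finset.sum_le_sum_of_subset_of_nonneg hsub fun l _ _ => hnn l
    _ ≤ ∑ l ∈ ({2, 3, 5, 7} : Finset ℕ), (1 : ℝ) / (l * (l - 1)) +
        ∑ l ∈ Finset.Icc 11 (max M 11), (1 : ℝ) / (l * (l - 1)) := by
        rw [← Finset.sum_union_inter]
        exact le_add_of_nonneg_right (Finset.sum_nonneg fun l _ => hnn l)
    _ ≤ 17 / 20 := by
        rw [sum_Icc_inv_mul_pred (by omega)]
        have h1 : (0 : ℝ) < 1 / (max M 11 : ℕ) := by positivity
        have h2 : ∑ l ∈ ({2, 3, 5, 7} : Finset ℕ), (1 : ℝ) / (l * (l - 1)) = 311 / 420 := by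
          rw [Finset.sum_insert (by decide), Finset.sum_insert (by decide),
            Finset.sum_insert (by decide), Finset.sum_singleton]
          norm_num
        rw [h2]
        linarith

lemma sum_Icc_inv_sq_le {M : ℕ} (hM : 1 ≤ M) {K : ℕ} (hK : M ≤ K) :
    ∑ l ∈ Finset.Icc (M + 1) K, (1 : ℝ) / (l : ℝ) ^ 2 ≤ 1 / M - 1 / K := by
  induction K, hK using Nat.le_induction with
  | base => simp
  | succ K hK ih =>
    rw [Finset.sum_Icc_succ_top (by omega)]
    have hK0 : (0 : ℝ) < K := by exact_mod_cast (by omega : 0 < K)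
    have h1 : (1 : ℝ) / ((K + 1 : ℕ) : ℝ) ^ 2 ≤ 1 / K - 1 / ((K + 1 : ℕ) : ℝ) := by
      push_cast
      rw [div_sub_div _ _ hK0.ne' (by positivity), div_le_div_iff₀ (by positivity) (by positivity)]
      nlinarith
    linarith

/-- The primes `p ≤ n` with `p ≡ n` modulo `l²`. -/
noncomputable def PL (n l : ℕ) : Finset ℕ :=
  (Finset.Icc 1 n).filter (fun p : ℕ => p.Prime ∧ (p : ZMod (l * l)) = (n : ZMod (l * l)))

lemma card_PL_le_one {n l : ℕ} (hl : l.Prime) (hln : l ∣ n) : (PL n l).card ≤ 1 := by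
  have h1 : PL n l ⊆ {l} := by
    intro p hp
    obtain ⟨h1, h2, h3⟩ := Finset.mem_filter.mp hp
    rw [Finset.mem_singleton]
    have h4 : p ≡ n [MOD l * l] := (ZMod.natCast_eq_natCast_iff _ _ _).mp h3
    have h5 : p ≡ n [MOD l] := h4.of_mul_left l
    have h6 : l ∣ p := (h5.dvd_iff dvd_rfl).mpr hln
    exact ((Nat.prime_dvd_prime_iff_eq hl h2).mp h6).symm
  exact (Finset.card_le_card h1).trans (by simp)

/-- The numbers `n - l² m`. -/
noncomputable def QL (n l : ℕ) : Finset ℕ :=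
  if l * l ≤ n then (Finset.range (n / (l * l) + 1)).image (fun m => n - l * l * m) else ∅

lemma card_QL_le {n l : ℕ} (hl : 1 ≤ l) : ((QL n l).card : ℝ) ≤ 2 * n * (1 / (l : ℝ) ^ 2) := by
  have hl0 : (0 : ℝ) < l := by exact_mod_cast hl
  rw [QL]
  split_ifs with h
  · have h1 : ((Finset.range (n / (l * l) + 1)).image (fun m => n - l * l * m)).card ≤
        n / (l * l) + 1 := Finset.card_image_le.trans (by simp)
    have h2 : ((n / (l * l) : ℕ) : ℝ) ≤ n / ((l * l : ℕ) : ℝ) := Nat.cast_div_le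
    have h3 : (1 : ℝ) ≤ n / ((l * l : ℕ) : ℝ) := by
      rw [one_le_div (by push_cast; positivity)]
      exact_mod_cast h
    have h4 : (((Finset.range (n / (l * l) + 1)).image (fun m => n - l * l * m)).card : ℝ) ≤
        ((n / (l * l) : ℕ) : ℝ) + 1 := by exact_mod_cast h1
    have h5 : (n : ℝ) / ((l * l : ℕ) : ℝ) = n * (1 / (l : ℝ) ^ 2) := by
      push_cast
      field_simp
    rw [h5] at h2 h3
    linarith
  · simp only [Finset.card_empty, Nat.cast_zero]
    positivity

/-- If `n` is not the sum of a prime and a squarefree number, then the primes up to `n` are covered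
by the residue classes of `n` modulo the squares of primes. -/
lemma cover {n M : ℕ} (h : ¬ ∃ p s : ℕ, p.Prime ∧ Squarefree s ∧ n = p + s) :
    (Finset.Icc 1 n).filter Nat.Prime ⊆
      (({n} : Finset ℕ) ∪ ((Finset.Icc 1 M).filter Nat.Prime).biUnion (PL n)) ∪
        (Finset.Icc (M + 1) n).biUnion (QL n) := by
  intro p hp
  obtain ⟨h1, h2⟩ := Finset.mem_filter.mp hp
  have hpn : p ≤ n := (Finset.mem_Icc.mp h1).2
  rw [Finset.mem_union, Finset.mem_union, Finset.mem_singleton, Finset.mem_biUnion,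
    Finset.mem_biUnion]
  rcases Nat.eq_or_lt_of_le hpn with rfl | hlt
  · exact Or.inl (Or.inl rfl)
  have h3 : ¬ Squarefree (n - p) := fun hs => h ⟨p, n - p, h2, hs, by omega⟩
  rw [Nat.squarefree_iff_prime_squarefree] at h3
  push Not at h3
  obtain ⟨l, hl, hdvd⟩ := h3
  have hpos : 0 < n - p := by omega
  have hll : l * l ≤ n - p := Nat.le_of_dvd hpos hdvd
  rcases Nat.lt_or_ge M l with hM | hM
  · right
    refine ⟨l, Finset.mem_Icc.mpr ⟨hM, ?_⟩, ?_⟩
    · have : l ≤ l * l := Nat.le_mul_self l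
      omega
    · rw [QL, if_pos (by omega)]
      obtain ⟨m, hm⟩ := hdvd
      refine Finset.mem_image.mpr ⟨m, ?_, by omega⟩
      rw [Finset.mem_range, Nat.lt_succ_iff, Nat.le_div_iff_mul_le (Nat.mul_pos hl.pos hl.pos)]
      rw [mul_comm]
      omega
  · left
    right
    refine ⟨l, Finset.mem_filter.mpr ⟨Finset.mem_Icc.mpr ⟨hl.one_le, hM⟩, hl⟩, ?_⟩
    refine Finset.mem_filter.mpr ⟨h1, h2, ?_⟩
    rw [ZMod.natCast_eq_natCast_iff]
    exact (Nat.modEq_iff_dvd' hpn).mpr hdvd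

/-- **Estermann's theorem** (1931): every sufficiently large integer is the sum of a prime and a
squarefree number. -/
theorem exists_prime_add_squarefree : ∃ N₀ : ℕ, ∀ n : ℕ, N₀ ≤ n →
    ∃ p s : ℕ, p.Prime ∧ Squarefree s ∧ n = p + s := by
  obtain ⟨C₁, hC₁, h₁⟩ := siegel_walfisz_primes 4 4
  obtain ⟨C₂, hC₂, h₂⟩ := primeCounting_sub_li_le 2
  set E : ℝ := C₁ + C₂ + 33 with hE
  refine ⟨⌈Real.exp (40 / 3 * E + 2)⌉₊, fun n hn => ?_⟩
  by_contra hcon
  have hnx : Real.exp (40 / 3 * E + 2) ≤ n := (Nat.le_ceil _).trans (by exact_mod_cast hn)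
  set x : ℝ := (n : ℝ) with hx
  have hx0 : 0 < x := (Real.exp_pos _).trans_le hnx
  set l : ℝ := Real.log x with hl
  have hlE : 40 / 3 * E + 2 ≤ l := (Real.le_log_iff_exp_le hx0).mpr hnx
  have hE0 : 0 < E := by positivity
  have hl2 : 2 ≤ l := by linarith
  have hl0 : 0 < l := by linarith
  have hx4 : 4 ≤ x := by
    have i1 : l ≤ x - 1 := Real.log_le_sub_one_of_pos hx0
    have i2 : 33 ≤ E := by linarith
    linarith
  have hfl : ⌊x⌋₊ = n := Nat.floor_natCast n
  set li : ℝ := ∫ t in (2 : ℝ)..x, 1 / Real.log t with hli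
  have hli1 : x / (2 * l) ≤ li := by
    refine le_trans ?_ (li_ge (by linarith))
    rw [div_le_div_iff₀ (by positivity) hl0]
    nlinarith
  have hli0 : 0 ≤ li := (by positivity : 0 ≤ x / (2 * l)).trans hli1
  set M : ℕ := ⌊l ^ 2⌋₊ with hM
  have hMle : (M : ℝ) ≤ l ^ 2 := Nat.floor_le (by positivity)
  have hMge : l ^ 2 ≤ M + 1 := (Nat.lt_floor_add_one _).le
  have hM3 : (3 : ℝ) ≤ M := by nlinarith
  have hM1 : 1 ≤ M := by
    have : (1 : ℝ) ≤ M := by linarith
    exact_mod_cast this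
  have hM2 : l ^ 2 / 2 ≤ M := by linarith
  have hMn : M ≤ n := by
    have i1 := one_le_div_log_pow (by linarith : 1 < x) 2
    rw [one_le_div (by positivity)] at i1
    have i2 : ((2 : ℕ)! : ℝ) = 2 := by norm_num [Nat.factorial]
    rw [i2] at i1
    have i3 : l ^ 3 ≤ 6 * x := by
      have i4 := one_le_div_log_pow (by linarith : 1 < x) 3
      rw [one_le_div (by positivity)] at i4
      have i5 : ((3 : ℕ)! : ℝ) = 6 := by norm_num [Nat.factorial]
      rwa [i5] at i4
    have i6 : (33 : ℝ) ≤ l := by linarith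
    have i7 : l ^ 2 ≤ x := by nlinarith
    have : (M : ℝ) ≤ n := hMle.trans i7
    exact_mod_cast this
  -- the classes modulo the squares of small primes
  have hsmall : ∀ r ∈ (Finset.Icc 1 M).filter Nat.Prime, ((PL n r).card : ℝ) ≤
      li * (1 / (r * (r - 1))) + (C₁ * x / l ^ 4 + 1) := by
    intro r hr
    obtain ⟨hr1, hr2⟩ := Finset.mem_filter.mp hr
    have hrM : (r : ℝ) ≤ M := by exact_mod_cast (Finset.mem_Icc.mp hr1).2
    have hr0 : (2 : ℝ) ≤ r := by exact_mod_cast hr2.two_le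
    have hpos : 0 ≤ li * (1 / ((r : ℝ) * (r - 1))) :=
      mul_nonneg hli0 (div_nonneg zero_le_one (mul_nonneg (by linarith) (by linarith)))
    have hpos2 : 0 ≤ C₁ * x / l ^ 4 := by positivity
    by_cases hd : r ∣ n
    · have i1 : ((PL n r).card : ℝ) ≤ 1 := by exact_mod_cast card_PL_le_one hr2 hd
      linarith
    · have : NeZero (r * r) := ⟨mul_ne_zero hr2.ne_zero hr2.ne_zero⟩
      have i1 : n.Coprime (r * r) := by
        have : n.Coprime r := ((Nat.Prime.coprime_iff_not_dvd hr2).mpr hd).symm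
        exact this.mul_right this
      have i2 := h₁ x (by linarith) (r * r) (by
        push_cast
        calc (r : ℝ) * r ≤ l ^ 2 * l ^ 2 :=
              mul_le_mul (hrM.trans hMle) (hrM.trans hMle) (by linarith) (by positivity)
          _ = l ^ 4 := by ring) (n : ZMod (r * r)) ((ZMod.isUnit_iff_coprime n (r * r)).mpr i1)
      rw [hfl] at i2
      have i3 : ((r * r).totient : ℝ) = r * (r - 1) := by
        rw [← sq, Nat.totient_prime_pow hr2 (by norm_num)]
        push_cast [Nat.cast_sub hr2.one_le]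
        norm_num
      rw [i3] at i2
      have i4 := (abs_le.mp i2).2
      have i5 : li / ((r : ℝ) * (r - 1)) = li * (1 / (r * (r - 1))) := by ring
      rw [← hl, ← hli, i5] at i4
      have i6 : ((PL n r).card : ℝ) = (((Finset.Icc 1 n).filter
        (fun p : ℕ => p.Prime ∧ (p : ZMod (r * r)) = (n : ZMod (r * r)))).card : ℝ) := rfl
      rw [i6]
      linarith
  -- the covering
  have hcov := Finset.card_le_card (cover (M := M) hcon)
  have hcard : ((Finset.Icc 1 n).filter Nat.Prime).card ≤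
      (1 + ∑ r ∈ (Finset.Icc 1 M).filter Nat.Prime, (PL n r).card) +
        ∑ r ∈ Finset.Icc (M + 1) n, (QL n r).card :=
    hcov.trans ((Finset.card_union_le _ _).trans (add_le_add ((Finset.card_union_le _ _).trans
      (add_le_add (by simp) Finset.card_biUnion_le)) Finset.card_biUnion_le))
  have hcard' : (Nat.primeCounting n : ℝ) ≤
      (1 + ∑ r ∈ (Finset.Icc 1 M).filter Nat.Prime, ((PL n r).card : ℝ)) +
        ∑ r ∈ Finset.Icc (M + 1) n, ((QL n r).card : ℝ) := by
    rw [← card_filter_prime]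
    exact_mod_cast hcard
  have b1 : ∑ r ∈ (Finset.Icc 1 M).filter Nat.Prime, ((PL n r).card : ℝ) ≤
      li * (17 / 20) + l ^ 2 * (C₁ * x / l ^ 4 + 1) := by
    calc ∑ r ∈ (Finset.Icc 1 M).filter Nat.Prime, ((PL n r).card : ℝ)
        ≤ ∑ r ∈ (Finset.Icc 1 M).filter Nat.Prime,
          (li * (1 / ((r : ℝ) * (r - 1))) + (C₁ * x / l ^ 4 + 1)) := Finset.sum_le_sum hsmall
      _ = li * ∑ r ∈ (Finset.Icc 1 M).filter Nat.Prime, 1 / ((r : ℝ) * (r - 1)) +
          ((Finset.Icc 1 M).filter Nat.Prime).card * (C₁ * x / l ^ 4 + 1) := by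
          rw [Finset.sum_add_distrib, ← Finset.mul_sum, Finset.sum_const, nsmul_eq_mul]
      _ ≤ li * (17 / 20) + l ^ 2 * (C₁ * x / l ^ 4 + 1) := by
          have i1 := sum_prime_inv_mul_pred_le M
          have i2 : (((Finset.Icc 1 M).filter Nat.Prime).card : ℝ) ≤ l ^ 2 := by
            have : ((Finset.Icc 1 M).filter Nat.Prime).card ≤ M :=
              (Finset.card_filter_le _ _).trans (by simp)
            exact (by exact_mod_cast this : (((Finset.Icc 1 M).filter Nat.Prime).card : ℝ) ≤ M).trans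
              hMle
          have i3 : 0 ≤ C₁ * x / l ^ 4 + 1 := by positivity
          exact add_le_add (mul_le_mul_of_nonneg_left i1 hli0) (mul_le_mul_of_nonneg_right i2 i3)
  have b2 : ∑ r ∈ Finset.Icc (M + 1) n, ((QL n r).card : ℝ) ≤ 2 * x * (2 / l ^ 2) := by
    calc ∑ r ∈ Finset.Icc (M + 1) n, ((QL n r).card : ℝ)
        ≤ ∑ r ∈ Finset.Icc (M + 1) n, 2 * x * (1 / (r : ℝ) ^ 2) :=
          Finset.sum_le_sum fun r hr => card_QL_le (by have := (Finset.mem_Icc.mp hr).1; omega)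
      _ = 2 * x * ∑ r ∈ Finset.Icc (M + 1) n, 1 / (r : ℝ) ^ 2 := by rw [Finset.mul_sum]
      _ ≤ 2 * x * (2 / l ^ 2) := by
          have i1 := sum_Icc_inv_sq_le hM1 hMn
          have i2 : (0 : ℝ) ≤ 1 / n := by positivity
          have i3 : 1 / (M : ℝ) ≤ 2 / l ^ 2 := by
            rw [div_le_div_iff₀ (by linarith) (by positivity)]
            linarith
          exact mul_le_mul_of_nonneg_left (by linarith) (by positivity)
  have b3 := (abs_le.mp (h₂ x (by linarith))).1
  rw [hfl, ← hli, ← hl] at b3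
  -- the contradiction
  have c1 : 3 / 20 * li ≤ 1 + C₂ * x / l ^ 2 + l ^ 2 * (C₁ * x / l ^ 4 + 1) +
      2 * x * (2 / l ^ 2) := by
    have e1 : -(C₂ * x / l ^ 2) ≤ (Nat.primeCounting n : ℝ) - li := b3
    linarith
  have c2 : 3 / 20 * (x / (2 * l)) ≤ 1 + C₂ * x / l ^ 2 + l ^ 2 * (C₁ * x / l ^ 4 + 1) +
      2 * x * (2 / l ^ 2) := (mul_le_mul_of_nonneg_left hli1 (by norm_num)).trans c1
  have i4 : l ^ 4 ≤ 24 * x := by
    have i4 := one_le_div_log_pow (by linarith : 1 < x) 4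
    rw [one_le_div (by positivity)] at i4
    have i5 : ((4 : ℕ)! : ℝ) = 24 := by norm_num [Nat.factorial]
    rwa [i5] at i4
  have i2 : l ^ 2 ≤ 2 * x := by
    have i4 := one_le_div_log_pow (by linarith : 1 < x) 2
    rw [one_le_div (by positivity)] at i4
    have i5 : ((2 : ℕ)! : ℝ) = 2 := by norm_num [Nat.factorial]
    rwa [i5] at i4
  have c3 : 3 / 40 * l * x ≤ l ^ 2 + C₂ * x + (C₁ * x + l ^ 4) + 4 * x := by
    have e1 : 3 / 20 * (x / (2 * l)) * l ^ 2 = 3 / 40 * l * x := by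
      field_simp
      ring
    have e2 : (1 + C₂ * x / l ^ 2 + l ^ 2 * (C₁ * x / l ^ 4 + 1) + 2 * x * (2 / l ^ 2)) * l ^ 2 =
        l ^ 2 + C₂ * x + (C₁ * x + l ^ 4) + 4 * x := by
      field_simp
      ring
    rw [← e1, ← e2]
    exact mul_le_mul_of_nonneg_right c2 (by positivity)
  have c4 : 3 / 40 * l * x ≤ E * x := by
    refine c3.trans ?_
    rw [hE]
    nlinarith
  have c5 : 3 / 40 * l ≤ E := le_of_mul_le_mul_right c4 hx0
  linarith

end Fermat.Agent.Cor.SiegelL
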