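import Fermat.Agent.Corollaries.SiegelL.Short

/-!
# Sums of the Möbius function with characters

For all `B` and `η > 0` there is a `C` such that for all `q`, all characters `χ ≠ 1` modulo `q` and
all `x ≥ 2`: `|∑_{n ≤ x} χ(n) μ(n)| ≤ C q^η x (log x)^(-B)` (`moebius_char_le`), and
`|∑_{n ≤ x} μ(n)| ≤ C x (log x)^(-B)` (`mertens_le`). The method of the Siegel-Walfisz theorem for
`1/L(s, χ)` and `1/ζ(s)`.
-/

set_option autoImplicit false

namespace Fermat.Agent.Cor.SiegelL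

open Complex Set MeasureTheory
open scoped Real FourierTransform Nat

/-! ### The smoothed sums of a Dirichlet series -/

/-- **The general smoothing theorem.** -/
theorem smooth_general (k : ℕ) : ∃ J : ℝ, 0 < J ∧ ∀ (a : ℕ → ℂ) (G : ℂ → ℂ) (M : ℕ → ℝ),
    a 0 = 0 → (∀ j, 0 ≤ M j) → (∀ σ : ℝ, 1 < σ → LSeriesSummable a (σ : ℂ)) →
    DifferentiableOn ℂ G {s : ℂ | 1 < s.re} →
    (∀ s : ℂ, 1 < s.re → LSeries a s * (1 / (s * (s + 1))) = G s) →
    (∀ j : ℕ, j ≤ k → ∀ s : ℂ, 1 < s.re → s.re ≤ 5 / 4 →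
      ‖iteratedDeriv j G s‖ ≤ M j * (1 + ‖s.im‖ ^ 2) ^ (-(3 / 2 : ℝ) / 2)) →
    ∀ x : ℝ, Real.exp 1 ≤ x →
      ‖∑' n : ℕ, a n * kk (n / x)‖ ≤ J * M k * x / Real.log x ^ k := by
  set J : ℝ := ∫ y : ℝ, (1 + ‖y‖ ^ 2) ^ (-(3 / 2 : ℝ) / 2) with hJ
  have hJi : Integrable fun y : ℝ => ((1 : ℝ) + ‖y‖ ^ 2) ^ (-(3 / 2 : ℝ) / 2) :=
    integrable_rpow_neg_one_add_norm_sq (by
      rw [Module.finrank_self]
      norm_num)
  have hJ0 : 0 ≤ J := integral_nonneg fun y => Real.rpow_nonneg (by positivity) _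
  refine ⟨2 * J + 1, by positivity, fun a G M ha0 hM hsum hg hser hbd' x hx => ?_⟩
  have hMk := hM k
  have hx0 : 0 < x := (Real.exp_pos 1).trans_le hx
  have hlog : 1 ≤ Real.log x := (Real.le_log_iff_exp_le hx0).mpr hx
  have hlog0 : 0 < Real.log x := by linarith
  set σ : ℝ := 1 + 1 / (4 * Real.log x) with hσ
  have hσ1 : 1 < σ := by
    have : 0 < 1 / (4 * Real.log x) := by positivity
    linarith
  have hσ2 : σ ≤ 5 / 4 := by
    have : 1 / (4 * Real.log x) ≤ 1 / 4 := one_div_le_one_div_of_le (by norm_num) (by linarith)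
    linarith
  have hxσ : x ^ σ ≤ 2 * x := by
    rw [hσ, Real.rpow_add hx0, Real.rpow_one]
    have h1 : x ^ (1 / (4 * Real.log x)) = Real.exp (1 / 4) := by
      rw [Real.rpow_def_of_pos hx0]
      congr 1
      field_simp
    have h2 : Real.exp (1 / 4) ≤ 2 := by
      have h3 : Real.exp (1 / 4) ≤ Real.exp (Real.log 2) :=
        Real.exp_le_exp.mpr (by linarith [Real.log_two_gt_d9])
      rwa [Real.exp_log (by norm_num)] at h3
    rw [h1]
    nlinarith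
  have hUo : IsOpen {s : ℂ | 1 < s.re} := isOpen_lt continuous_const Complex.continuous_re
  have hre : ∀ y : ℝ, ((σ : ℂ) + y * I).re = σ := fun y => by simp
  have him : ∀ y : ℝ, ((σ : ℂ) + y * I).im = y := fun y => by simp
  have hline : ∀ y : ℝ, ((σ : ℂ) + y * I) ∈ {s : ℂ | 1 < s.re} := fun y => by
    change 1 < ((σ : ℂ) + y * I).re
    rw [hre]
    exact hσ1
  set h : ℝ → ℂ := fun y => G (σ + y * I) with hh
  have hbd : ∀ j : ℕ, j ≤ k → ∀ y : ℝ, ‖iteratedDeriv j h y‖ ≤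
      M j * (1 + ‖y‖ ^ 2) ^ (-(3 / 2 : ℝ) / 2) := by
    intro j hj y
    rw [hh, iteratedDeriv_vertical hUo hg hline, norm_mul, norm_pow, Complex.norm_I, one_pow,
      mul_one]
    have h1 := hbd' j hj (σ + y * I) (by rw [hre]; exact hσ1) (by rw [hre]; exact hσ2)
    rwa [him] at h1
  have hcd : ContDiff ℝ k h := contDiff_vertical hUo hg hline k
  have hint : ∀ j : ℕ, j ≤ k → Integrable (iteratedDeriv j h) := fun j hj =>
    (hJi.const_mul _).mono'
      (hcd.continuous_iteratedDeriv j (by exact_mod_cast hj)).aestronglyMeasurable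
      (Filter.Eventually.of_forall fun y => hbd j hj y)
  have hfour := norm_fourier_le hcd hint (-(Real.log x / (2 * π)))
  have hξ : 2 * π * |-(Real.log x / (2 * π))| = Real.log x := by
    rw [abs_neg, abs_of_pos (by positivity)]
    field_simp
  rw [hξ] at hfour
  have hI : ∫ y, ‖iteratedDeriv k h y‖ ≤ M k * J := by
    rw [hJ, ← integral_const_mul]
    exact integral_mono (hint k le_rfl).norm (hJi.const_mul _) fun y => hbd k le_rfl y
  have hF : ‖𝓕 h (-(Real.log x / (2 * π)))‖ ≤ M k * J / Real.log x ^ k := by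
    rw [le_div_iff₀ (by positivity), mul_comm]
    exact hfour.trans hI
  rw [sum_kk_eq hσ1.le hx0 (hsum σ hσ1) ha0]
  have hInt : ∫ y : ℝ, LSeries a ((σ : ℂ) + y * I) *
      ((x : ℂ) ^ ((σ : ℂ) + y * I) * (1 / (((σ : ℂ) + y * I) * ((σ : ℂ) + y * I + 1)))) =
      ((x ^ σ : ℝ) : ℂ) * 𝓕 h (-(Real.log x / (2 * π))) := by
    rw [Real.fourier_real_eq_integral_exp_smul, ← integral_const_mul]
    refine integral_congr_ae (Filter.Eventually.of_forall fun y => ?_)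
    have e1 := hser ((σ : ℂ) + y * I) (by rw [hre]; exact hσ1)
    have e2 : (x : ℂ) ^ ((σ : ℂ) + y * I) = ((x ^ σ : ℝ) : ℂ) *
        Complex.exp (((-2 * π * y * (-(Real.log x / (2 * π))) : ℝ) : ℂ) * I) := by
      have hx0' : (x : ℂ) ≠ 0 := by exact_mod_cast hx0.ne'
      rw [Complex.cpow_add _ _ hx0', Complex.ofReal_cpow hx0.le]
      congr 1
      rw [Complex.cpow_def_of_ne_zero hx0', ← Complex.ofReal_log hx0.le]
      congr 1
      have e3 : -2 * π * y * (-(Real.log x / (2 * π))) = Real.log x * y := by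
        field_simp
      rw [e3]
      push_cast
      ring
    simp only [hh, smul_eq_mul]
    rw [e2, ← e1]
    ring
  rw [hInt, norm_smul, norm_mul, Complex.norm_real, Real.norm_eq_abs, Real.norm_eq_abs,
    abs_of_pos (by positivity : 0 < 1 / (2 * π)),
    abs_of_pos (Real.rpow_pos_of_pos hx0 σ)]
  have hpi : 1 / (2 * π) ≤ 1 := by
    rw [div_le_one (by positivity)]
    linarith [Real.pi_gt_three]
  calc 1 / (2 * π) * (x ^ σ * ‖𝓕 h (-(Real.log x / (2 * π)))‖)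
      ≤ 1 * (2 * x * (M k * J / Real.log x ^ k)) := by
        have := Real.rpow_nonneg hx0.le σ
        gcongr
    _ = 2 * J * M k * x / Real.log x ^ k := by ring
    _ ≤ _ := by
        gcongr
        linarith

/-! ### Cauchy's estimate in small discs -/

lemma norm_iteratedDeriv_of_disc {G : ℂ → ℂ} {s : ℂ} {r m : ℝ} (hs : 1 < s.re) (hr : 0 < r)
    (hr' : r ≤ 1 / 16) (hm : 0 ≤ m) (hd : ∀ w ∈ Metric.closedBall s r, DifferentiableAt ℂ G w)
    (hG : ∀ w ∈ Metric.closedBall s r, ‖G w‖ ≤ m * (1 / ‖w * (w + 1)‖)) (j : ℕ) :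
    ‖iteratedDeriv j G s‖ ≤ j.factorial * (4 * m / (1 + s.im ^ 2)) / r ^ j := by
  have hdc : DiffContOnCl ℂ G (Metric.ball s r) := by
    refine DifferentiableOn.diffContOnCl fun w hw => ?_
    rw [closure_ball s hr.ne'] at hw
    exact (hd w hw).differentiableWithinAt
  have hs0 : 1 + s.im ^ 2 ≤ ‖s‖ ^ 2 := by
    rw [← Complex.normSq_eq_norm_sq, Complex.normSq_apply]
    nlinarith
  have hs1 : 1 ≤ ‖s‖ := by
    have := Complex.re_le_norm s
    linarith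
  refine Complex.norm_iteratedDeriv_le_of_forall_mem_sphere_norm_le j hr hdc fun w hw' => ?_
  have hw : w ∈ Metric.closedBall s r := Metric.sphere_subset_closedBall hw'
  have h2 : ‖w - s‖ ≤ r := by rw [← dist_eq_norm]; exact hw
  have h3 := abs_le.mp ((Complex.abs_re_le_norm (w - s)).trans h2)
  rw [Complex.sub_re] at h3
  have hre0 : 0 < w.re := by linarith [h3.1]
  have i3 : ‖s‖ / 2 ≤ ‖w‖ := by
    have j2 : ‖s‖ ≤ ‖w‖ + ‖w - s‖ := by
      have := norm_sub_le w (w - s)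
      rwa [sub_sub_cancel] at this
    linarith
  have i4 : ‖w‖ ≤ ‖w + 1‖ := by
    have j2 : ‖w‖ ^ 2 ≤ ‖w + 1‖ ^ 2 := by
      rw [← Complex.normSq_eq_norm_sq, ← Complex.normSq_eq_norm_sq, Complex.normSq_apply,
        Complex.normSq_apply]
      simp only [Complex.add_re, Complex.one_re, Complex.add_im, Complex.one_im, add_zero]
      nlinarith
    exact (sq_le_sq₀ (norm_nonneg _) (norm_nonneg _)).mp j2
  have i5 : (1 + s.im ^ 2) / 4 ≤ ‖w * (w + 1)‖ := by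
    rw [norm_mul]
    have j1 : ‖s‖ / 2 * (‖s‖ / 2) ≤ ‖w‖ * ‖w + 1‖ :=
      mul_le_mul i3 (i3.trans i4) (by positivity) (norm_nonneg _)
    nlinarith
  have i7 : 1 / ‖w * (w + 1)‖ ≤ 1 / ((1 + s.im ^ 2) / 4) :=
    one_div_le_one_div_of_le (by positivity) i5
  refine (hG w hw).trans ((mul_le_mul_of_nonneg_left i7 hm).trans_eq ?_)
  field_simp

lemma disc_facts {q : ℕ} [NeZero q] {b c : ℝ} (hb0 : 0 < b) (hb1 : b ≤ 1) (hc0 : 0 < c)
    (hc1 : c ≤ 1 / 4) {s w : ℂ} (hs : 1 < s.re) (hs2 : s.re ≤ 5 / 4)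
    (hw : w ∈ Metric.closedBall s (c / 4 * QQ q s.im ^ (-b))) :
    1 - c * QQ q w.im ^ (-b) ≤ w.re ∧ w.re ≤ 3 / 2 ∧ 0 < w.re ∧
      c / 2 * QQ q s.im ^ (-b) ≤ c * QQ q w.im ^ (-b) ∧ |s.im| - 1 / 16 ≤ |w.im| := by
  have hQ2 := two_le_QQ (q := q) s.im
  have hQ0 : 0 < QQ q s.im := by linarith
  have hQw2 := two_le_QQ (q := q) w.im
  have hP0 : 0 < QQ q s.im ^ (-b) := Real.rpow_pos_of_pos hQ0 _
  have hP1 : QQ q s.im ^ (-b) ≤ 1 :=
    Real.rpow_le_one_of_one_le_of_nonpos (by linarith) (by linarith)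
  have hr : c / 4 * QQ q s.im ^ (-b) ≤ 1 / 16 := by
    calc c / 4 * QQ q s.im ^ (-b) ≤ (1 / 4) / 4 * 1 := by gcongr
      _ = 1 / 16 := by norm_num
  have h2 : ‖w - s‖ ≤ c / 4 * QQ q s.im ^ (-b) := by rw [← dist_eq_norm]; exact hw
  have h3 := abs_le.mp ((Complex.abs_re_le_norm (w - s)).trans h2)
  have h4 := (Complex.abs_im_le_norm (w - s)).trans h2
  rw [Complex.sub_re] at h3
  rw [Complex.sub_im] at h4
  have h5 := abs_sub_abs_le_abs_sub s.im w.im
  have h6 := abs_sub_abs_le_abs_sub w.im s.im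
  rw [abs_sub_comm] at h5
  have h7 := abs_nonneg s.im
  have hQw : QQ q s.im ^ (-b) / 2 ≤ QQ q w.im ^ (-b) := by
    have i1 : QQ q w.im ^ b ≤ 2 * QQ q s.im ^ b := QQ_rpow_le hb0 hb1 (by linarith)
    have i2 : 0 < QQ q w.im ^ b := Real.rpow_pos_of_pos (by linarith) _
    rw [Real.rpow_neg hQ0.le, Real.rpow_neg (by linarith)]
    have i3 : (QQ q s.im ^ b)⁻¹ / 2 = (2 * QQ q s.im ^ b)⁻¹ := by
      rw [mul_inv]
      ring
    rw [i3]
    exact inv_anti₀ i2 i1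
  have h8 : c / 2 * QQ q s.im ^ (-b) ≤ c * QQ q w.im ^ (-b) := by
    have := mul_le_mul_of_nonneg_left hQw hc0.le
    linarith
  have hcP : 0 < c * QQ q s.im ^ (-b) := by positivity
  exact ⟨by linarith [h3.1], by linarith [h3.2], by linarith [h3.1], h8, by linarith⟩

lemma disc_radius {q : ℕ} [NeZero q] {b c : ℝ} (hb0 : 0 < b) (hc0 : 0 < c) (hc1 : c ≤ 1 / 4)
    (t : ℝ) : 0 < c / 4 * QQ q t ^ (-b) ∧ c / 4 * QQ q t ^ (-b) ≤ 1 / 16 := by
  have hQ2 := two_le_QQ (q := q) t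
  have hP0 : 0 < QQ q t ^ (-b) := Real.rpow_pos_of_pos (by linarith) _
  have hP1 : QQ q t ^ (-b) ≤ 1 :=
    Real.rpow_le_one_of_one_le_of_nonpos (by linarith) (by linarith)
  refine ⟨by positivity, ?_⟩
  calc c / 4 * QQ q t ^ (-b) ≤ (1 / 4) / 4 * 1 := by gcongr
    _ = 1 / 16 := by norm_num

lemma disc_final {q : ℕ} [NeZero q] {b c t : ℝ} (hc0 : 0 < c) (j : ℕ) :
    (j.factorial : ℝ) * (4 * (1 / (c / 2 * QQ q t ^ (-b))) / (1 + t ^ 2)) /
      (c / 4 * QQ q t ^ (-b)) ^ j =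
      j.factorial * (8 / c) / (c / 4) ^ j * QQ q t ^ (((j : ℝ) + 1) * b) / (1 + t ^ 2) := by
  have hQ2 := two_le_QQ (q := q) t
  have hQ0 : 0 < QQ q t := by linarith
  have hP0 : 0 < QQ q t ^ (-b) := Real.rpow_pos_of_pos hQ0 _
  have e1 : QQ q t ^ (((j : ℝ) + 1) * b) = 1 / (QQ q t ^ (-b) * (QQ q t ^ (-b)) ^ j) := by
    rw [← pow_succ', ← Real.rpow_natCast (QQ q t ^ (-b)) (j + 1), ← Real.rpow_mul hQ0.le,
      one_div, ← Real.rpow_neg hQ0.le]
    congr 1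
    push_cast
    ring
  rw [e1, mul_pow]
  field_simp
  norm_num

/-! ### The functions `1/L(s, χ)` and `1/ζ(s)` -/

/-- The coefficients `χ(n) μ(n)`. -/
noncomputable def aM {q : ℕ} (χ : DirichletCharacter ℂ q) : ℕ → ℂ :=
  (fun n : ℕ => χ n) * fun n : ℕ => ((ArithmeticFunction.moebius n : ℤ) : ℂ)

/-- The function `1 / L(s, χ) / (s (s + 1))`. -/
noncomputable def GM {q : ℕ} [NeZero q] (χ : DirichletCharacter ℂ q) (s : ℂ) : ℂ :=
  1 / χ.LFunction s * (1 / (s * (s + 1)))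

lemma LSeries_aM {q : ℕ} [NeZero q] (χ : DirichletCharacter ℂ q) {s : ℂ} (hs : 1 < s.re) :
    LSeries (aM χ) s * (1 / (s * (s + 1))) = GM χ s := by
  have h1 := DirichletCharacter.LSeries.mul_mu_eq_one χ hs
  rw [← DirichletCharacter.LFunction_eq_LSeries χ hs] at h1
  have h2 : LSeries (aM χ) s = 1 / χ.LFunction s := by
    rw [eq_div_iff (left_ne_zero_of_mul_eq_one h1), mul_comm]
    exact h1
  rw [GM, h2]

lemma LSeriesSummable_aM {q : ℕ} (χ : DirichletCharacter ℂ q) {s : ℂ} (hs : 1 < s.re) :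
    LSeriesSummable (aM χ) s :=
  DirichletCharacter.LSeriesSummable_mul χ (ArithmeticFunction.LSeriesSummable_moebius_iff.mpr hs)

lemma norm_aM_le {q : ℕ} (χ : DirichletCharacter ℂ q) (n : ℕ) : ‖aM χ n‖ ≤ 1 := by
  rw [aM, Pi.mul_apply, norm_mul]
  have i2 : ‖((ArithmeticFunction.moebius n : ℤ) : ℂ)‖ ≤ 1 := by
    rw [Complex.norm_intCast]
    exact_mod_cast ArithmeticFunction.abs_moebius_le_one
  exact mul_le_one₀ (χ.norm_le_one _) (norm_nonneg _) i2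

lemma ker_differentiableAt {s : ℂ} (hs : 0 < s.re) :
    DifferentiableAt ℂ (fun z : ℂ => 1 / (z * (z + 1))) s := by
  have h2 : s ≠ 0 := by
    rintro rfl
    simp at hs
  have h3 : s + 1 ≠ 0 := by
    intro h3
    have := congrArg Complex.re h3
    simp at this
    linarith
  exact (differentiableAt_const _).div (differentiableAt_id.mul (differentiableAt_id.add_const 1))
    (mul_ne_zero h2 h3)

theorem norm_iteratedDeriv_GM_le {b : ℝ} (hb0 : 0 < b) (hb1 : b ≤ 1) : ∃ C : ℕ → ℝ,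
    (∀ j, 0 < C j) ∧ ∀ (j q : ℕ) [NeZero q] (χ : DirichletCharacter ℂ q), χ ≠ 1 → ∀ s : ℂ,
      1 < s.re → s.re ≤ 5 / 4 →
      ‖iteratedDeriv j (GM χ) s‖ ≤ C j * QQ q s.im ^ (((j : ℝ) + 1) * b) / (1 + s.im ^ 2) := by
  obtain ⟨c, hc0, hc1, -, h⟩ := norm_lower_full hb0
  refine ⟨fun j => j.factorial * (8 / c) / (c / 4) ^ j, fun j => by positivity,
    fun j q _ χ hχ s hs hs2 => ?_⟩
  obtain ⟨hr0, hr1⟩ := disc_radius (q := q) hb0 hc0 hc1 s.im
  have hP0 : 0 < QQ q s.im ^ (-b) :=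
    Real.rpow_pos_of_pos (by linarith [two_le_QQ (q := q) s.im]) _
  have hlow : ∀ w ∈ Metric.closedBall s (c / 4 * QQ q s.im ^ (-b)),
      c / 2 * QQ q s.im ^ (-b) ≤ ‖χ.LFunction w‖ ∧ 0 < w.re := by
    intro w hw
    obtain ⟨d1, d2, d3, d4, -⟩ := disc_facts hb0 hb1 hc0 hc1 hs hs2 hw
    exact ⟨d4.trans (h q χ hχ w d1 (by linarith)), d3⟩
  have hne : ∀ w ∈ Metric.closedBall s (c / 4 * QQ q s.im ^ (-b)), χ.LFunction w ≠ 0 :=
    fun w hw => norm_pos_iff.mp (lt_of_lt_of_le (by positivity) (hlow w hw).1)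
  have key := norm_iteratedDeriv_of_disc (G := GM χ) (m := 1 / (c / 2 * QQ q s.im ^ (-b))) hs hr0
    hr1 (by positivity) (fun w hw => by
      exact ((differentiableAt_const _).div (DirichletCharacter.differentiable_LFunction hχ w)
        (hne w hw)).mul (ker_differentiableAt (hlow w hw).2)) (fun w hw => by
      rw [GM, norm_mul, norm_div, norm_div, norm_one]
      exact mul_le_mul_of_nonneg_right
        (one_div_le_one_div_of_le (by positivity) (hlow w hw).1) (by positivity)) j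
  rwa [disc_final hc0] at key

/-- The function `1 / ζ(s) / (s (s + 1))`. -/
noncomputable def GMZ (s : ℂ) : ℂ := (s - 1) / riemannZeta₁ s * (1 / (s * (s + 1)))

lemma GMZ_eq {s : ℂ} (hs : s ≠ 1) : GMZ s = 1 / riemannZeta s * (1 / (s * (s + 1))) := by
  rw [GMZ, riemannZeta₁_eq hs, div_mul_cancel_left₀ (sub_ne_zero.mpr hs), one_div (riemannZeta s)]

lemma differentiableAt_GMZ {s : ℂ} (h : riemannZeta₁ s ≠ 0) (hs : 0 < s.re) :
    DifferentiableAt ℂ GMZ s :=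
  ((differentiableAt_id.sub_const 1).div (differentiable_riemannZeta₁ s) h).mul
    (ker_differentiableAt hs)

lemma analyticAt_GMZ {s : ℂ} (hs : 1 ≤ s.re) : AnalyticAt ℂ GMZ s := by
  have hU : IsOpen {z : ℂ | riemannZeta₁ z ≠ 0 ∧ 0 < z.re} :=
    (isOpen_ne_fun differentiable_riemannZeta₁.continuous continuous_const).inter
      (isOpen_lt continuous_const Complex.continuous_re)
  have hd : DifferentiableOn ℂ GMZ {z : ℂ | riemannZeta₁ z ≠ 0 ∧ 0 < z.re} := fun z hz =>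
    (differentiableAt_GMZ hz.1 hz.2).differentiableWithinAt
  exact hd.analyticAt (hU.mem_nhds ⟨riemannZeta₁_ne_zero hs, by linarith⟩)

lemma exists_bound_GMZ (j : ℕ) : ∃ M : ℝ, 0 < M ∧ ∀ s : ℂ, 1 ≤ s.re → s.re ≤ 5 / 4 →
    |s.im| ≤ 5 / 4 → ‖iteratedDeriv j GMZ s‖ ≤ M := by
  have hK : IsCompact (Icc (1 : ℝ) (5 / 4) ×ℂ Icc (-(5 / 4) : ℝ) (5 / 4)) :=
    isCompact_Icc.reProdIm isCompact_Icc
  obtain ⟨M, hM⟩ := hK.exists_bound_of_continuousOn (f := iteratedDeriv j GMZ) (fun z hz => by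
    rw [Complex.mem_reProdIm] at hz
    rw [iteratedDeriv_eq_iterate]
    exact ((analyticAt_GMZ hz.1.1).iterated_deriv j).continuousAt.continuousWithinAt)
  refine ⟨max M 1, by positivity, fun s h1 h2 h3 => (hM s ?_).trans (le_max_left _ _)⟩
  rw [Complex.mem_reProdIm]
  exact ⟨⟨h1, h2⟩, abs_le.mp h3⟩

theorem norm_iteratedDeriv_GMZ_le {b : ℝ} (hb0 : 0 < b) (hb1 : b ≤ 1) : ∃ C : ℕ → ℝ,
    (∀ j, 0 < C j) ∧ ∀ (j : ℕ) (s : ℂ), 1 < s.re → s.re ≤ 5 / 4 →
      ‖iteratedDeriv j GMZ s‖ ≤ C j * QQ 1 s.im ^ (((j : ℝ) + 1) * b) / (1 + s.im ^ 2) := by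
  obtain ⟨c, hc0, hc1, -, h⟩ := zeta_lower_full hb0
  choose M hM0 hM using exists_bound_GMZ
  refine ⟨fun j => j.factorial * (8 / c) / (c / 4) ^ j + 3 * M j, fun j => by
    have := hM0 j
    positivity, fun j s hs hs2 => ?_⟩
  have hMj := hM0 j
  have hQ2 := two_le_QQ (q := 1) s.im
  have hQj : 1 ≤ QQ 1 s.im ^ (((j : ℝ) + 1) * b) := Real.one_le_rpow (by linarith) (by positivity)
  have h2 : 0 < 1 + s.im ^ 2 := by positivity
  have hpos : 0 ≤ (j.factorial : ℝ) * (8 / c) / (c / 4) ^ j := by positivity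
  rcases le_total |s.im| (5 / 4) with him | him
  · refine (hM j s hs.le hs2 him).trans ?_
    have h1 : 1 + s.im ^ 2 ≤ 3 := by
      have := abs_le.mp him
      nlinarith
    rw [le_div_iff₀ h2]
    calc M j * (1 + s.im ^ 2) ≤ M j * 3 := mul_le_mul_of_nonneg_left h1 hMj.le
      _ ≤ (j.factorial * (8 / c) / (c / 4) ^ j + 3 * M j) * 1 := by linarith
      _ ≤ _ := mul_le_mul_of_nonneg_left hQj (by positivity)
  obtain ⟨hr0, hr1⟩ := disc_radius (q := 1) hb0 hc0 hc1 s.im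
  have hP0 : 0 < QQ 1 s.im ^ (-b) := Real.rpow_pos_of_pos (by linarith) _
  have hlow : ∀ w ∈ Metric.closedBall s (c / 4 * QQ 1 s.im ^ (-b)),
      c / 2 * QQ 1 s.im ^ (-b) ≤ ‖riemannZeta w‖ ∧ 0 < w.re ∧ w ≠ 1 := by
    intro w hw
    obtain ⟨d1, d2, d3, d4, d5⟩ := disc_facts hb0 hb1 hc0 hc1 hs hs2 hw
    exact ⟨d4.trans (h w (by linarith) d1 (by linarith)), d3, ne_one_of_im (by linarith)⟩
  have hne : ∀ w ∈ Metric.closedBall s (c / 4 * QQ 1 s.im ^ (-b)), riemannZeta w ≠ 0 :=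
    fun w hw => norm_pos_iff.mp (lt_of_lt_of_le (by positivity) (hlow w hw).1)
  have key := norm_iteratedDeriv_of_disc (G := GMZ) (m := 1 / (c / 2 * QQ 1 s.im ^ (-b))) hs hr0
    hr1 (by positivity) (fun w hw => by
      refine differentiableAt_GMZ ?_ (hlow w hw).2.1
      rw [riemannZeta₁_eq (hlow w hw).2.2]
      exact mul_ne_zero (sub_ne_zero.mpr (hlow w hw).2.2) (hne w hw)) (fun w hw => by
      rw [GMZ_eq (hlow w hw).2.2, norm_mul, norm_div, norm_div, norm_one]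
      exact mul_le_mul_of_nonneg_right
        (one_div_le_one_div_of_le (by positivity) (hlow w hw).1) (by positivity)) j
  rw [disc_final hc0] at key
  refine key.trans ?_
  gcongr
  linarith

/-! ### The theorems -/

/-- From natural numbers to real numbers. -/
lemma real_of_nat {a : ℕ → ℂ} (ha : ∀ n, ‖a n‖ ≤ 1) (B : ℕ) {K : ℝ} (hK : 0 ≤ K)
    (h : ∀ N : ℕ, 3 ≤ N → ‖∑ n ∈ Finset.Icc 1 N, a n‖ ≤ K * N / Real.log N ^ B) {x : ℝ}
    (hx : 2 ≤ x) :
    ‖∑ n ∈ Finset.Icc 1 ⌊x⌋₊, a n‖ ≤ (2 ^ B * K + 2 * (B ! : ℝ)) * x / Real.log x ^ B := by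
  have hx0 : 0 < x := by linarith
  have hlx0 : 0 < Real.log x := Real.log_pos (by linarith)
  have hone := one_le_div_log_pow (by linarith : 1 < x) B
  set N : ℕ := ⌊x⌋₊ with hN
  have hN2 : 2 ≤ N := Nat.le_floor (by exact_mod_cast hx)
  have hN2' : (2 : ℝ) ≤ N := by exact_mod_cast hN2
  have hNx : (N : ℝ) ≤ x := Nat.floor_le hx0.le
  have hxN : x ≤ N + 1 := (Nat.lt_floor_add_one x).le
  have hlog : Real.log x ≤ 2 * Real.log N := by
    have h1 : x ≤ (N : ℝ) ^ 2 := by nlinarith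
    have h2 := Real.log_le_log hx0 h1
    rwa [Real.log_pow] at h2
  have hlN0 : 0 < Real.log N := Real.log_pos (by linarith)
  have hpow : Real.log x ^ B ≤ 2 ^ B * Real.log N ^ B := by
    rw [← mul_pow]
    gcongr
  have hgoal : (2 ^ B * K + 2 * (B ! : ℝ)) * x / Real.log x ^ B =
      2 ^ B * K * x / Real.log x ^ B + 2 * ((B ! : ℝ) * x / Real.log x ^ B) := by ring
  have hpos : 0 ≤ 2 ^ B * K * x / Real.log x ^ B := by positivity
  rw [hgoal]
  rcases Nat.lt_or_ge N 3 with h3 | h3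
  · have hN' : N = 2 := by omega
    have h4 : ‖∑ n ∈ Finset.Icc 1 N, a n‖ ≤ 2 := by
      calc ‖∑ n ∈ Finset.Icc 1 N, a n‖ ≤ ∑ n ∈ Finset.Icc 1 N, (1 : ℝ) :=
            (norm_sum_le _ _).trans (Finset.sum_le_sum fun n _ => ha n)
        _ = 2 := by rw [hN']; norm_num
    linarith
  · have h6 : K * N / Real.log N ^ B ≤ 2 ^ B * K * x / Real.log x ^ B := by
      rw [div_le_div_iff₀ (by positivity) (by positivity)]
      calc K * N * Real.log x ^ B ≤ K * x * (2 ^ B * Real.log N ^ B) := by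
            gcongr
        _ = _ := by ring
    have h7 := h N h3
    linarith

lemma norm_aM_le_log {q : ℕ} (χ : DirichletCharacter ℂ q) {N : ℕ} (hN : 3 ≤ N) (n : ℕ) :
    ‖aM χ n‖ ≤ 2 * Real.log N := by
  have hN3 : (3 : ℝ) ≤ N := by exact_mod_cast hN
  have hl1 : 1 ≤ Real.log N := (Real.le_log_iff_exp_le (by linarith)).mpr (by
    have := Real.exp_one_lt_d9
    linarith)
  have := norm_aM_le χ n
  linarith

/-- **Sums of `χ(n) μ(n)`**: for all `B` and `η > 0` there is a `C` such that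
`|∑_{n ≤ x} χ(n) μ(n)| ≤ C q^η x (log x)^(-B)` for all `q`, all characters `χ ≠ 1` modulo `q` and
all `x ≥ 2`. -/
theorem moebius_char_le (B : ℕ) {η : ℝ} (hη : 0 < η) : ∃ C : ℝ, 0 < C ∧
    ∀ (q : ℕ) [NeZero q] (χ : DirichletCharacter ℂ q), χ ≠ 1 → ∀ x : ℝ, 2 ≤ x →
      ‖∑ n ∈ Finset.Icc 1 ⌊x⌋₊, χ n * ((ArithmeticFunction.moebius n : ℤ) : ℂ)‖ ≤
        C * (q : ℝ) ^ η * x / Real.log x ^ B := by
  set k : ℕ := 2 * B + 2 with hk
  set η' : ℝ := min η (1 / 2) with hη'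
  have hη'0 : 0 < η' := lt_min hη (by norm_num)
  have hη'1 : η' ≤ 1 / 2 := min_le_right _ _
  set b : ℝ := η' / (k + 1) with hb
  have hk1 : (0 : ℝ) < (k : ℝ) + 1 := by positivity
  have hb0 : 0 < b := by positivity
  have hkb : ((k : ℝ) + 1) * b = η' := by
    rw [hb]
    field_simp
  have hb1 : b ≤ 1 := by
    rw [hb, div_le_one hk1]
    linarith [(Nat.cast_nonneg k : (0 : ℝ) ≤ k)]
  obtain ⟨C, hC0, hC⟩ := norm_iteratedDeriv_GM_le hb0 hb1
  obtain ⟨J, hJ0, hJ⟩ := smooth_general k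
  have hCk := hC0 k
  refine ⟨2 ^ B * (8 * (J * (C k * 2)) + 2) + 2 * (B ! : ℝ), by positivity,
    fun q _ χ hχ x hx => ?_⟩
  have hq1 : (1 : ℝ) ≤ q := by exact_mod_cast Nat.one_le_iff_ne_zero.mpr (NeZero.ne q)
  have hqη : 1 ≤ (q : ℝ) ^ η := Real.one_le_rpow hq1 hη.le
  have hqη' : 1 ≤ (q : ℝ) ^ η' := Real.one_le_rpow hq1 hη'0.le
  have hqm : (q : ℝ) ^ η' ≤ (q : ℝ) ^ η :=
    Real.rpow_le_rpow_of_exponent_le hq1 (min_le_left _ _)
  have hlx0 : 0 < Real.log x := Real.log_pos (by linarith)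
  have hx0 : 0 < x := by linarith
  have h1 := hJ (aM χ) (GM χ) (fun j => C j * (2 * (q : ℝ) ^ η')) (by simp [aM]) (fun j => by
    have := hC0 j
    positivity) (fun σ hσ => LSeriesSummable_aM χ (by simpa using hσ)) (fun s hs => by
      have hs' : 1 < s.re := hs
      exact (((differentiableAt_const _).div (DirichletCharacter.differentiable_LFunction hχ s)
        (DirichletCharacter.LFunction_ne_zero_of_one_le_re χ (Or.inl hχ) hs'.le)).mul
        (ker_differentiableAt (by linarith))).differentiableWithinAt)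
    (fun s hs => LSeries_aM χ hs) (fun j hj s hs hs2 => by
      have i1 := hC j q χ hχ s hs hs2
      have hj' : (j : ℝ) ≤ k := by exact_mod_cast hj
      have i2 := QQ_rpow_div_le (q := q) (y := s.im) (e := ((j : ℝ) + 1) * b) (by
        rw [← hkb]
        exact mul_le_mul_of_nonneg_right (by linarith) hb0.le) hη'0 hη'1
      calc ‖iteratedDeriv j (GM χ) s‖
          ≤ C j * QQ q s.im ^ (((j : ℝ) + 1) * b) / (1 + s.im ^ 2) := i1
        _ = C j * (QQ q s.im ^ (((j : ℝ) + 1) * b) / (1 + s.im ^ 2)) := by ring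
        _ ≤ C j * (2 * (q : ℝ) ^ η' * (1 + ‖s.im‖ ^ 2) ^ (-(3 / 2 : ℝ) / 2)) :=
            mul_le_mul_of_nonneg_left i2 (hC0 j).le
        _ = _ := by ring)
  have h2 : ∀ N : ℕ, 3 ≤ N → ‖∑ n ∈ Finset.Icc 1 N, aM χ n‖ ≤
      (8 * (J * (C k * (2 * (q : ℝ) ^ η'))) + 2) * N / Real.log N ^ B := fun N hN =>
    nat_of_smooth (a := aM χ) (by simp [aM]) B (by positivity) hN
      (fun n _ => norm_aM_le_log χ hN n) (fun x hx => h1 x hx)
  have h3 := real_of_nat (norm_aM_le χ) B (by positivity) h2 hx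
  have e1 : ∑ n ∈ Finset.Icc 1 ⌊x⌋₊, χ n * ((ArithmeticFunction.moebius n : ℤ) : ℂ) =
      ∑ n ∈ Finset.Icc 1 ⌊x⌋₊, aM χ n := rfl
  rw [e1]
  refine h3.trans ?_
  have e2 : 2 ^ B * (8 * (J * (C k * (2 * (q : ℝ) ^ η'))) + 2) + 2 * (B ! : ℝ) ≤
      (2 ^ B * (8 * (J * (C k * 2)) + 2) + 2 * (B ! : ℝ)) * (q : ℝ) ^ η := by
    have j1 : (8 * (J * (C k * (2 * (q : ℝ) ^ η'))) + 2) ≤
        (8 * (J * (C k * 2)) + 2) * (q : ℝ) ^ η := by
      have j2 : 8 * (J * (C k * (2 * (q : ℝ) ^ η'))) ≤ 8 * (J * (C k * (2 * (q : ℝ) ^ η))) := by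
        gcongr
      linarith
    have j3 : 2 * (B ! : ℝ) ≤ 2 * (B ! : ℝ) * (q : ℝ) ^ η :=
      le_mul_of_one_le_right (by positivity) hqη
    have j4 := mul_le_mul_of_nonneg_left j1 (by positivity : (0 : ℝ) ≤ 2 ^ B)
    linarith
  gcongr

/-- **The Mertens function**: for every `B` there is a `C` such that
`|∑_{n ≤ x} μ(n)| ≤ C x (log x)^(-B)` for all `x ≥ 2`. -/
theorem mertens_le (B : ℕ) : ∃ C : ℝ, 0 < C ∧ ∀ x : ℝ, 2 ≤ x →
    |∑ n ∈ Finset.Icc 1 ⌊x⌋₊, ((ArithmeticFunction.moebius n : ℤ) : ℝ)| ≤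
      C * x / Real.log x ^ B := by
  set k : ℕ := 2 * B + 2 with hk
  set b : ℝ := (1 / 2) / (k + 1) with hb
  have hk1 : (0 : ℝ) < (k : ℝ) + 1 := by positivity
  have hb0 : 0 < b := by positivity
  have hkb : ((k : ℝ) + 1) * b = 1 / 2 := by
    rw [hb]
    field_simp
  have hb1 : b ≤ 1 := by
    rw [hb, div_le_one hk1]
    linarith [(Nat.cast_nonneg k : (0 : ℝ) ≤ k)]
  obtain ⟨C, hC0, hC⟩ := norm_iteratedDeriv_GMZ_le hb0 hb1
  obtain ⟨J, hJ0, hJ⟩ := smooth_general k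
  have hCk := hC0 k
  refine ⟨2 ^ B * (8 * (J * (C k * 2)) + 2) + 2 * (B ! : ℝ), by positivity, fun x hx => ?_⟩
  set χ : DirichletCharacter ℂ 1 := 1 with hχ
  have h1 := hJ (aM χ) GMZ (fun j => C j * 2) (by simp [aM]) (fun j => by
    have := hC0 j
    positivity) (fun σ hσ => LSeriesSummable_aM χ (by simpa using hσ)) (fun s hs => by
      have hs' : 1 < s.re := hs
      exact (analyticAt_GMZ hs'.le).differentiableAt.differentiableWithinAt)
    (fun s hs => by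
      rw [LSeries_aM χ hs, GM, DirichletCharacter.LFunction_modOne_eq, GMZ_eq]
      rintro rfl
      simp at hs) (fun j hj s hs hs2 => by
      have i1 := hC j s hs hs2
      have hj' : (j : ℝ) ≤ k := by exact_mod_cast hj
      have i2 := QQ_rpow_div_le (q := 1) (y := s.im) (e := ((j : ℝ) + 1) * b) (η := 1 / 2) (by
        rw [← hkb]
        exact mul_le_mul_of_nonneg_right (by linarith) hb0.le) (by norm_num) le_rfl
      rw [Nat.cast_one, Real.one_rpow, mul_one] at i2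
      calc ‖iteratedDeriv j GMZ s‖
          ≤ C j * QQ 1 s.im ^ (((j : ℝ) + 1) * b) / (1 + s.im ^ 2) := i1
        _ = C j * (QQ 1 s.im ^ (((j : ℝ) + 1) * b) / (1 + s.im ^ 2)) := by ring
        _ ≤ C j * (2 * (1 + ‖s.im‖ ^ 2) ^ (-(3 / 2 : ℝ) / 2)) :=
            mul_le_mul_of_nonneg_left i2 (hC0 j).le
        _ = _ := by ring)
  have h2 : ∀ N : ℕ, 3 ≤ N → ‖∑ n ∈ Finset.Icc 1 N, aM χ n‖ ≤
      (8 * (J * (C k * 2)) + 2) * N / Real.log N ^ B := fun N hN =>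
    nat_of_smooth (a := aM χ) (by simp [aM]) B (by positivity) hN
      (fun n _ => norm_aM_le_log χ hN n) (fun x hx => h1 x hx)
  have h3 := real_of_nat (norm_aM_le χ) B (by positivity) h2 hx
  have e1 : ∑ n ∈ Finset.Icc 1 ⌊x⌋₊, aM χ n =
      (((∑ n ∈ Finset.Icc 1 ⌊x⌋₊, ((ArithmeticFunction.moebius n : ℤ) : ℝ)) : ℝ) : ℂ) := by
    push_cast
    refine Finset.sum_congr rfl fun n _ => ?_
    rw [aM, Pi.mul_apply, hχ, MulChar.one_apply (isUnit_of_subsingleton _), one_mul]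
  rw [e1, Complex.norm_real, Real.norm_eq_abs] at h3
  exact h3

end Fermat.Agent.Cor.SiegelL
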