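import Fermat.Agent.Corollaries.SiegelL.Bound

/-!
# Dirichlet L-functions near the point one

For a character `χ ≠ 1` modulo `q` and `0 < a ≤ 1`: `|L(s, χ)| ≤ |s| q^a / (Re s - (1 - a))` for
`Re s > 1 - a`, hence `|L(z, χ) - L(1, χ)| ≤ 16 a^(-2) q^a |z - 1|` for `|z - 1| ≤ a/4`.
-/

set_option autoImplicit false

namespace Fermat.Agent.Cor.SiegelL

open Complex Filter Set MeasureTheory
open scoped Topology

variable {q : ℕ} [NeZero q] {χ : DirichletCharacter ℂ q}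

theorem norm_psum_floor_le (hχ : χ ≠ 1) {a t : ℝ} (ha0 : 0 < a) (ha : a ≤ 1) (ht : 1 ≤ t) :
    ‖psum χ ⌊t⌋₊‖ ≤ (q : ℝ) ^ a * t ^ (1 - a) := by
  have ht0 : 0 < t := by linarith
  have hq0 : (0 : ℝ) < q := by exact_mod_cast Nat.pos_of_ne_zero (NeZero.ne q)
  rcases le_total t q with h | h
  · have h1 : t = t ^ a * t ^ (1 - a) := by
      rw [← Real.rpow_add ht0]
      simp
    have h2 : t ^ a ≤ (q : ℝ) ^ a := Real.rpow_le_rpow ht0.le h ha0.le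
    calc ‖psum χ ⌊t⌋₊‖ ≤ (⌊t⌋₊ : ℝ) := norm_psum_le' χ _
      _ ≤ t := Nat.floor_le ht0.le
      _ = t ^ a * t ^ (1 - a) := h1
      _ ≤ _ := mul_le_mul_of_nonneg_right h2 (Real.rpow_nonneg ht0.le _)
  · have h1 : (q : ℝ) = (q : ℝ) ^ a * (q : ℝ) ^ (1 - a) := by
      rw [← Real.rpow_add hq0]
      simp
    have h2 : (q : ℝ) ^ (1 - a) ≤ t ^ (1 - a) := Real.rpow_le_rpow hq0.le h (by linarith)
    calc ‖psum χ ⌊t⌋₊‖ ≤ q := norm_psum_le hχ _
      _ = (q : ℝ) ^ a * (q : ℝ) ^ (1 - a) := h1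
      _ ≤ _ := mul_le_mul_of_nonneg_left h2 (Real.rpow_nonneg hq0.le _)

/-- **`|L(s, χ)| ≤ |s| q^a / (Re s - (1 - a))` for `Re s > 1 - a`.** -/
theorem norm_LFunction_le_rpow (hχ : χ ≠ 1) {a : ℝ} (ha0 : 0 < a) (ha : a ≤ 1) {s : ℂ}
    (hs : 1 - a < s.re) : ‖χ.LFunction s‖ ≤ ‖s‖ * (q : ℝ) ^ a / (a + s.re - 1) := by
  have hs0 : 0 < s.re := by linarith
  have hint : IntegrableOn (fun t : ℝ => (q : ℝ) ^ a * t ^ (-(s.re + a))) (Ioi 1) :=
    (integrableOn_Ioi_rpow_of_lt (by linarith) zero_lt_one).const_mul _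
  have h1 : ∫ t in Ioi (1 : ℝ), (q : ℝ) ^ a * t ^ (-(s.re + a)) =
      (q : ℝ) ^ a / (a + s.re - 1) := by
    rw [integral_const_mul, integral_Ioi_rpow_of_lt (by linarith) zero_lt_one, Real.one_rpow]
    have : -(s.re + a) + 1 = -(a + s.re - 1) := by ring
    rw [this, neg_div_neg_eq, mul_one_div]
  rw [LFunction_eq_integral hχ hs0, norm_mul, mul_div_assoc]
  refine mul_le_mul_of_nonneg_left ?_ (norm_nonneg s)
  rw [← h1]
  refine norm_integral_le_of_norm_le hint ?_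
  filter_upwards [self_mem_ae_restrict measurableSet_Ioi] with t ht
  have ht1 : (1 : ℝ) < t := ht
  have ht0 : (0 : ℝ) < t := lt_trans zero_lt_one ht1
  rw [norm_mul, norm_cpow_term ht0]
  calc ‖psum χ ⌊t⌋₊‖ * t ^ (-(s.re + 1))
      ≤ ((q : ℝ) ^ a * t ^ (1 - a)) * t ^ (-(s.re + 1)) :=
        mul_le_mul_of_nonneg_right (norm_psum_floor_le hχ ha0 ha ht1.le)
          (Real.rpow_nonneg ht0.le _)
    _ = (q : ℝ) ^ a * t ^ (-(s.re + a)) := by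
        rw [mul_assoc, ← Real.rpow_add ht0]
        congr 2
        ring

theorem norm_LFunction_near (hχ : χ ≠ 1) {a : ℝ} (ha0 : 0 < a) (ha : a ≤ 1) {s : ℂ}
    (hs : dist s 1 ≤ a / 2) : ‖χ.LFunction s‖ ≤ 4 / a * (q : ℝ) ^ a := by
  have h1 : ‖s - 1‖ ≤ a / 2 := by rwa [← dist_eq_norm]
  have h2 : 1 - a / 2 ≤ s.re := by
    have := (abs_le.mp ((Complex.abs_re_le_norm (s - 1)).trans h1)).1
    simp at this
    linarith
  have h3 : ‖s‖ ≤ 2 := by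
    have h4 : ‖s‖ ≤ ‖s - 1‖ + ‖(1 : ℂ)‖ := by simpa using norm_add_le (s - 1) 1
    rw [norm_one] at h4
    linarith
  have hq : (0 : ℝ) ≤ (q : ℝ) ^ a := Real.rpow_nonneg (Nat.cast_nonneg _) _
  refine (norm_LFunction_le_rpow hχ ha0 ha (by linarith)).trans ?_
  rw [div_le_iff₀ (by linarith)]
  calc ‖s‖ * (q : ℝ) ^ a ≤ 2 * (q : ℝ) ^ a := mul_le_mul_of_nonneg_right h3 hq
    _ = 4 / a * (q : ℝ) ^ a * (a / 2) := by field_simp; ring
    _ ≤ 4 / a * (q : ℝ) ^ a * (a + s.re - 1) :=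
        mul_le_mul_of_nonneg_left (by linarith) (by positivity)

theorem norm_deriv_near (hχ : χ ≠ 1) {a : ℝ} (ha0 : 0 < a) (ha : a ≤ 1) {z : ℂ}
    (hz : dist z 1 ≤ a / 4) : ‖deriv χ.LFunction z‖ ≤ 16 / a ^ 2 * (q : ℝ) ^ a := by
  have h1 : ∀ w ∈ Metric.sphere z (a / 4), ‖χ.LFunction w‖ ≤ 4 / a * (q : ℝ) ^ a := by
    intro w hw
    refine norm_LFunction_near hχ ha0 ha ?_
    have h2 : dist w z = a / 4 := hw
    have h3 := dist_triangle w z 1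
    linarith
  have h2 := Complex.norm_deriv_le_of_forall_mem_sphere_norm_le (by linarith : 0 < a / 4)
    (DirichletCharacter.differentiable_LFunction hχ).diffContOnCl h1
  refine h2.trans_eq ?_
  field_simp
  ring

/-- **`|L(z, χ) - L(1, χ)| ≤ 16 a^(-2) q^a |z - 1|` for `|z - 1| ≤ a/4`.** -/
theorem norm_sub_near (hχ : χ ≠ 1) {a : ℝ} (ha0 : 0 < a) (ha : a ≤ 1) {z : ℂ}
    (hz : dist z 1 ≤ a / 4) :
    ‖χ.LFunction z - χ.LFunction 1‖ ≤ 16 / a ^ 2 * (q : ℝ) ^ a * ‖z - 1‖ :=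
  (convex_closedBall (1 : ℂ) (a / 4)).norm_image_sub_le_of_norm_deriv_le
    (fun x _ => (DirichletCharacter.differentiable_LFunction hχ) x)
    (fun x hx => norm_deriv_near hχ ha0 ha (Metric.mem_closedBall.mp hx))
    (Metric.mem_closedBall_self (by linarith)) (Metric.mem_closedBall.mpr hz)

end Fermat.Agent.Cor.SiegelL
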