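import Fermat.Agent.Corollaries.SiegelL.Right

/-!
# A smoothed form of the Siegel-Walfisz theorem

For all `k`, `0 < η ≤ 1/2` there is a `C` such that for all `q`, all characters `χ ≠ 1` modulo `q`
and all `x ≥ e`: `|∑_{n ≤ x} χ(n) Λ(n) (x - n)| ≤ C q^η x² (log x)^(-k)` (`norm_smooth_le`).
Mellin inversion of the function `max (1 - t) 0` on the line `σ = 1 + 1/(4 log x)` and `k`
integrations by parts (the Fourier transform of the `k`-th derivative).
-/

set_option autoImplicit false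

namespace Fermat.Agent.Cor.SiegelL

open Complex Set MeasureTheory
open scoped Real FourierTransform

/-! ### Fourier decay along vertical lines -/

lemma iteratedDeriv_vertical {g : ℂ → ℂ} {U : Set ℂ} (hU : IsOpen U) (hg : DifferentiableOn ℂ g U)
    {σ : ℝ} (hσ : ∀ y : ℝ, ((σ : ℂ) + y * I) ∈ U) (j : ℕ) :
    iteratedDeriv j (fun y : ℝ => g (σ + y * I)) =
      fun y : ℝ => iteratedDeriv j g (σ + y * I) * I ^ j := by
  induction j with
  | zero => simp
  | succ j ih =>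
    rw [iteratedDeriv_succ, ih]
    funext y
    have h1 : AnalyticAt ℂ g (σ + y * I) := hg.analyticAt (hU.mem_nhds (hσ y))
    have h2 : HasDerivAt (iteratedDeriv j g) (iteratedDeriv (j + 1) g (σ + y * I))
        (σ + y * I) := by
      rw [iteratedDeriv_succ]
      refine DifferentiableAt.hasDerivAt ?_
      rw [iteratedDeriv_eq_iterate]
      exact (h1.iterated_deriv j).differentiableAt
    have h3 : HasDerivAt (fun y : ℝ => (σ : ℂ) + y * I) I y := by
      simpa using ((hasDerivAt_id y).ofReal_comp.mul_const I).const_add (σ : ℂ)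
    have h4 := (h2.comp y h3).mul_const (I ^ j)
    rw [pow_succ']
    rw [← mul_assoc]
    exact h4.deriv

lemma contDiff_vertical {g : ℂ → ℂ} {U : Set ℂ} (hU : IsOpen U) (hg : DifferentiableOn ℂ g U)
    {σ : ℝ} (hσ : ∀ y : ℝ, ((σ : ℂ) + y * I) ∈ U) (k : ℕ) :
    ContDiff ℝ k (fun y : ℝ => g (σ + y * I)) := by
  rw [contDiff_iff_contDiffAt]
  intro y
  have h1 : AnalyticAt ℂ g (σ + y * I) := hg.analyticAt (hU.mem_nhds (hσ y))
  have h2 : ContDiffAt ℝ k g (σ + y * I) := (h1.contDiffAt (n := k)).restrict_scalars ℝ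
  have h3 : ContDiffAt ℝ k (fun y : ℝ => (σ : ℂ) + y * I) y := by
    refine contDiffAt_const.add (ContDiffAt.mul ?_ contDiffAt_const)
    exact Complex.ofRealCLM.contDiff.contDiffAt
  exact ContDiffAt.comp y h2 h3

lemma norm_fourier_le {h : ℝ → ℂ} {k : ℕ} (hc : ContDiff ℝ k h)
    (hi : ∀ j : ℕ, j ≤ k → Integrable (iteratedDeriv j h)) (ξ : ℝ) :
    (2 * π * |ξ|) ^ k * ‖𝓕 h ξ‖ ≤ ∫ y, ‖iteratedDeriv k h y‖ := by
  have h1 := congrFun (Real.fourier_iteratedDeriv (f := h) (N := k) (n := k) (by exact_mod_cast hc)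
    (fun n hn => hi n (by exact_mod_cast hn)) le_rfl) ξ
  have h2 : ‖𝓕 (iteratedDeriv k h) ξ‖ ≤ ∫ y, ‖iteratedDeriv k h y‖ := by
    rw [Real.fourier_real_eq]
    refine (norm_integral_le_integral_norm _).trans_eq ?_
    simp_rw [Circle.norm_smul]
  rw [h1] at h2
  rw [norm_smul, norm_pow] at h2
  have h3 : ‖(2 * π * I * ξ : ℂ)‖ = 2 * π * |ξ| := by
    rw [norm_mul, norm_mul, norm_mul, Complex.norm_I, Complex.norm_real, Complex.norm_real,
      Real.norm_eq_abs, Real.norm_eq_abs, abs_of_pos Real.pi_pos]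
    simp
  rwa [h3] at h2

/-! ### The kernel -/

/-- The function `max (1 - t) 0` for `t > 0`. -/
noncomputable def kk (t : ℝ) : ℂ :=
  indicator (Ioc 0 1) (fun _ => (1 : ℂ)) t - indicator (Ioc 0 1) (fun t : ℝ => (t : ℂ) ^ (1 : ℂ)) t

lemma kk_eq {t : ℝ} (ht : 0 < t) : kk t = ((max (1 - t) 0 : ℝ) : ℂ) := by
  rw [kk]
  by_cases h : t ≤ 1
  · have hm : t ∈ Ioc (0 : ℝ) 1 := ⟨ht, h⟩
    rw [indicator_of_mem hm, indicator_of_mem hm, max_eq_left (by linarith)]
    push_cast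
    rw [Complex.cpow_one]
  · have hm : t ∉ Ioc (0 : ℝ) 1 := fun h' => h h'.2
    rw [indicator_of_notMem hm, indicator_of_notMem hm, max_eq_right (by linarith)]
    simp

lemma hasMellin_kk {s : ℂ} (hs : 0 < s.re) : HasMellin kk s (1 / (s * (s + 1))) := by
  have h1 := hasMellin_one_Ioc hs
  have h2 := hasMellin_cpow_Ioc 1 (s := s) (by simp; linarith)
  have h3 := hasMellin_sub h1.1 h2.1
  rw [h1.2, h2.2] at h3
  have hs0 : s ≠ 0 := by
    rintro rfl
    simp at hs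
  have hs1 : s + 1 ≠ 0 := by
    intro h
    have := congrArg Complex.re h
    simp at this
    linarith
  have h4 : 1 / s - 1 / (s + 1) = 1 / (s * (s + 1)) := by
    field_simp
    ring
  rw [h4] at h3
  exact h3

lemma norm_ker_le {σ y : ℝ} (hσ : 1 ≤ σ) :
    ‖1 / (((σ : ℂ) + y * I) * ((σ : ℂ) + y * I + 1))‖ ≤ (1 + y ^ 2)⁻¹ := by
  have h1 : 1 + y ^ 2 ≤ ‖(σ : ℂ) + y * I‖ ^ 2 := by
    rw [← Complex.normSq_eq_norm_sq, Complex.normSq_add_mul_I]
    nlinarith
  have h2 : 1 + y ^ 2 ≤ ‖(σ : ℂ) + y * I + 1‖ ^ 2 := by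
    have : (σ : ℂ) + y * I + 1 = ((σ + 1 : ℝ) : ℂ) + y * I := by
      push_cast
      ring
    rw [this, ← Complex.normSq_eq_norm_sq, Complex.normSq_add_mul_I]
    nlinarith
  rw [norm_div, norm_one, norm_mul, one_div]
  apply inv_anti₀ (by positivity)
  have h3 := mul_le_mul h1 h2 (by positivity) (by positivity)
  have h4 : (1 + y ^ 2) ^ 2 ≤ (‖(σ : ℂ) + y * I‖ * ‖(σ : ℂ) + y * I + 1‖) ^ 2 := by
    rw [mul_pow, sq (1 + y ^ 2)]
    exact h3
  exact (sq_le_sq₀ (by positivity) (by positivity)).mp h4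

lemma continuous_ker {σ : ℝ} (hσ : 1 ≤ σ) :
    Continuous fun y : ℝ => 1 / (((σ : ℂ) + y * I) * ((σ : ℂ) + y * I + 1)) := by
  refine continuous_const.div (by fun_prop) fun y => ?_
  refine mul_ne_zero ?_ ?_
  · intro h
    have := congrArg Complex.re h
    simp at this
    linarith
  · intro h
    have := congrArg Complex.re h
    simp at this
    linarith

lemma integrable_ker {σ : ℝ} (hσ : 1 ≤ σ) :
    Integrable fun y : ℝ => 1 / (((σ : ℂ) + y * I) * ((σ : ℂ) + y * I + 1)) :=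
  integrable_inv_one_add_sq.mono' (continuous_ker hσ).aestronglyMeasurable
    (Filter.Eventually.of_forall fun _ => norm_ker_le hσ)

lemma kk_inversion {σ x : ℝ} (hσ : 1 ≤ σ) (hx : 0 < x) :
    kk x = (1 / (2 * π) : ℝ) • ∫ y : ℝ, (x : ℂ) ^ (-((σ : ℂ) + y * I)) *
      (1 / (((σ : ℂ) + y * I) * ((σ : ℂ) + y * I + 1))) := by
  have hre : ∀ y : ℝ, 0 < ((σ : ℂ) + y * I).re := fun _ => by
    simp
    linarith
  have hm : ∀ y : ℝ, mellin kk ((σ : ℂ) + y * I) =
      1 / (((σ : ℂ) + y * I) * ((σ : ℂ) + y * I + 1)) := fun y => (hasMellin_kk (hre y)).2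
  have h1 : Complex.VerticalIntegrable (mellin kk) σ := by
    rw [Complex.VerticalIntegrable]
    simp_rw [hm]
    exact integrable_ker hσ
  have h2 : ContinuousAt kk x := by
    have h3 : ContinuousAt (fun t : ℝ => ((max (1 - t) 0 : ℝ) : ℂ)) x := by
      fun_prop
    refine h3.congr ?_
    filter_upwards [lt_mem_nhds hx] with t ht
    exact (kk_eq ht).symm
  have h3 := mellinInv_mellin_eq σ kk hx (hasMellin_kk (by simpa using hre 0)).1 h1 h2
  rw [← h3, mellinInv]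
  simp_rw [hm, smul_eq_mul]

/-! ### Sums -/

lemma sum_kk_eq {a : ℕ → ℂ} {σ x : ℝ} (hσ : 1 ≤ σ) (hx : 0 < x)
    (ha : LSeriesSummable a (σ : ℂ)) (ha0 : a 0 = 0) :
    ∑' n : ℕ, a n * kk (n / x) = (1 / (2 * π) : ℝ) • ∫ y : ℝ, LSeries a ((σ : ℂ) + y * I) *
      ((x : ℂ) ^ ((σ : ℂ) + y * I) * (1 / (((σ : ℂ) + y * I) * ((σ : ℂ) + y * I + 1)))) := by
  set Φ : ℕ → ℝ → ℂ := fun n y => LSeries.term a ((σ : ℂ) + y * I) n *
    ((x : ℂ) ^ ((σ : ℂ) + y * I) * (1 / (((σ : ℂ) + y * I) * ((σ : ℂ) + y * I + 1)))) with hΦ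
  have hx0 : (x : ℂ) ≠ 0 := by exact_mod_cast hx.ne'
  have hterm : ∀ (n : ℕ) (y : ℝ),
      ‖LSeries.term a ((σ : ℂ) + y * I) n‖ = ‖LSeries.term a (σ : ℂ) n‖ := by
    intro n y
    rw [LSeries.norm_term_eq, LSeries.norm_term_eq]
    simp
  have hxn : ∀ y : ℝ, ‖(x : ℂ) ^ ((σ : ℂ) + y * I)‖ = x ^ σ := by
    intro y
    rw [Complex.norm_cpow_eq_rpow_re_of_pos hx]
    simp
  have hbd : ∀ n y, ‖Φ n y‖ ≤ ‖LSeries.term a (σ : ℂ) n‖ * x ^ σ * (1 + y ^ 2)⁻¹ := by
    intro n y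
    simp only [hΦ]
    rw [norm_mul, norm_mul, hterm, hxn, mul_assoc]
    have := norm_ker_le (y := y) hσ
    gcongr
  have hcont : ∀ n, Continuous (Φ n) := by
    intro n
    refine Continuous.mul ?_ (Continuous.mul ?_ (continuous_ker hσ))
    · rcases eq_or_ne n 0 with rfl | hn
      · simp only [LSeries.term_zero]
        exact continuous_const
      · simp only [LSeries.term_of_ne_zero hn]
        have hn' : (n : ℂ) ≠ 0 := by exact_mod_cast hn
        refine continuous_const.div ?_ fun y => by simp [Complex.cpow_eq_zero_iff, hn']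
        exact Continuous.const_cpow (by fun_prop) (Or.inl hn')
    · exact Continuous.const_cpow (by fun_prop) (Or.inl hx0)
  have hint : ∀ n, Integrable (Φ n) := fun n =>
    (integrable_inv_one_add_sq.const_mul _).mono' (hcont n).aestronglyMeasurable
      (Filter.Eventually.of_forall fun y => hbd n y)
  have hsum : Summable fun n => ∫ y, ‖Φ n y‖ := by
    have h1 : Summable fun n => ‖LSeries.term a (σ : ℂ) n‖ * (x ^ σ * ∫ y : ℝ, (1 + y ^ 2)⁻¹) :=
      (Summable.norm ha).mul_right _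
    refine Summable.of_nonneg_of_le (fun n => integral_nonneg fun y => norm_nonneg _)
      (fun n => ?_) h1
    rw [← mul_assoc, ← integral_const_mul]
    exact integral_mono (hint n).norm (integrable_inv_one_add_sq.const_mul _) fun y => hbd n y
  have h1 := hasSum_integral_of_summable_integral_norm hint hsum
  have h2 : ∀ y : ℝ, ∑' n, Φ n y = LSeries a ((σ : ℂ) + y * I) *
      ((x : ℂ) ^ ((σ : ℂ) + y * I) * (1 / (((σ : ℂ) + y * I) * ((σ : ℂ) + y * I + 1)))) := by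
    intro y
    simp only [hΦ]
    rw [tsum_mul_right]
    rfl
  simp_rw [h2] at h1
  rw [← h1.tsum_eq, ← tsum_const_smul'']
  refine tsum_congr fun n => ?_
  rcases eq_or_ne n 0 with rfl | hn
  · simp [hΦ, ha0]
  · have hn0 : (0 : ℝ) < n := by exact_mod_cast Nat.pos_of_ne_zero hn
    have hn' : (n : ℂ) ≠ 0 := by exact_mod_cast hn
    rw [kk_inversion hσ (div_pos hn0 hx), mul_smul_comm, ← integral_const_mul]
    congr 1
    refine integral_congr_ae (Filter.Eventually.of_forall fun y => ?_)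
    simp only [hΦ]
    rw [LSeries.term_of_ne_zero hn]
    have h3 : (((n : ℝ) / x : ℝ) : ℂ) ^ (-((σ : ℂ) + y * I)) =
        (x : ℂ) ^ ((σ : ℂ) + y * I) / (n : ℂ) ^ ((σ : ℂ) + y * I) := by
      rw [div_eq_mul_inv, Complex.ofReal_mul,
        Complex.mul_cpow_ofReal_nonneg hn0.le (inv_nonneg.mpr hx.le), Complex.ofReal_inv,
        Complex.inv_cpow _ _ (by
          rw [Complex.arg_ofReal_of_nonneg hx.le]
          exact Real.pi_pos.ne), Complex.cpow_neg, Complex.cpow_neg, inv_inv,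
        Complex.ofReal_natCast]
      rw [div_eq_mul_inv, mul_comm]
    rw [h3]
    ring

/-! ### The smoothed sum -/

section smooth

variable {q : ℕ} [NeZero q]

lemma LSeries_mul_ker (χ : DirichletCharacter ℂ q) {s : ℂ} (hs : 1 < s.re) :
    LSeries ((fun n : ℕ => χ n) * fun n : ℕ => ((ArithmeticFunction.vonMangoldt n : ℝ) : ℂ)) s *
      (1 / (s * (s + 1))) = GG χ s := by
  rw [GG, DirichletCharacter.LSeries_twist_vonMangoldt_eq χ hs,
    DirichletCharacter.deriv_LFunction_eq_deriv_LSeries χ hs,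
    DirichletCharacter.LFunction_eq_LSeries χ hs]

lemma abs_add_two_rpow_le (y : ℝ) : (|y| + 2) ^ (1 / 2 : ℝ) ≤ 2 * (1 + y ^ 2) ^ (1 / 4 : ℝ) := by
  have hy := abs_nonneg y
  have hw : 0 ≤ 1 + y ^ 2 := by positivity
  have h1 : |y| + 2 ≤ 4 * (1 + y ^ 2) ^ (1 / 2 : ℝ) := by
    have h2 : (|y| + 2) / 4 ≤ √(1 + y ^ 2) := by
      rw [Real.le_sqrt (by positivity)]
      · have h3 : |y| ^ 2 = y ^ 2 := sq_abs y
        nlinarith
      · exact hw
    rw [Real.sqrt_eq_rpow] at h2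
    linarith
  calc (|y| + 2) ^ (1 / 2 : ℝ) ≤ (4 * (1 + y ^ 2) ^ (1 / 2 : ℝ)) ^ (1 / 2 : ℝ) :=
        Real.rpow_le_rpow (by positivity) h1 (by norm_num)
    _ = 4 ^ (1 / 2 : ℝ) * ((1 + y ^ 2) ^ (1 / 2 : ℝ)) ^ (1 / 2 : ℝ) :=
        Real.mul_rpow (by norm_num) (Real.rpow_nonneg hw _)
    _ = 2 * (1 + y ^ 2) ^ (1 / 4 : ℝ) := by
        rw [← Real.rpow_mul hw]
        have h3 : (4 : ℝ) ^ (1 / 2 : ℝ) = 2 := by
          have : (4 : ℝ) = 2 ^ (2 : ℝ) := by norm_num
          rw [this, ← Real.rpow_mul (by norm_num)]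
          norm_num
        rw [h3]
        norm_num

lemma QQ_rpow_div_le {η e y : ℝ} (he : e ≤ η) (hη0 : 0 < η) (hη : η ≤ 1 / 2) :
    QQ q y ^ e / (1 + y ^ 2) ≤ 2 * (q : ℝ) ^ η * (1 + ‖y‖ ^ 2) ^ (-(3 / 2 : ℝ) / 2) := by
  have hq1 : (1 : ℝ) ≤ q := by exact_mod_cast Nat.one_le_iff_ne_zero.mpr (NeZero.ne q)
  have hQ2 := two_le_QQ (q := q) y
  have hy := abs_nonneg y
  have hw : 0 < 1 + y ^ 2 := by positivity
  have h1 : QQ q y ^ e ≤ (q : ℝ) ^ η * (2 * (1 + y ^ 2) ^ (1 / 4 : ℝ)) := by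
    calc QQ q y ^ e ≤ QQ q y ^ η := Real.rpow_le_rpow_of_exponent_le (by linarith) he
      _ = (q : ℝ) ^ η * (|y| + 2) ^ η := Real.mul_rpow (by linarith) (by linarith)
      _ ≤ (q : ℝ) ^ η * (|y| + 2) ^ (1 / 2 : ℝ) :=
          mul_le_mul_of_nonneg_left (Real.rpow_le_rpow_of_exponent_le (by linarith) hη)
            (Real.rpow_nonneg (by linarith) _)
      _ ≤ _ := mul_le_mul_of_nonneg_left (abs_add_two_rpow_le y) (Real.rpow_nonneg (by linarith) _)
  have h2 : (1 + ‖y‖ ^ 2) ^ (-(3 / 2 : ℝ) / 2) = (1 + y ^ 2) ^ (1 / 4 : ℝ) / (1 + y ^ 2) := by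
    rw [Real.norm_eq_abs, sq_abs]
    have h3 : (-(3 / 2 : ℝ) / 2) = 1 / 4 - 1 := by norm_num
    rw [h3, Real.rpow_sub hw, Real.rpow_one]
  rw [h2]
  calc QQ q y ^ e / (1 + y ^ 2) ≤ (q : ℝ) ^ η * (2 * (1 + y ^ 2) ^ (1 / 4 : ℝ)) / (1 + y ^ 2) :=
        div_le_div_of_nonneg_right h1 hw.le
    _ = _ := by ring

end smooth

/-- **The smoothed Siegel-Walfisz theorem.** -/
theorem norm_smooth_le (k : ℕ) {η : ℝ} (hη0 : 0 < η) (hη : η ≤ 1 / 2) : ∃ C : ℝ, 0 < C ∧
    ∀ (q : ℕ) [NeZero q] (χ : DirichletCharacter ℂ q), χ ≠ 1 → ∀ x : ℝ, Real.exp 1 ≤ x →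
      ‖∑' n : ℕ, ((fun n : ℕ => χ n) *
        fun n : ℕ => ((ArithmeticFunction.vonMangoldt n : ℝ) : ℂ)) n * kk (n / x)‖ ≤
        C * (q : ℝ) ^ η * x / Real.log x ^ k := by
  set b : ℝ := η / (k + 2) with hb
  have hk2 : (0 : ℝ) < (k : ℝ) + 2 := by positivity
  have hb0 : 0 < b := by positivity
  have hkb : ((k : ℝ) + 2) * b = η := by
    rw [hb]
    field_simp
  have hb1 : b ≤ 1 := by
    rw [hb, div_le_one hk2]
    linarith [(Nat.cast_nonneg k : (0 : ℝ) ≤ k)]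
  obtain ⟨C, hC0, hC⟩ := norm_iteratedDeriv_GG_le hb0 hb1
  set J : ℝ := ∫ y : ℝ, (1 + ‖y‖ ^ 2) ^ (-(3 / 2 : ℝ) / 2) with hJ
  have hJi : Integrable fun y : ℝ => ((1 : ℝ) + ‖y‖ ^ 2) ^ (-(3 / 2 : ℝ) / 2) :=
    integrable_rpow_neg_one_add_norm_sq (by
      rw [Module.finrank_self]
      norm_num)
  have hJ0 : 0 ≤ J := integral_nonneg fun y => Real.rpow_nonneg (by positivity) _
  refine ⟨4 * C k * J + 1, by have := hC0 k; positivity, fun q _ χ hχ x hx => ?_⟩
  have hq1 : (1 : ℝ) ≤ q := by exact_mod_cast Nat.one_le_iff_ne_zero.mpr (NeZero.ne q)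
  have hqη : 0 < (q : ℝ) ^ η := Real.rpow_pos_of_pos (by linarith) _
  have hx0 : 0 < x := (Real.exp_pos 1).trans_le hx
  have hlog : 1 ≤ Real.log x := (Real.le_log_iff_exp_le hx0).mpr hx
  have hlog0 : 0 < Real.log x := by linarith
  set σ : ℝ := 1 + 1 / (4 * Real.log x) with hσ
  have hσ1 : 1 < σ := by
    have : 0 < 1 / (4 * Real.log x) := by positivity
    linarith
  have hσ2 : σ ≤ 5 / 4 := by
    have : 1 / (4 * Real.log x) ≤ 1 / 4 := one_div_le_one_div_of_le (by norm_num) (by linarith)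
    linarith
  have hxσ : x ^ σ ≤ 2 * x := by
    rw [hσ, Real.rpow_add hx0, Real.rpow_one]
    have h1 : x ^ (1 / (4 * Real.log x)) = Real.exp (1 / 4) := by
      rw [Real.rpow_def_of_pos hx0]
      congr 1
      field_simp
    have h2 : Real.exp (1 / 4) ≤ 2 := by
      have h3 : Real.exp (1 / 4) ≤ Real.exp (Real.log 2) :=
        Real.exp_le_exp.mpr (by linarith [Real.log_two_gt_d9])
      rwa [Real.exp_log (by norm_num)] at h3
    rw [h1]
    nlinarith
  -- the line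
  set U : Set ℂ := {s : ℂ | 1 < s.re} with hU
  have hUo : IsOpen U := isOpen_lt continuous_const Complex.continuous_re
  have hg : DifferentiableOn ℂ (GG χ) U := fun s hs =>
    (differentiableAt_GG hχ (DirichletCharacter.LFunction_ne_zero_of_one_le_re χ (Or.inl hχ)
      (le_of_lt hs)) (lt_trans one_pos hs)).differentiableWithinAt
  have hre : ∀ y : ℝ, ((σ : ℂ) + y * I).re = σ := fun y => by simp
  have him : ∀ y : ℝ, ((σ : ℂ) + y * I).im = y := fun y => by simp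
  have hline : ∀ y : ℝ, ((σ : ℂ) + y * I) ∈ U := fun y => by
    change 1 < ((σ : ℂ) + y * I).re
    rw [hre]
    exact hσ1
  set h : ℝ → ℂ := fun y => GG χ (σ + y * I) with hh
  have hbd : ∀ j : ℕ, j ≤ k → ∀ y : ℝ, ‖iteratedDeriv j h y‖ ≤
      C j * (2 * (q : ℝ) ^ η) * (1 + ‖y‖ ^ 2) ^ (-(3 / 2 : ℝ) / 2) := by
    intro j hj y
    rw [hh, iteratedDeriv_vertical hUo hg hline, norm_mul, norm_pow, Complex.norm_I, one_pow,
      mul_one]
    have h1 := hC j q χ hχ (σ + y * I) (by rw [hre]; exact hσ1) (by rw [hre]; exact hσ2)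
    rw [him] at h1
    have hj' : (j : ℝ) ≤ k := by exact_mod_cast hj
    have h2 := QQ_rpow_div_le (q := q) (y := y) (e := ((j : ℝ) + 2) * b) (by
      rw [← hkb]
      exact mul_le_mul_of_nonneg_right (by linarith) hb0.le) hη0 hη
    calc ‖iteratedDeriv j (GG χ) (σ + y * I)‖
        ≤ C j * QQ q y ^ (((j : ℝ) + 2) * b) / (1 + y ^ 2) := h1
      _ = C j * (QQ q y ^ (((j : ℝ) + 2) * b) / (1 + y ^ 2)) := by ring
      _ ≤ C j * (2 * (q : ℝ) ^ η * (1 + ‖y‖ ^ 2) ^ (-(3 / 2 : ℝ) / 2)) :=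
          mul_le_mul_of_nonneg_left h2 (hC0 j).le
      _ = _ := by ring
  have hcd : ContDiff ℝ k h := contDiff_vertical hUo hg hline k
  have hint : ∀ j : ℕ, j ≤ k → Integrable (iteratedDeriv j h) := fun j hj =>
    (hJi.const_mul _).mono' (hcd.continuous_iteratedDeriv j (by exact_mod_cast hj)).aestronglyMeasurable
      (Filter.Eventually.of_forall fun y => hbd j hj y)
  have hfour := norm_fourier_le hcd hint (-(Real.log x / (2 * π)))
  have hξ : 2 * π * |-(Real.log x / (2 * π))| = Real.log x := by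
    rw [abs_neg, abs_of_pos (by positivity)]
    field_simp
  rw [hξ] at hfour
  have hI : ∫ y, ‖iteratedDeriv k h y‖ ≤ C k * (2 * (q : ℝ) ^ η) * J := by
    rw [hJ, ← integral_const_mul]
    exact integral_mono (hint k le_rfl).norm (hJi.const_mul _) fun y => hbd k le_rfl y
  have hF : ‖𝓕 h (-(Real.log x / (2 * π)))‖ ≤ C k * (2 * (q : ℝ) ^ η) * J / Real.log x ^ k := by
    rw [le_div_iff₀ (by positivity), mul_comm]
    exact hfour.trans hI
  -- the sum
  rw [sum_kk_eq hσ1.le hx0 (DirichletCharacter.LSeriesSummable_twist_vonMangoldt χ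
    (by simpa using hσ1)) (by simp)]
  have hInt : ∫ y : ℝ, LSeries ((fun n : ℕ => χ n) *
        fun n : ℕ => ((ArithmeticFunction.vonMangoldt n : ℝ) : ℂ)) ((σ : ℂ) + y * I) *
      ((x : ℂ) ^ ((σ : ℂ) + y * I) * (1 / (((σ : ℂ) + y * I) * ((σ : ℂ) + y * I + 1)))) =
      ((x ^ σ : ℝ) : ℂ) * 𝓕 h (-(Real.log x / (2 * π))) := by
    rw [Real.fourier_real_eq_integral_exp_smul, ← integral_const_mul]
    refine integral_congr_ae (Filter.Eventually.of_forall fun y => ?_)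
    have e1 := LSeries_mul_ker χ (s := (σ : ℂ) + y * I) (by rw [hre]; exact hσ1)
    have e2 : (x : ℂ) ^ ((σ : ℂ) + y * I) = ((x ^ σ : ℝ) : ℂ) *
        Complex.exp (((-2 * π * y * (-(Real.log x / (2 * π))) : ℝ) : ℂ) * I) := by
      have hx0' : (x : ℂ) ≠ 0 := by exact_mod_cast hx0.ne'
      rw [Complex.cpow_add _ _ hx0', Complex.ofReal_cpow hx0.le]
      congr 1
      rw [Complex.cpow_def_of_ne_zero hx0', ← Complex.ofReal_log hx0.le]
      congr 1
      have e3 : -2 * π * y * (-(Real.log x / (2 * π))) = Real.log x * y := by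
        field_simp
      rw [e3]
      push_cast
      ring
    simp only [hh, smul_eq_mul]
    rw [e2, ← e1]
    ring
  rw [hInt, norm_smul, norm_mul, Complex.norm_real, Real.norm_eq_abs, Real.norm_eq_abs,
    abs_of_pos (by positivity : 0 < 1 / (2 * π)),
    abs_of_pos (Real.rpow_pos_of_pos hx0 σ)]
  have hpi : 1 / (2 * π) ≤ 1 := by
    rw [div_le_one (by positivity)]
    linarith [Real.pi_gt_three]
  calc 1 / (2 * π) * (x ^ σ * ‖𝓕 h (-(Real.log x / (2 * π)))‖)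
      ≤ 1 * (2 * x * (C k * (2 * (q : ℝ) ^ η) * J / Real.log x ^ k)) := by
        have := Real.rpow_nonneg hx0.le σ
        gcongr
    _ = 4 * C k * J * (q : ℝ) ^ η * x / Real.log x ^ k := by ring
    _ ≤ _ := by
        gcongr
        linarith

end Fermat.Agent.Cor.SiegelL
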