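import Fermat.Agent.Corollaries.SiegelL.Progress

/-!
# The number of primes in arithmetic progressions

With `li x = ∫_2^x dt / log t`: for all `B` and `η > 0` there is a `C` such that
`|#{p ≤ x : p ≡ a mod q} - li x / φ(q)| ≤ C q^η x (log x)^(-B)` for all `q`, `a` prime to `q`,
`x ≥ 2` (`primes_progression_le`); for `q ≤ (log x)^A` the bound is `C x (log x)^(-B)`
(`siegel_walfisz_primes`); `|π(x) - li x| ≤ C x (log x)^(-B)` (`primeCounting_sub_li_le`).
-/

set_option autoImplicit false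

namespace Fermat.Agent.Cor.SiegelL

open Set MeasureTheory
open scoped Nat

/-! ### Partial summation with the weight `1 / log` -/

theorem sum_inv_log {c : ℕ → ℝ} (hc0 : c 0 = 0) (hc1 : c 1 = 0) {x : ℝ} (hx : 2 ≤ x) :
    ∑ n ∈ Finset.Icc 0 ⌊x⌋₊, (Real.log n)⁻¹ * c n =
      (∑ n ∈ Finset.Icc 0 ⌊x⌋₊, c n) / Real.log x +
        ∫ t in (2 : ℝ)..x, (∑ n ∈ Finset.Icc 0 ⌊t⌋₊, c n) / (t * Real.log t ^ 2) := by
  rw [sum_mul_eq_sub_integral_mul₁ c (f := fun t => (Real.log t)⁻¹) hc0 hc1,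
    ← intervalIntegral.integral_of_le hx]
  · have int_deriv (f : ℝ → ℝ) :
        ∫ u in (2 : ℝ)..x, deriv (fun x => (Real.log x)⁻¹) u * f u =
        ∫ u in (2 : ℝ)..x, -(f u / (u * Real.log u ^ 2)) :=
      intervalIntegral.integral_congr fun u _ => by
        simp only [Real.deriv_inv_log_apply]
        rw [div_eq_mul_inv (f u), mul_inv]
        ring
    rw [int_deriv, intervalIntegral.integral_neg, sub_neg_eq_add, div_eq_mul_inv, mul_comm]
  · intro z hz
    have h1 : z ≠ 0 := by linarith [hz.1]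
    have h2 : Real.log z ≠ 0 := (Real.log_pos (by linarith [hz.1])).ne'
    fun_prop
  · refine ContinuousOn.integrableOn_Icc fun z hz => ContinuousWithinAt.congr ?_
      (fun _ _ => Real.deriv_inv_log_apply) Real.deriv_inv_log_apply
    have h1 : z ≠ 0 := by linarith [hz.1]
    have h2 : Real.log z ^ 2 ≠ 0 := pow_ne_zero 2 (Real.log_pos (by linarith [hz.1])).ne'
    exact ContinuousAt.continuousWithinAt (by fun_prop)

theorem intervalIntegrable_sum_div (c : ℕ → ℝ) {x : ℝ} (hx : 2 ≤ x) :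
    IntervalIntegrable (fun t => (∑ n ∈ Finset.Icc 0 ⌊t⌋₊, c n) / (t * Real.log t ^ 2))
      volume 2 x := by
  rw [intervalIntegrable_iff_integrableOn_Icc_of_le hx]
  conv => arg 1; ext; rw [div_eq_mul_one_div, mul_comm]
  refine integrableOn_mul_sum_Icc _ (by norm_num) <| ContinuousOn.integrableOn_Icc fun t ht =>
    ContinuousAt.continuousWithinAt ?_
  have h1 : t ≠ 0 := by linarith [ht.1]
  have h2 : t * Real.log t ^ 2 ≠ 0 :=
    mul_ne_zero h1 (pow_ne_zero 2 (Real.log_pos (by linarith [ht.1])).ne')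
  have h3 : Real.log t ≠ 0 := (Real.log_pos (by linarith [ht.1])).ne'
  fun_prop

theorem intervalIntegrable_inv_log_pow (m : ℕ) {x : ℝ} (hx : 2 ≤ x) :
    IntervalIntegrable (fun t : ℝ => 1 / Real.log t ^ m) volume 2 x := by
  refine ContinuousOn.intervalIntegrable fun t ht => ContinuousAt.continuousWithinAt ?_
  rw [uIcc_of_le hx] at ht
  have h1 : t ≠ 0 := by linarith [ht.1]
  have h2 : Real.log t ^ m ≠ 0 := pow_ne_zero m (Real.log_pos (by linarith [ht.1])).ne'
  fun_prop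

theorem li_eq {x : ℝ} (hx : 2 ≤ x) : ∫ t in (2 : ℝ)..x, 1 / Real.log t =
    x / Real.log x - 2 / Real.log 2 + ∫ t in (2 : ℝ)..x, 1 / Real.log t ^ 2 := by
  have h1 : ∀ t ∈ uIcc 2 x, HasDerivAt (fun t : ℝ => t / Real.log t)
      (1 / Real.log t ^ 1 - 1 / Real.log t ^ 2) t := by
    intro t ht
    rw [uIcc_of_le hx] at ht
    have h2 : t ≠ 0 := by linarith [ht.1]
    have h3 : Real.log t ≠ 0 := (Real.log_pos (by linarith [ht.1])).ne'
    have h4 := (hasDerivAt_id t).div (Real.hasDerivAt_log h2) h3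
    refine h4.congr_deriv ?_
    simp only [id]
    field_simp
  have h2 := intervalIntegral.integral_eq_sub_of_hasDerivAt h1
    ((intervalIntegrable_inv_log_pow 1 hx).sub (intervalIntegrable_inv_log_pow 2 hx))
  rw [intervalIntegral.integral_sub (intervalIntegrable_inv_log_pow 1 hx)
    (intervalIntegrable_inv_log_pow 2 hx)] at h2
  simp only [pow_one] at h2
  linarith

/-! ### The remainder integral -/

lemma inv_log_pow_le (m : ℕ) {t x : ℝ} (ht : 2 ≤ t) (htx : t ≤ x) :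
    1 / Real.log t ^ m ≤
      2 * 4 ^ m * (m ! : ℝ) * x ^ (1 / 2 : ℝ) / Real.log x ^ m * t ^ (-(1 / 2) : ℝ) := by
  have ht0 : 0 < t := by linarith
  have hx0 : 0 < x := by linarith
  have hlt : 0 < Real.log t := Real.log_pos (by linarith)
  have hlx : 0 < Real.log x := Real.log_pos (by linarith)
  have hl2 : 1 / 2 ≤ Real.log t := by
    have h1 := Real.log_two_gt_d9
    have h2 : Real.log 2 ≤ Real.log t := Real.log_le_log (by norm_num) ht
    linarith
  have hu : 1 ≤ x / t := (one_le_div ht0).mpr htx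
  have hu0 : 0 < x / t := by positivity
  set y : ℝ := Real.log (x / t) * (1 / 2) with hy
  have hy0 : 0 ≤ y := mul_nonneg (Real.log_nonneg hu) (by norm_num)
  have h1 : Real.log x = Real.log t + 2 * y := by
    rw [hy, Real.log_div hx0.ne' ht0.ne']
    ring
  have h2 : Real.log x / Real.log t ≤ 4 * (1 / 4 + y) := by
    rw [div_le_iff₀ hlt, h1]
    nlinarith
  have h3 : (Real.log x / Real.log t) ^ m ≤ 2 * 4 ^ m * (m ! : ℝ) * (x / t) ^ (1 / 2 : ℝ) := by
    have i1 : (1 / 4 + y) ^ m ≤ (m ! : ℝ) * Real.exp (1 / 4 + y) := by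
      have := Real.pow_div_factorial_le_exp (1 / 4 + y) (by positivity) m
      rw [div_le_iff₀ (by positivity)] at this
      linarith
    have i2 : Real.exp (1 / 4 + y) ≤ 2 * (x / t) ^ (1 / 2 : ℝ) := by
      rw [Real.exp_add, Real.rpow_def_of_pos hu0, ← hy]
      have i3 : Real.exp (1 / 4) ≤ 2 := by
        have i4 : Real.exp (1 / 4) ≤ Real.exp (Real.log 2) :=
          Real.exp_le_exp.mpr (by linarith [Real.log_two_gt_d9])
        rwa [Real.exp_log (by norm_num)] at i4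
      exact mul_le_mul_of_nonneg_right i3 (Real.exp_pos y).le
    calc (Real.log x / Real.log t) ^ m ≤ (4 * (1 / 4 + y)) ^ m := by gcongr
      _ = 4 ^ m * (1 / 4 + y) ^ m := mul_pow _ _ _
      _ ≤ 4 ^ m * ((m ! : ℝ) * (2 * (x / t) ^ (1 / 2 : ℝ))) := by
          have := i1.trans (mul_le_mul_of_nonneg_left i2 (by positivity))
          gcongr
      _ = _ := by ring
  have h4 : (x / t) ^ (1 / 2 : ℝ) = x ^ (1 / 2 : ℝ) * t ^ (-(1 / 2) : ℝ) := by
    rw [Real.div_rpow hx0.le ht0.le, Real.rpow_neg ht0.le, div_eq_mul_inv]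
  rw [h4, div_pow] at h3
  calc 1 / Real.log t ^ m = (Real.log x ^ m / Real.log t ^ m) / Real.log x ^ m := by
        field_simp
    _ ≤ (2 * 4 ^ m * (m ! : ℝ) * (x ^ (1 / 2 : ℝ) * t ^ (-(1 / 2) : ℝ))) / Real.log x ^ m :=
        div_le_div_of_nonneg_right h3 (by positivity)
    _ = _ := by ring

lemma integral_rpow_neg_half_le (x : ℝ) :
    ∫ t in (2 : ℝ)..x, t ^ (-(1 / 2) : ℝ) ≤ 2 * x ^ (1 / 2 : ℝ) := by
  rw [integral_rpow (Or.inl (by norm_num))]
  have h1 : (-(1 / 2) + 1 : ℝ) = 1 / 2 := by norm_num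
  rw [h1]
  have h2 : (0 : ℝ) ≤ 2 ^ (1 / 2 : ℝ) := by positivity
  rw [div_le_iff₀ (by norm_num)]
  linarith

/-- **Partial summation**: if `∑_{n ≤ t} c(n) = κ t + O(M t (log t)^(-B))` then
`∑_{n ≤ x} c(n)/log n = κ li x + O((M + κ) x (log x)^(-B))`. -/
theorem sum_inv_log_sub_li_le (B : ℕ) : ∃ K : ℝ, 0 < K ∧ ∀ (c : ℕ → ℝ) (κ M : ℝ), c 0 = 0 →
    c 1 = 0 → 0 ≤ κ → 0 ≤ M → (∀ t : ℝ, 2 ≤ t →
      |(∑ n ∈ Finset.Icc 0 ⌊t⌋₊, c n) - κ * t| ≤ M * t / Real.log t ^ B) →
    ∀ x : ℝ, 2 ≤ x → |(∑ n ∈ Finset.Icc 0 ⌊x⌋₊, (Real.log n)⁻¹ * c n) -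
      κ * ∫ t in (2 : ℝ)..x, 1 / Real.log t| ≤ K * (M + κ) * x / Real.log x ^ B := by
  set K₁ : ℝ := 2 * 4 ^ (B + 2) * ((B + 2)! : ℝ) with hK₁
  refine ⟨2 + 8 * K₁ + 3 * (B ! : ℝ), by positivity, fun c κ M hc0 hc1 hκ hM h x hx => ?_⟩
  have hx0 : 0 < x := by linarith
  have hlx : 0 < Real.log x := Real.log_pos (by linarith)
  have hl2 : 1 / 2 ≤ Real.log x := by
    have h1 := Real.log_two_gt_d9
    have h2 : Real.log 2 ≤ Real.log x := Real.log_le_log (by norm_num) hx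
    linarith
  set S : ℝ → ℝ := fun t => ∑ n ∈ Finset.Icc 0 ⌊t⌋₊, c n with hS
  have hI1 := intervalIntegrable_sum_div c hx
  have hI2 := intervalIntegrable_inv_log_pow 2 hx
  have e1 : (∑ n ∈ Finset.Icc 0 ⌊x⌋₊, (Real.log n)⁻¹ * c n) -
      κ * ∫ t in (2 : ℝ)..x, 1 / Real.log t =
      (S x - κ * x) / Real.log x +
        (∫ t in (2 : ℝ)..x, (S t / (t * Real.log t ^ 2) - κ * (1 / Real.log t ^ 2))) +
        κ * (2 / Real.log 2) := by
    rw [sum_inv_log hc0 hc1 hx, li_eq hx, intervalIntegral.integral_sub hI1 (hI2.const_mul κ),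
      intervalIntegral.integral_const_mul]
    ring
  have b1 : |(S x - κ * x) / Real.log x| ≤ 2 * (M * x / Real.log x ^ B) := by
    rw [abs_div, abs_of_pos hlx, div_le_iff₀ hlx]
    have h1 := h x hx
    have h2 : 0 ≤ M * x / Real.log x ^ B := by positivity
    nlinarith
  have b2 : |∫ t in (2 : ℝ)..x, (S t / (t * Real.log t ^ 2) - κ * (1 / Real.log t ^ 2))| ≤
      M * (K₁ * x ^ (1 / 2 : ℝ) / Real.log x ^ (B + 2)) * (2 * x ^ (1 / 2 : ℝ)) := by
    have hg : IntervalIntegrable (fun t : ℝ => M * (K₁ * x ^ (1 / 2 : ℝ) / Real.log x ^ (B + 2)) *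
        t ^ (-(1 / 2) : ℝ)) volume 2 x :=
      (intervalIntegral.intervalIntegrable_rpow' (by norm_num)).const_mul _
    have h1 := intervalIntegral.norm_integral_le_of_norm_le (μ := volume)
      (f := fun t => S t / (t * Real.log t ^ 2) - κ * (1 / Real.log t ^ 2)) hx
      (Filter.Eventually.of_forall fun t ht => by
        have ht2 : 2 ≤ t := ht.1.le
        have ht0 : 0 < t := by linarith
        have hlt : 0 < Real.log t := Real.log_pos (by linarith)
        have i1 : S t / (t * Real.log t ^ 2) - κ * (1 / Real.log t ^ 2) =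
            (S t - κ * t) / (t * Real.log t ^ 2) := by
          field_simp
        rw [i1, Real.norm_eq_abs, abs_div, abs_of_pos (by positivity : 0 < t * Real.log t ^ 2)]
        have i2 := h t ht2
        calc |S t - κ * t| / (t * Real.log t ^ 2)
            ≤ (M * t / Real.log t ^ B) / (t * Real.log t ^ 2) :=
              div_le_div_of_nonneg_right i2 (by positivity)
          _ = M * (1 / Real.log t ^ (B + 2)) := by
              field_simp
              ring
          _ ≤ M * (2 * 4 ^ (B + 2) * ((B + 2)! : ℝ) * x ^ (1 / 2 : ℝ) / Real.log x ^ (B + 2) *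
                t ^ (-(1 / 2) : ℝ)) :=
              mul_le_mul_of_nonneg_left (inv_log_pow_le (B + 2) ht2 ht.2) hM
          _ = M * (K₁ * x ^ (1 / 2 : ℝ) / Real.log x ^ (B + 2)) * t ^ (-(1 / 2) : ℝ) := by
              rw [hK₁]
              ring) hg
    rw [Real.norm_eq_abs, intervalIntegral.integral_const_mul] at h1
    exact h1.trans (mul_le_mul_of_nonneg_left (integral_rpow_neg_half_le x) (by positivity))
  have b2' : M * (K₁ * x ^ (1 / 2 : ℝ) / Real.log x ^ (B + 2)) * (2 * x ^ (1 / 2 : ℝ)) ≤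
      8 * K₁ * (M * x / Real.log x ^ B) := by
    have h1 : x ^ (1 / 2 : ℝ) * x ^ (1 / 2 : ℝ) = x := by
      rw [← Real.rpow_add hx0]
      norm_num
    have h2 : M * (K₁ * x ^ (1 / 2 : ℝ) / Real.log x ^ (B + 2)) * (2 * x ^ (1 / 2 : ℝ)) =
        2 * K₁ * (M * (x ^ (1 / 2 : ℝ) * x ^ (1 / 2 : ℝ)) / Real.log x ^ B) *
          (1 / Real.log x ^ 2) := by
      field_simp
      ring
    rw [h2, h1]
    have h3 : 1 / Real.log x ^ 2 ≤ 4 := by
      rw [div_le_iff₀ (by positivity)]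
      nlinarith
    have h4 : 0 ≤ 2 * K₁ * (M * x / Real.log x ^ B) := by positivity
    calc 2 * K₁ * (M * x / Real.log x ^ B) * (1 / Real.log x ^ 2)
        ≤ 2 * K₁ * (M * x / Real.log x ^ B) * 4 := mul_le_mul_of_nonneg_left h3 h4
      _ = _ := by ring
  have b3 : |κ * (2 / Real.log 2)| ≤ 3 * (B ! : ℝ) * (κ * x / Real.log x ^ B) := by
    have h1 : 2 / Real.log 2 ≤ 3 := by
      have := Real.log_two_gt_d9
      rw [div_le_iff₀ (by linarith)]
      linarith
    have h2 : 0 < Real.log 2 := Real.log_pos (by norm_num)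
    rw [abs_of_nonneg (by positivity)]
    have h3 := one_le_div_log_pow (by linarith : 1 < x) B
    calc κ * (2 / Real.log 2) ≤ κ * 3 := mul_le_mul_of_nonneg_left h1 hκ
      _ = 3 * κ * 1 := by ring
      _ ≤ 3 * κ * ((B ! : ℝ) * x / Real.log x ^ B) := mul_le_mul_of_nonneg_left h3 (by positivity)
      _ = _ := by ring
  rw [e1]
  have hMx : 0 ≤ M * x / Real.log x ^ B := by positivity
  have hκx : 0 ≤ κ * x / Real.log x ^ B := by positivity
  have hB0 : 0 ≤ 3 * (B ! : ℝ) := by positivity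
  have hK0 : 0 ≤ 8 * K₁ := by positivity
  calc |(S x - κ * x) / Real.log x +
        (∫ t in (2 : ℝ)..x, (S t / (t * Real.log t ^ 2) - κ * (1 / Real.log t ^ 2))) +
        κ * (2 / Real.log 2)|
      ≤ 2 * (M * x / Real.log x ^ B) + 8 * K₁ * (M * x / Real.log x ^ B) +
        3 * (B ! : ℝ) * (κ * x / Real.log x ^ B) :=
        (abs_add_le _ _).trans (add_le_add ((abs_add_le _ _).trans
          (add_le_add b1 (b2.trans b2'))) b3)
    _ ≤ (2 + 8 * K₁ + 3 * (B ! : ℝ)) * (M * x / Real.log x ^ B) +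
        (2 + 8 * K₁ + 3 * (B ! : ℝ)) * (κ * x / Real.log x ^ B) := by nlinarith
    _ = _ := by ring

/-! ### Primes in residue classes -/

section primes

variable {q : ℕ} [NeZero q]

open Classical in
/-- `log p` for the primes `p ≡ a mod q`, zero elsewhere. -/
noncomputable def cP (a : ZMod q) (n : ℕ) : ℝ :=
  if n.Prime ∧ (n : ZMod q) = a then Real.log n else 0

omit [NeZero q] in
/-- The prime powers contribute at most `ψ(x) - θ(x)`. -/
lemma abs_psiProg_sub_le [NeZero q] (a : ZMod q) {x : ℝ} (hx : 2 ≤ x) :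
    |psiProg a x - ∑ n ∈ Finset.Icc 0 ⌊x⌋₊, cP a n| ≤ 2 * √x * Real.log x := by
  have hI : Finset.Icc 1 ⌊x⌋₊ = Finset.Ioc 0 ⌊x⌋₊ := by
    ext n
    simp [Nat.one_le_iff_ne_zero, Nat.pos_iff_ne_zero]
  have h0 : ∑ n ∈ Finset.Icc 0 ⌊x⌋₊, cP a n = ∑ n ∈ Finset.Ioc 0 ⌊x⌋₊, cP a n := by
    rw [← Finset.sum_Ioc_add_eq_sum_Icc (Nat.zero_le _)]
    simp [cP]
  have h1 : psiProg a x - ∑ n ∈ Finset.Icc 0 ⌊x⌋₊, cP a n =
      ∑ n ∈ Finset.Ioc 0 ⌊x⌋₊, (if ¬ n.Prime then
        (if (n : ZMod q) = a then ArithmeticFunction.vonMangoldt n else 0) else 0) := by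
    rw [h0, psiProg, hI, Finset.sum_filter, ← Finset.sum_sub_distrib]
    refine Finset.sum_congr rfl fun n _ => ?_
    by_cases hp : n.Prime
    · rw [if_neg (not_not.mpr hp)]
      by_cases ha : (n : ZMod q) = a
      · have hc : cP a n = Real.log n := by rw [cP, if_pos ⟨hp, ha⟩]
        rw [if_pos ha, hc, ArithmeticFunction.vonMangoldt_apply_prime hp, sub_self]
      · have hc : cP a n = 0 := by rw [cP, if_neg (fun h => ha h.2)]
        rw [if_neg ha, hc, sub_self]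
    · have hc : cP a n = 0 := by rw [cP, if_neg (fun h => hp h.1)]
      rw [if_pos hp, hc, sub_zero]
  have h2 : ∑ n ∈ Finset.Ioc 0 ⌊x⌋₊, (if ¬ n.Prime then
        (if (n : ZMod q) = a then ArithmeticFunction.vonMangoldt n else 0) else 0) ≤
      ∑ n ∈ Finset.Ioc 0 ⌊x⌋₊ with ¬ n.Prime, ArithmeticFunction.vonMangoldt n := by
    rw [Finset.sum_filter]
    refine Finset.sum_le_sum fun n _ => ?_
    by_cases hp : n.Prime
    · rw [if_neg (not_not.mpr hp), if_neg (not_not.mpr hp)]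
    · rw [if_pos hp, if_pos hp]
      split_ifs
      · exact le_rfl
      · exact ArithmeticFunction.vonMangoldt_nonneg
  have h3 : 0 ≤ ∑ n ∈ Finset.Ioc 0 ⌊x⌋₊, (if ¬ n.Prime then
        (if (n : ZMod q) = a then ArithmeticFunction.vonMangoldt n else 0) else 0) := by
    refine Finset.sum_nonneg fun n _ => ?_
    by_cases hp : n.Prime
    · rw [if_neg (not_not.mpr hp)]
    · rw [if_pos hp]
      split_ifs
      · exact ArithmeticFunction.vonMangoldt_nonneg
      · exact le_rfl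
  rw [h1, abs_of_nonneg h3]
  rw [← Chebyshev.psi_sub_theta_eq_sum_not_prime] at h2
  exact h2.trans (Chebyshev.psi_sub_theta_le (by linarith))

omit [NeZero q] in
lemma sum_inv_log_cP (a : ZMod q) (x : ℝ) :
    ∑ n ∈ Finset.Icc 0 ⌊x⌋₊, (Real.log n)⁻¹ * cP a n =
      (((Finset.Icc 1 ⌊x⌋₊).filter (fun p : ℕ => p.Prime ∧ (p : ZMod q) = a)).card : ℝ) := by
  classical
  have hI : Finset.Icc 1 ⌊x⌋₊ = Finset.Ioc 0 ⌊x⌋₊ := by
    ext n
    simp [Nat.one_le_iff_ne_zero, Nat.pos_iff_ne_zero]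
  rw [← Finset.sum_Ioc_add_eq_sum_Icc (Nat.zero_le _), hI, Finset.card_filter]
  push_cast
  have h0 : (Real.log (0 : ℝ))⁻¹ * cP a 0 = 0 := by simp
  rw [h0, add_zero]
  refine Finset.sum_congr rfl fun n _ => ?_
  by_cases h : n.Prime ∧ (n : ZMod q) = a
  · have hn : 0 < Real.log n := Real.log_pos (by exact_mod_cast h.1.one_lt)
    rw [cP, if_pos h, if_pos h, inv_mul_cancel₀ hn.ne']
  · rw [cP, if_neg h, if_neg h, mul_zero]

/-- `√x log x ≤ C x (log x)^(-B)`. -/
lemma sqrt_mul_log_le (B : ℕ) {x : ℝ} (hx : 2 ≤ x) :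
    √x * Real.log x ≤ 2 ^ (B + 1) * ((B + 1)! : ℝ) * (x / Real.log x ^ B) := by
  have hx0 : 0 < x := by linarith
  have hlx : 0 < Real.log x := Real.log_pos (by linarith)
  have hs1 : 1 < √x := by
    rw [Real.lt_sqrt (by norm_num)]
    linarith
  have h1 := one_le_div_log_pow hs1 (B + 1)
  have h2 : Real.log √x = Real.log x / 2 := Real.log_sqrt hx0.le
  rw [h2, one_le_div (by positivity)] at h1
  have h3 : Real.log x ^ (B + 1) ≤ 2 ^ (B + 1) * (((B + 1)! : ℝ) * √x) := by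
    rw [div_pow, div_le_iff₀ (by positivity)] at h1
    linarith
  rw [← mul_div_assoc, le_div_iff₀ (by positivity)]
  calc √x * Real.log x * Real.log x ^ B = √x * Real.log x ^ (B + 1) := by ring
    _ ≤ √x * (2 ^ (B + 1) * (((B + 1)! : ℝ) * √x)) :=
        mul_le_mul_of_nonneg_left h3 (Real.sqrt_nonneg x)
    _ = 2 ^ (B + 1) * ((B + 1)! : ℝ) * (√x * √x) := by ring
    _ = _ := by rw [Real.mul_self_sqrt hx0.le]

end primes

/-- **The number of primes in a residue class, uniformly in the modulus**: for all `B` and `η > 0`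
there is a `C` such that `|#{p ≤ x : p ≡ a mod q} - (1/φ(q)) ∫_2^x dt/log t| ≤ C q^η x (log x)^(-B)`
for all `q`, all `a` prime to `q` and all `x ≥ 2`. -/
theorem primes_progression_le (B : ℕ) {η : ℝ} (hη : 0 < η) : ∃ C : ℝ, 0 < C ∧
    ∀ (q : ℕ) [NeZero q] (a : ZMod q), IsUnit a → ∀ x : ℝ, 2 ≤ x →
      |(((Finset.Icc 1 ⌊x⌋₊).filter (fun p : ℕ => p.Prime ∧ (p : ZMod q) = a)).card : ℝ) -
        (∫ t in (2 : ℝ)..x, 1 / Real.log t) / q.totient| ≤
        C * (q : ℝ) ^ η * x / Real.log x ^ B := by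
  obtain ⟨C₁, hC₁, h₁⟩ := psi_progression_le B hη
  obtain ⟨K, hK, h₂⟩ := sum_inv_log_sub_li_le B
  set D : ℝ := 2 * (2 ^ (B + 1) * ((B + 1)! : ℝ)) with hD
  refine ⟨K * (C₁ + D + 1), by positivity, fun q _ a ha x hx => ?_⟩
  have hq1 : (1 : ℝ) ≤ q := by exact_mod_cast Nat.one_le_iff_ne_zero.mpr (NeZero.ne q)
  have hqη : 1 ≤ (q : ℝ) ^ η := Real.one_le_rpow hq1 hη.le
  have hφ : (1 : ℝ) ≤ q.totient := by
    exact_mod_cast Nat.totient_pos.mpr (Nat.pos_of_ne_zero (NeZero.ne q))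
  have hφ0 : (0 : ℝ) < q.totient := by linarith
  have h3 := h₂ (cP a) (1 / q.totient) ((C₁ + D) * (q : ℝ) ^ η) (by simp [cP]) (by simp [cP])
    (by positivity) (by positivity) (fun t ht => by
      have ht0 : 0 < t := by linarith
      have hlt : 0 < Real.log t := Real.log_pos (by linarith)
      have i1 := h₁ q a ha t ht
      have i1' : |psiProg a t - t / q.totient| ≤ C₁ * (q : ℝ) ^ η * t / Real.log t ^ B := i1
      have i2 := abs_psiProg_sub_le a ht
      have i3 := sqrt_mul_log_le B ht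
      have i4 : |(∑ n ∈ Finset.Icc 0 ⌊t⌋₊, cP a n) - 1 / q.totient * t| ≤
          |(∑ n ∈ Finset.Icc 0 ⌊t⌋₊, cP a n) - psiProg a t| + |psiProg a t - t / q.totient| := by
        have := abs_sub_le (∑ n ∈ Finset.Icc 0 ⌊t⌋₊, cP a n) (psiProg a t) (1 / q.totient * t)
        have e : 1 / (q.totient : ℝ) * t = t / q.totient := by ring
        rw [e] at this ⊢
        exact this
      rw [abs_sub_comm (∑ n ∈ Finset.Icc 0 ⌊t⌋₊, cP a n) (psiProg a t)] at i4
      have i5 : 2 * √t * Real.log t ≤ D * (q : ℝ) ^ η * t / Real.log t ^ B := by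
        have i6 : 0 ≤ D * (t / Real.log t ^ B) := by positivity
        calc 2 * √t * Real.log t = 2 * (√t * Real.log t) := by ring
          _ ≤ 2 * (2 ^ (B + 1) * ((B + 1)! : ℝ) * (t / Real.log t ^ B)) :=
              mul_le_mul_of_nonneg_left i3 (by norm_num)
          _ = D * (t / Real.log t ^ B) := by rw [hD]; ring
          _ ≤ (q : ℝ) ^ η * (D * (t / Real.log t ^ B)) := le_mul_of_one_le_left i6 hqη
          _ = _ := by ring
      calc |(∑ n ∈ Finset.Icc 0 ⌊t⌋₊, cP a n) - 1 / q.totient * t|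
          ≤ D * (q : ℝ) ^ η * t / Real.log t ^ B + C₁ * (q : ℝ) ^ η * t / Real.log t ^ B :=
            i4.trans (add_le_add (i2.trans i5) i1')
        _ = _ := by ring) x hx
  rw [sum_inv_log_cP] at h3
  have e1 : 1 / (q.totient : ℝ) * (∫ t in (2 : ℝ)..x, 1 / Real.log t) =
      (∫ t in (2 : ℝ)..x, 1 / Real.log t) / q.totient := by ring
  rw [e1] at h3
  refine h3.trans ?_
  have hlx : 0 < Real.log x := Real.log_pos (by linarith)
  have hinv : 1 / (q.totient : ℝ) ≤ (q : ℝ) ^ η := by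
    have : 1 / (q.totient : ℝ) ≤ 1 := by
      rw [div_le_one hφ0]
      exact hφ
    linarith
  have hx0 : 0 < x := by linarith
  calc K * ((C₁ + D) * (q : ℝ) ^ η + 1 / q.totient) * x / Real.log x ^ B
      ≤ K * ((C₁ + D) * (q : ℝ) ^ η + (q : ℝ) ^ η) * x / Real.log x ^ B := by gcongr
    _ = _ := by ring

/-- **The Siegel-Walfisz theorem for primes**: for all `A`, `B` there is a `C` such that
`|#{p ≤ x : p ≡ a mod q} - (1/φ(q)) ∫_2^x dt/log t| ≤ C x (log x)^(-B)` for all `x ≥ 2`, all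
`q ≤ (log x)^A` and all `a` prime to `q`. -/
theorem siegel_walfisz_primes (A B : ℕ) : ∃ C : ℝ, 0 < C ∧ ∀ x : ℝ, 2 ≤ x →
    ∀ (q : ℕ) [NeZero q], (q : ℝ) ≤ Real.log x ^ A → ∀ a : ZMod q, IsUnit a →
      |(((Finset.Icc 1 ⌊x⌋₊).filter (fun p : ℕ => p.Prime ∧ (p : ZMod q) = a)).card : ℝ) -
        (∫ t in (2 : ℝ)..x, 1 / Real.log t) / q.totient| ≤ C * x / Real.log x ^ B := by
  have hA : (0 : ℝ) < (A : ℝ) + 1 := by positivity
  obtain ⟨C, hC, h⟩ := primes_progression_le (B + 1) (η := 1 / ((A : ℝ) + 1)) (by positivity)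
  refine ⟨2 * C, by positivity, fun x hx q _ hq a ha => (h q a ha x hx).trans ?_⟩
  have hx0 : 0 < x := by linarith
  have hlx0 : 0 < Real.log x := Real.log_pos (by linarith)
  have hl2 : 1 ≤ 2 * Real.log x := by
    have h1 := Real.log_two_gt_d9
    have h2 : Real.log 2 ≤ Real.log x := Real.log_le_log (by norm_num) hx
    linarith
  have hq2 : (q : ℝ) ≤ (2 * Real.log x) ^ (A + 1) := by
    calc (q : ℝ) ≤ Real.log x ^ A := hq
      _ ≤ (2 * Real.log x) ^ A := by
          gcongr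
          linarith
      _ ≤ (2 * Real.log x) ^ (A + 1) := pow_le_pow_right₀ hl2 (Nat.le_succ A)
  have hqη : (q : ℝ) ^ (1 / ((A : ℝ) + 1)) ≤ 2 * Real.log x := by
    calc (q : ℝ) ^ (1 / ((A : ℝ) + 1)) ≤ ((2 * Real.log x) ^ (A + 1)) ^ (1 / ((A : ℝ) + 1)) :=
          Real.rpow_le_rpow (Nat.cast_nonneg q) hq2 (by positivity)
      _ = 2 * Real.log x := by
          rw [← Real.rpow_natCast, ← Real.rpow_mul (by positivity)]
          push_cast
          rw [mul_one_div, div_self hA.ne', Real.rpow_one]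
  rw [div_le_div_iff₀ (by positivity) (by positivity)]
  calc C * (q : ℝ) ^ (1 / ((A : ℝ) + 1)) * x * Real.log x ^ B
      ≤ C * (2 * Real.log x) * x * Real.log x ^ B := by gcongr
    _ = 2 * C * x * Real.log x ^ (B + 1) := by ring

/-- **The prime number theorem for `π(x)` with error term**: for every `B` there is a `C` such that
`|π(x) - ∫_2^x dt/log t| ≤ C x (log x)^(-B)` for all `x ≥ 2`. -/
theorem primeCounting_sub_li_le (B : ℕ) : ∃ C : ℝ, 0 < C ∧ ∀ x : ℝ, 2 ≤ x →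
    |(Nat.primeCounting ⌊x⌋₊ : ℝ) - ∫ t in (2 : ℝ)..x, 1 / Real.log t| ≤
      C * x / Real.log x ^ B := by
  obtain ⟨C, hC, h⟩ := primes_progression_le B one_pos
  refine ⟨C, hC, fun x hx => ?_⟩
  have h1 := h 1 (1 : ZMod 1) isUnit_one x hx
  have h2 : (Finset.Icc 1 ⌊x⌋₊).filter (fun p : ℕ => p.Prime ∧ (p : ZMod 1) = 1) =
      (Finset.range (⌊x⌋₊ + 1)).filter Nat.Prime := by
    ext n
    simp only [Finset.mem_filter, Finset.mem_Icc, Finset.mem_range]
    constructor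
    · rintro ⟨⟨i1, i2⟩, i3, -⟩
      exact ⟨by omega, i3⟩
    · rintro ⟨i1, i2⟩
      exact ⟨⟨i2.one_le, by omega⟩, i2, Subsingleton.elim _ _⟩
  rw [h2, Nat.totient_one, Nat.cast_one, div_one, Real.one_rpow, mul_one] at h1
  rwa [Nat.primeCounting, Nat.primeCounting', Nat.count_eq_card_filter_range]

end Fermat.Agent.Cor.SiegelL
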