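import Fermat.Agent.Corollaries.SiegelL.Strip

/-!
# A zero-free region for all Dirichlet L-functions, uniform in the modulus

For every `ε > 0` there is a `c > 0` such that for all `q`, all Dirichlet characters `χ ≠ 1`
modulo `q` and all `s = σ + it` with `1 - c (q (|t| + 2))^(-ε) ≤ σ ≤ 1`
`|L(s, χ)| ≥ c (q (|t| + 2))^(-ε)` (`norm_lower_region`); so `L(s, χ) ≠ 0` for
`σ ≥ 1 - c (q (|t| + 2))^(-ε)` (`LFunction_ne_zero_region`). No exceptional zero: the bound at the
point `s = 1` is Siegel's theorem, the rest is the inequality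
`|ζ(1 + x)^3 L(1 + x + it, χ)^4 L(1 + x + 2it, χ²)| ≥ 1`.
-/

set_option autoImplicit false

namespace Fermat.Agent.Cor.SiegelL

open Complex Set

/-! ### Lipschitz bounds along horizontal segments -/

lemma convex_horizontal (A B t : ℝ) : Convex ℝ {z : ℂ | A ≤ z.re ∧ z.re ≤ B ∧ z.im = t} := by
  intro x hx y hy u v hu hv huv
  obtain ⟨h1, h2, h3⟩ := hx
  obtain ⟨h4, h5, h6⟩ := hy
  have hu' : u = 1 - v := by linarith
  have e1 : (u • x + v • y).re = u * x.re + v * y.re := by simp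
  have e2 : (u • x + v • y).im = u * x.im + v * y.im := by simp
  refine ⟨?_, ?_, ?_⟩
  · rw [e1]
    have i1 := mul_le_mul_of_nonneg_left h1 hu
    have i2 := mul_le_mul_of_nonneg_left h4 hv
    have i3 : u * A + v * A = A := by rw [hu']; ring
    linarith
  · rw [e1]
    have i1 := mul_le_mul_of_nonneg_left h2 hu
    have i2 := mul_le_mul_of_nonneg_left h5 hv
    have i3 : u * B + v * B = B := by rw [hu']; ring
    linarith
  · rw [e2, h3, h6, hu']
    ring

section char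

variable {q : ℕ} [NeZero q] {χ : DirichletCharacter ℂ q}

lemma QQ_le_of_abs_le {t u : ℝ} (h : |u| ≤ 2 * |t| + 2) : QQ q u ≤ 2 * QQ q t := by
  have hq : (1 : ℝ) ≤ q := by exact_mod_cast Nat.one_le_iff_ne_zero.mpr (NeZero.ne q)
  rw [QQ, QQ]
  nlinarith

lemma QQ_rpow_le {t u a : ℝ} (ha0 : 0 < a) (ha : a ≤ 1) (h : |u| ≤ 2 * |t| + 2) :
    QQ q u ^ a ≤ 2 * QQ q t ^ a := by
  have h0 : 2 ≤ QQ q t := two_le_QQ t
  have h0' : 2 ≤ QQ q u := two_le_QQ u
  calc QQ q u ^ a ≤ (2 * QQ q t) ^ a :=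
        Real.rpow_le_rpow (by linarith) (QQ_le_of_abs_le h) ha0.le
    _ = 2 ^ a * QQ q t ^ a := Real.mul_rpow (by norm_num) (by linarith)
    _ ≤ 2 * QQ q t ^ a := by
        refine mul_le_mul_of_nonneg_right ?_ (Real.rpow_nonneg (by linarith) _)
        calc (2 : ℝ) ^ a ≤ 2 ^ (1 : ℝ) := Real.rpow_le_rpow_of_exponent_le (by norm_num) ha
          _ = 2 := Real.rpow_one 2

/-- The constant of the derivative bound. -/
noncomputable def DD (a : ℝ) : ℝ := 64 * (1 + 2 / a) / a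

lemma one_le_DD {a : ℝ} (ha0 : 0 < a) (ha : a ≤ 1) : 1 ≤ DD a := by
  rw [DD, le_div_iff₀ ha0]
  have : 0 < 2 / a := by positivity
  linarith

theorem norm_deriv_le_QQ (hχ : χ ≠ 1) {a : ℝ} (ha0 : 0 < a) (ha : a ≤ 1) {s : ℂ}
    (hs : 1 - a / 4 ≤ s.re) (hs2 : s.re ≤ 3 / 2) :
    ‖deriv χ.LFunction s‖ ≤ DD a * QQ q s.im ^ a := by
  have h1 : ∀ w ∈ Metric.sphere s (a / 4),
      ‖χ.LFunction w‖ ≤ 8 * (1 + 2 / a) * (2 * QQ q s.im ^ a) := by
    intro w hw
    have h2 : ‖w - s‖ = a / 4 := by rw [← dist_eq_norm]; exact hw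
    have h3 := abs_le.mp ((Complex.abs_re_le_norm (w - s)).trans h2.le)
    have h4 := abs_le.mp ((Complex.abs_im_le_norm (w - s)).trans h2.le)
    rw [Complex.sub_re] at h3
    rw [Complex.sub_im] at h4
    refine (norm_LFunction_le_QQ hχ ha0 ha (by linarith [h3.1]) (by linarith [h3.2])).trans ?_
    refine mul_le_mul_of_nonneg_left (QQ_rpow_le ha0 ha ?_) (by positivity)
    have h5 : |w.im| ≤ |s.im| + a / 4 := by
      have h6 : w.im = s.im + (w.im - s.im) := by ring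
      rw [h6]
      exact (abs_add_le _ _).trans (by
        have := abs_le.mpr h4
        linarith)
    have := abs_nonneg s.im
    linarith
  have h2 := Complex.norm_deriv_le_of_forall_mem_sphere_norm_le (by linarith : 0 < a / 4)
    (DirichletCharacter.differentiable_LFunction hχ).diffContOnCl h1
  refine h2.trans_eq ?_
  rw [DD]
  field_simp
  ring

theorem norm_sub_le_QQ (hχ : χ ≠ 1) {a : ℝ} (ha0 : 0 < a) (ha : a ≤ 1) {s w : ℂ}
    (hs : 1 - a / 4 ≤ s.re) (hs2 : s.re ≤ 3 / 2) (hw : 1 - a / 4 ≤ w.re) (hw2 : w.re ≤ 3 / 2)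
    (him : w.im = s.im) :
    ‖χ.LFunction w - χ.LFunction s‖ ≤ DD a * QQ q s.im ^ a * ‖w - s‖ :=
  (convex_horizontal (1 - a / 4) (3 / 2) s.im).norm_image_sub_le_of_norm_deriv_le
    (fun x _ => (DirichletCharacter.differentiable_LFunction hχ) x)
    (fun x hx => by
      have := norm_deriv_le_QQ hχ ha0 ha hx.1 hx.2.1
      rwa [hx.2.2] at this)
    ⟨hs, hs2, rfl⟩ ⟨hw, hw2, him⟩

/-! ### The trivial character off the real axis -/

lemma prod_one_add_inv_le (S : Finset ℕ) (h : ∀ n ∈ S, 2 ≤ n) :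
    ∏ n ∈ S, (1 + 1 / (n : ℝ)) ≤ (S.card : ℝ) + 1 := by
  have h1 := prod_one_sub_inv_ge S h
  have h2 : (∏ n ∈ S, (1 + 1 / (n : ℝ))) * ∏ n ∈ S, (1 - 1 / (n : ℝ)) ≤ 1 := by
    rw [← Finset.prod_mul_distrib]
    refine Finset.prod_le_one (fun n hn => ?_) fun n hn => ?_
    · have h3 : (2 : ℝ) ≤ n := by exact_mod_cast h n hn
      have h4 : 1 / (n : ℝ) ≤ 1 := by
        rw [div_le_one (by linarith)]
        linarith
      have h5 : 0 ≤ 1 / (n : ℝ) := by positivity
      exact mul_nonneg (by linarith) (by linarith)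
    · nlinarith [sq_nonneg (1 / (n : ℝ))]
  have h3 : 0 ≤ ∏ n ∈ S, (1 + 1 / (n : ℝ)) := Finset.prod_nonneg fun n _ => by positivity
  have h4 : (0 : ℝ) < (S.card : ℝ) + 1 := by positivity
  have h5 := (mul_le_mul_of_nonneg_left h1 h3).trans h2
  rwa [mul_one_div, div_le_one h4] at h5

omit [NeZero q] in
lemma card_primeFactors_add_one_le (hq : q ≠ 0) :
    ((q.primeFactors.card : ℝ) + 1) ≤ 2 * (1 + Real.log q) := by
  have hq1 : (1 : ℝ) ≤ q := by exact_mod_cast Nat.one_le_iff_ne_zero.mpr hq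
  have hlog : 0 ≤ Real.log q := Real.log_nonneg hq1
  have h2 : ((2 : ℝ) ^ q.primeFactors.card) ≤ q := by
    exact_mod_cast two_pow_card_primeFactors_le hq
  have h3 := Real.log_le_log (by positivity) h2
  rw [Real.log_pow] at h3
  have h4 : (1 : ℝ) / 2 ≤ Real.log 2 := by
    have := Real.log_two_gt_d9
    linarith
  have h5 : (q.primeFactors.card : ℝ) * (1 / 2) ≤ q.primeFactors.card * Real.log 2 :=
    mul_le_mul_of_nonneg_left h4 (Nat.cast_nonneg _)
  linarith

theorem norm_trivChar_le_log {s : ℂ} (hs : 1 ≤ s.re) (hs2 : s.re ≤ 2) (him : s.im ≠ 0) :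
    ‖DirichletCharacter.LFunctionTrivChar q s‖ ≤
      2 * (1 + Real.log q) * (3 + Real.log (|s.im| + 2) + 1 / |s.im|) := by
  have hs1 : s ≠ 1 := by
    rintro rfl
    simp at him
  rw [DirichletCharacter.LFunctionTrivChar_eq_mul_riemannZeta hs1, norm_mul]
  refine mul_le_mul ?_ (norm_riemannZeta_le_log hs hs2 him) (norm_nonneg _) ?_
  · rw [norm_prod]
    calc ∏ p ∈ q.primeFactors, ‖(1 : ℂ) - (p : ℂ) ^ (-s)‖
        ≤ ∏ p ∈ q.primeFactors, (1 + 1 / (p : ℝ)) := by
          refine Finset.prod_le_prod (fun p _ => norm_nonneg _) fun p hp => ?_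
          have hp' := Nat.prime_of_mem_primeFactors hp
          have hp1 : (1 : ℝ) ≤ p := by exact_mod_cast hp'.one_lt.le
          refine (norm_sub_le _ _).trans ?_
          rw [norm_one, norm_natCast_cpow' hp'.one_lt.le, one_div, ← Real.rpow_neg_one]
          have := Real.rpow_le_rpow_of_exponent_le hp1 (by linarith : -s.re ≤ -1)
          linarith
      _ ≤ (q.primeFactors.card : ℝ) + 1 :=
          prod_one_add_inv_le _ fun p hp => (Nat.prime_of_mem_primeFactors hp).two_le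
      _ ≤ _ := card_primeFactors_add_one_le (NeZero.ne q)
  · have hq1 : (1 : ℝ) ≤ q := by exact_mod_cast Nat.one_le_iff_ne_zero.mpr (NeZero.ne q)
    have hlog : 0 ≤ Real.log q := Real.log_nonneg hq1
    positivity

/-! ### The inequality `3 + 4 cos θ + cos 2θ ≥ 0` -/

lemma lower_of_341 {f : ℝ → ℝ} {D E T : ℝ} (hD : 1 ≤ D) (hE : 1 ≤ E) (hT : 1 ≤ T)
    (f0 : ∀ x, 0 ≤ f x)
    (h1 : ∀ x, 0 < x → x ≤ 1 / 4 → 1 ≤ (2 / x) ^ 3 * f x ^ 4 * (E * T))
    (h2 : ∀ x, 0 < x → x ≤ 1 / 4 → f x ≤ f 0 + D * T * x) :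
    1 / (256 * D ^ 3 * E) * (T⁻¹) ^ 4 ≤ f 0 := by
  have hD0 : 0 < D := by linarith
  have hE0 : 0 < E := by linarith
  have hT0 : 0 < T := by linarith
  set x : ℝ := 1 / (256 * D ^ 4 * E) * (T⁻¹) ^ 5 with hx
  have hx0 : 0 < x := by positivity
  have hx1 : x ≤ 1 / 4 := by
    have i1 : (T⁻¹) ^ 5 ≤ 1 := pow_le_one₀ (by positivity) (inv_le_one_of_one_le₀ hT)
    have i2 : 1 ≤ D ^ 4 * E := one_le_mul_of_one_le_of_one_le (one_le_pow₀ hD) hE
    have i3 : 1 / (256 * D ^ 4 * E) ≤ 1 / 4 :=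
      one_div_le_one_div_of_le (by norm_num) (by nlinarith)
    calc x ≤ 1 / (256 * D ^ 4 * E) * 1 := mul_le_mul_of_nonneg_left i1 (by positivity)
      _ ≤ 1 / 4 := by linarith
  have e1 : D * T * x = 1 / (256 * D ^ 3 * E) * (T⁻¹) ^ 4 := by
    rw [hx]
    field_simp
  rw [← e1]
  by_contra hcon
  push Not at hcon
  have h3 : f x ≤ 2 * (D * T * x) := by
    have := h2 x hx0 hx1
    linarith
  have h4 := h1 x hx0 hx1
  have h5 : (2 / x) ^ 3 * f x ^ 4 * (E * T) ≤ (2 / x) ^ 3 * (2 * (D * T * x)) ^ 4 * (E * T) := by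
    have := f0 x
    gcongr
  have h6 : (2 / x) ^ 3 * (2 * (D * T * x)) ^ 4 * (E * T) = 128 * D ^ 4 * E * T ^ 5 * x := by
    field_simp
    ring
  have h7 : 128 * D ^ 4 * E * T ^ 5 * x = 1 / 2 := by
    rw [hx]
    field_simp
    ring
  linarith

/-- The bound on the line `Re s = 1` from a bound `E T` for the third factor. -/
lemma lower_line_aux (hχ : χ ≠ 1) {a : ℝ} (ha0 : 0 < a) (ha : a ≤ 1) {E T t : ℝ} (hE : 1 ≤ E)
    (hT : QQ q t ^ a ≤ T) (h3 : ∀ x : ℝ, 0 < x → x ≤ 1 / 4 →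
      ‖(χ ^ 2).LFunction (1 + x + 2 * I * t)‖ ≤ E * T) :
    1 / (256 * DD a ^ 3 * E) * (T⁻¹) ^ 4 ≤ ‖χ.LFunction (1 + I * t)‖ := by
  have hD := one_le_DD ha0 ha
  have hQ2 := two_le_QQ (q := q) t
  have hQ1 : 1 ≤ QQ q t ^ a := Real.one_le_rpow (by linarith) ha0.le
  have hT1 : 1 ≤ T := hQ1.trans hT
  have hET : 0 ≤ E * T := by positivity
  have key := lower_of_341 (f := fun x : ℝ => ‖χ.LFunction (1 + x + I * t)‖) hD hE hT1
    (fun x => norm_nonneg _) (fun x hx0 hx1 => ?_) (fun x hx0 hx1 => ?_)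
  · simpa using key
  · have b0 := norm_trivChar_le (q := q) hx0 (by linarith)
    have b2 := h3 x hx0 hx1
    have h341 := χ.norm_LFunction_product_ge_one hx0 t
    rw [norm_mul, norm_mul, norm_pow, norm_pow] at h341
    refine h341.le.trans ?_
    gcongr
  · have hre : ((1 : ℂ) + x + I * t).re = 1 + x := by simp
    have him : ((1 : ℂ) + x + I * t).im = t := by simp
    have hre0 : ((1 : ℂ) + I * t).re = 1 := by simp
    have him0 : ((1 : ℂ) + I * t).im = t := by simp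
    have h4 := norm_sub_le_QQ (q := q) hχ ha0 ha (s := 1 + I * t) (w := 1 + x + I * t)
      (by rw [hre0]; linarith) (by rw [hre0]; norm_num) (by rw [hre]; linarith)
      (by rw [hre]; linarith) (by rw [him, him0])
    rw [him0] at h4
    have h5 : ‖(1 : ℂ) + x + I * t - (1 + I * t)‖ = x := by
      have : (1 : ℂ) + x + I * t - (1 + I * t) = x := by ring
      rw [this, Complex.norm_real, Real.norm_eq_abs, abs_of_pos hx0]
    rw [h5] at h4
    have h6 : ‖χ.LFunction (1 + x + I * t)‖ ≤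
        ‖χ.LFunction (1 + x + I * t) - χ.LFunction (1 + I * t)‖ + ‖χ.LFunction (1 + I * t)‖ := by
      simpa using norm_add_le (χ.LFunction (1 + x + I * t) - χ.LFunction (1 + I * t))
        (χ.LFunction (1 + I * t))
    have h7 : DD a * QQ q t ^ a * x ≤ DD a * T * x := by
      have : 0 ≤ DD a := by linarith
      gcongr
    simp only [ofReal_zero, add_zero]
    linarith

lemma one_add_log_le_QQ {a : ℝ} (ha : 0 < a) (t : ℝ) :
    1 + Real.log q ≤ (1 + 1 / a) * QQ q t ^ a := by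
  have hq1 : (1 : ℝ) ≤ q := by exact_mod_cast Nat.one_le_iff_ne_zero.mpr (NeZero.ne q)
  refine (one_add_log_le ha hq1).trans ?_
  have h1 : (q : ℝ) ≤ QQ q t := by
    rw [QQ]
    have := abs_nonneg t
    nlinarith
  have := Real.rpow_le_rpow (by linarith) h1 ha.le
  gcongr

/-- The third factor for `χ² = 1`, away from the real axis. -/
lemma norm_trivChar_le_QQ {a c' t : ℝ} (ha0 : 0 < a) (hc' : 0 < c')
    (ht : c' * (q : ℝ) ^ (-(2 * a)) ≤ |t|) {x : ℝ} (hx0 : 0 < x) (hx : x ≤ 1 / 4) :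
    ‖DirichletCharacter.LFunctionTrivChar q (1 + x + 2 * I * t)‖ ≤
      2 * (1 + 1 / a) * (4 + 1 / a + 1 / (2 * c')) * QQ q t ^ (3 * a) := by
  have hq1 : (1 : ℝ) ≤ q := by exact_mod_cast Nat.one_le_iff_ne_zero.mpr (NeZero.ne q)
  have hq0 : (0 : ℝ) < q := by linarith
  have hqa : 0 < (q : ℝ) ^ (-(2 * a)) := Real.rpow_pos_of_pos hq0 _
  have ht0 : 0 < |t| := lt_of_lt_of_le (by positivity) ht
  have hre : ((1 : ℂ) + x + 2 * I * t).re = 1 + x := by simp
  have him : ((1 : ℂ) + x + 2 * I * t).im = 2 * t := by simp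
  have h1 := norm_trivChar_le_log (q := q) (s := 1 + x + 2 * I * t) (by rw [hre]; linarith)
    (by rw [hre]; linarith) (by
      rw [him]
      have := abs_pos.mp ht0
      positivity)
  rw [him] at h1
  have habs : |2 * t| = 2 * |t| := by rw [abs_mul, abs_two]
  rw [habs] at h1
  have hQ2 := two_le_QQ (q := q) t
  have hQ0 : 0 < QQ q t := by linarith
  set U : ℝ := QQ q t ^ a with hU
  have hU1 : 1 ≤ U := Real.one_le_rpow (by linarith) ha0.le
  have hU3 : QQ q t ^ (3 * a) = U * (U * U) := by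
    rw [hU, ← Real.rpow_add hQ0, ← Real.rpow_add hQ0]
    congr 1
    ring
  have h2 : 1 + Real.log q ≤ (1 + 1 / a) * U := one_add_log_le_QQ ha0 t
  have hqQ : (q : ℝ) ≤ QQ q t := by
    rw [QQ]
    have := abs_nonneg t
    nlinarith
  have h3 : Real.log (2 * |t| + 2) ≤ 1 + 1 / a * U := by
    have h4 : 2 * |t| + 2 ≤ 2 * QQ q t := by
      rw [QQ]
      nlinarith
    have h5 := Real.log_le_log (by positivity) h4
    rw [Real.log_mul (by norm_num) hQ0.ne'] at h5
    have h6 := Real.log_two_lt_d9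
    have h7 := Real.log_le_rpow_div hQ0.le ha0
    rw [← hU] at h7
    have h8 : U / a = 1 / a * U := by ring
    linarith
  have h4 : 1 / (2 * |t|) ≤ 1 / (2 * c') * (U * U) := by
    have h5 : 1 / (2 * |t|) ≤ 1 / (2 * (c' * (q : ℝ) ^ (-(2 * a)))) :=
      one_div_le_one_div_of_le (by positivity) (by linarith)
    have h6 : 1 / (2 * (c' * (q : ℝ) ^ (-(2 * a)))) = 1 / (2 * c') * (q : ℝ) ^ (2 * a) := by
      rw [Real.rpow_neg hq0.le]
      field_simp
    have h7 : (q : ℝ) ^ (2 * a) ≤ U * U := by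
      rw [hU, ← Real.rpow_add hQ0, ← two_mul]
      exact Real.rpow_le_rpow hq0.le hqQ (by linarith)
    rw [h6] at h5
    exact h5.trans (mul_le_mul_of_nonneg_left h7 (by positivity))
  have hUU : U ≤ U * U := le_mul_of_one_le_left (by linarith) hU1
  have h5 : 3 + Real.log (2 * |t| + 2) + 1 / (2 * |t|) ≤
      (4 + 1 / a + 1 / (2 * c')) * (U * U) := by
    have h6 : 1 / a * U ≤ 1 / a * (U * U) := mul_le_mul_of_nonneg_left hUU (by positivity)
    have h7 : 1 ≤ U * U := one_le_mul_of_one_le_of_one_le hU1 hU1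
    calc 3 + Real.log (2 * |t| + 2) + 1 / (2 * |t|)
        ≤ 4 * (U * U) + 1 / a * (U * U) + 1 / (2 * c') * (U * U) := by linarith
      _ = _ := by ring
  have hlog : 0 ≤ Real.log q := Real.log_nonneg hq1
  have hlog2 : 0 ≤ Real.log (2 * |t| + 2) := Real.log_nonneg (by linarith)
  refine h1.trans ?_
  calc 2 * (1 + Real.log q) * (3 + Real.log (2 * |t| + 2) + 1 / (2 * |t|))
      ≤ 2 * ((1 + 1 / a) * U) * ((4 + 1 / a + 1 / (2 * c')) * (U * U)) := by
        gcongr
    _ = _ := by rw [hU3]; ring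

end char

/-- **Lower bound on the line `Re s = 1`**: for every `ε > 0` there is a `c > 0` such that
`|L(1 + it, χ)| ≥ c (q (|t| + 2))^(-ε)` for all `q`, all characters `χ ≠ 1` modulo `q` and all
real `t`. -/
theorem norm_lower_line {ε : ℝ} (hε : 0 < ε) : ∃ c : ℝ, 0 < c ∧ ∀ (q : ℕ) [NeZero q]
    (χ : DirichletCharacter ℂ q), χ ≠ 1 → ∀ t : ℝ,
      c * QQ q t ^ (-ε) ≤ ‖χ.LFunction (1 + I * t)‖ := by
  set a : ℝ := min (ε / 12) 1 with ha
  have ha0 : 0 < a := lt_min (by positivity) one_pos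
  have ha1 : a ≤ 1 := min_le_right _ _
  have haε : 12 * a ≤ ε := by
    have := min_le_left (ε / 12) (1 : ℝ)
    linarith
  obtain ⟨cS, hcS, hS⟩ := norm_lower_all ha0
  set c' : ℝ := min (a ^ 2 / 32 * cS) (a / 4) with hc'
  have hc'0 : 0 < c' := lt_min (by positivity) (by positivity)
  have hD := one_le_DD ha0 ha1
  have hD0 : 0 < DD a := by linarith
  set E₁ : ℝ := 16 * (1 + 2 / a) with hE₁
  have hE₁1 : 1 ≤ E₁ := by
    have : 0 < 2 / a := by positivity
    linarith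
  set E₂ : ℝ := 2 * (1 + 1 / a) * (4 + 1 / a + 1 / (2 * c')) with hE₂
  have hE₂1 : 1 ≤ E₂ := by
    have i1 : 0 < 1 / a := by positivity
    have i2 : 0 < 1 / (2 * c') := by positivity
    rw [hE₂]
    exact one_le_mul_of_one_le_of_one_le (by linarith) (by linarith)
  refine ⟨min (min (1 / (256 * DD a ^ 3 * E₁)) (1 / (256 * DD a ^ 3 * E₂))) (cS / 2),
    lt_min (lt_min (by positivity) (by positivity)) (by positivity), fun q _ χ hχ t => ?_⟩
  have hq1 : (1 : ℝ) ≤ q := by exact_mod_cast Nat.one_le_iff_ne_zero.mpr (NeZero.ne q)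
  have hQ2 := two_le_QQ (q := q) t
  have hQ0 : 0 < QQ q t := by linarith
  have hQ1 : 1 ≤ QQ q t := by linarith
  have hQε : 0 < QQ q t ^ (-ε) := Real.rpow_pos_of_pos hQ0 _
  by_cases hsq : χ ^ 2 = 1
  · by_cases ht : c' * (q : ℝ) ^ (-(2 * a)) ≤ |t|
    · have h1 := lower_line_aux (q := q) hχ ha0 ha1 (E := E₂) (T := QQ q t ^ (3 * a)) (t := t)
        hE₂1 (Real.rpow_le_rpow_of_exponent_le hQ1 (by linarith)) (fun x hx0 hx1 => by
          rw [hsq]
          exact norm_trivChar_le_QQ ha0 hc'0 ht hx0 hx1)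
      refine le_trans ?_ h1
      refine mul_le_mul ((min_le_left _ _).trans (min_le_right _ _)) ?_ hQε.le (by positivity)
      rw [← Real.rpow_neg hQ0.le, ← Real.rpow_natCast, ← Real.rpow_mul hQ0.le]
      exact Real.rpow_le_rpow_of_exponent_le hQ1 (by push_cast; linarith)
    · push Not at ht
      have hqa1 : (q : ℝ) ^ (-(2 * a)) ≤ 1 :=
        Real.rpow_le_one_of_one_le_of_nonpos hq1 (by linarith)
      have hz : ‖(1 : ℂ) + I * t - 1‖ = |t| := by
        rw [add_sub_cancel_left, norm_mul, Complex.norm_I, one_mul, Complex.norm_real,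
          Real.norm_eq_abs]
      have h1 := norm_sub_near (q := q) hχ ha0 ha1 (z := 1 + I * t) (by
        rw [dist_eq_norm, hz]
        calc |t| ≤ c' * (q : ℝ) ^ (-(2 * a)) := ht.le
          _ ≤ c' * 1 := mul_le_mul_of_nonneg_left hqa1 hc'0.le
          _ ≤ a / 4 := by rw [mul_one]; exact min_le_right _ _)
      rw [hz] at h1
      have h2 := hS q χ hχ
      have h3 : ‖χ.LFunction 1‖ ≤
          ‖χ.LFunction (1 + I * t) - χ.LFunction 1‖ + ‖χ.LFunction (1 + I * t)‖ := by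
        have := norm_sub_le (χ.LFunction (1 + I * t)) (χ.LFunction (1 + I * t) - χ.LFunction 1)
        rw [sub_sub_cancel] at this
        linarith
      have h4 : 16 / a ^ 2 * (q : ℝ) ^ a * |t| ≤ cS / 2 * (q : ℝ) ^ (-a) := by
        have i1 : |t| ≤ a ^ 2 / 32 * cS * (q : ℝ) ^ (-(2 * a)) :=
          ht.le.trans (mul_le_mul_of_nonneg_right (min_le_left _ _)
            (Real.rpow_nonneg (by linarith) _))
        have i2 : (q : ℝ) ^ a * (q : ℝ) ^ (-(2 * a)) = (q : ℝ) ^ (-a) := by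
          rw [← Real.rpow_add (by linarith)]
          congr 1
          ring
        calc 16 / a ^ 2 * (q : ℝ) ^ a * |t|
            ≤ 16 / a ^ 2 * (q : ℝ) ^ a * (a ^ 2 / 32 * cS * (q : ℝ) ^ (-(2 * a))) :=
              mul_le_mul_of_nonneg_left i1
                (mul_nonneg (by positivity) (Real.rpow_nonneg (by linarith) _))
          _ = cS / 2 * ((q : ℝ) ^ a * (q : ℝ) ^ (-(2 * a))) := by
              field_simp
              ring
          _ = _ := by rw [i2]
      have h5 : QQ q t ^ (-ε) ≤ (q : ℝ) ^ (-a) := by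
        have hqQ : (q : ℝ) ≤ QQ q t := by
          rw [QQ]
          have := abs_nonneg t
          nlinarith
        calc QQ q t ^ (-ε) ≤ QQ q t ^ (-a) :=
              Real.rpow_le_rpow_of_exponent_le hQ1 (by linarith)
          _ ≤ _ := Real.rpow_le_rpow_of_nonpos (by linarith) hqQ (by linarith)
      calc min (min (1 / (256 * DD a ^ 3 * E₁)) (1 / (256 * DD a ^ 3 * E₂))) (cS / 2) *
            QQ q t ^ (-ε) ≤ cS / 2 * (q : ℝ) ^ (-a) :=
            mul_le_mul (min_le_right _ _) h5 hQε.le (by positivity)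
        _ ≤ _ := by linarith
  · have h1 := lower_line_aux (q := q) hχ ha0 ha1 (E := E₁) (T := QQ q t ^ a) (t := t)
      hE₁1 le_rfl (fun x hx0 hx1 => by
        have hre : ((1 : ℂ) + x + 2 * I * t).re = 1 + x := by simp
        have him : ((1 : ℂ) + x + 2 * I * t).im = 2 * t := by simp
        have i1 := norm_LFunction_le_QQ hsq ha0 ha1 (s := 1 + x + 2 * I * t)
          (by rw [hre]; linarith) (by rw [hre]; linarith)
        rw [him] at i1
        have i2 : QQ q (2 * t) ^ a ≤ 2 * QQ q t ^ a := QQ_rpow_le ha0 ha1 (by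
          rw [abs_mul, abs_two]
          linarith)
        calc ‖(χ ^ 2).LFunction (1 + x + 2 * I * t)‖
            ≤ 8 * (1 + 2 / a) * QQ q (2 * t) ^ a := i1
          _ ≤ 8 * (1 + 2 / a) * (2 * QQ q t ^ a) :=
              mul_le_mul_of_nonneg_left i2 (by positivity)
          _ = E₁ * QQ q t ^ a := by rw [hE₁]; ring)
    refine le_trans ?_ h1
    refine mul_le_mul ((min_le_left _ _).trans (min_le_left _ _)) ?_ hQε.le (by positivity)
    rw [← Real.rpow_neg hQ0.le, ← Real.rpow_natCast, ← Real.rpow_mul hQ0.le]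
    exact Real.rpow_le_rpow_of_exponent_le hQ1 (by push_cast; linarith)

/-- **The uniform region**: for every `ε > 0` there is a `c > 0` such that
`|L(s, χ)| ≥ c (q (|t| + 2))^(-ε)` for all `q`, all characters `χ ≠ 1` modulo `q` and all
`s = σ + it` with `1 - c (q (|t| + 2))^(-ε) ≤ σ ≤ 1`. -/
theorem norm_lower_region {ε : ℝ} (hε : 0 < ε) : ∃ c : ℝ, 0 < c ∧ ∀ (q : ℕ) [NeZero q]
    (χ : DirichletCharacter ℂ q), χ ≠ 1 → ∀ s : ℂ,
      1 - c * ((q : ℝ) * (|s.im| + 2)) ^ (-ε) ≤ s.re → s.re ≤ 1 →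
      c * ((q : ℝ) * (|s.im| + 2)) ^ (-ε) ≤ ‖χ.LFunction s‖ := by
  set b : ℝ := min (ε / 2) 1 with hb
  have hb0 : 0 < b := lt_min (by positivity) one_pos
  have hb1 : b ≤ 1 := min_le_right _ _
  have hbε : 2 * b ≤ ε := by
    have := min_le_left (ε / 2) (1 : ℝ)
    linarith
  obtain ⟨c₁, hc₁, h₁⟩ := norm_lower_line hb0
  have hD := one_le_DD hb0 hb1
  have hD0 : 0 < DD b := by linarith
  refine ⟨min (min (b / 4) (c₁ / (2 * DD b))) (c₁ / 2),
    lt_min (lt_min (by positivity) (by positivity)) (by positivity),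
    fun q _ χ hχ s hs hs1 => ?_⟩
  have hQdef : (q : ℝ) * (|s.im| + 2) = QQ q s.im := rfl
  rw [hQdef] at hs ⊢
  have hQ2 := two_le_QQ (q := q) s.im
  have hQ0 : 0 < QQ q s.im := by linarith
  have hQ1 : 1 ≤ QQ q s.im := by linarith
  have hQε : 0 < QQ q s.im ^ (-ε) := Real.rpow_pos_of_pos hQ0 _
  have hQε1 : QQ q s.im ^ (-ε) ≤ 1 := Real.rpow_le_one_of_one_le_of_nonpos hQ1 (by linarith)
  set c : ℝ := min (min (b / 4) (c₁ / (2 * DD b))) (c₁ / 2) with hc
  have i1 : c ≤ b / 4 := (min_le_left _ _).trans (min_le_left _ _)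
  have i2 : c ≤ c₁ / (2 * DD b) := (min_le_left _ _).trans (min_le_right _ _)
  have i3 : c ≤ c₁ / 2 := min_le_right _ _
  have hre : 1 - b / 4 ≤ s.re := by
    have : c * QQ q s.im ^ (-ε) ≤ b / 4 * 1 := mul_le_mul i1 hQε1 hQε.le (by positivity)
    linarith
  have hs' : 1 + I * s.im = s + ((1 - s.re : ℝ) : ℂ) := by
    apply Complex.ext <;> simp
  have h2 := norm_sub_le_QQ (q := q) hχ hb0 hb1 (s := s) (w := 1 + I * s.im) hre
    (by linarith) (by simp; linarith) (by simp; norm_num) (by simp)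
  have h3 : ‖1 + I * s.im - s‖ = 1 - s.re := by
    rw [hs', add_sub_cancel_left, Complex.norm_real, Real.norm_eq_abs, abs_of_nonneg (by linarith)]
  rw [h3] at h2
  have h4 := h₁ q χ hχ s.im
  have h5 : ‖χ.LFunction (1 + I * s.im)‖ ≤
      ‖χ.LFunction (1 + I * s.im) - χ.LFunction s‖ + ‖χ.LFunction s‖ := by
    simpa using norm_add_le (χ.LFunction (1 + I * s.im) - χ.LFunction s) (χ.LFunction s)
  have h6 : DD b * QQ q s.im ^ b * (1 - s.re) ≤ c₁ / 2 * QQ q s.im ^ (-b) := by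
    have j1 : 1 - s.re ≤ c₁ / (2 * DD b) * QQ q s.im ^ (-(2 * b)) := by
      have j2 : c * QQ q s.im ^ (-ε) ≤ c₁ / (2 * DD b) * QQ q s.im ^ (-(2 * b)) :=
        mul_le_mul i2 (Real.rpow_le_rpow_of_exponent_le hQ1 (by linarith)) hQε.le (by positivity)
      linarith
    have j3 : QQ q s.im ^ b * QQ q s.im ^ (-(2 * b)) = QQ q s.im ^ (-b) := by
      rw [← Real.rpow_add hQ0]
      congr 1
      ring
    calc DD b * QQ q s.im ^ b * (1 - s.re)
        ≤ DD b * QQ q s.im ^ b * (c₁ / (2 * DD b) * QQ q s.im ^ (-(2 * b))) :=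
          mul_le_mul_of_nonneg_left j1 (mul_nonneg hD0.le (Real.rpow_nonneg hQ0.le _))
      _ = c₁ / 2 * (QQ q s.im ^ b * QQ q s.im ^ (-(2 * b))) := by
          field_simp
      _ = _ := by rw [j3]
  have h7 : c * QQ q s.im ^ (-ε) ≤ c₁ / 2 * QQ q s.im ^ (-b) :=
    mul_le_mul i3 (Real.rpow_le_rpow_of_exponent_le hQ1 (by linarith)) hQε.le (by positivity)
  linarith

/-- **The zero-free region**: for every `ε > 0` there is a `c > 0` such that `L(s, χ) ≠ 0` for all
`q`, all characters `χ ≠ 1` modulo `q` and all `s = σ + it` with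
`σ ≥ 1 - c (q (|t| + 2))^(-ε)`. -/
theorem LFunction_ne_zero_region {ε : ℝ} (hε : 0 < ε) : ∃ c : ℝ, 0 < c ∧ ∀ (q : ℕ) [NeZero q]
    (χ : DirichletCharacter ℂ q), χ ≠ 1 → ∀ s : ℂ,
      1 - c * ((q : ℝ) * (|s.im| + 2)) ^ (-ε) ≤ s.re → χ.LFunction s ≠ 0 := by
  obtain ⟨c, hc, h⟩ := norm_lower_region hε
  refine ⟨c, hc, fun q _ χ hχ s hs => ?_⟩
  rcases le_total s.re 1 with h1 | h1
  · have h2 := h q χ hχ s hs h1
    have hQ2 := two_le_QQ (q := q) s.im
    have h3 : 0 < c * ((q : ℝ) * (|s.im| + 2)) ^ (-ε) :=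
      mul_pos hc (Real.rpow_pos_of_pos (by rw [QQ] at hQ2; linarith) _)
    exact norm_pos_iff.mp (h3.trans_le h2)
  · exact DirichletCharacter.LFunction_ne_zero_of_one_le_re χ (Or.inl hχ) h1

end Fermat.Agent.Cor.SiegelL
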