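import Fermat.Agent.Corollaries.SiegelL.Region

/-!
# Lower bounds for `|L(s, χ)|` to the right of the line `Re s = 1`, derivatives of `L'/L`

`|L(s, χ)| ≥ (σ - 1)/σ` for `σ > 1` and `|L(s, χ)| ≥ c (q (|t| + 2))^(-ε)` for
`1 - c (q (|t| + 2))^(-ε) ≤ σ ≤ 2`, `χ ≠ 1` (`norm_lower_full`). By Cauchy's estimate the
derivatives of `L'/L (s) / (s (s + 1))` on `1 < σ ≤ 5/4` are `O((q (|t| + 2))^η / (1 + t²))`
for every `η > 0` (`norm_iteratedDeriv_GG_le`).
-/

set_option autoImplicit false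

namespace Fermat.Agent.Cor.SiegelL

open Complex Set

lemma norm_LSeries_le_div {f : ℕ → ℂ} (hf : ∀ n, ‖f n‖ ≤ 1) {s : ℂ} (hs : 1 < s.re) :
    ‖LSeries f s‖ ≤ s.re / (s.re - 1) := by
  have hsum : Summable fun n : ℕ => 1 / (n : ℝ) ^ s.re := Real.summable_one_div_nat_rpow.mpr hs
  have hterm : ∀ n, ‖LSeries.term f s n‖ ≤ 1 / (n : ℝ) ^ s.re := by
    intro n
    rcases eq_or_ne n 0 with rfl | hn
    · rw [LSeries.term_zero, norm_zero]
      positivity
    · rw [LSeries.term_of_ne_zero hn, norm_div,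
        Complex.norm_natCast_cpow_of_pos (Nat.pos_of_ne_zero hn)]
      gcongr
      exact hf n
  have h1 : ‖LSeries f s‖ ≤ ∑' n : ℕ, 1 / (n : ℝ) ^ s.re := tsum_of_norm_bounded hsum.hasSum hterm
  have h2 : ∑' n : ℕ, 1 / (n : ℝ) ^ s.re = (riemannZeta (s.re : ℂ)).re := by
    have h3 : riemannZeta (s.re : ℂ) = ((∑' n : ℕ, 1 / (n : ℝ) ^ s.re : ℝ) : ℂ) := by
      rw [zeta_eq_tsum_one_div_nat_cpow (by simpa using hs), Complex.ofReal_tsum]
      refine tsum_congr fun n => ?_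
      push_cast
      rw [Complex.ofReal_cpow (Nat.cast_nonneg n)]
      simp
    rw [h3, ofReal_re]
  rw [h2] at h1
  exact h1.trans (Siegel.riemannZeta_re_le (by linarith) (by linarith))

theorem norm_lower_right {q : ℕ} [NeZero q] (χ : DirichletCharacter ℂ q) {s : ℂ}
    (hs : 1 < s.re) : (s.re - 1) / s.re ≤ ‖χ.LFunction s‖ := by
  have h1 := DirichletCharacter.LSeries.mul_mu_eq_one χ hs
  rw [← DirichletCharacter.LFunction_eq_LSeries χ hs] at h1
  have h4 := congrArg norm h1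
  rw [norm_mul, norm_one] at h4
  have h5 := norm_LSeries_le_div (f := ((fun n : ℕ => χ n) *
    fun n : ℕ => ((ArithmeticFunction.moebius n : ℤ) : ℂ))) (fun n => by
      rw [Pi.mul_apply, norm_mul]
      have i1 := χ.norm_le_one (n : ZMod q)
      have i2 : ‖((ArithmeticFunction.moebius n : ℤ) : ℂ)‖ ≤ 1 := by
        rw [Complex.norm_intCast]
        exact_mod_cast ArithmeticFunction.abs_moebius_le_one
      exact mul_le_one₀ i1 (norm_nonneg _) i2) hs
  have h6 : 1 ≤ ‖χ.LFunction s‖ * (s.re / (s.re - 1)) :=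
    h4.symm.le.trans (mul_le_mul_of_nonneg_left h5 (norm_nonneg _))
  have h7 : 0 < s.re - 1 := by linarith
  rw [div_le_iff₀ (by linarith)]
  rw [← mul_div_assoc, one_le_div h7] at h6
  exact h6

/-- The two-sided neighbourhood of the line. -/
lemma norm_lower_near {ε : ℝ} (hε : 0 < ε) : ∃ c : ℝ, 0 < c ∧ c ≤ 1 / 4 ∧ c ≤ ε / 8 ∧
    ∀ (q : ℕ) [NeZero q] (χ : DirichletCharacter ℂ q), χ ≠ 1 → ∀ s : ℂ,
      |1 - s.re| ≤ c * QQ q s.im ^ (-ε) → c * QQ q s.im ^ (-ε) ≤ ‖χ.LFunction s‖ := by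
  set b : ℝ := min (ε / 2) 1 with hb
  have hb0 : 0 < b := lt_min (by positivity) one_pos
  have hb1 : b ≤ 1 := min_le_right _ _
  have hbε' : b ≤ ε / 2 := min_le_left _ _
  have hbε : 2 * b ≤ ε := by linarith
  obtain ⟨c₁, hc₁, h₁⟩ := norm_lower_line hb0
  have hD := one_le_DD hb0 hb1
  have hD0 : 0 < DD b := by linarith
  set c : ℝ := min (min (b / 4) (c₁ / (2 * DD b))) (c₁ / 2) with hc
  have i1 : c ≤ b / 4 := (min_le_left _ _).trans (min_le_left _ _)
  have i2 : c ≤ c₁ / (2 * DD b) := (min_le_left _ _).trans (min_le_right _ _)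
  have i3 : c ≤ c₁ / 2 := min_le_right _ _
  refine ⟨c, lt_min (lt_min (by positivity) (by positivity)) (by positivity), by linarith,
    by linarith, fun q _ χ hχ s hs => ?_⟩
  have hQ2 := two_le_QQ (q := q) s.im
  have hQ0 : 0 < QQ q s.im := by linarith
  have hQ1 : 1 ≤ QQ q s.im := by linarith
  have hQε : 0 < QQ q s.im ^ (-ε) := Real.rpow_pos_of_pos hQ0 _
  have hQε1 : QQ q s.im ^ (-ε) ≤ 1 := Real.rpow_le_one_of_one_le_of_nonpos hQ1 (by linarith)
  have hre : |1 - s.re| ≤ b / 4 := by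
    have : c * QQ q s.im ^ (-ε) ≤ b / 4 * 1 := mul_le_mul i1 hQε1 hQε.le (by positivity)
    linarith
  have hre' := abs_le.mp hre
  have hs' : 1 + I * s.im = s + ((1 - s.re : ℝ) : ℂ) := by
    apply Complex.ext <;> simp
  have h2 := norm_sub_le_QQ (q := q) hχ hb0 hb1 (s := s) (w := 1 + I * s.im)
    (by linarith [hre'.2]) (by linarith [hre'.1]) (by simp; linarith) (by simp; norm_num)
    (by simp)
  have h3 : ‖1 + I * s.im - s‖ = |1 - s.re| := by
    rw [hs', add_sub_cancel_left, Complex.norm_real, Real.norm_eq_abs]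
  rw [h3] at h2
  have h4 := h₁ q χ hχ s.im
  have h5 : ‖χ.LFunction (1 + I * s.im)‖ ≤
      ‖χ.LFunction (1 + I * s.im) - χ.LFunction s‖ + ‖χ.LFunction s‖ := by
    simpa using norm_add_le (χ.LFunction (1 + I * s.im) - χ.LFunction s) (χ.LFunction s)
  have h6 : DD b * QQ q s.im ^ b * |1 - s.re| ≤ c₁ / 2 * QQ q s.im ^ (-b) := by
    have j1 : |1 - s.re| ≤ c₁ / (2 * DD b) * QQ q s.im ^ (-(2 * b)) := by
      have j2 : c * QQ q s.im ^ (-ε) ≤ c₁ / (2 * DD b) * QQ q s.im ^ (-(2 * b)) :=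
        mul_le_mul i2 (Real.rpow_le_rpow_of_exponent_le hQ1 (by linarith)) hQε.le (by positivity)
      linarith
    have j3 : QQ q s.im ^ b * QQ q s.im ^ (-(2 * b)) = QQ q s.im ^ (-b) := by
      rw [← Real.rpow_add hQ0]
      congr 1
      ring
    calc DD b * QQ q s.im ^ b * |1 - s.re|
        ≤ DD b * QQ q s.im ^ b * (c₁ / (2 * DD b) * QQ q s.im ^ (-(2 * b))) :=
          mul_le_mul_of_nonneg_left j1 (mul_nonneg hD0.le (Real.rpow_nonneg hQ0.le _))
      _ = c₁ / 2 * (QQ q s.im ^ b * QQ q s.im ^ (-(2 * b))) := by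
          field_simp
      _ = _ := by rw [j3]
  have h7 : c * QQ q s.im ^ (-ε) ≤ c₁ / 2 * QQ q s.im ^ (-b) :=
    mul_le_mul i3 (Real.rpow_le_rpow_of_exponent_le hQ1 (by linarith)) hQε.le (by positivity)
  linarith

/-- **`|L(s, χ)| ≥ c (q (|t| + 2))^(-ε)` for `1 - c (q (|t| + 2))^(-ε) ≤ σ ≤ 2`**, all `χ ≠ 1`. -/
theorem norm_lower_full {ε : ℝ} (hε : 0 < ε) : ∃ c : ℝ, 0 < c ∧ c ≤ 1 / 4 ∧ c ≤ ε / 8 ∧
    ∀ (q : ℕ) [NeZero q] (χ : DirichletCharacter ℂ q), χ ≠ 1 → ∀ s : ℂ,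
      1 - c * QQ q s.im ^ (-ε) ≤ s.re → s.re ≤ 2 →
      c * QQ q s.im ^ (-ε) ≤ ‖χ.LFunction s‖ := by
  obtain ⟨c, hc0, hc1, hc2, h⟩ := norm_lower_near hε
  refine ⟨c / 2, by positivity, by linarith, by linarith, fun q _ χ hχ s hs hs2 => ?_⟩
  have hQ2 := two_le_QQ (q := q) s.im
  have hQε : 0 < QQ q s.im ^ (-ε) := Real.rpow_pos_of_pos (by linarith) _
  have hcQ : 0 < c * QQ q s.im ^ (-ε) := by positivity
  rcases le_total (s.re) (1 + c * QQ q s.im ^ (-ε)) with h1 | h1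
  · have h2 := h q χ hχ s (abs_le.mpr ⟨by linarith, by linarith⟩)
    linarith
  · refine le_trans ?_ (norm_lower_right χ (by linarith))
    rw [le_div_iff₀ (by linarith)]
    nlinarith

/-- The function `-L'/L (s) / (s (s + 1))`. -/
noncomputable def GG {q : ℕ} [NeZero q] (χ : DirichletCharacter ℂ q) (s : ℂ) : ℂ :=
  -deriv χ.LFunction s / χ.LFunction s * (1 / (s * (s + 1)))

theorem differentiableAt_GG {q : ℕ} [NeZero q] {χ : DirichletCharacter ℂ q} (hχ : χ ≠ 1) {s : ℂ}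
    (h : χ.LFunction s ≠ 0) (hs : 0 < s.re) : DifferentiableAt ℂ (GG χ) s := by
  have hL := DirichletCharacter.differentiable_LFunction hχ
  have h1 : DifferentiableAt ℂ (deriv χ.LFunction) s := (hL.analyticAt s).deriv.differentiableAt
  have h2 : s ≠ 0 := by
    rintro rfl
    simp at hs
  have h3 : s + 1 ≠ 0 := by
    intro h3
    have := congrArg Complex.re h3
    simp at this
    linarith
  exact (h1.neg.div (hL s) h).mul ((differentiableAt_const _).div
    (differentiableAt_id.mul (differentiableAt_id.add_const 1)) (mul_ne_zero h2 h3))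

/-- **The derivatives of `-L'/L (s) / (s (s + 1))` for `1 < σ ≤ 5/4`.** -/
theorem norm_iteratedDeriv_GG_le {b : ℝ} (hb0 : 0 < b) (hb1 : b ≤ 1) : ∃ C : ℕ → ℝ,
    (∀ j, 0 < C j) ∧ ∀ (j q : ℕ) [NeZero q] (χ : DirichletCharacter ℂ q), χ ≠ 1 → ∀ s : ℂ,
      1 < s.re → s.re ≤ 5 / 4 →
      ‖iteratedDeriv j (GG χ) s‖ ≤ C j * QQ q s.im ^ ((j + 2) * b) / (1 + s.im ^ 2) := by
  obtain ⟨c, hc0, hc1, hc2, h⟩ := norm_lower_full hb0
  have hD := one_le_DD hb0 hb1
  have hD0 : 0 < DD b := by linarith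
  refine ⟨fun j => j.factorial * (16 * DD b / c) / (c / 4) ^ j, fun j => by positivity,
    fun j q _ χ hχ s hs hs2 => ?_⟩
  have hQ2 := two_le_QQ (q := q) s.im
  have hQ0 : 0 < QQ q s.im := by linarith
  have hQ1 : 1 ≤ QQ q s.im := by linarith
  set P : ℝ := QQ q s.im ^ (-b) with hP
  have hP0 : 0 < P := Real.rpow_pos_of_pos hQ0 _
  have hP1 : P ≤ 1 := Real.rpow_le_one_of_one_le_of_nonpos hQ1 (by linarith)
  set r : ℝ := c / 4 * P with hr
  have hr0 : 0 < r := by positivity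
  have hrc : r ≤ c / 4 := by
    calc r ≤ c / 4 * 1 := mul_le_mul_of_nonneg_left hP1 (by positivity)
      _ = c / 4 := mul_one _
  -- points of the disc
  have hdisc : ∀ w ∈ Metric.closedBall s r, 1 - c / 2 * P / 2 ≤ w.re ∧ 1 - b / 4 ≤ w.re ∧
      w.re ≤ 3 / 2 ∧ |w.im| ≤ 2 * |s.im| + 2 ∧ |s.im| ≤ 2 * |w.im| + 2 := by
    intro w hw
    have h2 : ‖w - s‖ ≤ r := by rw [← dist_eq_norm]; exact hw
    have h3 := abs_le.mp ((Complex.abs_re_le_norm (w - s)).trans h2)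
    have h4 := abs_le.mp ((Complex.abs_im_le_norm (w - s)).trans h2)
    rw [Complex.sub_re] at h3
    rw [Complex.sub_im] at h4
    refine ⟨?_, by linarith [h3.1], by linarith [h3.2], ?_, ?_⟩
    · have : r = c / 2 * P / 2 := by rw [hr]; ring
      linarith [h3.1]
    · rw [abs_le]
      have i1 := le_abs_self s.im
      have i2 := neg_abs_le s.im
      have i3 := abs_nonneg s.im
      constructor <;> linarith [h4.1, h4.2]
    · rw [abs_le]
      have i1 := le_abs_self w.im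
      have i2 := neg_abs_le w.im
      have i3 := abs_nonneg w.im
      constructor <;> linarith [h4.1, h4.2]
  have hlow : ∀ w ∈ Metric.closedBall s r, c / 2 * P ≤ ‖χ.LFunction w‖ := by
    intro w hw
    obtain ⟨d1, d2, d3, d4, d5⟩ := hdisc w hw
    have hQw2 := two_le_QQ (q := q) w.im
    have hQw : P / 2 ≤ QQ q w.im ^ (-b) := by
      have i1 : QQ q w.im ^ b ≤ 2 * QQ q s.im ^ b := QQ_rpow_le hb0 hb1 d4
      have i2 : 0 < QQ q w.im ^ b := Real.rpow_pos_of_pos (by linarith) _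
      rw [hP, Real.rpow_neg hQ0.le, Real.rpow_neg (by linarith)]
      have i3 : (QQ q s.im ^ b)⁻¹ / 2 = (2 * QQ q s.im ^ b)⁻¹ := by
        rw [mul_inv]
        ring
      rw [i3]
      exact inv_anti₀ i2 i1
    have i4 : c * (P / 2) ≤ c * QQ q w.im ^ (-b) := mul_le_mul_of_nonneg_left hQw hc0.le
    have i5 := h q χ hχ w (by nlinarith) (by linarith)
    linarith
  have hre0 : ∀ w ∈ Metric.closedBall s r, 0 < w.re := by
    intro w hw
    obtain ⟨d1, d2, d3, d4, d5⟩ := hdisc w hw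
    linarith
  have hne : ∀ w ∈ Metric.closedBall s r, χ.LFunction w ≠ 0 := by
    intro w hw
    exact norm_pos_iff.mp (lt_of_lt_of_le (by positivity) (hlow w hw))
  have hdc : DiffContOnCl ℂ (GG χ) (Metric.ball s r) := by
    refine DifferentiableOn.diffContOnCl fun w hw => ?_
    rw [closure_ball s hr0.ne'] at hw
    exact (differentiableAt_GG hχ (hne w hw) (hre0 w hw)).differentiableWithinAt
  have hs0 : 1 + s.im ^ 2 ≤ ‖s‖ ^ 2 := by
    rw [← Complex.normSq_eq_norm_sq, Complex.normSq_apply]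
    nlinarith
  have hs1 : 1 ≤ ‖s‖ := by
    have := Complex.re_le_norm s
    linarith
  have hb : ∀ w ∈ Metric.sphere s r,
      ‖GG χ w‖ ≤ 16 * DD b / c * QQ q s.im ^ (2 * b) / (1 + s.im ^ 2) := by
    intro w hw'
    have hw : w ∈ Metric.closedBall s r := Metric.sphere_subset_closedBall hw'
    obtain ⟨d1, d2, d3, d4, d5⟩ := hdisc w hw
    have i1 : ‖deriv χ.LFunction w‖ ≤ DD b * (2 * QQ q s.im ^ b) :=
      (norm_deriv_le_QQ hχ hb0 hb1 d2 d3).trans
        (mul_le_mul_of_nonneg_left (QQ_rpow_le hb0 hb1 d4) hD0.le)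
    have i2 := hlow w hw
    have i3 : ‖s‖ / 2 ≤ ‖w‖ := by
      have j1 : ‖w - s‖ ≤ r := by rw [← dist_eq_norm]; exact hw
      have j2 : ‖s‖ ≤ ‖w‖ + ‖w - s‖ := by
        have := norm_sub_le w (w - s)
        rwa [sub_sub_cancel] at this
      linarith
    have i4 : ‖w‖ ≤ ‖w + 1‖ := by
      have j1 := hre0 w hw
      have j2 : ‖w‖ ^ 2 ≤ ‖w + 1‖ ^ 2 := by
        rw [← Complex.normSq_eq_norm_sq, ← Complex.normSq_eq_norm_sq, Complex.normSq_apply,
          Complex.normSq_apply]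
        simp only [Complex.add_re, Complex.one_re, Complex.add_im, Complex.one_im, add_zero]
        nlinarith
      exact (sq_le_sq₀ (norm_nonneg _) (norm_nonneg _)).mp j2
    have i5 : (1 + s.im ^ 2) / 4 ≤ ‖w * (w + 1)‖ := by
      rw [norm_mul]
      have j1 : ‖s‖ / 2 * (‖s‖ / 2) ≤ ‖w‖ * ‖w + 1‖ :=
        mul_le_mul i3 (i3.trans i4) (by positivity) (norm_nonneg _)
      nlinarith
    rw [GG, norm_mul, norm_div, norm_neg, norm_div, norm_one]
    have i6 : ‖deriv χ.LFunction w‖ / ‖χ.LFunction w‖ ≤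
        DD b * (2 * QQ q s.im ^ b) / (c / 2 * P) :=
      div_le_div₀ (by positivity) i1 (by positivity) i2
    have i7 : 1 / ‖w * (w + 1)‖ ≤ 1 / ((1 + s.im ^ 2) / 4) :=
      one_div_le_one_div_of_le (by positivity) i5
    have i8 : DD b * (2 * QQ q s.im ^ b) / (c / 2 * P) = 4 * DD b / c * QQ q s.im ^ (2 * b) := by
      have j1 : QQ q s.im ^ (2 * b) = QQ q s.im ^ b / P := by
        rw [hP, ← Real.rpow_sub hQ0]
        congr 1
        ring
      rw [j1]
      field_simp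
      ring
    rw [i8] at i6
    calc ‖deriv χ.LFunction w‖ / ‖χ.LFunction w‖ * (1 / ‖w * (w + 1)‖)
        ≤ 4 * DD b / c * QQ q s.im ^ (2 * b) * (1 / ((1 + s.im ^ 2) / 4)) :=
          mul_le_mul i6 i7 (by positivity) (by positivity)
      _ = _ := by
          field_simp
          ring
  have hfin := Complex.norm_iteratedDeriv_le_of_forall_mem_sphere_norm_le j hr0 hdc hb
  refine hfin.trans_eq ?_
  have e1 : QQ q s.im ^ (((j : ℝ) + 2) * b) = QQ q s.im ^ (2 * b) / P ^ j := by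
    rw [hP, ← Real.rpow_natCast (QQ q s.im ^ (-b)) j, ← Real.rpow_mul hQ0.le, ← Real.rpow_sub hQ0]
    congr 1
    ring
  rw [e1, hr, mul_pow]
  field_simp

end Fermat.Agent.Cor.SiegelL
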