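import Fermat.Agent.Corollaries.SiegelL.Linnik

/-!
# Primes in short intervals and residue classes

For all `A`, `B` there is an `x₀` such that for `x ≥ x₀`, `q ≤ (log x)^A`, `(a, q) = 1` there is a
prime `p ≡ a mod q` with `x < p ≤ x + x (log x)^(-B)` (`exists_prime_short`).
-/

set_option autoImplicit false

namespace Fermat.Agent.Cor.SiegelL

open Set MeasureTheory

lemma li_sub_ge {x y : ℝ} (hx : 2 ≤ x) (hxy : x ≤ y) : (y - x) / Real.log y ≤
    (∫ t in (2 : ℝ)..y, 1 / Real.log t) - ∫ t in (2 : ℝ)..x, 1 / Real.log t := by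
  have hI : ∀ z : ℝ, 2 ≤ z → IntervalIntegrable (fun t : ℝ => 1 / Real.log t) volume 2 z :=
    fun z hz => by simpa using intervalIntegrable_inv_log_pow 1 hz
  rw [intervalIntegral.integral_interval_sub_left (hI y (hx.trans hxy)) (hI x hx)]
  have h1 : ∫ _t in x..y, 1 / Real.log y = (y - x) / Real.log y := by
    rw [intervalIntegral.integral_const, smul_eq_mul, mul_one_div]
  rw [← h1]
  refine intervalIntegral.integral_mono_on hxy intervalIntegrable_const
    ((hI x hx).symm.trans (hI y (hx.trans hxy))) fun t ht => ?_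
  exact one_div_le_one_div_of_le (Real.log_pos (by linarith [ht.1]))
    (Real.log_le_log (by linarith [ht.1]) ht.2)

/-- **Primes in short intervals, in every residue class**: for all `A`, `B` there is an `x₀` such
that for all `x ≥ x₀`, `q ≤ (log x)^A` and `a` prime to `q` there is a prime `p ≡ a mod q` with
`x < p ≤ x + x (log x)^(-B)`. -/
theorem exists_prime_short (A B : ℕ) : ∃ x₀ : ℝ, ∀ x : ℝ, x₀ ≤ x → ∀ (q : ℕ) [NeZero q],
    (q : ℝ) ≤ Real.log x ^ A → ∀ a : ZMod q, IsUnit a →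
      ∃ p : ℕ, p.Prime ∧ (p : ZMod q) = a ∧ x < p ∧ (p : ℝ) ≤ x + x / Real.log x ^ B := by
  obtain ⟨C, hC, h⟩ := siegel_walfisz_primes A (A + B + 2)
  refine ⟨Real.exp (6 * C + 2), fun x hx q _ hq a ha => ?_⟩
  have hx0 : 0 < x := (Real.exp_pos _).trans_le hx
  set l : ℝ := Real.log x with hl
  have hl1 : 6 * C + 2 ≤ l := (Real.le_log_iff_exp_le hx0).mpr hx
  have hl2 : 2 ≤ l := by linarith
  have hl0 : 0 < l := by linarith
  have hx2 : 2 ≤ x := by
    have := Real.log_le_sub_one_of_pos hx0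
    linarith
  set y : ℝ := x + x / l ^ B with hy
  have hlB : 1 ≤ l ^ B := one_le_pow₀ (by linarith)
  have hxB : x / l ^ B ≤ x := div_le_self hx0.le hlB
  have hxB0 : 0 < x / l ^ B := by positivity
  have hxy : x ≤ y := by linarith
  have hy2 : y ≤ 2 * x := by linarith
  have hy0 : 0 < y := by linarith
  have hly : l ≤ Real.log y := Real.log_le_log hx0 hxy
  have hly0 : 0 < Real.log y := by linarith
  have hly2 : Real.log y ≤ 2 * l := by
    have h1 := Real.log_le_log hy0 hy2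
    rw [Real.log_mul (by norm_num) hx0.ne'] at h1
    have h2 : Real.log 2 ≤ l := Real.log_le_log (by norm_num) hx2
    linarith
  have hqy : (q : ℝ) ≤ Real.log y ^ A := hq.trans (by gcongr)
  have h1 := (abs_le.mp (h x hx2 q hq a ha)).2
  have h2 := (abs_le.mp (h y (by linarith) q hqy a ha)).1
  have hφ0 : (0 : ℝ) < q.totient := by
    exact_mod_cast Nat.totient_pos.mpr (Nat.pos_of_ne_zero (NeZero.ne q))
  have hφq : (q.totient : ℝ) ≤ l ^ A := (by exact_mod_cast Nat.totient_le q : (q.totient : ℝ) ≤ q).trans hq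
  have h3 : x / (2 * l ^ (A + B + 1)) ≤ (∫ t in (2 : ℝ)..y, 1 / Real.log t) / q.totient -
      (∫ t in (2 : ℝ)..x, 1 / Real.log t) / q.totient := by
    rw [← sub_div]
    have i1 := li_sub_ge hx2 hxy
    have i2 : x / l ^ B / (2 * l) ≤ (y - x) / Real.log y := by
      have : y - x = x / l ^ B := by rw [hy]; ring
      rw [this]
      exact div_le_div_of_nonneg_left hxB0.le hly0 hly2
    have i3 : x / l ^ B / (2 * l) / l ^ A ≤
        ((∫ t in (2 : ℝ)..y, 1 / Real.log t) - ∫ t in (2 : ℝ)..x, 1 / Real.log t) / q.totient :=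
      div_le_div₀ ((by positivity : 0 ≤ x / l ^ B / (2 * l)).trans (i2.trans i1)) (i2.trans i1)
        hφ0 hφq
    refine le_trans (le_of_eq ?_) i3
    field_simp
    ring
  have h4 : C * y / Real.log y ^ (A + B + 2) ≤ 2 * C * x / l ^ (A + B + 2) := by
    calc C * y / Real.log y ^ (A + B + 2) ≤ C * (2 * x) / l ^ (A + B + 2) := by gcongr
      _ = _ := by ring
  have h5 : 3 * C * x / l ^ (A + B + 2) < x / (2 * l ^ (A + B + 1)) := by
    rw [div_lt_div_iff₀ (by positivity) (by positivity)]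
    have i1 : 6 * C < l := by linarith
    calc 3 * C * x * (2 * l ^ (A + B + 1)) = (6 * C) * (x * l ^ (A + B + 1)) := by ring
      _ < l * (x * l ^ (A + B + 1)) := mul_lt_mul_of_pos_right i1 (by positivity)
      _ = x * l ^ (A + B + 2) := by ring
  have h6 : 3 * C * x / l ^ (A + B + 2) = C * x / l ^ (A + B + 2) +
      2 * C * x / l ^ (A + B + 2) := by ring
  have h7 : (((Finset.Icc 1 ⌊x⌋₊).filter (fun p : ℕ => p.Prime ∧ (p : ZMod q) = a)).card : ℝ) <
      (((Finset.Icc 1 ⌊y⌋₊).filter (fun p : ℕ => p.Prime ∧ (p : ZMod q) = a)).card : ℝ) := by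
    linarith
  obtain ⟨p, hp1, hp2⟩ := Finset.exists_mem_notMem_of_card_lt_card (by exact_mod_cast h7)
  obtain ⟨hp3, hp4, hp5⟩ := Finset.mem_filter.mp hp1
  refine ⟨p, hp4, hp5, ?_, (Nat.le_floor_iff hy0.le).mp (Finset.mem_Icc.mp hp3).2⟩
  by_contra hcon
  push Not at hcon
  exact hp2 (Finset.mem_filter.mpr ⟨Finset.mem_Icc.mpr ⟨hp4.one_le,
    (Nat.le_floor_iff hx0.le).mpr hcon⟩, hp4, hp5⟩)

/-- In particular prime gaps are `O(p (log p)^(-B))` for every `B`: for `x ≥ x₀` there is a prime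
`p` with `x < p ≤ x + x (log x)^(-B)`. -/
theorem exists_prime_short_one (B : ℕ) : ∃ x₀ : ℝ, ∀ x : ℝ, x₀ ≤ x →
    ∃ p : ℕ, p.Prime ∧ x < p ∧ (p : ℝ) ≤ x + x / Real.log x ^ B := by
  obtain ⟨x₀, h⟩ := exists_prime_short 0 B
  refine ⟨x₀, fun x hx => ?_⟩
  obtain ⟨p, h1, -, h2, h3⟩ := h x hx 1 (by simp) (1 : ZMod 1) isUnit_one
  exact ⟨p, h1, h2, h3⟩

end Fermat.Agent.Cor.SiegelL
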