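import Fermat.Agent.Corollaries.SiegelL.Zero

/-!
# Dirichlet L-functions and `ζ` near the line `Re s = 1`, uniformly in the height

Partial summation up to `N ≥ q (|t| + 2)`: for `χ ≠ 1` modulo `q`, `0 < a ≤ 1` and
`1 - a/2 ≤ σ ≤ 2` one has `|L(σ + it, χ)| ≤ C(a) (q (|t| + 2))^a`; for `1 < σ ≤ 2`, `t ≠ 0`:
`|ζ(σ + it)| ≤ 3 + log (|t| + 2) + 1/|t|` (`norm_riemannZeta_le_log`).
-/

set_option autoImplicit false

namespace Fermat.Agent.Cor.SiegelL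

open Complex Filter Set MeasureTheory
open scoped Topology

/-- Abel summation for a finite Dirichlet polynomial. -/
theorem sum_cpow (c : ℕ → ℂ) (hc : c 0 = 0) {s : ℂ} (hs : 0 < s.re) (N : ℕ) :
    ∑ k ∈ Finset.Icc 0 N, (k : ℂ) ^ (-s) * c k = (N : ℂ) ^ (-s) * (∑ k ∈ Finset.Icc 0 N, c k) +
      s * ∫ t in Ioc (1 : ℝ) N, (∑ k ∈ Finset.Icc 0 ⌊t⌋₊, c k) * (t : ℂ) ^ (-(s + 1)) := by
  have hs0 : -s ≠ 0 := by
    intro h
    rw [neg_eq_zero] at h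
    rw [h] at hs
    simp at hs
  have h := sum_mul_eq_sub_integral_mul₀' c (f := fun t : ℝ => (t : ℂ) ^ (-s)) hc N
    (fun t ht => (hasDerivAt_ofReal_cpow_const (by linarith [ht.1]) hs0).differentiableAt)
    ((integrableOn_Ioi_deriv_ofReal_cpow (t := 1 / 2) (by norm_num) (by simpa using hs)).mono_set
      (fun t ht => by
        have := ht.1
        simp only [mem_Ioi]
        linarith))
  simp only [ofReal_natCast] at h
  rw [h, sub_eq_add_neg, ← integral_const_mul, ← integral_neg]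
  congr 1
  refine setIntegral_congr_fun measurableSet_Ioc fun t ht => ?_
  have ht0 : t ≠ 0 := by
    have := ht.1
    linarith
  have h1 : deriv (fun t : ℝ => (t : ℂ) ^ (-s)) t = -s * (t : ℂ) ^ (-s - 1) :=
    (hasDerivAt_ofReal_cpow_const ht0 hs0).deriv
  simp only [h1]
  have h2 : -s - 1 = -(s + 1) := by ring
  rw [h2]
  ring

lemma sum_rpow_le {N : ℕ} {b σ : ℝ} (hb : 0 ≤ b) (hσ : 1 - b ≤ σ) :
    ∑ k ∈ Finset.Icc 1 N, (k : ℝ) ^ (-σ) ≤ (N : ℝ) ^ b * (1 + Real.log N) := by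
  have h1 : ∀ k ∈ Finset.Icc 1 N, (k : ℝ) ^ (-σ) ≤ (N : ℝ) ^ b * (k : ℝ)⁻¹ := by
    intro k hk
    have hk1 : (1 : ℝ) ≤ k := by exact_mod_cast (Finset.mem_Icc.mp hk).1
    have hkN : (k : ℝ) ≤ N := by exact_mod_cast (Finset.mem_Icc.mp hk).2
    calc (k : ℝ) ^ (-σ) ≤ (k : ℝ) ^ (b + -1) := Real.rpow_le_rpow_of_exponent_le hk1 (by linarith)
      _ = (k : ℝ) ^ b * (k : ℝ)⁻¹ := by
          rw [Real.rpow_add (by linarith), Real.rpow_neg_one]
      _ ≤ _ := by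
          gcongr
  calc ∑ k ∈ Finset.Icc 1 N, (k : ℝ) ^ (-σ) ≤ ∑ k ∈ Finset.Icc 1 N, (N : ℝ) ^ b * (k : ℝ)⁻¹ :=
        Finset.sum_le_sum h1
    _ = (N : ℝ) ^ b * ((harmonic N : ℚ) : ℝ) := by
        rw [← Finset.mul_sum, harmonic_eq_sum_Icc]
        push_cast
        rfl
    _ ≤ _ := mul_le_mul_of_nonneg_left (harmonic_le_one_add_log N)
        (Real.rpow_nonneg (Nat.cast_nonneg _) _)

lemma norm_natCast_cpow' {k : ℕ} (hk : 1 ≤ k) (s : ℂ) : ‖(k : ℂ) ^ (-s)‖ = (k : ℝ) ^ (-s.re) := by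
  rw [Complex.norm_natCast_cpow_of_pos hk]
  simp

lemma norm_tail_le {g : ℝ → ℂ} {B : ℝ} (hg : ∀ t, ‖g t‖ ≤ B) {s : ℂ} (hs : 0 < s.re) {N : ℕ}
    (hN : 1 ≤ N) : ‖∫ t in Ioi (N : ℝ), g t * (t : ℂ) ^ (-(s + 1))‖ ≤
      B * (N : ℝ) ^ (-s.re) / s.re := by
  have hN0 : (0 : ℝ) < N := by exact_mod_cast hN
  have hint : IntegrableOn (fun t : ℝ => B * t ^ (-(s.re + 1))) (Ioi (N : ℝ)) :=
    (integrableOn_Ioi_rpow_of_lt (by linarith) hN0).const_mul _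
  have h1 : ∫ t in Ioi (N : ℝ), B * t ^ (-(s.re + 1)) = B * (N : ℝ) ^ (-s.re) / s.re := by
    rw [integral_const_mul, integral_Ioi_rpow_of_lt (by linarith) hN0]
    have : -(s.re + 1) + 1 = -s.re := by ring
    rw [this]
    field_simp
  rw [← h1]
  refine norm_integral_le_of_norm_le hint ?_
  filter_upwards [self_mem_ae_restrict measurableSet_Ioi] with t ht
  have ht0 : (0 : ℝ) < t := lt_trans hN0 ht
  rw [norm_mul, norm_cpow_term ht0]
  exact mul_le_mul_of_nonneg_right (hg t) (Real.rpow_nonneg ht0.le _)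

section char

variable {q : ℕ} [NeZero q] {χ : DirichletCharacter ℂ q}

theorem norm_LFunction_le_sum (hχ : χ ≠ 1) {s : ℂ} (hs : 0 < s.re) {N : ℕ} (hN : 1 ≤ N) :
    ‖χ.LFunction s‖ ≤ ∑ k ∈ Finset.Icc 1 N, (k : ℝ) ^ (-s.re) + q * (N : ℝ) ^ (-s.re) +
      ‖s‖ * (q * (N : ℝ) ^ (-s.re) / s.re) := by
  have hN1 : (1 : ℝ) ≤ N := by exact_mod_cast hN
  have hc : χ (((0 : ℕ) : ZMod q)) = 0 := by
    rw [Nat.cast_zero]
    exact map_zero_eq hχ
  have hS : ∀ n : ℕ, ∑ k ∈ Finset.Icc 0 n, χ ((k : ℕ) : ZMod q) = psum χ n := by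
    intro n
    rw [psum, ← Finset.sum_Ioc_add_eq_sum_Icc (Nat.zero_le n), hc, add_zero]
    rfl
  have h1 := sum_cpow (fun k : ℕ => χ (k : ZMod q)) hc hs N
  simp only [hS] at h1
  -- the integral
  have hint : IntegrableOn (fun t : ℝ => psum χ ⌊t⌋₊ * (t : ℂ) ^ (-(s + 1))) (Ioi 1) := by
    have hb : IntegrableOn (fun t : ℝ => (q : ℝ) * t ^ (-(s.re + 1))) (Ioi 1) :=
      (integrableOn_Ioi_rpow_of_lt (by linarith) zero_lt_one).const_mul _
    refine Integrable.mono' hb ?_ ?_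
    · refine (measurable_psum.aestronglyMeasurable).mul ?_
      exact (integrableOn_Ioi_cpow_of_lt (by simpa using hs) zero_lt_one).aestronglyMeasurable
    · filter_upwards [self_mem_ae_restrict measurableSet_Ioi] with t ht
      have ht0 : (0 : ℝ) < t := lt_trans zero_lt_one ht
      rw [norm_mul, norm_cpow_term ht0]
      exact mul_le_mul_of_nonneg_right (norm_psum_le hχ _) (Real.rpow_nonneg ht0.le _)
  have hsplit : ∫ t in Ioi (1 : ℝ), psum χ ⌊t⌋₊ * (t : ℂ) ^ (-(s + 1)) =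
      (∫ t in Ioc (1 : ℝ) N, psum χ ⌊t⌋₊ * (t : ℂ) ^ (-(s + 1))) +
      ∫ t in Ioi (N : ℝ), psum χ ⌊t⌋₊ * (t : ℂ) ^ (-(s + 1)) := by
    have hU : Ioi (1 : ℝ) = Ioc 1 (N : ℝ) ∪ Ioi (N : ℝ) := (Ioc_union_Ioi_eq_Ioi hN1).symm
    conv_lhs => rw [hU]
    exact setIntegral_union (Ioc_disjoint_Ioi le_rfl) measurableSet_Ioi
      (hint.mono_set Ioc_subset_Ioi_self) (hint.mono_set (Ioi_subset_Ioi hN1))
  have hL : χ.LFunction s = (∑ k ∈ Finset.Icc 0 N, (k : ℂ) ^ (-s) * χ (k : ZMod q)) -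
      (N : ℂ) ^ (-s) * psum χ N +
      s * ∫ t in Ioi (N : ℝ), psum χ ⌊t⌋₊ * (t : ℂ) ^ (-(s + 1)) := by
    rw [LFunction_eq_integral hχ hs, hsplit, h1]
    ring
  have b1 : ‖∑ k ∈ Finset.Icc 0 N, (k : ℂ) ^ (-s) * χ (k : ZMod q)‖ ≤
      ∑ k ∈ Finset.Icc 1 N, (k : ℝ) ^ (-s.re) := by
    have h2 : ∑ k ∈ Finset.Icc 0 N, (k : ℂ) ^ (-s) * χ (k : ZMod q) =
        ∑ k ∈ Finset.Icc 1 N, (k : ℂ) ^ (-s) * χ (k : ZMod q) := by
      rw [← Finset.sum_Ioc_add_eq_sum_Icc (Nat.zero_le N), hc, mul_zero, add_zero]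
      rfl
    rw [h2]
    refine (norm_sum_le _ _).trans (Finset.sum_le_sum fun k hk => ?_)
    rw [norm_mul, norm_natCast_cpow' (Finset.mem_Icc.mp hk).1]
    exact mul_le_of_le_one_right (Real.rpow_nonneg (Nat.cast_nonneg _) _) (χ.norm_le_one _)
  have b2 : ‖(N : ℂ) ^ (-s) * psum χ N‖ ≤ q * (N : ℝ) ^ (-s.re) := by
    rw [norm_mul, norm_natCast_cpow' hN, mul_comm]
    exact mul_le_mul_of_nonneg_right (norm_psum_le hχ N) (Real.rpow_nonneg (Nat.cast_nonneg _) _)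
  have b3 := norm_tail_le (g := fun t => psum χ ⌊t⌋₊) (B := q) (fun t => norm_psum_le hχ _) hs hN
  rw [hL]
  refine (norm_add_le _ _).trans (add_le_add ((norm_sub_le _ _).trans (add_le_add b1 b2)) ?_)
  rw [norm_mul]
  exact mul_le_mul_of_nonneg_left b3 (norm_nonneg s)

/-- The analytic conductor `q (|t| + 2)`. -/
noncomputable def QQ (q : ℕ) (t : ℝ) : ℝ := q * (|t| + 2)

lemma two_le_QQ (t : ℝ) : 2 ≤ QQ q t := by
  have hq : (1 : ℝ) ≤ q := by exact_mod_cast Nat.one_le_iff_ne_zero.mpr (NeZero.ne q)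
  have := abs_nonneg t
  rw [QQ]
  nlinarith

/-- **`|L(σ + it, χ)| ≤ C(a) (q (|t| + 2))^a` for `1 - a/2 ≤ σ ≤ 2`.** -/
theorem norm_LFunction_le_QQ (hχ : χ ≠ 1) {a : ℝ} (ha0 : 0 < a) (ha : a ≤ 1) {s : ℂ}
    (hs : 1 - a / 2 ≤ s.re) (hs2 : s.re ≤ 2) :
    ‖χ.LFunction s‖ ≤ 8 * (1 + 2 / a) * QQ q s.im ^ a := by
  have hq : (1 : ℝ) ≤ q := by exact_mod_cast Nat.one_le_iff_ne_zero.mpr (NeZero.ne q)
  have hQ2 := two_le_QQ (q := q) s.im
  have hs0 : 1 / 2 ≤ s.re := by linarith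
  set N : ℕ := ⌈QQ q s.im⌉₊ with hN
  have hNQ : QQ q s.im ≤ N := Nat.le_ceil _
  have hN2 : (N : ℝ) ≤ 2 * QQ q s.im := by
    have := Nat.ceil_lt_add_one (by linarith : 0 ≤ QQ q s.im)
    linarith
  have hN1' : (1 : ℝ) ≤ N := by linarith
  have hN1 : 1 ≤ N := by exact_mod_cast hN1'
  have hN0 : (0 : ℝ) < N := by linarith
  have h0 := norm_LFunction_le_sum hχ (by linarith : 0 < s.re) hN1
  have h1 := sum_rpow_le (b := a / 2) (N := N) (by linarith) (by linarith) (σ := s.re)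
  have hpow : (N : ℝ) ^ (-s.re) ≤ (N : ℝ) ^ (a / 2) * (N : ℝ)⁻¹ := by
    rw [← Real.rpow_neg_one, ← Real.rpow_add hN0]
    exact Real.rpow_le_rpow_of_exponent_le hN1' (by linarith)
  have hNa : (0 : ℝ) < (N : ℝ) ^ (a / 2) := Real.rpow_pos_of_pos hN0 _
  have him := abs_nonneg s.im
  have hqN : (q : ℝ) * (|s.im| + 2) ≤ N := by
    rw [QQ] at hNQ
    exact hNQ
  have h2 : q * (N : ℝ) ^ (-s.re) ≤ (N : ℝ) ^ (a / 2) := by
    have h3 : (q : ℝ) * (N : ℝ)⁻¹ ≤ 1 := by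
      rw [← div_eq_mul_inv, div_le_one hN0]
      nlinarith
    calc q * (N : ℝ) ^ (-s.re) ≤ q * ((N : ℝ) ^ (a / 2) * (N : ℝ)⁻¹) :=
          mul_le_mul_of_nonneg_left hpow (by linarith)
      _ = (N : ℝ) ^ (a / 2) * (q * (N : ℝ)⁻¹) := by ring
      _ ≤ (N : ℝ) ^ (a / 2) * 1 := mul_le_mul_of_nonneg_left h3 hNa.le
      _ = _ := mul_one _
  have h4 : ‖s‖ * (q * (N : ℝ) ^ (-s.re) / s.re) ≤ 2 * (N : ℝ) ^ (a / 2) := by
    have h5 : ‖s‖ ≤ |s.im| + 2 := by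
      have := Complex.norm_le_abs_re_add_abs_im s
      rw [abs_of_nonneg (by linarith : 0 ≤ s.re)] at this
      linarith
    have h6 : ‖s‖ * q * (N : ℝ)⁻¹ ≤ 1 := by
      rw [← div_eq_mul_inv, div_le_one hN0]
      refine le_trans ?_ hqN
      nlinarith
    have h7 : 1 / s.re ≤ 2 := by
      rw [div_le_iff₀ (by linarith)]
      linarith
    have h8 : 0 ≤ ‖s‖ * q * (N : ℝ)⁻¹ := by positivity
    calc ‖s‖ * (q * (N : ℝ) ^ (-s.re) / s.re)
        = (‖s‖ * q * (1 / s.re)) * (N : ℝ) ^ (-s.re) := by ring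
      _ ≤ (‖s‖ * q * (1 / s.re)) * ((N : ℝ) ^ (a / 2) * (N : ℝ)⁻¹) := by
          refine mul_le_mul_of_nonneg_left hpow ?_
          have : 0 ≤ 1 / s.re := by positivity
          positivity
      _ = (‖s‖ * q * (N : ℝ)⁻¹) * (1 / s.re) * (N : ℝ) ^ (a / 2) := by ring
      _ ≤ 1 * 2 * (N : ℝ) ^ (a / 2) := by
          refine mul_le_mul_of_nonneg_right ?_ hNa.le
          exact mul_le_mul h6 h7 (by positivity) zero_le_one
      _ = _ := by ring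
  have h5 := one_add_log_le (a := a / 2) (by linarith) hN1'
  have h6 : (1 + 1 / (a / 2)) = 1 + 2 / a := by field_simp
  rw [h6] at h5
  have hC : 1 ≤ 1 + 2 / a := by
    have : 0 < 2 / a := by positivity
    linarith
  have hNa1 : 1 ≤ (N : ℝ) ^ (a / 2) := Real.one_le_rpow hN1' (by linarith)
  have hlog : 0 ≤ Real.log N := Real.log_nonneg hN1'
  have h7 : ‖χ.LFunction s‖ ≤ 4 * ((N : ℝ) ^ (a / 2) * ((1 + 2 / a) * (N : ℝ) ^ (a / 2))) := by
    have h8 : (N : ℝ) ^ (a / 2) ≤ (N : ℝ) ^ (a / 2) * ((1 + 2 / a) * (N : ℝ) ^ (a / 2)) := by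
      refine le_mul_of_one_le_right hNa.le ?_
      exact one_le_mul_of_one_le_of_one_le hC hNa1
    have h9 : (N : ℝ) ^ (a / 2) * (1 + Real.log N) ≤
        (N : ℝ) ^ (a / 2) * ((1 + 2 / a) * (N : ℝ) ^ (a / 2)) :=
      mul_le_mul_of_nonneg_left h5 hNa.le
    linarith
  have h8 : (N : ℝ) ^ (a / 2) * (N : ℝ) ^ (a / 2) = (N : ℝ) ^ a := by
    rw [← Real.rpow_add hN0]
    congr 1
    ring
  have h9 : (N : ℝ) ^ a ≤ 2 * QQ q s.im ^ a := by
    calc (N : ℝ) ^ a ≤ (2 * QQ q s.im) ^ a := Real.rpow_le_rpow hN0.le hN2 ha0.le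
      _ = 2 ^ a * QQ q s.im ^ a := Real.mul_rpow (by norm_num) (by linarith)
      _ ≤ 2 * QQ q s.im ^ a := by
          refine mul_le_mul_of_nonneg_right ?_ (Real.rpow_nonneg (by linarith) _)
          calc (2 : ℝ) ^ a ≤ 2 ^ (1 : ℝ) := Real.rpow_le_rpow_of_exponent_le (by norm_num) ha
            _ = 2 := Real.rpow_one 2
  calc ‖χ.LFunction s‖ ≤ 4 * ((N : ℝ) ^ (a / 2) * ((1 + 2 / a) * (N : ℝ) ^ (a / 2))) := h7
    _ = 4 * (1 + 2 / a) * (N : ℝ) ^ a := by rw [← h8]; ring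
    _ ≤ 4 * (1 + 2 / a) * (2 * QQ q s.im ^ a) := mul_le_mul_of_nonneg_left h9 (by positivity)
    _ = _ := by ring

end char

/-- `ζ(s) = ∑_{k ≤ N} k^(-s) + N^(1-s) / (s - 1) - s ∫_N^∞ {t} t^(-s-1) dt`. -/
theorem riemannZeta_eq_sum {s : ℂ} (hs : 0 < s.re) (hs1 : s ≠ 1) {N : ℕ} (hN : 1 ≤ N) :
    riemannZeta s = (∑ k ∈ Finset.Icc 1 N, (k : ℂ) ^ (-s)) + (N : ℂ) ^ (1 - s) / (s - 1) -
      s * ∫ t in Ioi (N : ℝ), ((Int.fract t : ℝ) : ℂ) * (t : ℂ) ^ (-(s + 1)) := by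
  have hN1 : (1 : ℝ) ≤ N := by exact_mod_cast hN
  have hN0 : (N : ℂ) ≠ 0 := by exact_mod_cast (by omega : N ≠ 0)
  have hs1' : s - 1 ≠ 0 := sub_ne_zero.mpr hs1
  set c : ℕ → ℂ := fun n => if n = 0 then 0 else 1 with hc
  have hS : ∀ n : ℕ, ∑ k ∈ Finset.Icc 0 n, c k = n := by
    intro n
    rw [← Finset.sum_Ioc_add_eq_sum_Icc (Nat.zero_le n)]
    have h1 : ∑ k ∈ Finset.Ioc 0 n, c k = ∑ _k ∈ Finset.Ioc 0 n, (1 : ℂ) :=
      Finset.sum_congr rfl fun k hk => by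
        simp only [hc]
        rw [if_neg (by have := (Finset.mem_Ioc.mp hk).1; omega)]
    rw [h1]
    simp [hc]
  have h1 := sum_cpow c (by simp [hc]) hs N
  simp only [hS] at h1
  have h2 : ∑ k ∈ Finset.Icc 0 N, (k : ℂ) ^ (-s) * c k = ∑ k ∈ Finset.Icc 1 N, (k : ℂ) ^ (-s) := by
    rw [← Finset.sum_Ioc_add_eq_sum_Icc (Nat.zero_le N)]
    have h3 : ∑ k ∈ Finset.Ioc 0 N, (k : ℂ) ^ (-s) * c k = ∑ k ∈ Finset.Ioc 0 N, (k : ℂ) ^ (-s) :=
      Finset.sum_congr rfl fun k hk => by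
        simp only [hc]
        rw [if_neg (by have := (Finset.mem_Ioc.mp hk).1; omega), mul_one]
    rw [h3]
    simp only [hc, if_true, mul_zero, add_zero]
    rfl
  rw [h2] at h1
  -- the integrals
  have hfr : IntegrableOn (fun t : ℝ => ((Int.fract t : ℝ) : ℂ) * (t : ℂ) ^ (-(s + 1)))
      (Ioi 1) := by
    have hb : IntegrableOn (fun t : ℝ => t ^ (-(s.re + 1))) (Ioi 1) :=
      integrableOn_Ioi_rpow_of_lt (by linarith) zero_lt_one
    refine Integrable.mono' hb ?_ ?_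
    · refine ((measurable_ofReal.comp measurable_fract).aestronglyMeasurable).mul ?_
      exact (integrableOn_Ioi_cpow_of_lt (by simpa using hs) zero_lt_one).aestronglyMeasurable
    · filter_upwards [self_mem_ae_restrict measurableSet_Ioi] with t ht
      have ht0 : (0 : ℝ) < t := lt_trans zero_lt_one ht
      rw [norm_mul, norm_cpow_term ht0, Complex.norm_real, Real.norm_eq_abs,
        abs_of_nonneg (Int.fract_nonneg t)]
      exact mul_le_of_le_one_left (Real.rpow_nonneg ht0.le _) (Int.fract_lt_one t).le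
  have hpow : IntegrableOn (fun t : ℝ => (t : ℂ) ^ (-s)) (Ioc (1 : ℝ) N) := by
    have := intervalIntegral.intervalIntegrable_cpow (μ := volume) (a := 1) (b := N) (r := -s)
      (Or.inr (by
        rw [uIcc_of_le hN1]
        intro h
        linarith [h.1]))
    exact (intervalIntegrable_iff_integrableOn_Ioc_of_le hN1).mp this
  have hsplit : ∫ t in Ioi (1 : ℝ), ((Int.fract t : ℝ) : ℂ) * (t : ℂ) ^ (-(s + 1)) =
      (∫ t in Ioc (1 : ℝ) N, ((Int.fract t : ℝ) : ℂ) * (t : ℂ) ^ (-(s + 1))) +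
      ∫ t in Ioi (N : ℝ), ((Int.fract t : ℝ) : ℂ) * (t : ℂ) ^ (-(s + 1)) := by
    have hU : Ioi (1 : ℝ) = Ioc 1 (N : ℝ) ∪ Ioi (N : ℝ) := (Ioc_union_Ioi_eq_Ioi hN1).symm
    conv_lhs => rw [hU]
    exact setIntegral_union (Ioc_disjoint_Ioi le_rfl) measurableSet_Ioi
      (hfr.mono_set Ioc_subset_Ioi_self) (hfr.mono_set (Ioi_subset_Ioi hN1))
  have hfloor : ∫ t in Ioc (1 : ℝ) N, ((⌊t⌋₊ : ℕ) : ℂ) * (t : ℂ) ^ (-(s + 1)) =
      (∫ t in Ioc (1 : ℝ) N, (t : ℂ) ^ (-s)) -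
      ∫ t in Ioc (1 : ℝ) N, ((Int.fract t : ℝ) : ℂ) * (t : ℂ) ^ (-(s + 1)) := by
    rw [← integral_sub hpow (hfr.mono_set Ioc_subset_Ioi_self)]
    refine setIntegral_congr_fun measurableSet_Ioc fun t ht => ?_
    have ht0 : (0 : ℝ) < t := lt_trans zero_lt_one ht.1
    have h3 : ((⌊t⌋₊ : ℕ) : ℂ) = (t : ℂ) - ((Int.fract t : ℝ) : ℂ) := by
      have h4 : ((⌊t⌋₊ : ℕ) : ℝ) = t - Int.fract t := by
        rw [natCast_floor_eq_intCast_floor ht0.le]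
        exact (Int.self_sub_fract t).symm
      rw [← Complex.ofReal_sub, ← h4, Complex.ofReal_natCast]
    have h5 : (t : ℂ) ^ (-s) = (t : ℂ) * (t : ℂ) ^ (-(s + 1)) := by
      have ht0' : (t : ℂ) ≠ 0 := by exact_mod_cast ht0.ne'
      have h6 : -s = 1 + -(s + 1) := by ring
      conv_lhs => rw [h6]
      rw [Complex.cpow_add _ _ ht0', Complex.cpow_one]
    rw [h3, h5]
    ring
  have hpow' : ∫ t in Ioc (1 : ℝ) N, (t : ℂ) ^ (-s) = ((N : ℂ) ^ (1 - s) - 1) / (1 - s) := by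
    rw [← intervalIntegral.integral_of_le hN1, integral_cpow]
    · have h3 : -s + 1 = 1 - s := by ring
      rw [h3]
      simp
    · right
      refine ⟨fun h => hs1 ?_, ?_⟩
      · have := congrArg Neg.neg h
        simpa using this
      · rw [uIcc_of_le hN1]
        intro h
        linarith [h.1]
  have hNs : (N : ℂ) ^ (-s) * N = (N : ℂ) ^ (1 - s) := by
    have h3 : 1 - s = -s + 1 := by ring
    rw [h3, Complex.cpow_add _ _ hN0, Complex.cpow_one]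
  rw [Siegel.riemannZeta_eq hs hs1, hsplit]
  rw [hfloor, hpow', hNs] at h1
  have h7 : (1 : ℂ) - s ≠ 0 := fun h => hs1' (by linear_combination -h)
  rw [h1]
  have h8 : ((N : ℂ) ^ (1 - s) - 1) / (1 - s) = -(((N : ℂ) ^ (1 - s) - 1) / (s - 1)) := by
    field_simp
    ring
  rw [h8]
  field_simp
  ring

/-- `|ζ(σ + it)| ≤ 3 + log (|t| + 2) + 1/|t|` for `1 ≤ σ ≤ 2`, `t ≠ 0`. -/
theorem norm_riemannZeta_le_log {s : ℂ} (hs : 1 ≤ s.re) (hs2 : s.re ≤ 2) (him : s.im ≠ 0) :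
    ‖riemannZeta s‖ ≤ 3 + Real.log (|s.im| + 2) + 1 / |s.im| := by
  have him0 : 0 < |s.im| := abs_pos.mpr him
  have hs1 : s ≠ 1 := by
    rintro rfl
    simp at him
  set N : ℕ := ⌈|s.im| + 2⌉₊ with hN
  have hNQ : |s.im| + 2 ≤ N := Nat.le_ceil _
  have hN2 : (N : ℝ) ≤ 2 * (|s.im| + 2) := by
    have := Nat.ceil_lt_add_one (by linarith : 0 ≤ |s.im| + 2)
    linarith
  have hN1' : (1 : ℝ) ≤ N := by linarith
  have hN1 : 1 ≤ N := by exact_mod_cast hN1'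
  have hN0 : (0 : ℝ) < N := by linarith
  rw [riemannZeta_eq_sum (by linarith) hs1 hN1]
  have b1 : ‖∑ k ∈ Finset.Icc 1 N, (k : ℂ) ^ (-s)‖ ≤ 2 + Real.log (|s.im| + 2) := by
    calc ‖∑ k ∈ Finset.Icc 1 N, (k : ℂ) ^ (-s)‖ ≤ ∑ k ∈ Finset.Icc 1 N, (k : ℝ) ^ (-s.re) := by
          refine (norm_sum_le _ _).trans (Finset.sum_le_sum fun k hk => ?_)
          rw [norm_natCast_cpow' (Finset.mem_Icc.mp hk).1]
      _ ≤ (N : ℝ) ^ (0 : ℝ) * (1 + Real.log N) := sum_rpow_le le_rfl (by linarith)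
      _ = 1 + Real.log N := by rw [Real.rpow_zero, one_mul]
      _ ≤ 1 + Real.log (2 * (|s.im| + 2)) := by
          have := Real.log_le_log hN0 hN2
          linarith
      _ = 1 + (Real.log 2 + Real.log (|s.im| + 2)) := by
          rw [Real.log_mul (by norm_num) (by positivity)]
      _ ≤ _ := by
          have := Real.log_two_lt_d9
          linarith
  have b2 : ‖(N : ℂ) ^ (1 - s) / (s - 1)‖ ≤ 1 / |s.im| := by
    rw [norm_div]
    have h1 : ‖(N : ℂ) ^ (1 - s)‖ ≤ 1 := by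
      rw [Complex.norm_natCast_cpow_of_pos hN1]
      exact Real.rpow_le_one_of_one_le_of_nonpos hN1' (by simp; linarith)
    have h2 : |s.im| ≤ ‖s - 1‖ := by
      have := Complex.abs_im_le_norm (s - 1)
      simpa using this
    exact div_le_div₀ zero_le_one h1 him0 h2
  have b3 : ‖s * ∫ t in Ioi (N : ℝ), ((Int.fract t : ℝ) : ℂ) * (t : ℂ) ^ (-(s + 1))‖ ≤ 1 := by
    have h1 := norm_tail_le (g := fun t => ((Int.fract t : ℝ) : ℂ)) (B := 1) (fun t => by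
      rw [Complex.norm_real, Real.norm_eq_abs, abs_of_nonneg (Int.fract_nonneg t)]
      exact (Int.fract_lt_one t).le) (by linarith : 0 < s.re) hN1
    have h2 : ‖s‖ ≤ N := by
      have := Complex.norm_le_abs_re_add_abs_im s
      rw [abs_of_nonneg (by linarith : 0 ≤ s.re)] at this
      linarith
    have h3 : (N : ℝ) ^ (-s.re) ≤ (N : ℝ)⁻¹ := by
      rw [← Real.rpow_neg_one]
      exact Real.rpow_le_rpow_of_exponent_le hN1' (by linarith)
    rw [norm_mul]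
    calc ‖s‖ * ‖∫ t in Ioi (N : ℝ), ((Int.fract t : ℝ) : ℂ) * (t : ℂ) ^ (-(s + 1))‖
        ≤ N * (1 * (N : ℝ) ^ (-s.re) / s.re) :=
          mul_le_mul h2 h1 (norm_nonneg _) hN0.le
      _ ≤ N * (N : ℝ)⁻¹ := by
          refine mul_le_mul_of_nonneg_left ?_ hN0.le
          rw [one_mul, div_le_iff₀ (by linarith)]
          have : 0 < (N : ℝ)⁻¹ := by positivity
          nlinarith
      _ = 1 := mul_inv_cancel₀ hN0.ne'
  refine (norm_sub_le _ _).trans ?_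
  refine (add_le_add ((norm_add_le _ _).trans (add_le_add b1 b2)) b3).trans ?_
  linarith

end Fermat.Agent.Cor.SiegelL
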