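import Fermat.Agent.Corollaries.SiegelL.BrauerSiegel
import Fermat.Agent.Corollaries.Siegel.DiscThree

/-!
# The conjectures of Chowla and Yokoi up to finitely many exceptions

`regulator_le`: in a quadratic field the regulator is at most `2 |log w(u)|` for every unit `u` and
every place `w` with `w(u) ≠ 1`.  The field `ℚ(√(m² + 4))` has the unit `(m + √(m² + 4)) / 2`;
with Siegel's theorem its class number is at least `c(ε) m^(1 - ε)` if its discriminant is at least
`m²/4`.  Hence for every `H` only finitely many `m` with `m² + 4` squarefree (`m` odd) or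
`m² + 1` squarefree have class number `h(ℚ(√(m² + 4))) ≤ H`, `h(ℚ(√(m² + 1))) ≤ H`.
-/

set_option autoImplicit false

namespace Fermat.Agent.Cor.SiegelL

open NumberField NumberField.InfinitePlace NumberField.Units
open Fermat.Agent.Cor.Abel

universe u

section regulator

variable (K : Type u) [Field K] [NumberField K]

open scoped Classical in
/-- In a field of unit rank one the regulator is at most `mult(w) |log w(u)|`. -/
theorem regulator_le_of_rank_eq_one (hr : rank K = 1) (u : (𝓞 K)ˣ) (w : InfinitePlace K)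
    (hw : w (u : K) ≠ 1) : regulator K ≤ mult w * |Real.log (w (u : K))| := by
  have hcard : Fintype.card (InfinitePlace K) = 2 := by
    have h1 : rank K = Fintype.card (InfinitePlace K) - 1 := rfl
    have h2 : 0 < Fintype.card (InfinitePlace K) := Fintype.card_pos
    omega
  obtain ⟨w', hw'⟩ := Fintype.exists_ne_of_one_lt_card (by omega) w
  have hall : ∀ v : InfinitePlace K, v = w ∨ v = w' := by
    intro v
    by_contra h
    rw [not_or] at h
    have h3 : ({v, w, w'} : Finset (InfinitePlace K)).card = 3 :=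
      Finset.card_eq_three.mpr ⟨v, w, w', h.1, h.2, hw'.symm, rfl⟩
    have h4 := Finset.card_le_univ ({v, w, w'} : Finset (InfinitePlace K))
    omega
  let inst : Unique {v : InfinitePlace K // v ≠ w'} :=
    ⟨⟨⟨w, hw'.symm⟩⟩, fun v => Subtype.ext ((hall v.1).resolve_right v.2)⟩
  have e : {v : InfinitePlace K // v ≠ w'} ≃ Fin (rank K) :=
    Fintype.equivOfCardEq (by rw [Fintype.card_unique, Fintype.card_fin, hr])
  have h1 := regOfFamily_eq_det (fun _ : Fin (rank K) => u) w' e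
  rw [Matrix.det_unique] at h1
  have h2 : regOfFamily (fun _ : Fin (rank K) => u) = mult w * |Real.log (w (u : K))| := by
    rw [h1]
    change |(mult w : ℝ) * Real.log (w (u : K))| = _
    rw [abs_mul, abs_of_nonneg (Nat.cast_nonneg _)]
  have hpos : 0 < mult w * |Real.log (w (u : K))| := by
    have h3 : (0 : ℝ) < mult w := by exact_mod_cast mult_pos
    have h4 : 0 < w (u : K) := pos_iff.mpr (NumberField.Units.coe_ne_zero u)
    have h5 : Real.log (w (u : K)) ≠ 0 := by
      rw [Ne, Real.log_eq_zero]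
      rintro (h | h | h)
      · exact h4.ne' h
      · exact hw h
      · linarith
    positivity
  have h3 := regOfFamily_div_regulator (fun _ : Fin (rank K) => u)
  rw [div_eq_iff (regulator_ne_zero K), h2] at h3
  set i : ℕ := (Subgroup.closure (Set.range fun _ : Fin (rank K) => u) ⊔ torsion K).index with hi
  have h4 : i ≠ 0 := by
    intro h0
    rw [h0, Nat.cast_zero, zero_mul] at h3
    exact hpos.ne' h3
  have h5 : (1 : ℝ) ≤ i := by exact_mod_cast Nat.one_le_iff_ne_zero.mpr h4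
  rw [h3]
  exact le_mul_of_one_le_left (regulator_pos K).le h5

/-- In a quadratic field the regulator is at most `2 |log w(u)|` for every unit `u` and every
infinite place `w` with `w(u) ≠ 1` (such a field is real quadratic). -/
theorem regulator_le (h2 : Module.finrank ℚ K = 2) (u : (𝓞 K)ˣ) (w : InfinitePlace K)
    (hw : w (u : K) ≠ 1) : regulator K ≤ 2 * |Real.log (w (u : K))| := by
  have hr : rank K = 1 := by
    have h3 := card_add_two_mul_card_eq_rank K
    have h4 := card_eq_nrRealPlaces_add_nrComplexPlaces K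
    have h5 : rank K = Fintype.card (InfinitePlace K) - 1 := rfl
    have h6 : rank K ≠ 0 := by
      intro h0
      obtain ⟨⟨ζ, e⟩, hζ, -⟩ := exist_unique_eq_mul_prod K u
      have h7 : IsEmpty (Fin (rank K)) := by rw [h0]; infer_instance
      rw [Finset.univ_eq_empty, Finset.prod_empty, mul_one] at hζ
      have h8 : u ∈ torsion K := by
        rw [hζ]
        exact ζ.2
      exact hw (((mem_torsion K).mp h8) w)
    omega
  refine (regulator_le_of_rank_eq_one K hr u w hw).trans ?_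
  have h1 : (mult w : ℝ) ≤ 2 := by
    rw [mult]
    split_ifs <;> norm_num
  exact mul_le_mul_of_nonneg_right h1 (abs_nonneg _)

end regulator

section unit

variable {K : Type u} [Field K] [NumberField K]

/-- The unit `(m + √(m² + 4)) / 2`: the regulator of a quadratic field which contains `√(m² + 4)`
is at most `2 log (m + 1)`. -/
theorem regulator_le_log (h2 : Module.finrank ℚ K = 2) {m : ℕ} (hm : 1 ≤ m) {s : K}
    (hs : s ^ 2 = (m : K) ^ 2 + 4) : regulator K ≤ 2 * Real.log (m + 1) := by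
  have hint : ∀ (n : ℤ) (x : K), x ^ 2 = (n : K) * x + 1 → IsIntegral ℤ x := by
    intro n x hx
    refine ⟨Polynomial.X ^ 2 - Polynomial.C n * Polynomial.X - 1, ?_, ?_⟩
    · monicity!
    · simp only [Polynomial.eval₂_sub, Polynomial.eval₂_mul, Polynomial.eval₂_pow,
        Polynomial.eval₂_X, Polynomial.eval₂_C, Polynomial.eval₂_one]
      rw [hx, eq_intCast]
      ring
  have h2K : (2 : K) ≠ 0 := two_ne_zero
  have hu : IsIntegral ℤ (((m : K) + s) / 2) := by
    refine hint m _ ?_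
    push_cast
    field_simp
    linear_combination hs
  have hv : IsIntegral ℤ ((s - (m : K)) / 2) := by
    refine hint (-m) _ ?_
    push_cast
    field_simp
    linear_combination hs
  have huv : ((m : K) + s) / 2 * ((s - (m : K)) / 2) = 1 := by
    field_simp
    linear_combination hs
  let U : (𝓞 K)ˣ := ⟨⟨((m : K) + s) / 2, hu⟩, ⟨(s - (m : K)) / 2, hv⟩, by
    ext
    exact huv, by
    ext
    change (s - (m : K)) / 2 * (((m : K) + s) / 2) = 1
    rw [mul_comm, huv]⟩
  obtain ⟨φ⟩ : Nonempty (K →+* ℂ) := inferInstance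
  set r : ℝ := Real.sqrt ((m : ℝ) ^ 2 + 4) with hr
  have hm1 : (1 : ℝ) ≤ m := by exact_mod_cast hm
  have hr2 : r ^ 2 = (m : ℝ) ^ 2 + 4 := Real.sq_sqrt (by positivity)
  have hr0 : 0 ≤ r := Real.sqrt_nonneg _
  have hr1 : (m : ℝ) < r := by nlinarith
  have hr3 : 2 < r := by nlinarith
  have hr4 : r ≤ m + 2 := by nlinarith
  have hφ : φ s = (r : ℂ) ∨ φ s = -(r : ℂ) := by
    have h3 : (φ s) ^ 2 = ((r : ℂ)) ^ 2 := by
      rw [← map_pow, hs, map_add, map_pow, map_natCast, map_ofNat, ← Complex.ofReal_pow, hr2]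
      push_cast
      ring
    exact sq_eq_sq_iff_eq_or_eq_neg.mp h3
  set t : ℝ := ((m : ℝ) + r) / 2 with ht
  have ht1 : 1 < t := by rw [ht]; linarith
  have ht2 : t ≤ m + 1 := by rw [ht]; linarith
  have htinv : (r - (m : ℝ)) / 2 = t⁻¹ := by
    refine eq_inv_of_mul_eq_one_left ?_
    rw [ht]
    linear_combination hr2 / 4
  have hlog : 0 < Real.log t := Real.log_pos ht1
  have hval : (InfinitePlace.mk φ) (U : K) = t ∨ (InfinitePlace.mk φ) (U : K) = t⁻¹ := by
    change (InfinitePlace.mk φ) (((m : K) + s) / 2) = t ∨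
      (InfinitePlace.mk φ) (((m : K) + s) / 2) = t⁻¹
    rw [InfinitePlace.apply, map_div₀, map_add, map_natCast, map_ofNat]
    rcases hφ with h | h
    · left
      rw [h]
      have : ((m : ℂ) + (r : ℂ)) / 2 = ((t : ℝ) : ℂ) := by
        rw [ht]
        push_cast
        ring
      rw [this, Complex.norm_real, Real.norm_eq_abs, abs_of_pos (by linarith)]
    · right
      rw [h]
      have : ((m : ℂ) + -(r : ℂ)) / 2 = ((-(t⁻¹) : ℝ) : ℂ) := by
        rw [← htinv]
        push_cast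
        ring
      rw [this, Complex.norm_real, Real.norm_eq_abs, abs_neg, abs_of_pos (by positivity)]
  have hne : (InfinitePlace.mk φ) (U : K) ≠ 1 := by
    rcases hval with h | h
    · rw [h]
      exact ht1.ne'
    · rw [h]
      exact (inv_lt_one_of_one_lt₀ ht1).ne
  have habs : |Real.log ((InfinitePlace.mk φ) (U : K))| = Real.log t := by
    rcases hval with h | h
    · rw [h, abs_of_pos hlog]
    · rw [h, Real.log_inv, abs_neg, abs_of_pos hlog]
  refine (regulator_le K h2 U (InfinitePlace.mk φ) hne).trans ?_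
  rw [habs]
  have := Real.log_le_log (by linarith) ht2
  linarith

end unit

/-- Siegel's theorem for the fields `ℚ(√(m² + 4))`: for every `ε > 0` there is `c > 0` with
`h(K) ≥ c m^(1 - ε)` for every quadratic field `K` containing `√(m² + 4)`, if `4 |d_K| ≥ m²`. -/
theorem exists_lower_unit {ε : ℝ} (hε : 0 < ε) : ∃ c : ℝ, 0 < c ∧ ∀ (m : ℕ), 1 ≤ m →
    ∀ (K : Type u) [Field K] [NumberField K], Module.finrank ℚ K = 2 →
    (∃ s : K, s ^ 2 = (m : K) ^ 2 + 4) → (m : ℝ) ^ 2 ≤ 4 * |(discr K : ℝ)| →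
    c * (m : ℝ) ^ (1 - ε) ≤ classNumber K := by
  -- it suffices to treat `ε ≤ 1`
  wlog hε1 : ε ≤ 1 with hwlog
  · obtain ⟨c, hc, h⟩ := hwlog one_pos le_rfl
    refine ⟨c, hc, fun m hm K _ _ h2 hs hd => ?_⟩
    refine le_trans (mul_le_mul_of_nonneg_left ?_ hc.le) (h m hm K h2 hs hd)
    exact Real.rpow_le_rpow_of_exponent_le (by exact_mod_cast hm) (by linarith [not_le.mp hε1])
  obtain ⟨c, C, hc, hC, h⟩ := class_regulator_bounds.{u} (ε := ε / 4) (by linarith)
  set A : ℝ := 1 + 1 / (ε / 2) with hA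
  have hA0 : 0 < A := by positivity
  refine ⟨c ^ 2 / (4 * A), by positivity, fun m hm K _ _ h2 hs hd => ?_⟩
  obtain ⟨s, hs⟩ := hs
  have : IsAbelianGalois ℚ K := isAbelianGalois_of_finrank_two K h2
  have hm1 : (1 : ℝ) ≤ m := by exact_mod_cast hm
  have hm0 : (0 : ℝ) < m := by linarith
  have h1 := (h K).1
  rw [h2] at h1
  -- the discriminant
  have h3 : (m : ℝ) ^ (1 - ε / 2) / 2 ≤ |(discr K : ℝ)| ^ (1 / 2 - ε / 4) := by
    have h4 : ((m : ℝ) / 2) ^ 2 ≤ |(discr K : ℝ)| := by nlinarith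
    have h5 : (((m : ℝ) / 2) ^ 2) ^ (1 / 2 - ε / 4) ≤ |(discr K : ℝ)| ^ (1 / 2 - ε / 4) :=
      Real.rpow_le_rpow (by positivity) h4 (by linarith)
    have h6 : (((m : ℝ) / 2) ^ 2) ^ (1 / 2 - ε / 4) = ((m : ℝ) / 2) ^ (1 - ε / 2) := by
      rw [← Real.rpow_natCast, ← Real.rpow_mul (by positivity)]
      congr 1
      push_cast
      ring
    rw [h6, Real.div_rpow hm0.le (by norm_num)] at h5
    refine le_trans ?_ h5
    have h7 : (2 : ℝ) ^ (1 - ε / 2) ≤ 2 := by
      calc (2 : ℝ) ^ (1 - ε / 2) ≤ (2 : ℝ) ^ (1 : ℝ) :=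
            Real.rpow_le_rpow_of_exponent_le (by norm_num) (by linarith)
        _ = 2 := Real.rpow_one 2
    exact div_le_div_of_nonneg_left (by positivity) (by positivity) h7
  -- the regulator
  have h4 : regulator K ≤ 2 * (A * (m : ℝ) ^ (ε / 2)) := by
    have h5 : Real.log (m + 1) ≤ 1 + Real.log m := by
      have h6 : (m : ℝ) + 1 ≤ Real.exp 1 * m := by
        have := Real.add_one_le_exp (1 : ℝ)
        nlinarith
      calc Real.log (m + 1) ≤ Real.log (Real.exp 1 * m) := Real.log_le_log (by positivity) h6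
        _ = 1 + Real.log m := by rw [Real.log_mul (Real.exp_pos 1).ne' hm0.ne', Real.log_exp]
    have h6 := one_add_log_le (a := ε / 2) (by linarith) hm1
    rw [← hA] at h6
    have h7 := regulator_le_log h2 hm hs
    linarith
  have hh : (0 : ℝ) ≤ classNumber K := Nat.cast_nonneg _
  have h5 : c ^ 2 * ((m : ℝ) ^ (1 - ε / 2) / 2) ≤
      classNumber K * (2 * (A * (m : ℝ) ^ (ε / 2))) :=
    (mul_le_mul_of_nonneg_left h3 (by positivity)).trans
      (h1.trans (mul_le_mul_of_nonneg_left h4 hh))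
  have h6 : (m : ℝ) ^ (1 - ε / 2) = (m : ℝ) ^ (1 - ε) * (m : ℝ) ^ (ε / 2) := by
    rw [← Real.rpow_add hm0]
    congr 1
    ring
  have h7 : (0 : ℝ) < (m : ℝ) ^ (ε / 2) := Real.rpow_pos_of_pos hm0 _
  rw [h6] at h5
  rw [div_mul_eq_mul_div, div_le_iff₀ (by positivity)]
  refine le_of_mul_le_mul_right ?_ h7
  calc c ^ 2 * (m : ℝ) ^ (1 - ε) * (m : ℝ) ^ (ε / 2)
      = 2 * (c ^ 2 * ((m : ℝ) ^ (1 - ε) * (m : ℝ) ^ (ε / 2) / 2)) := by ring
    _ ≤ 2 * (classNumber K * (2 * (A * (m : ℝ) ^ (ε / 2)))) := by linarith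
    _ = _ := by ring

/-! ### Discriminants -/

lemma le_of_squarefree {D d c : ℤ} (hD : Squarefree D) (h : 4 * D = c ^ 2 * d) :
    |D| ≤ |d| := by
  have hc : |c| ≤ 2 := by
    rcases Int.even_or_odd c with ⟨e, he⟩ | hodd
    · have h1 : D = e * e * d := by
        have : 4 * D = 4 * (e * e * d) := by rw [h, he]; ring
        linarith
      have h2 : IsUnit e := hD e ⟨d, h1⟩
      rcases Int.isUnit_iff.mp h2 with h3 | h3 <;> rw [he, h3] <;> norm_num
    · have h1 : c * c ∣ D := by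
        have h2 : c * c ∣ 4 * D := ⟨d, by rw [h]; ring⟩
        refine (IsCoprime.dvd_of_dvd_mul_left ?_ h2)
        have h3 : IsCoprime c 2 := (Int.isCoprime_iff_gcd_eq_one.mpr (by
          have := Int.odd_iff.mp hodd
          rw [Int.gcd_comm, Int.gcd_eq_natAbs]
          exact (Nat.coprime_two_left).mpr (Int.natAbs_odd.mpr hodd)))
        have h4 : IsCoprime c 4 := by
          have := h3.mul_right h3
          norm_num at this
          exact this
        exact h4.mul_left h4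
      have h2 : IsUnit c := hD c h1
      rcases Int.isUnit_iff.mp h2 with h3 | h3 <;> rw [h3] <;> norm_num
  have hc2 : c ^ 2 ≤ 4 := by
    have := sq_le_sq' (by linarith [(abs_le.mp hc).1] : -2 ≤ c) ((abs_le.mp hc).2)
    linarith
  have h1 : 4 * |D| = c ^ 2 * |d| := by
    have := congrArg abs h
    rwa [abs_mul, abs_mul, abs_of_nonneg (sq_nonneg c), abs_of_pos (by norm_num : (0 : ℤ) < 4)]
      at this
  nlinarith [abs_nonneg d]

lemma not_isSquare_sq_add {m : ℤ} {a : ℤ} (hm : 1 ≤ m) (ha : 0 < a) (ha' : a ≤ 2 * m)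
    : ¬ IsSquare (m ^ 2 + a) := by
  rintro ⟨b, hb⟩
  have h1 : m ^ 2 < |b| * |b| := by rw [abs_mul_abs_self]; linarith
  have h2 : |b| * |b| < (m + 1) ^ 2 := by rw [abs_mul_abs_self]; nlinarith
  have h3 : m < |b| := by nlinarith [abs_nonneg b]
  have h4 : |b| < m + 1 := by nlinarith [abs_nonneg b]
  omega

lemma abs_discr_ge {K : Type u} [Field K] [NumberField K] (h2 : Module.finrank ℚ K = 2) {D : ℤ}
    (hD : Squarefree D) (hsq : ¬ IsSquare D) {s : K} (hs : s ^ 2 = (D : K)) :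
    (|D| : ℝ) ≤ |(discr K : ℝ)| := by
  have hs' : s ∉ Set.range (algebraMap ℚ K) := by
    rintro ⟨x, rfl⟩
    apply hsq
    have h1 : x ^ 2 = (D : ℚ) := by
      apply (algebraMap ℚ K).injective
      rw [map_pow, hs, map_intCast]
    exact Rat.isSquare_intCast_iff.mp ⟨x, by rw [← h1]; ring⟩
  obtain ⟨c, -, hc⟩ := Siegel.sq_mul_discr h2 hs hs'
  have h1 := le_of_squarefree hD hc
  exact_mod_cast h1

/-! ### The theorems -/

/-- For `m` odd and `m² + 4` squarefree: `h(ℚ(√(m² + 4))) ≥ c(ε) m^(1 - ε)`. -/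
theorem lower_sq_add_four {ε : ℝ} (hε : 0 < ε) : ∃ c : ℝ, 0 < c ∧ ∀ (m : ℕ), Odd m →
    Squarefree (m ^ 2 + 4) → ∀ (K : Type u) [Field K] [NumberField K], Module.finrank ℚ K = 2 →
    (∃ s : K, s ^ 2 = (m : K) ^ 2 + 4) → c * (m : ℝ) ^ (1 - ε) ≤ classNumber K := by
  obtain ⟨c, hc, h⟩ := exists_lower_unit.{u} hε
  refine ⟨c, hc, fun m hodd hsf K _ _ h2 hs => ?_⟩
  have hm : 1 ≤ m := hodd.pos
  refine h m hm K h2 hs ?_
  obtain ⟨s, hs⟩ := hs
  have hsq : ¬ IsSquare (((m ^ 2 + 4 : ℕ) : ℤ)) := by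
    rcases Nat.lt_or_ge m 2 with h1 | h1
    · have : m = 1 := by omega
      subst this
      rintro ⟨b, hb⟩
      have h3 : |b| * |b| = 5 := by rw [abs_mul_abs_self, ← hb]; norm_num
      have h4 : |b| < 3 := by nlinarith [abs_nonneg b]
      have h5 : 2 < |b| := by nlinarith [abs_nonneg b]
      omega
    · have := not_isSquare_sq_add (m := (m : ℤ)) (a := 4) (by omega) (by norm_num) (by omega)
      push_cast
      exact this
  have h1 := abs_discr_ge h2 (D := ((m ^ 2 + 4 : ℕ) : ℤ)) (Int.squarefree_natCast.mpr hsf) hsq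
    (s := s) (by rw [hs]; push_cast; ring)
  push_cast at h1
  rw [abs_of_nonneg (by positivity)] at h1
  nlinarith [abs_nonneg ((discr K : ℝ))]

/-- For `m² + 1` squarefree, `m ≥ 1`: `h(ℚ(√(m² + 1))) ≥ c(ε) m^(1 - ε)`. -/
theorem lower_sq_add_one {ε : ℝ} (hε : 0 < ε) : ∃ c : ℝ, 0 < c ∧ ∀ (m : ℕ), 1 ≤ m →
    Squarefree (m ^ 2 + 1) → ∀ (K : Type u) [Field K] [NumberField K], Module.finrank ℚ K = 2 →
    (∃ s : K, s ^ 2 = (m : K) ^ 2 + 1) → c * (m : ℝ) ^ (1 - ε) ≤ classNumber K := by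
  -- `ε ≤ 1` is enough
  wlog hε1 : ε ≤ 1 with hwlog
  · obtain ⟨c, hc, h⟩ := hwlog one_pos le_rfl
    refine ⟨c, hc, fun m hm hsf K _ _ h2 hs => ?_⟩
    refine le_trans (mul_le_mul_of_nonneg_left ?_ hc.le) (h m hm hsf K h2 hs)
    exact Real.rpow_le_rpow_of_exponent_le (by exact_mod_cast hm) (by linarith [not_le.mp hε1])
  obtain ⟨c, hc, h⟩ := exists_lower_unit.{u} hε
  refine ⟨c, hc, fun m hm hsf K _ _ h2 hs => ?_⟩
  obtain ⟨s, hs⟩ := hs
  have hm0 : (1 : ℝ) ≤ m := by exact_mod_cast hm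
  have h1 := abs_discr_ge h2 (D := ((m ^ 2 + 1 : ℕ) : ℤ)) (Int.squarefree_natCast.mpr hsf)
    (by
      have := not_isSquare_sq_add (m := (m : ℤ)) (a := 1) (by omega) (by norm_num) (by omega)
      push_cast
      exact this) (s := s) (by rw [hs]; push_cast; ring)
  push_cast at h1
  rw [abs_of_nonneg (by positivity)] at h1
  have h3 := h (2 * m) (by omega) K h2 ⟨2 * s, by push_cast; linear_combination 4 * hs⟩
    (by push_cast; nlinarith [abs_nonneg ((discr K : ℝ))])
  refine le_trans (mul_le_mul_of_nonneg_left ?_ hc.le) h3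
  exact Real.rpow_le_rpow (by positivity) (by push_cast; linarith) (by linarith)

/-- **Yokoi's conjecture up to finitely many exceptions**: for every `H` there are only finitely
many odd `m` with `m² + 4` squarefree such that `ℚ(√(m² + 4))` has class number at most `H`. -/
theorem yokoi (H : ℕ) : {m : ℕ | Odd m ∧ Squarefree (m ^ 2 + 4) ∧
    ∃ (K : Type u) (_ : Field K) (_ : NumberField K) (s : K), s ^ 2 = (m : K) ^ 2 + 4 ∧
      Module.finrank ℚ K = 2 ∧ classNumber K ≤ H}.Finite := by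
  obtain ⟨c, hc, h⟩ := lower_sq_add_four.{u} (ε := 1 / 2) (by norm_num)
  refine (Set.finite_Iic ⌈(H / c) ^ 2⌉₊).subset ?_
  rintro m ⟨hodd, hsf, K, _, _, s, hs, h2, hH⟩
  have h1 := h m hodd hsf K h2 ⟨s, hs⟩
  have h3 : c * (m : ℝ) ^ (1 - 1 / 2 : ℝ) ≤ H := h1.trans (by exact_mod_cast hH)
  have h4 : (m : ℝ) ^ (1 - 1 / 2 : ℝ) ≤ H / c := by
    rw [le_div_iff₀ hc]
    linarith
  have h5 : ((m : ℝ) ^ (1 - 1 / 2 : ℝ)) ^ 2 ≤ (H / c) ^ 2 :=
    pow_le_pow_left₀ (by positivity) h4 2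
  have h6 : ((m : ℝ) ^ (1 - 1 / 2 : ℝ)) ^ 2 = m := by
    rw [← Real.rpow_natCast, ← Real.rpow_mul (Nat.cast_nonneg _)]
    norm_num
  rw [h6] at h5
  have h7 : (m : ℝ) ≤ ⌈(H / c) ^ 2⌉₊ := h5.trans (Nat.le_ceil _)
  exact_mod_cast h7

/-- **Chowla's conjecture up to finitely many exceptions**: for every `H` there are only finitely
many `m` with `m² + 1` squarefree such that `ℚ(√(m² + 1))` has class number at most `H`. -/
theorem chowla_real (H : ℕ) : {m : ℕ | 1 ≤ m ∧ Squarefree (m ^ 2 + 1) ∧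
    ∃ (K : Type u) (_ : Field K) (_ : NumberField K) (s : K), s ^ 2 = (m : K) ^ 2 + 1 ∧
      Module.finrank ℚ K = 2 ∧ classNumber K ≤ H}.Finite := by
  obtain ⟨c, hc, h⟩ := lower_sq_add_one.{u} (ε := 1 / 2) (by norm_num)
  refine (Set.finite_Iic ⌈(H / c) ^ 2⌉₊).subset ?_
  rintro m ⟨hm, hsf, K, _, _, s, hs, h2, hH⟩
  have h1 := h m hm hsf K h2 ⟨s, hs⟩
  have h3 : c * (m : ℝ) ^ (1 - 1 / 2 : ℝ) ≤ H := h1.trans (by exact_mod_cast hH)
  have h4 : (m : ℝ) ^ (1 - 1 / 2 : ℝ) ≤ H / c := by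
    rw [le_div_iff₀ hc]
    linarith
  have h5 : ((m : ℝ) ^ (1 - 1 / 2 : ℝ)) ^ 2 ≤ (H / c) ^ 2 :=
    pow_le_pow_left₀ (by positivity) h4 2
  have h6 : ((m : ℝ) ^ (1 - 1 / 2 : ℝ)) ^ 2 = m := by
    rw [← Real.rpow_natCast, ← Real.rpow_mul (Nat.cast_nonneg _)]
    norm_num
  rw [h6] at h5
  have h7 : (m : ℝ) ≤ ⌈(H / c) ^ 2⌉₊ := h5.trans (Nat.le_ceil _)
  exact_mod_cast h7

end Fermat.Agent.Cor.SiegelL
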