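import Fermat.Agent.Corollaries.SiegelL.Complex

/-!
# Siegel zeros, and imprimitive characters

For every `ε > 0` there is `c > 0` such that for all real characters `χ ≠ 1` modulo `q`,
primitive or not, `L(s, χ)` has no real zero in `[1 - c q^(-ε), 1]`, and `L(1, χ) ≥ c q^(-ε)`;
also `|L(1, χ)| ≥ c q^(-ε)` for all characters `χ ≠ 1` modulo `q`.
-/

set_option autoImplicit false

namespace Fermat.Agent.Cor.SiegelL

open Complex Set
open DirichletCharacter (LFunction changeLevel)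

/-- **Siegel zeros**, primitive characters. -/
theorem siegel_zero_primitive {ε : ℝ} (hε : 0 < ε) : ∃ c : ℝ, 0 < c ∧ c ≤ 1 / 4 ∧
    ∀ (q : ℕ) [NeZero q] (χ : DirichletCharacter ℂ q), χ.IsPrimitive → χ ≠ 1 → χ ^ 2 = 1 →
      ∀ σ : ℝ, 1 - c * (q : ℝ) ^ (-ε) ≤ σ → χ.LFunction σ ≠ 0 := by
  set a : ℝ := min (ε / 2) 1 with ha
  have ha0 : 0 < a := by positivity
  have ha1 : a ≤ 1 := min_le_right _ _
  have haε : 2 * a ≤ ε := by
    have := min_le_left (ε / 2) (1 : ℝ)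
    linarith
  obtain ⟨c₁, hc₁, h₁⟩ := siegel ha0
  set c : ℝ := min (a / 4) (c₁ * a ^ 2 / 32) with hc
  have hc0 : 0 < c := by positivity
  have hca : c ≤ a / 4 := min_le_left _ _
  have hcc : c ≤ c₁ * a ^ 2 / 32 := min_le_right _ _
  refine ⟨c, hc0, by linarith, fun q _ χ hprim hχ hsq σ hσ hz => ?_⟩
  have hq1 : (1 : ℝ) ≤ q := by exact_mod_cast Nat.one_le_iff_ne_zero.mpr (NeZero.ne q)
  rcases le_or_gt 1 σ with h1 | h1
  · exact DirichletCharacter.LFunction_ne_zero_of_one_le_re χ (.inl hχ) (by simpa using h1) hz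
  · have hqε : (q : ℝ) ^ (-ε) ≤ 1 := Real.rpow_le_one_of_one_le_of_nonpos hq1 (by linarith)
    have hqε0 : 0 < (q : ℝ) ^ (-ε) := Real.rpow_pos_of_pos (by linarith) _
    have hqa : 0 < (q : ℝ) ^ (-a) := Real.rpow_pos_of_pos (by linarith) _
    have hqa' : 0 < (q : ℝ) ^ a := Real.rpow_pos_of_pos (by linarith) _
    have h2 : 1 - σ ≤ c * (q : ℝ) ^ (-ε) := by linarith
    have h3 : 1 - σ ≤ a / 4 := by
      have : c * (q : ℝ) ^ (-ε) ≤ c * 1 := mul_le_mul_of_nonneg_left hqε hc0.le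
      linarith
    have hn : ‖(σ : ℂ) - 1‖ = 1 - σ := by
      rw [← Complex.ofReal_one, ← Complex.ofReal_sub, Complex.norm_real, Real.norm_eq_abs,
        abs_sub_comm, abs_of_pos (by linarith)]
    have h4 := norm_sub_near hχ ha0 ha1 (z := (σ : ℂ)) (by rw [dist_eq_norm, hn]; exact h3)
    rw [hz, zero_sub, norm_neg, hn] at h4
    have h5 : c₁ * (q : ℝ) ^ (-a) ≤ ‖χ.LFunction 1‖ :=
      (h₁ q χ hprim hχ hsq).trans (Complex.re_le_norm _)
    have h6 : 16 / a ^ 2 * (q : ℝ) ^ a * (1 - σ) ≤ c₁ / 2 * (q : ℝ) ^ (-a) := by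
      have h7 : (q : ℝ) ^ a * (q : ℝ) ^ (-ε) ≤ (q : ℝ) ^ (-a) := by
        rw [← Real.rpow_add (by linarith)]
        apply Real.rpow_le_rpow_of_exponent_le hq1
        linarith
      calc 16 / a ^ 2 * (q : ℝ) ^ a * (1 - σ)
          ≤ 16 / a ^ 2 * (q : ℝ) ^ a * (c * (q : ℝ) ^ (-ε)) :=
            mul_le_mul_of_nonneg_left h2 (by positivity)
        _ = 16 / a ^ 2 * c * ((q : ℝ) ^ a * (q : ℝ) ^ (-ε)) := by ring
        _ ≤ 16 / a ^ 2 * (c₁ * a ^ 2 / 32) * (q : ℝ) ^ (-a) := by gcongr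
        _ = c₁ / 2 * (q : ℝ) ^ (-a) := by
          field_simp
          ring
    have h8 : 0 < c₁ * (q : ℝ) ^ (-a) := by positivity
    linarith

section imprimitive

variable {q : ℕ} [NeZero q]

instance neZero_conductor (χ : DirichletCharacter ℂ q) : NeZero χ.conductor :=
  ⟨χ.conductor_ne_zero⟩

omit [NeZero q] in
lemma primitive_ne_one {χ : DirichletCharacter ℂ q} (h : χ ≠ 1) : χ.primitiveCharacter ≠ 1 := by
  intro h1
  apply h
  rw [← χ.changeLevel_primitiveCharacter, h1, map_one]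

lemma primitive_sq {χ : DirichletCharacter ℂ q} (h : χ ^ 2 = 1) :
    χ.primitiveCharacter ^ 2 = 1 := by
  apply DirichletCharacter.changeLevel_injective χ.conductor_dvd_level
  rw [map_pow, map_one, χ.changeLevel_primitiveCharacter, h]

lemma conductor_le (χ : DirichletCharacter ℂ q) : (χ.conductor : ℝ) ≤ q := by
  exact_mod_cast Nat.le_of_dvd (Nat.pos_of_ne_zero (NeZero.ne q)) χ.conductor_dvd_level

lemma LFunction_eq_primitive {χ : DirichletCharacter ℂ q} (h : χ ≠ 1) (s : ℂ) :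
    χ.LFunction s = χ.primitiveCharacter.LFunction s *
      ∏ p ∈ q.primeFactors, (1 - χ.primitiveCharacter p * (p : ℂ) ^ (-s)) := by
  rw [← DirichletCharacter.LFunction_changeLevel χ.conductor_dvd_level χ.primitiveCharacter
    (.inl (primitive_ne_one h)), χ.changeLevel_primitiveCharacter]

omit [NeZero q] in
lemma norm_euler_term_le (χ : DirichletCharacter ℂ q) {p : ℕ} (hp : p.Prime) (σ : ℝ) :
    ‖χ p * (p : ℂ) ^ (-(σ : ℂ))‖ ≤ (p : ℝ) ^ (-σ) := by
  have hp0 : 0 < p := hp.pos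
  rw [norm_mul, Complex.norm_natCast_cpow_of_pos hp0]
  have h1 : (-(σ : ℂ)).re = -σ := by simp
  rw [h1]
  calc ‖χ p‖ * (p : ℝ) ^ (-σ) ≤ 1 * (p : ℝ) ^ (-σ) :=
        mul_le_mul_of_nonneg_right (χ.norm_le_one _) (Real.rpow_nonneg (Nat.cast_nonneg _) _)
    _ = _ := one_mul _

omit [NeZero q] in
lemma euler_factor_ne_zero (χ : DirichletCharacter ℂ q) {p : ℕ} (hp : p.Prime) {σ : ℝ}
    (hσ : 0 < σ) : (1 : ℂ) - χ p * (p : ℂ) ^ (-(σ : ℂ)) ≠ 0 := by
  intro h
  have h1 : χ p * (p : ℂ) ^ (-(σ : ℂ)) = 1 := (sub_eq_zero.mp h).symm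
  have h2 := norm_euler_term_le χ hp σ
  rw [h1, norm_one] at h2
  have h3 : (p : ℝ) ^ (-σ) < 1 :=
    Real.rpow_lt_one_of_one_lt_of_neg (by exact_mod_cast hp.one_lt) (by linarith)
  linarith

end imprimitive

/-- **Siegel's theorem on real zeros**: for every `ε > 0` there is a `c > 0` such that `L(σ, χ) ≠ 0`
for every real character `χ ≠ 1` modulo `q`, primitive or not, and every real
`σ ≥ 1 - c q^(-ε)`. -/
theorem siegel_zero {ε : ℝ} (hε : 0 < ε) : ∃ c : ℝ, 0 < c ∧ ∀ (q : ℕ) [NeZero q]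
    (χ : DirichletCharacter ℂ q), χ ≠ 1 → χ ^ 2 = 1 →
      ∀ σ : ℝ, 1 - c * (q : ℝ) ^ (-ε) ≤ σ → χ.LFunction σ ≠ 0 := by
  obtain ⟨c, hc0, hc4, h⟩ := siegel_zero_primitive hε
  refine ⟨c, hc0, fun q _ χ hχ hsq σ hσ => ?_⟩
  have hq1 : (1 : ℝ) ≤ q := by exact_mod_cast Nat.one_le_iff_ne_zero.mpr (NeZero.ne q)
  have hf1 : (1 : ℝ) ≤ χ.conductor := by
    exact_mod_cast Nat.one_le_iff_ne_zero.mpr (NeZero.ne χ.conductor)
  have hσ' : 1 - c * (χ.conductor : ℝ) ^ (-ε) ≤ σ := by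
    have h1 : (q : ℝ) ^ (-ε) ≤ (χ.conductor : ℝ) ^ (-ε) :=
      Real.rpow_le_rpow_of_nonpos (by linarith) (conductor_le χ) (by linarith)
    have h2 := mul_le_mul_of_nonneg_left h1 hc0.le
    linarith
  have hσ0 : 0 < σ := by
    have h1 : (q : ℝ) ^ (-ε) ≤ 1 := Real.rpow_le_one_of_one_le_of_nonpos hq1 (by linarith)
    have h2 := mul_le_mul_of_nonneg_left h1 hc0.le
    linarith
  rw [LFunction_eq_primitive hχ]
  refine mul_ne_zero (h _ _ χ.primitiveCharacter_isPrimitive (primitive_ne_one hχ)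
    (primitive_sq hsq) σ hσ') (Finset.prod_ne_zero_iff.mpr fun p hp => ?_)
  exact euler_factor_ne_zero _ (Nat.prime_of_mem_primeFactors hp) hσ0

/-! ### Imprimitive characters at the point one -/

/-- A product of factors `1 - 1/n` over a finite set of integers `n ≥ 2`. -/
lemma prod_one_sub_inv_ge (S : Finset ℕ) (h : ∀ n ∈ S, 2 ≤ n) :
    1 / ((S.card : ℝ) + 1) ≤ ∏ n ∈ S, (1 - 1 / (n : ℝ)) := by
  induction S using Finset.induction_on_max with
  | empty => simp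
  | insert m S hm ih =>
    have hmS : m ∉ S := fun h' => lt_irrefl m (hm m h')
    have ih' := ih fun n hn => h n (Finset.mem_insert_of_mem hn)
    have hcard : S.card + 2 ≤ m := by
      have h1 : S ⊆ Finset.Ico 2 m := fun n hn =>
        Finset.mem_Ico.mpr ⟨h n (Finset.mem_insert_of_mem hn), hm n hn⟩
      have h2 := Finset.card_le_card h1
      rw [Nat.card_Ico] at h2
      have h3 := h m (Finset.mem_insert_self m S)
      omega
    have hcard' : (S.card : ℝ) + 2 ≤ m := by exact_mod_cast hcard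
    have hS0 : (0 : ℝ) ≤ S.card := Nat.cast_nonneg _
    rw [Finset.prod_insert hmS, Finset.card_insert_of_notMem hmS]
    push_cast
    have h1 : 1 - 1 / ((S.card : ℝ) + 2) ≤ 1 - 1 / (m : ℝ) := by
      have := one_div_le_one_div_of_le (by linarith : (0 : ℝ) < (S.card : ℝ) + 2) hcard'
      linarith
    have h0 : (0 : ℝ) ≤ 1 - 1 / ((S.card : ℝ) + 2) := by
      rw [sub_nonneg, div_le_one (by linarith)]
      linarith
    calc 1 / ((S.card : ℝ) + 1 + 1)
        = (1 - 1 / ((S.card : ℝ) + 2)) * (1 / ((S.card : ℝ) + 1)) := by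
          field_simp
          ring
      _ ≤ (1 - 1 / (m : ℝ)) * ∏ n ∈ S, (1 - 1 / (n : ℝ)) :=
          mul_le_mul h1 ih' (by positivity) (h0.trans h1)

lemma two_pow_card_primeFactors_le {q : ℕ} (hq : q ≠ 0) : 2 ^ q.primeFactors.card ≤ q := by
  calc 2 ^ q.primeFactors.card = ∏ _p ∈ q.primeFactors, 2 := by rw [Finset.prod_const]
    _ ≤ ∏ p ∈ q.primeFactors, p :=
        Finset.prod_le_prod' fun p hp => (Nat.prime_of_mem_primeFactors hp).two_le
    _ ≤ q := Nat.le_of_dvd (Nat.pos_of_ne_zero hq) (Nat.prod_primeFactors_dvd q)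

/-- The Euler factors at the primes dividing `q`: `∏ |1 - χ(p)/p| ≥ (1/2) (1 + log q)⁻¹`. -/
lemma norm_prod_euler_ge {f q : ℕ} (χ : DirichletCharacter ℂ f) (hq : q ≠ 0) :
    1 / (2 * (1 + Real.log q)) ≤
      ‖∏ p ∈ q.primeFactors, ((1 : ℂ) - χ p * (p : ℂ) ^ (-(1 : ℂ)))‖ := by
  have hq1 : (1 : ℝ) ≤ q := by exact_mod_cast Nat.one_le_iff_ne_zero.mpr hq
  have hlog : 0 ≤ Real.log q := Real.log_nonneg hq1
  have h1 : ((q.primeFactors.card : ℝ) + 1) ≤ 2 * (1 + Real.log q) := by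
    have h2 : ((2 : ℝ) ^ q.primeFactors.card) ≤ q := by
      exact_mod_cast two_pow_card_primeFactors_le hq
    have h3 := Real.log_le_log (by positivity) h2
    rw [Real.log_pow] at h3
    have h4 : (1 : ℝ) / 2 ≤ Real.log 2 := by
      have := Real.log_two_gt_d9
      linarith
    have h5 : (q.primeFactors.card : ℝ) * (1 / 2) ≤ q.primeFactors.card * Real.log 2 :=
      mul_le_mul_of_nonneg_left h4 (Nat.cast_nonneg _)
    linarith
  calc 1 / (2 * (1 + Real.log q)) ≤ 1 / ((q.primeFactors.card : ℝ) + 1) :=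
        one_div_le_one_div_of_le (by positivity) h1
    _ ≤ ∏ p ∈ q.primeFactors, (1 - 1 / (p : ℝ)) :=
        prod_one_sub_inv_ge _ fun p hp => (Nat.prime_of_mem_primeFactors hp).two_le
    _ ≤ ∏ p ∈ q.primeFactors, ‖(1 : ℂ) - χ p * (p : ℂ) ^ (-(1 : ℂ))‖ := by
        refine Finset.prod_le_prod (fun p hp => ?_) fun p hp => ?_
        · have h2 : (1 : ℝ) ≤ p := by
            exact_mod_cast (Nat.prime_of_mem_primeFactors hp).one_lt.le
          rw [sub_nonneg, div_le_one (by linarith)]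
          exact h2
        · have h2 := norm_euler_term_le χ (Nat.prime_of_mem_primeFactors hp) 1
          rw [Complex.ofReal_one, Real.rpow_neg_one] at h2
          have h3 : ‖(1 : ℂ)‖ - ‖χ p * (p : ℂ) ^ (-(1 : ℂ))‖ ≤
              ‖(1 : ℂ) - χ p * (p : ℂ) ^ (-(1 : ℂ))‖ := norm_sub_norm_le _ _
          rw [norm_one] at h3
          rw [one_div]
          linarith
    _ = _ := (norm_prod _ _).symm

/-- **`|L(1, χ)| ≥ c(ε) q^(-ε)` for every character `χ ≠ 1` modulo `q`, primitive or not.** -/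
theorem norm_lower_all {ε : ℝ} (hε : 0 < ε) : ∃ c : ℝ, 0 < c ∧ ∀ (q : ℕ) [NeZero q]
    (χ : DirichletCharacter ℂ q), χ ≠ 1 → c * (q : ℝ) ^ (-ε) ≤ ‖χ.LFunction 1‖ := by
  obtain ⟨c, hc, h⟩ := norm_lower (half_pos hε)
  refine ⟨c / (2 * (1 + 1 / (ε / 2))), by positivity, fun q _ χ hχ => ?_⟩
  have hq1 : (1 : ℝ) ≤ q := by exact_mod_cast Nat.one_le_iff_ne_zero.mpr (NeZero.ne q)
  have hf1 : (1 : ℝ) ≤ χ.conductor := by
    exact_mod_cast Nat.one_le_iff_ne_zero.mpr (NeZero.ne χ.conductor)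
  have h1 := h _ _ χ.primitiveCharacter_isPrimitive (primitive_ne_one hχ)
  have h2 := norm_prod_euler_ge χ.primitiveCharacter (NeZero.ne q)
  have h3 : (q : ℝ) ^ (-(ε / 2)) ≤ (χ.conductor : ℝ) ^ (-(ε / 2)) :=
    Real.rpow_le_rpow_of_nonpos (by linarith) (conductor_le χ) (by linarith)
  have hlog : 0 ≤ Real.log q := Real.log_nonneg hq1
  have hqp : 0 < (q : ℝ) ^ (ε / 2) := Real.rpow_pos_of_pos (by linarith) _
  have hqn : 0 < (q : ℝ) ^ (-(ε / 2)) := Real.rpow_pos_of_pos (by linarith) _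
  have h4 : 1 / (2 * ((1 + 1 / (ε / 2)) * (q : ℝ) ^ (ε / 2))) ≤ 1 / (2 * (1 + Real.log q)) :=
    one_div_le_one_div_of_le (by positivity)
      (mul_le_mul_of_nonneg_left (one_add_log_le (half_pos hε) hq1) (by norm_num))
  rw [LFunction_eq_primitive hχ, norm_mul]
  calc c / (2 * (1 + 1 / (ε / 2))) * (q : ℝ) ^ (-ε)
      = (c * (q : ℝ) ^ (-(ε / 2))) * (1 / (2 * ((1 + 1 / (ε / 2)) * (q : ℝ) ^ (ε / 2)))) := by
        have h5 : (q : ℝ) ^ (-ε) = (q : ℝ) ^ (-(ε / 2)) * ((q : ℝ) ^ (ε / 2))⁻¹ := by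
          rw [← Real.rpow_neg (by linarith), ← Real.rpow_add (by linarith)]
          congr 1
          ring
        rw [h5]
        field_simp
    _ ≤ _ := mul_le_mul ((mul_le_mul_of_nonneg_left h3 hc.le).trans h1) (h4.trans h2)
        (by positivity) (norm_nonneg _)

/-- **Siegel's theorem for all real characters `χ ≠ 1` modulo `q`, primitive or not.** -/
theorem siegel_all {ε : ℝ} (hε : 0 < ε) : ∃ c : ℝ, 0 < c ∧ ∀ (q : ℕ) [NeZero q]
    (χ : DirichletCharacter ℂ q), χ ≠ 1 → χ ^ 2 = 1 →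
      c * (q : ℝ) ^ (-ε) ≤ (χ.LFunction 1).re := by
  obtain ⟨c, hc, h⟩ := norm_lower_all hε
  refine ⟨c, hc, fun q _ χ hχ hsq => ?_⟩
  have h1 := h q χ hχ
  rwa [LFunction_one_ofReal hχ hsq, Complex.norm_real, Real.norm_eq_abs,
    abs_of_pos (LFunction_one_re_pos hχ hsq)] at h1

end Fermat.Agent.Cor.SiegelL
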