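import Fermat.Agent.Corollaries.SiegelL.Perron

/-!
# The Riemann zeta function near the line `Re s = 1`

Upper and lower bounds `c (|t| + 2)^(-ε) ≤ |ζ(σ + it)| ≤ C (|t| + 2)^ε` for
`1 - c (|t| + 2)^(-ε) ≤ σ ≤ 2`, `|t| ≥ 1`; bounds for all derivatives of
`(-ζ'/ζ(s) - ζ(s)) / (s (s + 1))` on `1 < σ ≤ 5/4` (`norm_iteratedDeriv_GZ_le`).
-/

set_option autoImplicit false

namespace Fermat.Agent.Cor.SiegelL

open Complex Set

/-- The constant of the upper bound for `ζ`. -/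
noncomputable def CZ (a : ℝ) : ℝ := 2 * (5 + 2 / a)

/-- The constant of the bound for `ζ'`. -/
noncomputable def DZ (a : ℝ) : ℝ := 8 * CZ a / a

lemma one_le_CZ {a : ℝ} (ha0 : 0 < a) : 1 ≤ CZ a := by
  rw [CZ]
  have : 0 < 2 / a := by positivity
  linarith

lemma one_le_DZ {a : ℝ} (ha0 : 0 < a) (ha : a ≤ 1) : 1 ≤ DZ a := by
  rw [DZ, le_div_iff₀ ha0]
  have := one_le_CZ ha0
  linarith

theorem norm_riemannZeta_le_QQ {a : ℝ} (ha0 : 0 < a) (ha : a ≤ 1) {s : ℂ}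
    (hs : 1 - a / 2 ≤ s.re) (hs2 : s.re ≤ 2) (him : 1 / 2 ≤ |s.im|) :
    ‖riemannZeta s‖ ≤ CZ a * QQ 1 s.im ^ a := by
  have hQeq : QQ 1 s.im = |s.im| + 2 := by simp [QQ]
  have hQ2 := two_le_QQ (q := 1) s.im
  have hs1 : s ≠ 1 := by
    rintro rfl
    norm_num at him
  have hs0 : 1 / 2 ≤ s.re := by linarith
  set N : ℕ := ⌈QQ 1 s.im⌉₊ with hN
  have hNQ : QQ 1 s.im ≤ N := Nat.le_ceil _
  have hN2 : (N : ℝ) ≤ 2 * QQ 1 s.im := by
    have := Nat.ceil_lt_add_one (by linarith : 0 ≤ QQ 1 s.im)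
    linarith
  have hN1' : (1 : ℝ) ≤ N := by linarith
  have hN1 : 1 ≤ N := by exact_mod_cast hN1'
  have hN0 : (0 : ℝ) < N := by linarith
  set R : ℝ := (N : ℝ) ^ (a / 2) with hR
  have hR1 : 1 ≤ R := Real.one_le_rpow hN1' (by positivity)
  have hpow : (N : ℝ) ^ (1 - s.re) ≤ R := Real.rpow_le_rpow_of_exponent_le hN1' (by linarith)
  rw [riemannZeta_eq_sum (by linarith) hs1 hN1]
  have b1 : ‖∑ k ∈ Finset.Icc 1 N, (k : ℂ) ^ (-s)‖ ≤ R * (1 + Real.log N) := by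
    calc ‖∑ k ∈ Finset.Icc 1 N, (k : ℂ) ^ (-s)‖ ≤ ∑ k ∈ Finset.Icc 1 N, (k : ℝ) ^ (-s.re) := by
          refine (norm_sum_le _ _).trans (Finset.sum_le_sum fun k hk => ?_)
          rw [norm_natCast_cpow' (Finset.mem_Icc.mp hk).1]
      _ ≤ _ := sum_rpow_le (by positivity) (by linarith)
  have b2 : ‖(N : ℂ) ^ (1 - s) / (s - 1)‖ ≤ 2 * R := by
    rw [norm_div, div_le_iff₀ (norm_pos_iff.mpr (sub_ne_zero.mpr hs1)),
      Complex.norm_natCast_cpow_of_pos hN1]
    have h2 : 1 / 2 ≤ ‖s - 1‖ := by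
      have := Complex.abs_im_le_norm (s - 1)
      simp only [Complex.sub_im, Complex.one_im, sub_zero] at this
      linarith
    have h3 : (N : ℝ) ^ (1 - s).re ≤ R := by simpa using hpow
    nlinarith
  have b3 : ‖s * ∫ t in Ioi (N : ℝ), ((Int.fract t : ℝ) : ℂ) * (t : ℂ) ^ (-(s + 1))‖ ≤ 2 * R := by
    have h1 := norm_tail_le (g := fun t => ((Int.fract t : ℝ) : ℂ)) (B := 1) (fun t => by
      rw [Complex.norm_real, Real.norm_eq_abs, abs_of_nonneg (Int.fract_nonneg t)]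
      exact (Int.fract_lt_one t).le) (by linarith : 0 < s.re) hN1
    have h2 : ‖s‖ ≤ N := by
      have := Complex.norm_le_abs_re_add_abs_im s
      rw [abs_of_nonneg (by linarith : 0 ≤ s.re)] at this
      linarith
    rw [norm_mul]
    have h3 : (N : ℝ) * (N : ℝ) ^ (-s.re) = (N : ℝ) ^ (1 - s.re) := by
      rw [sub_eq_add_neg, Real.rpow_add hN0, Real.rpow_one]
    have h4 : 0 ≤ (N : ℝ) ^ (-s.re) := Real.rpow_nonneg hN0.le _
    calc ‖s‖ * ‖∫ t in Ioi (N : ℝ), ((Int.fract t : ℝ) : ℂ) * (t : ℂ) ^ (-(s + 1))‖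
        ≤ N * (1 * (N : ℝ) ^ (-s.re) / s.re) := mul_le_mul h2 h1 (norm_nonneg _) hN0.le
      _ = (N : ℝ) ^ (1 - s.re) / s.re := by rw [← h3]; ring
      _ ≤ R / (1 / 2) := div_le_div₀ (by linarith) hpow (by norm_num) hs0
      _ = 2 * R := by ring
  have hlog : Real.log N ≤ 2 / a * R := by
    have := Real.log_le_rpow_div hN0.le (half_pos ha0)
    rw [← hR] at this
    calc Real.log N ≤ R / (a / 2) := this
      _ = 2 / a * R := by field_simp
  have hlog0 : 0 ≤ Real.log N := Real.log_nonneg hN1'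
  have hNa : R * R = (N : ℝ) ^ a := by
    rw [hR, ← Real.rpow_add hN0]
    congr 1
    ring
  have h9 : (N : ℝ) ^ a ≤ 2 * QQ 1 s.im ^ a := by
    calc (N : ℝ) ^ a ≤ (2 * QQ 1 s.im) ^ a := Real.rpow_le_rpow hN0.le hN2 ha0.le
      _ = 2 ^ a * QQ 1 s.im ^ a := Real.mul_rpow (by norm_num) (by linarith)
      _ ≤ 2 * QQ 1 s.im ^ a := by
          refine mul_le_mul_of_nonneg_right ?_ (Real.rpow_nonneg (by linarith) _)
          calc (2 : ℝ) ^ a ≤ 2 ^ (1 : ℝ) := Real.rpow_le_rpow_of_exponent_le (by norm_num) ha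
            _ = 2 := Real.rpow_one 2
  have h10 : R ≤ R * R := le_mul_of_one_le_left (by linarith) hR1
  have h11 : R * Real.log N ≤ 2 / a * (R * R) := by
    calc R * Real.log N ≤ R * (2 / a * R) := mul_le_mul_of_nonneg_left hlog (by linarith)
      _ = _ := by ring
  calc ‖(∑ k ∈ Finset.Icc 1 N, (k : ℂ) ^ (-s)) + (N : ℂ) ^ (1 - s) / (s - 1) -
        s * ∫ t in Ioi (N : ℝ), ((Int.fract t : ℝ) : ℂ) * (t : ℂ) ^ (-(s + 1))‖
      ≤ R * (1 + Real.log N) + 2 * R + 2 * R :=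
        (norm_sub_le _ _).trans (add_le_add ((norm_add_le _ _).trans (add_le_add b1 b2)) b3)
    _ ≤ (5 + 2 / a) * (R * R) := by linarith
    _ = (5 + 2 / a) * (N : ℝ) ^ a := by rw [hNa]
    _ ≤ (5 + 2 / a) * (2 * QQ 1 s.im ^ a) := mul_le_mul_of_nonneg_left h9 (by positivity)
    _ = _ := by rw [CZ]; ring

lemma ne_one_of_im {s : ℂ} (h : 1 / 2 ≤ |s.im|) : s ≠ 1 := by
  rintro rfl
  norm_num at h

theorem norm_deriv_riemannZeta_le {a : ℝ} (ha0 : 0 < a) (ha : a ≤ 1) {s : ℂ}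
    (hs : 1 - a / 4 ≤ s.re) (hs2 : s.re ≤ 3 / 2) (him : 3 / 4 ≤ |s.im|) :
    ‖deriv riemannZeta s‖ ≤ DZ a * QQ 1 s.im ^ a := by
  have hball : ∀ w ∈ Metric.closedBall s (a / 4), 1 - a / 2 ≤ w.re ∧ w.re ≤ 2 ∧
      1 / 2 ≤ |w.im| ∧ |w.im| ≤ 2 * |s.im| + 2 := by
    intro w hw
    have h2 : ‖w - s‖ ≤ a / 4 := by rw [← dist_eq_norm]; exact hw
    have h3 := abs_le.mp ((Complex.abs_re_le_norm (w - s)).trans h2)
    have h4 := (Complex.abs_im_le_norm (w - s)).trans h2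
    rw [Complex.sub_re] at h3
    rw [Complex.sub_im] at h4
    have h5 := abs_sub_abs_le_abs_sub s.im w.im
    have h6 := abs_sub_abs_le_abs_sub w.im s.im
    rw [abs_sub_comm] at h5
    have h7 := abs_nonneg s.im
    exact ⟨by linarith [h3.1], by linarith [h3.2], by linarith, by linarith⟩
  have h1 : ∀ w ∈ Metric.sphere s (a / 4), ‖riemannZeta w‖ ≤ CZ a * (2 * QQ 1 s.im ^ a) := by
    intro w hw
    obtain ⟨d1, d2, d3, d4⟩ := hball w (Metric.sphere_subset_closedBall hw)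
    refine (norm_riemannZeta_le_QQ ha0 ha d1 d2 d3).trans ?_
    exact mul_le_mul_of_nonneg_left (QQ_rpow_le ha0 ha d4) (by linarith [one_le_CZ ha0])
  have hdc : DiffContOnCl ℂ riemannZeta (Metric.ball s (a / 4)) := by
    refine DifferentiableOn.diffContOnCl fun w hw => ?_
    rw [closure_ball s (by positivity)] at hw
    exact (differentiableAt_riemannZeta (ne_one_of_im (hball w hw).2.2.1)).differentiableWithinAt
  have h2 := Complex.norm_deriv_le_of_forall_mem_sphere_norm_le (by linarith : 0 < a / 4) hdc h1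
  refine h2.trans_eq ?_
  rw [DZ]
  field_simp
  ring

theorem norm_sub_riemannZeta_le {a : ℝ} (ha0 : 0 < a) (ha : a ≤ 1) {s w : ℂ}
    (hs : 1 - a / 4 ≤ s.re) (hs2 : s.re ≤ 3 / 2) (hw : 1 - a / 4 ≤ w.re) (hw2 : w.re ≤ 3 / 2)
    (him : w.im = s.im) (hsim : 3 / 4 ≤ |s.im|) :
    ‖riemannZeta w - riemannZeta s‖ ≤ DZ a * QQ 1 s.im ^ a * ‖w - s‖ :=
  (convex_horizontal (1 - a / 4) (3 / 2) s.im).norm_image_sub_le_of_norm_deriv_le
    (fun x hx => differentiableAt_riemannZeta (ne_one_of_im (by rw [hx.2.2]; linarith)))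
    (fun x hx => by
      have := norm_deriv_riemannZeta_le ha0 ha hx.1 hx.2.1 (by rw [hx.2.2]; exact hsim)
      rwa [hx.2.2] at this)
    ⟨hs, hs2, rfl⟩ ⟨hw, hw2, him⟩

/-- **`|ζ(1 + it)| ≥ c (|t| + 2)^(-ε)` for `|t| ≥ 3/4`.** -/
theorem zeta_lower_line {ε : ℝ} (hε : 0 < ε) : ∃ c : ℝ, 0 < c ∧ ∀ t : ℝ, 3 / 4 ≤ |t| →
    c * QQ 1 t ^ (-ε) ≤ ‖riemannZeta (1 + I * t)‖ := by
  set a : ℝ := min (ε / 4) 1 with ha
  have ha0 : 0 < a := lt_min (by positivity) one_pos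
  have ha1 : a ≤ 1 := min_le_right _ _
  have haε : 4 * a ≤ ε := by
    have := min_le_left (ε / 4) (1 : ℝ)
    linarith
  have hD := one_le_DZ ha0 ha1
  have hC := one_le_CZ ha0
  have hD0 : 0 < DZ a := by linarith
  have hC0 : 0 < CZ a := by linarith
  refine ⟨1 / (256 * DZ a ^ 3 * (2 * CZ a)), by positivity, fun t ht => ?_⟩
  have hQ2 := two_le_QQ (q := 1) t
  have hQ0 : 0 < QQ 1 t := by linarith
  have hQ1 : 1 ≤ QQ 1 t := by linarith
  have hT1 : 1 ≤ QQ 1 t ^ a := Real.one_le_rpow (by linarith) ha0.le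
  have key := lower_of_341 (f := fun x : ℝ => ‖riemannZeta (1 + x + I * t)‖) hD
    (by linarith : 1 ≤ 2 * CZ a) hT1
    (fun x => norm_nonneg _) (fun x hx0 hx1 => ?_) (fun x hx0 hx1 => ?_)
  · refine le_trans ?_ (key.trans_eq (by simp))
    refine mul_le_mul_of_nonneg_left ?_ (by positivity)
    rw [← Real.rpow_neg hQ0.le, ← Real.rpow_natCast, ← Real.rpow_mul hQ0.le]
    exact Real.rpow_le_rpow_of_exponent_le hQ1 (by push_cast; linarith)
  · have b0 := norm_trivChar_le (q := 1) hx0 (by linarith)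
    have hre : ((1 : ℂ) + x + 2 * I * t).re = 1 + x := by simp
    have him : ((1 : ℂ) + x + 2 * I * t).im = 2 * t := by simp
    have habs : |2 * t| = 2 * |t| := by rw [abs_mul, abs_two]
    have b2 : ‖riemannZeta (1 + x + 2 * I * t)‖ ≤ 2 * CZ a * QQ 1 t ^ a := by
      have i1 := norm_riemannZeta_le_QQ ha0 ha1 (s := 1 + x + 2 * I * t)
        (by rw [hre]; linarith) (by rw [hre]; linarith) (by rw [him, habs]; linarith)
      rw [him] at i1
      have i2 : QQ 1 (2 * t) ^ a ≤ 2 * QQ 1 t ^ a := QQ_rpow_le ha0 ha1 (by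
        rw [habs]
        linarith)
      calc ‖riemannZeta (1 + x + 2 * I * t)‖ ≤ CZ a * QQ 1 (2 * t) ^ a := i1
        _ ≤ CZ a * (2 * QQ 1 t ^ a) := mul_le_mul_of_nonneg_left i2 hC0.le
        _ = _ := by ring
    have h341 := (1 : DirichletCharacter ℂ 1).norm_LFunction_product_ge_one hx0 t
    rw [norm_mul, norm_mul, norm_pow, norm_pow] at h341
    simp only [DirichletCharacter.LFunction_modOne_eq] at h341 b0
    refine h341.le.trans ?_
    gcongr
  · have hre : ((1 : ℂ) + x + I * t).re = 1 + x := by simp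
    have him : ((1 : ℂ) + x + I * t).im = t := by simp
    have hre0 : ((1 : ℂ) + I * t).re = 1 := by simp
    have him0 : ((1 : ℂ) + I * t).im = t := by simp
    have h4 := norm_sub_riemannZeta_le ha0 ha1 (s := 1 + I * t) (w := 1 + x + I * t)
      (by rw [hre0]; linarith) (by rw [hre0]; norm_num) (by rw [hre]; linarith)
      (by rw [hre]; linarith) (by rw [him, him0]) (by rw [him0]; exact ht)
    rw [him0] at h4
    have h5 : ‖(1 : ℂ) + x + I * t - (1 + I * t)‖ = x := by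
      have : (1 : ℂ) + x + I * t - (1 + I * t) = x := by ring
      rw [this, Complex.norm_real, Real.norm_eq_abs, abs_of_pos hx0]
    rw [h5] at h4
    have h6 : ‖riemannZeta (1 + x + I * t)‖ ≤
        ‖riemannZeta (1 + x + I * t) - riemannZeta (1 + I * t)‖ + ‖riemannZeta (1 + I * t)‖ := by
      simpa using norm_add_le (riemannZeta (1 + x + I * t) - riemannZeta (1 + I * t))
        (riemannZeta (1 + I * t))
    simp only [ofReal_zero, add_zero]
    linarith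

/-- **`|ζ(s)| ≥ c (|t| + 2)^(-ε)` for `1 - c (|t| + 2)^(-ε) ≤ σ ≤ 2`, `|t| ≥ 3/4`**; in
particular a zero-free region. -/
theorem zeta_lower_full {ε : ℝ} (hε : 0 < ε) : ∃ c : ℝ, 0 < c ∧ c ≤ 1 / 4 ∧ c ≤ ε / 8 ∧
    ∀ s : ℂ, 3 / 4 ≤ |s.im| → 1 - c * QQ 1 s.im ^ (-ε) ≤ s.re → s.re ≤ 2 →
      c * QQ 1 s.im ^ (-ε) ≤ ‖riemannZeta s‖ := by
  set b : ℝ := min (ε / 2) 1 with hb
  have hb0 : 0 < b := lt_min (by positivity) one_pos
  have hb1 : b ≤ 1 := min_le_right _ _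
  have hbε' : b ≤ ε / 2 := min_le_left _ _
  have hbε : 2 * b ≤ ε := by linarith
  obtain ⟨c₁, hc₁, h₁⟩ := zeta_lower_line hb0
  have hD := one_le_DZ hb0 hb1
  have hD0 : 0 < DZ b := by linarith
  set c : ℝ := min (min (b / 4) (c₁ / (2 * DZ b))) (c₁ / 2) with hc
  have i1 : c ≤ b / 4 := (min_le_left _ _).trans (min_le_left _ _)
  have i2 : c ≤ c₁ / (2 * DZ b) := (min_le_left _ _).trans (min_le_right _ _)
  have i3 : c ≤ c₁ / 2 := min_le_right _ _
  have hc0 : 0 < c := lt_min (lt_min (by positivity) (by positivity)) (by positivity)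
  refine ⟨c / 2, by positivity, by linarith, by linarith, fun s hsim hs hs2 => ?_⟩
  have hQ2 := two_le_QQ (q := 1) s.im
  have hQ0 : 0 < QQ 1 s.im := by linarith
  have hQ1 : 1 ≤ QQ 1 s.im := by linarith
  have hQε : 0 < QQ 1 s.im ^ (-ε) := Real.rpow_pos_of_pos hQ0 _
  have hQε1 : QQ 1 s.im ^ (-ε) ≤ 1 := Real.rpow_le_one_of_one_le_of_nonpos hQ1 (by linarith)
  have hcQ : 0 < c * QQ 1 s.im ^ (-ε) := by positivity
  rcases le_total (s.re) (1 + c * QQ 1 s.im ^ (-ε)) with hr | hr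
  · have habs : |1 - s.re| ≤ c * QQ 1 s.im ^ (-ε) := abs_le.mpr ⟨by linarith, by linarith⟩
    have hre : |1 - s.re| ≤ b / 4 := by
      have : c * QQ 1 s.im ^ (-ε) ≤ b / 4 * 1 := mul_le_mul i1 hQε1 hQε.le (by positivity)
      linarith
    have hre' := abs_le.mp hre
    have hs' : 1 + I * s.im = s + ((1 - s.re : ℝ) : ℂ) := by
      apply Complex.ext <;> simp
    have h2 := norm_sub_riemannZeta_le hb0 hb1 (s := s) (w := 1 + I * s.im)
      (by linarith [hre'.2]) (by linarith [hre'.1]) (by simp; linarith) (by simp; norm_num)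
      (by simp) hsim
    have h3 : ‖1 + I * s.im - s‖ = |1 - s.re| := by
      rw [hs', add_sub_cancel_left, Complex.norm_real, Real.norm_eq_abs]
    rw [h3] at h2
    have h4 := h₁ s.im hsim
    have h5 : ‖riemannZeta (1 + I * s.im)‖ ≤
        ‖riemannZeta (1 + I * s.im) - riemannZeta s‖ + ‖riemannZeta s‖ := by
      simpa using norm_add_le (riemannZeta (1 + I * s.im) - riemannZeta s) (riemannZeta s)
    have h6 : DZ b * QQ 1 s.im ^ b * |1 - s.re| ≤ c₁ / 2 * QQ 1 s.im ^ (-b) := by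
      have j1 : |1 - s.re| ≤ c₁ / (2 * DZ b) * QQ 1 s.im ^ (-(2 * b)) :=
        habs.trans (mul_le_mul i2 (Real.rpow_le_rpow_of_exponent_le hQ1 (by linarith)) hQε.le
          (by positivity))
      have j3 : QQ 1 s.im ^ b * QQ 1 s.im ^ (-(2 * b)) = QQ 1 s.im ^ (-b) := by
        rw [← Real.rpow_add hQ0]
        congr 1
        ring
      calc DZ b * QQ 1 s.im ^ b * |1 - s.re|
          ≤ DZ b * QQ 1 s.im ^ b * (c₁ / (2 * DZ b) * QQ 1 s.im ^ (-(2 * b))) :=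
            mul_le_mul_of_nonneg_left j1 (mul_nonneg hD0.le (Real.rpow_nonneg hQ0.le _))
        _ = c₁ / 2 * (QQ 1 s.im ^ b * QQ 1 s.im ^ (-(2 * b))) := by
            field_simp
        _ = _ := by rw [j3]
    have h7 : c * QQ 1 s.im ^ (-ε) ≤ c₁ / 2 * QQ 1 s.im ^ (-b) :=
      mul_le_mul i3 (Real.rpow_le_rpow_of_exponent_le hQ1 (by linarith)) hQε.le (by positivity)
    linarith
  · have h8 := norm_lower_right (1 : DirichletCharacter ℂ 1) (s := s) (by linarith)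
    rw [DirichletCharacter.LFunction_modOne_eq] at h8
    refine le_trans ?_ h8
    rw [le_div_iff₀ (by linarith)]
    nlinarith

/-! ### The function `(-ζ'/ζ(s) - ζ(s)) / (s (s + 1))` -/

/-- The function `(-ζ'/ζ(s) - ζ(s)) / (s (s + 1))`, which is analytic at `s = 1`. -/
noncomputable def GZ (s : ℂ) : ℂ :=
  (-deriv riemannZeta₁ s / riemannZeta₁ s - riemannZeta₀ s) * (1 / (s * (s + 1)))

lemma riemannZeta₁_eq {s : ℂ} (hs : s ≠ 1) : riemannZeta₁ s = (s - 1) * riemannZeta s := by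
  rw [riemannZeta_eq_inv_sub_mul hs, mul_inv_cancel_left₀ (sub_ne_zero.mpr hs)]

lemma riemannZeta₀_eq {s : ℂ} (hs : s ≠ 1) : riemannZeta₀ s = riemannZeta s - (s - 1)⁻¹ := by
  rw [riemannZeta_eq_inv_sub_add hs]
  ring

lemma GZ_eq {s : ℂ} (hs : s ≠ 1) (h : riemannZeta s ≠ 0) :
    GZ s = (-deriv riemannZeta s / riemannZeta s - riemannZeta s) * (1 / (s * (s + 1))) := by
  have h1 : deriv riemannZeta₁ s = riemannZeta s + (s - 1) * deriv riemannZeta s := by
    have h2 : riemannZeta₁ =ᶠ[nhds s] fun z => (z - 1) * riemannZeta z := by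
      filter_upwards [isOpen_ne.mem_nhds hs] with z hz
      exact riemannZeta₁_eq hz
    rw [h2.deriv_eq, deriv_fun_mul (by fun_prop) (differentiableAt_riemannZeta hs)]
    simp
  have h3 : s - 1 ≠ 0 := sub_ne_zero.mpr hs
  rw [GZ, h1, riemannZeta₁_eq hs, riemannZeta₀_eq hs]
  congr 1
  field_simp
  ring

lemma riemannZeta₁_ne_zero {s : ℂ} (hs : 1 ≤ s.re) : riemannZeta₁ s ≠ 0 := by
  rcases eq_or_ne s 1 with rfl | h
  · rw [riemannZeta₁_one]
    exact one_ne_zero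
  · rw [riemannZeta₁_eq h]
    exact mul_ne_zero (sub_ne_zero.mpr h) (riemannZeta_ne_zero_of_one_le_re hs)

lemma differentiableAt_GZ {s : ℂ} (h : riemannZeta₁ s ≠ 0) (hs : 0 < s.re) :
    DifferentiableAt ℂ GZ s := by
  have h1 : DifferentiableAt ℂ (deriv riemannZeta₁) s :=
    (differentiable_riemannZeta₁.analyticAt s).deriv.differentiableAt
  have h2 : s ≠ 0 := by
    rintro rfl
    simp at hs
  have h3 : s + 1 ≠ 0 := by
    intro h3
    have := congrArg Complex.re h3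
    simp at this
    linarith
  exact (((h1.neg.div (differentiable_riemannZeta₁ s) h)).sub (differentiable_riemannZeta₀ s)).mul
    ((differentiableAt_const _).div
      (differentiableAt_id.mul (differentiableAt_id.add_const 1)) (mul_ne_zero h2 h3))

lemma analyticAt_GZ {s : ℂ} (hs : 1 ≤ s.re) : AnalyticAt ℂ GZ s := by
  have hU : IsOpen {z : ℂ | riemannZeta₁ z ≠ 0 ∧ 0 < z.re} :=
    (isOpen_ne_fun differentiable_riemannZeta₁.continuous continuous_const).inter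
      (isOpen_lt continuous_const Complex.continuous_re)
  have hd : DifferentiableOn ℂ GZ {z : ℂ | riemannZeta₁ z ≠ 0 ∧ 0 < z.re} := fun z hz =>
    (differentiableAt_GZ hz.1 hz.2).differentiableWithinAt
  exact hd.analyticAt (hU.mem_nhds ⟨riemannZeta₁_ne_zero hs, by linarith⟩)

lemma exists_bound_GZ (j : ℕ) : ∃ M : ℝ, 0 < M ∧ ∀ s : ℂ, 1 ≤ s.re → s.re ≤ 5 / 4 →
    |s.im| ≤ 5 / 4 → ‖iteratedDeriv j GZ s‖ ≤ M := by
  have hK : IsCompact (Icc (1 : ℝ) (5 / 4) ×ℂ Icc (-(5 / 4) : ℝ) (5 / 4)) :=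
    isCompact_Icc.reProdIm isCompact_Icc
  obtain ⟨M, hM⟩ := hK.exists_bound_of_continuousOn (f := iteratedDeriv j GZ) (fun z hz => by
    rw [Complex.mem_reProdIm] at hz
    rw [iteratedDeriv_eq_iterate]
    exact ((analyticAt_GZ hz.1.1).iterated_deriv j).continuousAt.continuousWithinAt)
  refine ⟨max M 1, by positivity, fun s h1 h2 h3 => (hM s ?_).trans (le_max_left _ _)⟩
  rw [Complex.mem_reProdIm]
  exact ⟨⟨h1, h2⟩, abs_le.mp h3⟩

/-- **The derivatives of `(-ζ'/ζ(s) - ζ(s)) / (s (s + 1))` for `1 < σ ≤ 5/4`.** -/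
theorem norm_iteratedDeriv_GZ_le {b : ℝ} (hb0 : 0 < b) (hb1 : b ≤ 1) : ∃ C : ℕ → ℝ,
    (∀ j, 0 < C j) ∧ ∀ (j : ℕ) (s : ℂ), 1 < s.re → s.re ≤ 5 / 4 →
      ‖iteratedDeriv j GZ s‖ ≤ C j * QQ 1 s.im ^ ((j + 2) * b) / (1 + s.im ^ 2) := by
  obtain ⟨c, hc0, hc1, hc2, h⟩ := zeta_lower_full hb0
  have hD := one_le_DZ hb0 hb1
  have hC := one_le_CZ hb0
  have hD0 : 0 < DZ b := by linarith
  have hC0 : 0 < CZ b := by linarith
  choose M hM0 hM using exists_bound_GZ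
  set E : ℝ := 4 * DZ b / c + 2 * CZ b with hE
  have hE0 : 0 < E := by positivity
  refine ⟨fun j => j.factorial * (4 * E) / (c / 4) ^ j + 3 * M j, fun j => by
    have := hM0 j
    positivity, fun j s hs hs2 => ?_⟩
  have hMj := hM0 j
  have hQ2 := two_le_QQ (q := 1) s.im
  have hQ0 : 0 < QQ 1 s.im := by linarith
  have hQ1 : 1 ≤ QQ 1 s.im := by linarith
  have hQj : 1 ≤ QQ 1 s.im ^ (((j : ℝ) + 2) * b) := Real.one_le_rpow hQ1 (by positivity)
  rcases le_total |s.im| (5 / 4) with him | him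
  · refine (hM j s hs.le hs2 him).trans ?_
    have h1 : 1 + s.im ^ 2 ≤ 3 := by
      have := abs_le.mp him
      nlinarith
    have h2 : 0 < 1 + s.im ^ 2 := by positivity
    rw [le_div_iff₀ h2]
    have h3 : 0 ≤ (j.factorial : ℝ) * (4 * E) / (c / 4) ^ j := by positivity
    calc M j * (1 + s.im ^ 2) ≤ M j * 3 := mul_le_mul_of_nonneg_left h1 hMj.le
      _ ≤ (j.factorial * (4 * E) / (c / 4) ^ j + 3 * M j) * 1 := by linarith
      _ ≤ _ := mul_le_mul_of_nonneg_left hQj (by positivity)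
  set P : ℝ := QQ 1 s.im ^ (-b) with hP
  have hP0 : 0 < P := Real.rpow_pos_of_pos hQ0 _
  have hP1 : P ≤ 1 := Real.rpow_le_one_of_one_le_of_nonpos hQ1 (by linarith)
  set r : ℝ := c / 4 * P with hr
  have hr0 : 0 < r := by positivity
  have hrc : r ≤ c / 4 := by
    calc r ≤ c / 4 * 1 := mul_le_mul_of_nonneg_left hP1 (by positivity)
      _ = c / 4 := mul_one _
  -- points of the disc
  have hdisc : ∀ w ∈ Metric.closedBall s r, 1 - c / 2 * P / 2 ≤ w.re ∧ 1 - b / 4 ≤ w.re ∧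
      w.re ≤ 3 / 2 ∧ |w.im| ≤ 2 * |s.im| + 2 ∧ 3 / 4 ≤ |w.im| := by
    intro w hw
    have h2 : ‖w - s‖ ≤ r := by rw [← dist_eq_norm]; exact hw
    have h3 := abs_le.mp ((Complex.abs_re_le_norm (w - s)).trans h2)
    have h4 := (Complex.abs_im_le_norm (w - s)).trans h2
    rw [Complex.sub_re] at h3
    rw [Complex.sub_im] at h4
    have h5 := abs_sub_abs_le_abs_sub s.im w.im
    have h6 := abs_sub_abs_le_abs_sub w.im s.im
    rw [abs_sub_comm] at h5
    have h7 := abs_nonneg s.im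
    refine ⟨?_, by linarith [h3.1], by linarith [h3.2], by linarith, by linarith⟩
    have : r = c / 2 * P / 2 := by rw [hr]; ring
    linarith [h3.1]
  have hlow : ∀ w ∈ Metric.closedBall s r, c / 2 * P ≤ ‖riemannZeta w‖ := by
    intro w hw
    obtain ⟨d1, d2, d3, d4, d5⟩ := hdisc w hw
    have hQw2 := two_le_QQ (q := 1) w.im
    have hQw : P / 2 ≤ QQ 1 w.im ^ (-b) := by
      have i1 : QQ 1 w.im ^ b ≤ 2 * QQ 1 s.im ^ b := QQ_rpow_le hb0 hb1 d4
      have i2 : 0 < QQ 1 w.im ^ b := Real.rpow_pos_of_pos (by linarith) _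
      rw [hP, Real.rpow_neg hQ0.le, Real.rpow_neg (by linarith)]
      have i3 : (QQ 1 s.im ^ b)⁻¹ / 2 = (2 * QQ 1 s.im ^ b)⁻¹ := by
        rw [mul_inv]
        ring
      rw [i3]
      exact inv_anti₀ i2 i1
    have i4 : c * (P / 2) ≤ c * QQ 1 w.im ^ (-b) := mul_le_mul_of_nonneg_left hQw hc0.le
    have i5 := h w d5 (by nlinarith) (by linarith)
    linarith
  have hre0 : ∀ w ∈ Metric.closedBall s r, 0 < w.re := by
    intro w hw
    obtain ⟨d1, d2, d3, d4, d5⟩ := hdisc w hw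
    linarith
  have hne1 : ∀ w ∈ Metric.closedBall s r, w ≠ 1 := by
    intro w hw
    obtain ⟨d1, d2, d3, d4, d5⟩ := hdisc w hw
    exact ne_one_of_im (by linarith)
  have hne : ∀ w ∈ Metric.closedBall s r, riemannZeta w ≠ 0 := by
    intro w hw
    exact norm_pos_iff.mp (lt_of_lt_of_le (by positivity) (hlow w hw))
  have hdc : DiffContOnCl ℂ GZ (Metric.ball s r) := by
    refine DifferentiableOn.diffContOnCl fun w hw => ?_
    rw [closure_ball s hr0.ne'] at hw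
    refine (differentiableAt_GZ ?_ (hre0 w hw)).differentiableWithinAt
    rw [riemannZeta₁_eq (hne1 w hw)]
    exact mul_ne_zero (sub_ne_zero.mpr (hne1 w hw)) (hne w hw)
  have hs0 : 1 + s.im ^ 2 ≤ ‖s‖ ^ 2 := by
    rw [← Complex.normSq_eq_norm_sq, Complex.normSq_apply]
    nlinarith
  have hs1 : 1 ≤ ‖s‖ := by
    have := Complex.re_le_norm s
    linarith
  have hb : ∀ w ∈ Metric.sphere s r,
      ‖GZ w‖ ≤ 4 * E * QQ 1 s.im ^ (2 * b) / (1 + s.im ^ 2) := by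
    intro w hw'
    have hw : w ∈ Metric.closedBall s r := Metric.sphere_subset_closedBall hw'
    obtain ⟨d1, d2, d3, d4, d5⟩ := hdisc w hw
    have i1 : ‖deriv riemannZeta w‖ ≤ DZ b * (2 * QQ 1 s.im ^ b) :=
      (norm_deriv_riemannZeta_le hb0 hb1 d2 d3 d5).trans
        (mul_le_mul_of_nonneg_left (QQ_rpow_le hb0 hb1 d4) hD0.le)
    have i1' : ‖riemannZeta w‖ ≤ CZ b * (2 * QQ 1 s.im ^ b) :=
      (norm_riemannZeta_le_QQ hb0 hb1 (by linarith) (by linarith) (by linarith)).trans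
        (mul_le_mul_of_nonneg_left (QQ_rpow_le hb0 hb1 d4) hC0.le)
    have i2 := hlow w hw
    have i3 : ‖s‖ / 2 ≤ ‖w‖ := by
      have j1 : ‖w - s‖ ≤ r := by rw [← dist_eq_norm]; exact hw
      have j2 : ‖s‖ ≤ ‖w‖ + ‖w - s‖ := by
        have := norm_sub_le w (w - s)
        rwa [sub_sub_cancel] at this
      linarith
    have i4 : ‖w‖ ≤ ‖w + 1‖ := by
      have j1 := hre0 w hw
      have j2 : ‖w‖ ^ 2 ≤ ‖w + 1‖ ^ 2 := by
        rw [← Complex.normSq_eq_norm_sq, ← Complex.normSq_eq_norm_sq, Complex.normSq_apply,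
          Complex.normSq_apply]
        simp only [Complex.add_re, Complex.one_re, Complex.add_im, Complex.one_im, add_zero]
        nlinarith
      exact (sq_le_sq₀ (norm_nonneg _) (norm_nonneg _)).mp j2
    have i5 : (1 + s.im ^ 2) / 4 ≤ ‖w * (w + 1)‖ := by
      rw [norm_mul]
      have j1 : ‖s‖ / 2 * (‖s‖ / 2) ≤ ‖w‖ * ‖w + 1‖ :=
        mul_le_mul i3 (i3.trans i4) (by positivity) (norm_nonneg _)
      nlinarith
    rw [GZ_eq (hne1 w hw) (hne w hw), norm_mul, norm_div (1 : ℂ), norm_one]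
    have i6 : ‖deriv riemannZeta w‖ / ‖riemannZeta w‖ ≤
        DZ b * (2 * QQ 1 s.im ^ b) / (c / 2 * P) :=
      div_le_div₀ (by positivity) i1 (by positivity) i2
    have i7 : 1 / ‖w * (w + 1)‖ ≤ 1 / ((1 + s.im ^ 2) / 4) :=
      one_div_le_one_div_of_le (by positivity) i5
    have i8 : DZ b * (2 * QQ 1 s.im ^ b) / (c / 2 * P) = 4 * DZ b / c * QQ 1 s.im ^ (2 * b) := by
      have j1 : QQ 1 s.im ^ (2 * b) = QQ 1 s.im ^ b / P := by
        rw [hP, ← Real.rpow_sub hQ0]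
        congr 1
        ring
      rw [j1]
      field_simp
      ring
    rw [i8] at i6
    have i9 : QQ 1 s.im ^ b ≤ QQ 1 s.im ^ (2 * b) :=
      Real.rpow_le_rpow_of_exponent_le hQ1 (by linarith)
    have i10 : ‖-deriv riemannZeta w / riemannZeta w - riemannZeta w‖ ≤
        E * QQ 1 s.im ^ (2 * b) := by
      refine (norm_sub_le _ _).trans ?_
      rw [norm_div, norm_neg]
      have j2 : CZ b * (2 * QQ 1 s.im ^ b) ≤ CZ b * (2 * QQ 1 s.im ^ (2 * b)) := by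
        gcongr
      calc ‖deriv riemannZeta w‖ / ‖riemannZeta w‖ + ‖riemannZeta w‖
          ≤ 4 * DZ b / c * QQ 1 s.im ^ (2 * b) + CZ b * (2 * QQ 1 s.im ^ (2 * b)) :=
            add_le_add i6 (i1'.trans j2)
        _ = _ := by rw [hE]; ring
    calc ‖-deriv riemannZeta w / riemannZeta w - riemannZeta w‖ * (1 / ‖w * (w + 1)‖)
        ≤ E * QQ 1 s.im ^ (2 * b) * (1 / ((1 + s.im ^ 2) / 4)) :=
          mul_le_mul i10 i7 (by positivity) (by positivity)
      _ = _ := by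
          field_simp
  have hfin := Complex.norm_iteratedDeriv_le_of_forall_mem_sphere_norm_le j hr0 hdc hb
  refine hfin.trans ?_
  have e1 : QQ 1 s.im ^ (((j : ℝ) + 2) * b) = QQ 1 s.im ^ (2 * b) / P ^ j := by
    rw [hP, ← Real.rpow_natCast (QQ 1 s.im ^ (-b)) j, ← Real.rpow_mul hQ0.le, ← Real.rpow_sub hQ0]
    congr 1
    ring
  have e2 : (j.factorial : ℝ) * (4 * E * QQ 1 s.im ^ (2 * b) / (1 + s.im ^ 2)) / r ^ j =
      j.factorial * (4 * E) / (c / 4) ^ j * QQ 1 s.im ^ (((j : ℝ) + 2) * b) / (1 + s.im ^ 2) := by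
    rw [e1, hr, mul_pow]
    field_simp
  rw [e2]
  have h2 : 0 < 1 + s.im ^ 2 := by positivity
  gcongr
  linarith

end Fermat.Agent.Cor.SiegelL
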